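/-
S37 (Eichler–Shimura congruence relation, packaged form `SpecializationExists`), brick E7-W:
the Prelude-level WIRING.

For a place `A` over `ℓ`, a Frobenius `σ₀` at `A` and `T = T_ℓ`, let `K0 ≤ J` be the
Hecke-submodule generated by
  * `τ • x - x`                      (`τ` in the inertia group of `A`, `x : J`),
  * `σ₀ • σ₀ • x - T • (σ₀ • x) + ℓ • x`   (`x : J`).
Then `J' := J ⧸ K0`, `sp := mk`, `F := (σ₀ • ·)` is a specialization datum as soon as `K0`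
contains no nonzero `p`-power torsion element.  No reduction map, no special fibre.
-/
import Mathlib
import Fermat.Prelude.Def_ModularCurve_HeckeModule

set_option autoImplicit false
set_option linter.unusedSectionVars false
set_option linter.style.haveILetI false

noncomputable section

namespace Fermat.Agent.S37.Wiring

open ModularCurve

variable {K L : Type*} [Field K] [Field L] [Algebra K L]
variable (J : Type*) [AddCommGroup J] [Module HeckeAlg J]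
  [DistribMulAction (L ≃ₐ[K] L) J] [SMulCommClass (L ≃ₐ[K] L) HeckeAlg J]

/-- The generators of the kernel: inertia coboundaries and Eichler–Shimura elements. -/
def gens (A : ValuationSubring L) (σ₀ : L ≃ₐ[K] L) (T : HeckeAlg) (ℓ : ℕ) : Set J :=
  {y | ∃ τ ∈ A.inertiaSubgroupIn K, ∃ x : J, y = τ • x - x} ∪
    {y | ∃ x : J, y = σ₀ • σ₀ • x - T • (σ₀ • x) + ℓ • x}

/-- The kernel of the specialization map: the Hecke-submodule generated by `gens`. -/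
def K0 (A : ValuationSubring L) (σ₀ : L ≃ₐ[K] L) (T : HeckeAlg) (ℓ : ℕ) : Submodule HeckeAlg J :=
  Submodule.span HeckeAlg (gens J A σ₀ T ℓ)

variable {J}

theorem inertia_sub_mem_K0 (A : ValuationSubring L) (σ₀ : L ≃ₐ[K] L) (T : HeckeAlg) (ℓ : ℕ)
    {τ : L ≃ₐ[K] L} (hτ : τ ∈ A.inertiaSubgroupIn K) (x : J) :
    τ • x - x ∈ K0 J A σ₀ T ℓ :=
  Submodule.subset_span (Or.inl ⟨τ, hτ, x, rfl⟩)

theorem es_mem_K0 (A : ValuationSubring L) (σ₀ : L ≃ₐ[K] L) (T : HeckeAlg) (ℓ : ℕ) (x : J) :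
    σ₀ • σ₀ • x - T • (σ₀ • x) + ℓ • x ∈ K0 J A σ₀ T ℓ :=
  Submodule.subset_span (Or.inr ⟨x, rfl⟩)

/-- `gens` is stable under the Hecke action, so `K0` is just the additive closure of `gens`. -/
theorem hecke_smul_mem_gens (A : ValuationSubring L) (σ₀ : L ≃ₐ[K] L) (T : HeckeAlg) (ℓ : ℕ)
    (t : HeckeAlg) {y : J} (hy : y ∈ gens J A σ₀ T ℓ) : t • y ∈ gens J A σ₀ T ℓ := by
  rcases hy with ⟨τ, hτ, x, rfl⟩ | ⟨x, rfl⟩
  · exact Or.inl ⟨τ, hτ, t • x, by rw [smul_sub, smul_comm τ t x]⟩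
  · refine Or.inr ⟨t • x, ?_⟩
    rw [smul_add, smul_sub, smul_comm σ₀ t x, smul_comm σ₀ t (σ₀ • x), smul_comm t T,
      smul_comm t ℓ x]

theorem hecke_smul_mem_closure (A : ValuationSubring L) (σ₀ : L ≃ₐ[K] L) (T : HeckeAlg) (ℓ : ℕ)
    (t : HeckeAlg) {y : J} (hy : y ∈ AddSubgroup.closure (gens J A σ₀ T ℓ)) :
    t • y ∈ AddSubgroup.closure (gens J A σ₀ T ℓ) := by
  induction hy using AddSubgroup.closure_induction with
  | mem z hz => exact AddSubgroup.subset_closure (hecke_smul_mem_gens A σ₀ T ℓ t hz)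
  | zero => rw [smul_zero]; exact AddSubgroup.zero_mem _
  | add z w _ _ hz hw => rw [smul_add]; exact AddSubgroup.add_mem _ hz hw
  | neg z _ hz => rw [smul_neg]; exact AddSubgroup.neg_mem _ hz

theorem K0_toAddSubgroup (A : ValuationSubring L) (σ₀ : L ≃ₐ[K] L) (T : HeckeAlg) (ℓ : ℕ) :
    (K0 J A σ₀ T ℓ).toAddSubgroup = AddSubgroup.closure (gens J A σ₀ T ℓ) := by
  apply le_antisymm
  · intro y hy
    rw [Submodule.mem_toAddSubgroup] at hy
    induction hy using Submodule.span_induction with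
    | mem y hy => exact AddSubgroup.subset_closure hy
    | zero => exact AddSubgroup.zero_mem _
    | add y z _ _ hy hz => exact AddSubgroup.add_mem _ hy hz
    | smul t y _ hy => exact hecke_smul_mem_closure A σ₀ T ℓ t hy
  · rw [AddSubgroup.closure_le]
    intro y hy
    exact Submodule.subset_span hy

theorem mem_K0_iff (A : ValuationSubring L) (σ₀ : L ≃ₐ[K] L) (T : HeckeAlg) (ℓ : ℕ) (y : J) :
    y ∈ K0 J A σ₀ T ℓ ↔ y ∈ AddSubgroup.closure (gens J A σ₀ T ℓ) := by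
  rw [← K0_toAddSubgroup, Submodule.mem_toAddSubgroup]

/-- Conjugating an inertia element by an element of the decomposition group. -/
theorem conj_mem_inertiaSubgroupIn (A : ValuationSubring L) {σ τ : L ≃ₐ[K] L}
    (hσ : σ ∈ A.decompositionSubgroup K) (hτ : τ ∈ A.inertiaSubgroupIn K) :
    σ * τ * σ⁻¹ ∈ A.inertiaSubgroupIn K := by
  obtain ⟨τ', hτ', rfl⟩ := hτ
  refine ⟨(⟨σ, hσ⟩ : A.decompositionSubgroup K) * τ' * (⟨σ, hσ⟩ : A.decompositionSubgroup K)⁻¹,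
    ?_, rfl⟩
  have hn : (A.inertiaSubgroup K).Normal := by
    unfold ValuationSubring.inertiaSubgroup
    infer_instance
  exact hn.conj_mem τ' hτ' _

/-- Two Frobenius elements at `A` differ by an element of inertia. -/
theorem inv_mul_mem_inertiaSubgroupIn (A : ValuationSubring L) {σ₀ σ : L ≃ₐ[K] L} {ℓ : ℕ}
    (h₀ : A.IsFrobeniusAt σ₀ ℓ) (h : A.IsFrobeniusAt σ ℓ) :
    σ₀⁻¹ * σ ∈ A.inertiaSubgroupIn K := by
  refine ⟨(⟨σ₀, h₀.mem_decompositionSubgroup⟩ : A.decompositionSubgroup K)⁻¹ *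
    ⟨σ, h.mem_decompositionSubgroup⟩, ?_, rfl⟩
  change MulSemiringAction.toRingAut (A.decompositionSubgroup K) (IsLocalRing.ResidueField A)
    ((⟨σ₀, h₀.mem_decompositionSubgroup⟩ : A.decompositionSubgroup K)⁻¹ *
      ⟨σ, h.mem_decompositionSubgroup⟩) = 1
  ext x
  change ((⟨σ₀, h₀.mem_decompositionSubgroup⟩ : A.decompositionSubgroup K)⁻¹ *
    ⟨σ, h.mem_decompositionSubgroup⟩) • x = x
  rw [mul_smul, h.smul_residue_eq, ← h₀.smul_residue_eq, inv_smul_smul]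

/-- `K0` is stable under the Frobenius `σ₀`. -/
theorem frob_smul_mem_K0 (A : ValuationSubring L) {σ₀ : L ≃ₐ[K] L} (T : HeckeAlg) {ℓ : ℕ}
    (h₀ : σ₀ ∈ A.decompositionSubgroup K) {y : J} (hy : y ∈ K0 J A σ₀ T ℓ) :
    σ₀ • y ∈ K0 J A σ₀ T ℓ := by
  induction hy using Submodule.span_induction with
  | mem y hy =>
    rcases hy with ⟨τ, hτ, x, rfl⟩ | ⟨x, rfl⟩
    · have e : σ₀ • (τ • x - x) = (σ₀ * τ * σ₀⁻¹) • (σ₀ • x) - σ₀ • x := by
        rw [smul_sub, mul_smul, mul_smul, inv_smul_smul]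
      rw [e]
      exact inertia_sub_mem_K0 A σ₀ T ℓ (conj_mem_inertiaSubgroupIn A h₀ hτ) _
    · have e : σ₀ • (σ₀ • σ₀ • x - T • (σ₀ • x) + ℓ • x) =
          σ₀ • σ₀ • (σ₀ • x) - T • (σ₀ • (σ₀ • x)) + ℓ • (σ₀ • x) := by
        rw [smul_add, smul_sub, smul_comm σ₀ T (σ₀ • x), smul_comm σ₀ ℓ x]
      rw [e]
      exact es_mem_K0 A σ₀ T ℓ _
  | zero => rw [smul_zero]; exact Submodule.zero_mem _
  | add y z _ _ hy hz => rw [smul_add]; exact Submodule.add_mem _ hy hz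
  | smul t y _ hy => rw [smul_comm σ₀ t y]; exact Submodule.smul_mem _ t hy

/-- The Frobenius endomorphism of `J ⧸ K0`. -/
def frobQ (A : ValuationSubring L) {σ₀ : L ≃ₐ[K] L} (T : HeckeAlg) (ℓ : ℕ)
    (h₀ : σ₀ ∈ A.decompositionSubgroup K) : (J ⧸ K0 J A σ₀ T ℓ) →ₗ[HeckeAlg] (J ⧸ K0 J A σ₀ T ℓ) :=
  (K0 J A σ₀ T ℓ).mapQ (K0 J A σ₀ T ℓ) (DistribSMul.toLinearMap HeckeAlg J σ₀)
    (fun _ hy => frob_smul_mem_K0 A T h₀ hy)

theorem frobQ_mk (A : ValuationSubring L) {σ₀ : L ≃ₐ[K] L} (T : HeckeAlg) (ℓ : ℕ)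
    (h₀ : σ₀ ∈ A.decompositionSubgroup K) (x : J) :
    frobQ A T ℓ h₀ (Submodule.Quotient.mk x) = Submodule.Quotient.mk (σ₀ • x) := rfl

/-- **Wiring, local form**: a specialization datum at `A` from a Frobenius `σ₀` at `A`, provided
`K0` contains no nonzero `p`-power torsion. -/
theorem exists_specialization (p : ℕ) (J : Type) [AddCommGroup J] [Module HeckeAlg J]
    [DistribMulAction (L ≃ₐ[K] L) J] [SMulCommClass (L ≃ₐ[K] L) HeckeAlg J]
    (A : ValuationSubring L) {ℓ : ℕ} (hℓ : ℓ.Prime) {σ₀ : L ≃ₐ[K] L}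
    (h₀ : A.IsFrobeniusAt σ₀ ℓ)
    (hinj : ∀ x ∈ K0 J A σ₀ (heckeGen ⟨ℓ, hℓ⟩) ℓ, (∃ n : ℕ, p ^ n • x = 0) → x = 0) :
    ∃ (J' : Type) (_ : AddCommGroup J') (_ : Module HeckeAlg J') (sp : J →+ J') (F : J' →+ J'),
      IsSpecialization (K := K) p J J' A ℓ sp F ∧ SpecialFibreRelation J' ℓ hℓ F := by
  set T : HeckeAlg := heckeGen ⟨ℓ, hℓ⟩ with hT
  have hd : σ₀ ∈ A.decompositionSubgroup K := h₀.mem_decompositionSubgroup
  refine ⟨J ⧸ K0 J A σ₀ T ℓ, inferInstance, inferInstance,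
    (K0 J A σ₀ T ℓ).mkQ.toAddMonoidHom, (frobQ A T ℓ hd).toAddMonoidHom, ⟨?_, ?_, ?_, ?_⟩, ?_⟩
  · intro t x
    rfl
  · intro σ hσ x
    change (Submodule.Quotient.mk (σ • x) : J ⧸ K0 J A σ₀ T ℓ) = Submodule.Quotient.mk x
    rw [Submodule.Quotient.eq]
    exact inertia_sub_mem_K0 A σ₀ T ℓ hσ x
  · intro σ hσ x
    change (Submodule.Quotient.mk (σ • x) : J ⧸ K0 J A σ₀ T ℓ) = Submodule.Quotient.mk (σ₀ • x)
    rw [Submodule.Quotient.eq]
    have e : σ • x - σ₀ • x = σ₀ • ((σ₀⁻¹ * σ) • x - x) := by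
      rw [smul_sub, mul_smul, smul_inv_smul]
    rw [e]
    exact frob_smul_mem_K0 A T hd
      (inertia_sub_mem_K0 A σ₀ T ℓ (inv_mul_mem_inertiaSubgroupIn A h₀ hσ) x)
  · intro x hx hsp
    refine hinj x ?_ hx
    exact (Submodule.Quotient.mk_eq_zero _).1 hsp
  · intro y
    obtain ⟨x, rfl⟩ := Submodule.Quotient.mk_surjective _ y
    change (Submodule.Quotient.mk (σ₀ • σ₀ • x) : J ⧸ K0 J A σ₀ T ℓ)
      - T • Submodule.Quotient.mk (σ₀ • x) + ℓ • Submodule.Quotient.mk x = 0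
    rw [← Submodule.Quotient.mk_smul, ← Submodule.Quotient.mk_smul, ← Submodule.Quotient.mk_sub,
      ← Submodule.Quotient.mk_add, Submodule.Quotient.mk_eq_zero]
    exact es_mem_K0 A σ₀ T ℓ x

/-- **Wiring, global form**: `SpecializationExists` from the existence of Frobenius elements and
the torsion-freeness of `K0` at every good place. -/
theorem specializationExists_of_inj (N p : ℕ) (J : Type) [AddCommGroup J] [Module HeckeAlg J]
    [DistribMulAction (L ≃ₐ[K] L) J] [SMulCommClass (L ≃ₐ[K] L) HeckeAlg J]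
    (hfrob : ∀ ℓ : ℕ, ℓ.Prime → ¬ ℓ ∣ N * p → ∀ A : ValuationSubring L, A.LiesOverPrime ℓ →
      ∃ σ : L ≃ₐ[K] L, A.IsFrobeniusAt σ ℓ)
    (hinj : ∀ (ℓ : ℕ) (hℓ : ℓ.Prime), ¬ ℓ ∣ N * p → ∀ A : ValuationSubring L,
      A.LiesOverPrime ℓ → ∀ σ₀ : L ≃ₐ[K] L, A.IsFrobeniusAt σ₀ ℓ →
        ∀ x ∈ K0 J A σ₀ (heckeGen ⟨ℓ, hℓ⟩) ℓ, (∃ n : ℕ, p ^ n • x = 0) → x = 0) :
    SpecializationExists (K := K) (L := L) N p J := by
  intro ℓ hℓ hℓNp A hA
  obtain ⟨σ₀, h₀⟩ := hfrob ℓ hℓ hℓNp A hA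
  exact exists_specialization p J A hℓ h₀ (hinj ℓ hℓ hℓNp A hA σ₀ h₀)

end Fermat.Agent.S37.Wiring
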