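/-
S37, brick E7-X: the KUMMER STEP.

`K0 ∩ J[p^∞] = 0` (the hypothesis of `S37/Wiring.lean`) follows from

* `RED N ℓ h A σ₀` : a function `f ≠ 0` of `Fb N` whose divisor lies in the subgroup `D0` of
  divisors generated by `τ D - D` (`τ` inertia) and `σ₀ σ₀ D - T_ℓ (σ₀ D) + ℓ D` is a constant
  times a quotient `U / W` of two integral `q`-series with the same nonzero reduction
  ("`f` reduces to a constant");
* `E4.K1 N ℓ A`     : the Kummer statement of Program E (exit of E1/E2/E3);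
* `HeckeInputsAlong`: the Prelude's Hecke operator is the genuine correspondence.

Everything here is bookkeeping on the Prelude's `Divisor` / `Pic0` / Galois / Hecke objects.
-/
import Fermat.Agent.S37.Wiring
import Fermat.Agent.S30.E4.Defs

set_option autoImplicit false
set_option linter.unusedSectionVars false
set_option linter.style.haveILetI false
set_option synthInstance.maxHeartbeats 400000
set_option maxHeartbeats 1000000

noncomputable section

namespace Fermat.Agent.S37.Kummer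

open ModularCurve AlgebraicCurve HahnSeries
open Fermat.Agent.S30

local notation "Qb" => AlgebraicClosure ℚ
local notation "Gq" => (AlgebraicClosure ℚ ≃ₐ[ℚ] AlgebraicClosure ℚ)

/-- The function field `ℚ̄(j(q^d) : d ∣ N)` inside `ℚ̄((q))`. -/
abbrev Fb (N : ℕ) : IntermediateField Qb (LaurentSeries Qb) := modularFunctionFieldBar N

/-- The Galois action on divisors of `Fb N`. -/
def gD (N : ℕ) (σ : Gq) (D : Divisor Qb (Fb N)) : Divisor Qb (Fb N) :=
  arithmeticGalois (modularFunctionFieldFull N) σ • D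

section Hecke

variable (N ℓ : ℕ) [NeZero N] [NeZero ℓ]

/-- The Hecke correspondence `α_* β^*` on divisors of `Fb N` (data taken from a proof of
`HeckeInputsAlong`). -/
def heckeDiv (h : HeckeInputsAlong Qb N ℓ) : Divisor Qb (Fb N) →+ Divisor Qb (Fb N) :=
  haveI := h.snd.snd.fst
  heckeDivBar h.fst h.snd.fst

/-- The generators, on the level of divisors. -/
def divGens (h : HeckeInputsAlong Qb N ℓ) (A : ValuationSubring Qb) (σ₀ : Gq) :
    Set (Divisor Qb (Fb N)) :=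
  {D | ∃ τ ∈ A.inertiaSubgroupIn ℚ, ∃ E : Divisor Qb (Fb N), D = gD N τ E - E} ∪
    {D | ∃ E : Divisor Qb (Fb N),
      D = gD N σ₀ (gD N σ₀ E) - heckeDiv N ℓ h (gD N σ₀ E) + ℓ • E}

/-- The subgroup `D0` of divisors generated by inertia coboundaries and Eichler–Shimura
divisors. -/
def D0 (h : HeckeInputsAlong Qb N ℓ) (A : ValuationSubring Qb) (σ₀ : Gq) :
    AddSubgroup (Divisor Qb (Fb N)) :=
  AddSubgroup.closure (divGens N ℓ h A σ₀)

/-- **(RED)**: a function whose divisor lies in `D0` reduces to a constant. -/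
def RED (h : HeckeInputsAlong Qb N ℓ) (A : ValuationSubring Qb) (σ₀ : Gq) : Prop :=
  ∀ f : Fb N, f ≠ 0 →
    (∃ D ∈ D0 N ℓ h A σ₀, ∀ P : Place Qb (Fb N), D P = P.ord f) →
    ∃ (c : Qb) (U W : LaurentSeries A) (hU : Congr.incl A U ∈ Fb N)
      (hW : Congr.incl A W ∈ Fb N),
      c ≠ 0 ∧ Congr.red A U = Congr.red A W ∧ Congr.red A U ≠ 0 ∧
        f * (⟨_, hW⟩ : Fb N) = algebraMap Qb (Fb N) c * (⟨_, hU⟩ : Fb N)

end Hecke

theorem ord_algebraMap_eq_zero {N : ℕ} (P : Place Qb (Fb N)) {a : Qb} (ha : a ≠ 0) :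
    P.ord (algebraMap Qb (Fb N) a) = 0 := by
  have h1 : algebraMap Qb (Fb N) a ∈ P.toValuationSubring := P.algebraMap_mem' a
  have h2 : algebraMap Qb (Fb N) a⁻¹ ∈ P.toValuationSubring := P.algebraMap_mem' a⁻¹
  have hu : IsUnit (⟨algebraMap Qb (Fb N) a, h1⟩ : P.toValuationSubring) := by
    refine IsUnit.of_mul_eq_one (⟨algebraMap Qb (Fb N) a⁻¹, h2⟩ : P.toValuationSubring) ?_
    apply Subtype.ext
    change algebraMap Qb (Fb N) a * algebraMap Qb (Fb N) a⁻¹ = 1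
    rw [← map_mul, mul_inv_cancel₀ ha, map_one]
  exact P.ord_coe_unit hu.unit

theorem ne_zero_of_red_ne_zero {N : ℕ} (A : ValuationSubring Qb) {P : LaurentSeries A}
    (hPm : Congr.incl A P ∈ Fb N) (hP : Congr.red A P ≠ 0) : (⟨_, hPm⟩ : Fb N) ≠ 0 := by
  intro h
  apply hP
  have h1 : Congr.incl A P = 0 := congrArg Subtype.val h
  have h2 : P = 0 := Congr.incl_injective A (by rw [h1, map_zero])
  rw [h2, map_zero]

theorem ord_pow {N : ℕ} (P : Place Qb (Fb N)) (f : Fb N) (m : ℕ) :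
    P.ord (f ^ m) = m * P.ord f := by
  have h := P.ord_zpow f (m : ℤ)
  rwa [zpow_natCast] at h

section Main

variable (N ℓ : ℕ) [NeZero N] [NeZero ℓ]

/-- Every element of the additive closure of `Wiring.gens` is the class of a degree-zero divisor
lying in `D0`. -/
theorem exists_rep (hℓ : ℓ.Prime) (hcomm : HeckeOperatorsCommuteBar N)
    (h : HeckeInputsAlong Qb N ℓ) (A : ValuationSubring Qb) (σ₀ : Gq) :
    letI := heckeModuleBar N
    ∀ (_ : SMulCommClass Gq HeckeAlg (JZero N)) (y : JZero N),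
      y ∈ AddSubgroup.closure (Wiring.gens (JZero N) A σ₀ (heckeGen ⟨ℓ, hℓ⟩) ℓ) →
      ∃ (D : Divisor Qb (Fb N)) (hD : D ∈ Divisor.degZero (K := Qb) (F := Fb N)),
        D ∈ D0 N ℓ h A σ₀ ∧ y = Pic0.mk ⟨D, hD⟩ := by
  letI := heckeModuleBar N
  intro _ y hy
  haveI := h.snd.snd.fst
  -- the Hecke operator on classes
  have hT : ∀ E : Divisor.degZero (K := Qb) (F := Fb N),
      (heckeGen ⟨ℓ, hℓ⟩ : HeckeAlg) • (Pic0.mk E : JZero N) =
        Pic0.mk ⟨heckeDiv N ℓ h (E : Divisor Qb (Fb N)),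
          Divisor.correspondence_mem_degZero _ _ _ _ h.snd.snd.snd.snd.1 E.2⟩ := by
    intro E
    rw [heckeModuleBar_heckeGen_smul hcomm, heckeOperatorBar_apply]
    have e : heckeOperatorAlong Qb N ℓ =
        heckePic0Bar h.fst h.snd.fst h.snd.snd.snd.snd.1 h.snd.snd.snd.fst h.snd.snd.snd.snd.2 := by
      rw [heckeOperatorAlong, dif_pos h]
    change heckeOperatorAlong Qb N ℓ (Pic0.mk E) = _
    rw [e]
    rfl
  -- the Galois action on classes
  have hG : ∀ (σ : Gq) (E : Divisor.degZero (K := Qb) (F := Fb N)),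
      σ • (Pic0.mk E : JZero N) =
        Pic0.mk ⟨gD N σ (E : Divisor Qb (Fb N)), SemilinearAut.smul_mem_degZero _ E.2⟩ := by
    intro σ E
    rfl
  induction hy using AddSubgroup.closure_induction with
  | mem y hy =>
    rcases hy with ⟨τ, hτ, x, rfl⟩ | ⟨x, rfl⟩
    · obtain ⟨E, rfl⟩ := Pic0.mk_surjective x
      refine ⟨gD N τ (E : Divisor Qb (Fb N)) - E,
        AddSubgroup.sub_mem _ (SemilinearAut.smul_mem_degZero _ E.2) E.2,
        AddSubgroup.subset_closure (Or.inl ⟨τ, hτ, E, rfl⟩), ?_⟩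
      rw [hG]
      rfl
    · obtain ⟨E, rfl⟩ := Pic0.mk_surjective x
      have hE1 : gD N σ₀ (E : Divisor Qb (Fb N)) ∈ Divisor.degZero (K := Qb) (F := Fb N) :=
        SemilinearAut.smul_mem_degZero _ E.2
      have hE2 : gD N σ₀ (gD N σ₀ (E : Divisor Qb (Fb N))) ∈
          Divisor.degZero (K := Qb) (F := Fb N) :=
        SemilinearAut.smul_mem_degZero _ hE1
      have hE3 : heckeDiv N ℓ h (gD N σ₀ (E : Divisor Qb (Fb N))) ∈
          Divisor.degZero (K := Qb) (F := Fb N) :=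
        Divisor.correspondence_mem_degZero _ _ _ _ h.snd.snd.snd.snd.1 hE1
      refine ⟨gD N σ₀ (gD N σ₀ (E : Divisor Qb (Fb N))) -
          heckeDiv N ℓ h (gD N σ₀ (E : Divisor Qb (Fb N))) + ℓ • (E : Divisor Qb (Fb N)),
        AddSubgroup.add_mem _ (AddSubgroup.sub_mem _ hE2 hE3) (AddSubgroup.nsmul_mem _ E.2 ℓ),
        AddSubgroup.subset_closure (Or.inr ⟨E, rfl⟩), ?_⟩
      rw [hG σ₀ E, hG σ₀ ⟨_, hE1⟩, hT ⟨_, hE1⟩]
      rfl
  | zero => exact ⟨0, AddSubgroup.zero_mem _, AddSubgroup.zero_mem _, rfl⟩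
  | add y z _ _ hy hz =>
    obtain ⟨D, hD, hD0, rfl⟩ := hy
    obtain ⟨E, hE, hE0, rfl⟩ := hz
    exact ⟨D + E, AddSubgroup.add_mem _ hD hE, AddSubgroup.add_mem _ hD0 hE0, rfl⟩
  | neg y _ hy =>
    obtain ⟨D, hD, hD0, rfl⟩ := hy
    exact ⟨-D, AddSubgroup.neg_mem _ hD, AddSubgroup.neg_mem _ hD0, rfl⟩

/-- **Kummer step**: `(RED)` and `(K1)` imply that `K0` contains no nonzero `p`-power torsion. -/
theorem eq_zero_of_mem_K0 (p : ℕ) (hℓ : ℓ.Prime) (hℓp : ¬ ℓ ∣ p)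
    (hcomm : HeckeOperatorsCommuteBar N) (h : HeckeInputsAlong Qb N ℓ)
    (A : ValuationSubring Qb) (σ₀ : Gq) (hRED : RED N ℓ h A σ₀) (hK1 : E4.K1 N ℓ A) :
    letI := heckeModuleBar N
    ∀ (_ : SMulCommClass Gq HeckeAlg (JZero N)),
      ∀ x ∈ Wiring.K0 (JZero N) A σ₀ (heckeGen ⟨ℓ, hℓ⟩) ℓ, (∃ n : ℕ, p ^ n • x = 0) → x = 0 := by
  letI := heckeModuleBar N
  intro hsc x hx hn
  obtain ⟨n, hn⟩ := hn
  rw [Wiring.mem_K0_iff] at hx
  obtain ⟨D, hD, hD0, rfl⟩ := exists_rep N ℓ hℓ hcomm h A σ₀ hsc x hx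
  have hp0 : p ≠ 0 := fun h0 => hℓp (h0 ▸ dvd_zero ℓ)
  have hm0 : (p ^ n : ℕ) ≠ 0 := pow_ne_zero n hp0
  have hℓm : ¬ ℓ ∣ p ^ n := fun hd => hℓp (hℓ.dvd_of_dvd_pow hd)
  -- `p ^ n • D` is principal
  have hprin : (p ^ n) • D ∈ Divisor.principal (K := Qb) (F := Fb N) := by
    have h1 : (Pic0.mk ((p ^ n) • (⟨D, hD⟩ : Divisor.degZero (K := Qb) (F := Fb N))) : JZero N)
        = 0 := hn
    have h2 := (QuotientAddGroup.eq_zero_iff _).1 h1
    rw [AddSubgroup.mem_addSubgroupOf] at h2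
    exact h2
  obtain ⟨f, hf0, hf⟩ := hprin
  obtain ⟨c, U, W, hU, hW, hc, hred, hred0, hfW⟩ :=
    hRED f hf0 ⟨(p ^ n) • D, AddSubgroup.nsmul_mem _ hD0 _, hf⟩
  set U' : Fb N := ⟨_, hU⟩ with hU'
  set W' : Fb N := ⟨_, hW⟩ with hW'
  have hU0 : U' ≠ 0 := ne_zero_of_red_ne_zero A hU hred0
  have hW0 : W' ≠ 0 := ne_zero_of_red_ne_zero A hW (hred ▸ hred0)
  have hc' : algebraMap Qb (Fb N) c ≠ 0 := (map_ne_zero (algebraMap Qb (Fb N))).2 hc
  obtain ⟨H, hH⟩ := hK1 (p ^ n) hℓm U W hU hW hred hred0 (fun P => by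
    have h1 := P.ord_mul hf0 hW0
    have h2 := P.ord_mul hc' hU0
    rw [hfW, h2, ord_algebraMap_eq_zero P hc] at h1
    have h3 : P.ord U' - P.ord W' = P.ord f := by linarith
    rw [h3, ← hf P]
    exact ⟨D P, by simp⟩)
  have hH' : U' = H ^ (p ^ n) * W' := Subtype.ext hH
  have hH0 : H ≠ 0 := by
    rintro rfl
    rw [zero_pow hm0, zero_mul] at hH'
    exact hU0 hH'
  have hfH : f = algebraMap Qb (Fb N) c * H ^ (p ^ n) := by
    have h1 : f * W' = (algebraMap Qb (Fb N) c * H ^ (p ^ n)) * W' := by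
      rw [hfW, hH']; ring
    exact mul_right_cancel₀ hW0 h1
  -- `D` is the divisor of `H`
  have hDH : ∀ P : Place Qb (Fb N), D P = P.ord H := by
    intro P
    have h1 : P.ord f = ((p ^ n : ℕ) : ℤ) * P.ord H := by
      rw [hfH, P.ord_mul hc' (pow_ne_zero _ hH0), ord_algebraMap_eq_zero P hc, zero_add, ord_pow]
    have h2 : ((p ^ n) • D) P = ((p ^ n : ℕ) : ℤ) * D P := by
      simp
    have h3 : ((p ^ n : ℕ) : ℤ) * D P = ((p ^ n : ℕ) : ℤ) * P.ord H := by
      rw [← h2, hf P, h1]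
    exact mul_left_cancel₀ (by exact_mod_cast hm0) h3
  have hDprin : D ∈ Divisor.principal (K := Qb) (F := Fb N) := ⟨H, hH0, hDH⟩
  exact (QuotientAddGroup.eq_zero_iff _).2 (by
    rw [AddSubgroup.mem_addSubgroupOf]
    exact hDprin)

end Main

end Fermat.Agent.S37.Kummer
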