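import Mathlib
import Fermat.Agent.S37.Kummer
import Fermat.Agent.S30.HeckeNormQ

/-!
# S37 / E7: the Hecke correspondence on principal divisors

For `ℓ` prime, `ℓ ∤ N` and `0 ≠ f ∈ F_N`, put `T f := Norm_{F_{Nℓ}/α(F_N)}(β f) ∈ F_N`
(`heckeT`).  Then

* `coe_heckeT`    : the `q`-expansion of `T f` is `Congr.heckeMul ℓ _ z f`
                    (`= f(q^ℓ) · ∏_{i<ℓ} f(zⁱ q^{1/ℓ})`);
* `heckeDiv_apply_of_principal` : `heckeDiv (div f) = div (T f)`, for the Prelude's Hecke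
  correspondence `heckeDivBar = α_* β^*` on divisors (in the packaging `Kummer.heckeDiv`).
-/

set_option autoImplicit false
set_option linter.unusedSectionVars false
set_option linter.style.haveILetI false
set_option synthInstance.maxHeartbeats 400000
set_option maxHeartbeats 1000000

noncomputable section

namespace Fermat.Agent.S37.HeckeDivQ

open ModularCurve AlgebraicCurve HahnSeries
open Fermat.Agent.S30

local notation "Qb" => AlgebraicClosure ℚ

variable (N ℓ : ℕ) [NeZero N] [NeZero ℓ]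

/-- `T f = Norm_{F_{Nℓ}/α(F_N)}(β f)`: the multiplicative Hecke operator on functions. -/
def heckeT (f : Kummer.Fb N) : Kummer.Fb N :=
  letI := AlgebraicCurve.algebraAlong (heckeAlphaBar Qb N ℓ)
  Algebra.norm (Kummer.Fb N) (heckeBetaBar Qb N ℓ f)

theorem coe_heckeT (hℓ : ℓ.Prime) (hℓN : ¬ ℓ ∣ N) (z : Qbˣ) (hz : IsPrimitiveRoot z ℓ)
    (f : Kummer.Fb N) :
    (heckeT N ℓ f : LaurentSeries Qb) = Congr.heckeMul ℓ hℓ.pos z (f : LaurentSeries Qb) :=
  HeckeNormQ.coe_norm_heckeBeta N ℓ hℓ hℓN z hz f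

theorem heckeT_ne_zero {f : Kummer.Fb N} (hf : f ≠ 0) : heckeT N ℓ f ≠ 0 := by
  letI := AlgebraicCurve.algebraAlong (heckeAlphaBar Qb N ℓ)
  haveI : Module.Finite (Kummer.Fb N) (Kummer.Fb (N * ℓ)) := HeckeNormQ.finite_alpha N ℓ
  exact Algebra.norm_ne_zero_iff.2 ((map_ne_zero (heckeBetaBar Qb N ℓ)).2 hf)

theorem heckeT_mul (f g : Kummer.Fb N) : heckeT N ℓ (f * g) = heckeT N ℓ f * heckeT N ℓ g := by
  letI := AlgebraicCurve.algebraAlong (heckeAlphaBar Qb N ℓ)
  change Algebra.norm (Kummer.Fb N) (heckeBetaBar Qb N ℓ (f * g)) = _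
  rw [map_mul, map_mul]
  rfl

theorem heckeT_one : heckeT N ℓ (1 : Kummer.Fb N) = 1 := by
  letI := AlgebraicCurve.algebraAlong (heckeAlphaBar Qb N ℓ)
  change Algebra.norm (Kummer.Fb N) (heckeBetaBar Qb N ℓ 1) = _
  rw [map_one, map_one]

/-- **The Hecke correspondence on principal divisors**: `T_ℓ (div f) = div (Norm_α (β f))`. -/
theorem heckeDiv_apply_of_principal (h : HeckeInputsAlong Qb N ℓ) {f : Kummer.Fb N}
    {D : Divisor Qb (Kummer.Fb N)} (hf : f ≠ 0)
    (hD : ∀ P : Place Qb (Kummer.Fb N), D P = P.ord f) (P : Place Qb (Kummer.Fb N)) :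
    Kummer.heckeDiv N ℓ h D P = P.ord (heckeT N ℓ f) := by
  haveI := h.snd.snd.fst
  have hβ := h.snd.fst
  have hα := h.fst
  have hfin := h.snd.snd.snd.fst
  have hN := h.snd.snd.snd.snd.2
  -- the pull-back along `β` of `div f` is `div (β f)`
  have hpull : ∀ w : Place Qb (Kummer.Fb (N * ℓ)),
      Divisor.pullbackAlong (heckeBetaBar Qb N ℓ) hβ D w = w.ord (heckeBetaBar Qb N ℓ f) := by
    intro w
    letI := algebraAlong (heckeBetaBar Qb N ℓ)
    haveI := isScalarTower_along (heckeBetaBar Qb N ℓ)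
    haveI := isIntegral_along (heckeBetaBar Qb N ℓ) hβ
    exact Divisor.pullback_apply_eq_ord hD w
  have hβf : heckeBetaBar Qb N ℓ f ≠ 0 := (map_ne_zero (heckeBetaBar Qb N ℓ)).2 hf
  exact hN (heckeBetaBar Qb N ℓ f) hβf _ hpull P

/-- The same statement with `heckeDivBar` and explicit inputs. -/
theorem heckeDivBar_apply_of_principal (hα : HeckeAlphaBarIntegral Qb N ℓ)
    (hβ : HeckeBetaBarIntegral Qb N ℓ)
    [HasPrincipalDivisors Qb (Kummer.Fb (N * ℓ))]
    (hfin : FiniteAlong Qb (heckeAlphaBar Qb N ℓ))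
    (hN : NormFormulaAlong Qb (heckeAlphaBar Qb N ℓ) hfin) {f : Kummer.Fb N}
    {D : Divisor Qb (Kummer.Fb N)} (hf : f ≠ 0)
    (hD : ∀ P : Place Qb (Kummer.Fb N), D P = P.ord f) (P : Place Qb (Kummer.Fb N)) :
    heckeDivBar hα hβ D P = P.ord (heckeT N ℓ f) := by
  have hpull : ∀ w : Place Qb (Kummer.Fb (N * ℓ)),
      Divisor.pullbackAlong (heckeBetaBar Qb N ℓ) hβ D w = w.ord (heckeBetaBar Qb N ℓ f) := by
    intro w
    letI := algebraAlong (heckeBetaBar Qb N ℓ)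
    haveI := isScalarTower_along (heckeBetaBar Qb N ℓ)
    haveI := isIntegral_along (heckeBetaBar Qb N ℓ) hβ
    exact Divisor.pullback_apply_eq_ord hD w
  have hβf : heckeBetaBar Qb N ℓ f ≠ 0 := (map_ne_zero (heckeBetaBar Qb N ℓ)).2 hf
  exact hN (heckeBetaBar Qb N ℓ f) hβf _ hpull P

end Fermat.Agent.S37.HeckeDivQ
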