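/-
S37 (E7): the UNIT-WITNESS machine (helper282).  Mathlib only.

Abstract form of the "function-only" proof of `(RED)`:

* `L`  : a function field, `κ` the ring in which reductions live (`k((q))`),
* `Dv` : the group of divisors (of one chart),
* `M D` : the functions `x` of the Gauss ring with `div x ≥ D` on the chart (an additive
  subgroup of `L`), with `M D * M D' ⊆ M (D + D')`,
* `Red x ξ` : "`x` is Gauss-integral and reduces to `ξ`".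

`Kred` := the divisors `D` such that both `M D` and `M (-D)` contain an element reducing to `1`
(a *unit witness*).  It is a subgroup.  If `D ∈ Kred` and `f` has divisor `D`, then the reduction
of `f` lies in the reduction `B` of `M 0` (`red_mem_B`): `f` has no pole on the special fibre.

`Inv D` := `1` is a sum of products `red z * red w`, `z ∈ M D`, `w ∈ M (-D)` (the module `M D`
is invertible along the special fibre).  `Inv` is stable under sums and negation.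

* `act_sub_mem_Kred` (inertia): if `θ` acts on functions and divisors compatibly and trivially
  on reductions, then `Inv D → act D - D ∈ Kred`.
* `es_mem_Kred` (Eichler–Shimura): if `s` is a ring endomorphism of `L` acting on divisors by `S`
  and on reductions by `φ`, and `T` is a map with `T (M D) ⊆ M (𝕋 D)` and
  `red (T x) = (red x) ^ ℓ * φ (φ (red x))` (Kronecker congruence for `T = T_ℓ ∘ s`), then
  `Inv P → S (S P) - 𝕋 P + ℓ • P ∈ Kred`.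
-/
import Mathlib

set_option autoImplicit false

namespace Fermat.Agent.S37.UnitWitness

/-- The abstract data: modules `M D` of functions with divisor `≥ D` and a reduction relation. -/
structure Machine (L κ Dv : Type*) [CommRing L] [CommRing κ] [AddCommGroup Dv] where
  /-- functions of the Gauss ring with divisor `≥ D` -/
  M : Dv → AddSubgroup L
  /-- `Red x ξ`: `x` is Gauss-integral with reduction `ξ` -/
  Red : L → κ → Prop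
  one_mem : (1 : L) ∈ M 0
  mul_mem : ∀ {D D' : Dv} {x y : L}, x ∈ M D → y ∈ M D' → x * y ∈ M (D + D')
  red_zero : Red 0 0
  red_one : Red 1 1
  red_add : ∀ {x y : L} {ξ η : κ}, Red x ξ → Red y η → Red (x + y) (ξ + η)
  red_neg : ∀ {x : L} {ξ : κ}, Red x ξ → Red (-x) (-ξ)
  red_mul : ∀ {x y : L} {ξ η : κ}, Red x ξ → Red y η → Red (x * y) (ξ * η)

namespace Machine

variable {L κ Dv : Type*} [CommRing L] [CommRing κ] [AddCommGroup Dv] (𝔐 : Machine L κ Dv)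

/-- The reductions of the elements of `M D`. -/
def R (D : Dv) : AddSubgroup κ where
  carrier := {ξ | ∃ x ∈ 𝔐.M D, 𝔐.Red x ξ}
  zero_mem' := ⟨0, zero_mem _, 𝔐.red_zero⟩
  add_mem' := by
    rintro _ _ ⟨x, hx, hxr⟩ ⟨y, hy, hyr⟩
    exact ⟨x + y, add_mem hx hy, 𝔐.red_add hxr hyr⟩
  neg_mem' := by
    rintro _ ⟨x, hx, hxr⟩
    exact ⟨-x, neg_mem hx, 𝔐.red_neg hxr⟩

theorem mem_R {D : Dv} {ξ : κ} : ξ ∈ 𝔐.R D ↔ ∃ x ∈ 𝔐.M D, 𝔐.Red x ξ := Iff.rfl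

theorem mul_mem_R {D D' : Dv} {ξ η : κ} (hξ : ξ ∈ 𝔐.R D) (hη : η ∈ 𝔐.R D') :
    ξ * η ∈ 𝔐.R (D + D') := by
  obtain ⟨x, hx, hxr⟩ := hξ
  obtain ⟨y, hy, hyr⟩ := hη
  exact ⟨x * y, 𝔐.mul_mem hx hy, 𝔐.red_mul hxr hyr⟩

theorem one_mem_R : (1 : κ) ∈ 𝔐.R 0 := ⟨1, 𝔐.one_mem, 𝔐.red_one⟩

theorem pow_mem {D : Dv} {x : L} (hx : x ∈ 𝔐.M D) (n : ℕ) : x ^ n ∈ 𝔐.M (n • D) := by
  induction n with
  | zero => rw [pow_zero, zero_smul]; exact 𝔐.one_mem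
  | succ n ih => rw [pow_succ, succ_nsmul]; exact 𝔐.mul_mem ih hx

theorem red_pow {x : L} {ξ : κ} (hx : 𝔐.Red x ξ) (n : ℕ) : 𝔐.Red (x ^ n) (ξ ^ n) := by
  induction n with
  | zero => rw [pow_zero, pow_zero]; exact 𝔐.red_one
  | succ n ih => rw [pow_succ, pow_succ]; exact 𝔐.red_mul ih hx

theorem pow_mem_R {D : Dv} {ξ : κ} (hξ : ξ ∈ 𝔐.R D) (n : ℕ) : ξ ^ n ∈ 𝔐.R (n • D) := by
  obtain ⟨x, hx, hxr⟩ := hξ
  exact ⟨x ^ n, 𝔐.pow_mem hx n, 𝔐.red_pow hxr n⟩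

/-- The reduction `B` of `M 0` (the coordinate ring of the chart of the special fibre). -/
def B : Subring κ where
  carrier := 𝔐.R 0
  zero_mem' := zero_mem _
  add_mem' := add_mem
  neg_mem' := neg_mem
  one_mem' := 𝔐.one_mem_R
  mul_mem' := by
    intro a b ha hb
    have h := 𝔐.mul_mem_R ha hb
    rwa [add_zero] at h

theorem mem_B {ξ : κ} : ξ ∈ 𝔐.B ↔ ξ ∈ 𝔐.R 0 := Iff.rfl

/-- `B * R D ⊆ R D`. -/
theorem B_mul_mem_R {D : Dv} {b ξ : κ} (hb : b ∈ 𝔐.B) (hξ : ξ ∈ 𝔐.R D) : b * ξ ∈ 𝔐.R D := by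
  have h := 𝔐.mul_mem_R hb hξ
  rwa [zero_add] at h

/-- **The kernel of reduction**: divisors `D` such that `M D` and `M (-D)` both contain a unit
witness (an element reducing to `1`). -/
def Kred : AddSubgroup Dv where
  carrier := {D | (1 : κ) ∈ 𝔐.R D ∧ (1 : κ) ∈ 𝔐.R (-D)}
  zero_mem' := ⟨𝔐.one_mem_R, by rw [neg_zero]; exact 𝔐.one_mem_R⟩
  add_mem' := by
    rintro D D' ⟨h1, h2⟩ ⟨h1', h2'⟩
    refine ⟨?_, ?_⟩
    · have h := 𝔐.mul_mem_R h1 h1'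
      rwa [one_mul] at h
    · have h := 𝔐.mul_mem_R h2 h2'
      rwa [one_mul, ← neg_add] at h
  neg_mem' := by
    rintro D ⟨h1, h2⟩
    exact ⟨h2, by rwa [neg_neg]⟩

theorem mem_Kred {D : Dv} : D ∈ 𝔐.Kred ↔ (1 : κ) ∈ 𝔐.R D ∧ (1 : κ) ∈ 𝔐.R (-D) := Iff.rfl

/-- **(RED), abstract form.**  If `D ∈ Kred` and `f * M (-D) ⊆ M 0` (e.g. `f` is Gauss-integral
with divisor `D` on the chart), then the reduction of `f` lies in `B`. -/
theorem red_mem_B {D : Dv} (hD : D ∈ 𝔐.Kred) {f : L} {ξ : κ}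
    (hf : ∀ y ∈ 𝔐.M (-D), f * y ∈ 𝔐.M 0) (hfR : 𝔐.Red f ξ) : ξ ∈ 𝔐.B := by
  obtain ⟨y, hy, hyr⟩ := hD.2
  have h := 𝔐.red_mul hfR hyr
  rw [mul_one] at h
  exact ⟨f * y, hf y hy, h⟩

/-- The products `red z * red w`, `z ∈ M D`, `w ∈ M (-D)`. -/
def prodSet (D : Dv) : Set κ := {ξ | ∃ ζ ∈ 𝔐.R D, ∃ ω ∈ 𝔐.R (-D), ξ = ζ * ω}

/-- `M D` is invertible along the special fibre: `1 ∈ red (M D) * red (M (-D))`. -/
def Inv (D : Dv) : Prop := (1 : κ) ∈ AddSubgroup.closure (𝔐.prodSet D)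

theorem inv_zero : 𝔐.Inv 0 :=
  AddSubgroup.subset_closure
    ⟨1, 𝔐.one_mem_R, 1, by rw [neg_zero]; exact 𝔐.one_mem_R, (one_mul 1).symm⟩

theorem prodSet_neg (D : Dv) : 𝔐.prodSet (-D) = 𝔐.prodSet D := by
  ext ξ
  constructor
  · rintro ⟨ζ, hζ, ω, hω, rfl⟩
    rw [neg_neg] at hω
    exact ⟨ω, hω, ζ, hζ, mul_comm ζ ω⟩
  · rintro ⟨ζ, hζ, ω, hω, rfl⟩
    exact ⟨ω, hω, ζ, by rwa [neg_neg], mul_comm ζ ω⟩

theorem Inv.neg {D : Dv} (h : 𝔐.Inv D) : 𝔐.Inv (-D) := by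
  unfold Inv
  rw [prodSet_neg]
  exact h

theorem Inv.add {D D' : Dv} (h : 𝔐.Inv D) (h' : 𝔐.Inv D') : 𝔐.Inv (D + D') := by
  have key : ∀ a ∈ AddSubgroup.closure (𝔐.prodSet D), ∀ b ∈ AddSubgroup.closure (𝔐.prodSet D'),
      a * b ∈ AddSubgroup.closure (𝔐.prodSet (D + D')) := by
    intro a ha
    induction ha using AddSubgroup.closure_induction with
    | mem a ha =>
      obtain ⟨ζ, hζ, ω, hω, rfl⟩ := ha
      intro b hb
      induction hb using AddSubgroup.closure_induction with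
      | mem b hb =>
        obtain ⟨ζ', hζ', ω', hω', rfl⟩ := hb
        refine AddSubgroup.subset_closure ⟨ζ * ζ', 𝔐.mul_mem_R hζ hζ', ω * ω', ?_, by ring⟩
        have := 𝔐.mul_mem_R hω hω'
        rwa [← neg_add] at this
      | zero => rw [mul_zero]; exact zero_mem _
      | add x y _ _ hx hy => rw [mul_add]; exact add_mem hx hy
      | neg x _ hx => rw [mul_neg]; exact neg_mem hx
    | zero => intro b _; rw [zero_mul]; exact zero_mem _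
    | add x y _ _ hx hy => intro b hb; rw [add_mul]; exact add_mem (hx b hb) (hy b hb)
    | neg x _ hx => intro b hb; rw [neg_mul]; exact neg_mem (hx b hb)
  have := key 1 h 1 h'
  rwa [one_mul] at this

theorem Inv.nsmul {D : Dv} (h : 𝔐.Inv D) (n : ℕ) : 𝔐.Inv (n • D) := by
  induction n with
  | zero => rw [zero_smul]; exact 𝔐.inv_zero
  | succ n ih => rw [succ_nsmul]; exact Inv.add 𝔐 ih h

theorem Inv.sub {D D' : Dv} (h : 𝔐.Inv D) (h' : 𝔐.Inv D') : 𝔐.Inv (D - D') := by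
  rw [sub_eq_add_neg]
  exact Inv.add 𝔐 h (Inv.neg 𝔐 h')

/-- **Inertia.**  If `θ` acts on functions and on divisors, compatibly with the modules `M D`,
and trivially on reductions, then `act D - D ∈ Kred` whenever `M D` is invertible. -/
theorem act_sub_mem_Kred (θ : L →+* L) (act : Dv →+ Dv)
    (hθ : ∀ (D : Dv) (x : L), x ∈ 𝔐.M D → θ x ∈ 𝔐.M (act D))
    (hθR : ∀ (x : L) (ξ : κ), 𝔐.Red x ξ → 𝔐.Red (θ x) ξ) {D : Dv} (h : 𝔐.Inv D) :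
    act D - D ∈ 𝔐.Kred := by
  refine ⟨?_, ?_⟩
  · have hle : AddSubgroup.closure (𝔐.prodSet D) ≤ 𝔐.R (act D - D) := by
      rw [AddSubgroup.closure_le]
      rintro _ ⟨ζ, ⟨z, hz, hzr⟩, ω, ⟨w, hw, hwr⟩, rfl⟩
      refine ⟨θ z * w, ?_, 𝔐.red_mul (hθR z ζ hzr) hwr⟩
      have := 𝔐.mul_mem (hθ D z hz) hw
      rwa [← sub_eq_add_neg] at this
    exact hle h
  · have hle : AddSubgroup.closure (𝔐.prodSet D) ≤ 𝔐.R (-(act D - D)) := by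
      rw [AddSubgroup.closure_le]
      rintro _ ⟨ζ, ⟨z, hz, hzr⟩, ω, ⟨w, hw, hwr⟩, rfl⟩
      refine ⟨z * θ w, ?_, 𝔐.red_mul hzr (hθR w ω hwr)⟩
      have := 𝔐.mul_mem hz (hθ (-D) w hw)
      rwa [map_neg, ← sub_eq_add_neg, ← neg_sub (act D) D] at this
    exact hle h

/-- The unit-ideal lemma behind the Eichler–Shimura step.  `B` a subring of `κ`, `ψ` a ring
endomorphism of `κ` preserving `B`, `R₁ R₂` additive subgroups with `R₁ * R₂ ⊆ B` and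
`1 ∈ R₁ * R₂` (sums of products).  Then `1` is a `B`-combination of the elements
`ψ (ζ * ω) * (ζ' * ω) ^ ℓ`, `ζ, ζ' ∈ R₁`, `ω ∈ R₂` (the SAME `ω` in both factors). -/
theorem one_mem_closure_twisted (B : Subring κ) (ψ : κ →+* κ) (hψ : ∀ b ∈ B, ψ b ∈ B)
    (R₁ R₂ : AddSubgroup κ) (hR : ∀ ζ ∈ R₁, ∀ ω ∈ R₂, ζ * ω ∈ B)
    (h1 : (1 : κ) ∈ AddSubgroup.closure {ξ : κ | ∃ ζ ∈ R₁, ∃ ω ∈ R₂, ξ = ζ * ω}) (ℓ : ℕ) :
    (1 : κ) ∈ AddSubgroup.closure {ξ : κ | ∃ b ∈ B, ∃ ζ ∈ R₁, ∃ ζ' ∈ R₁, ∃ ω ∈ R₂,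
      ξ = b * (ψ (ζ * ω) * (ζ' * ω) ^ ℓ)} := by
  classical
  set C : AddSubgroup κ := AddSubgroup.closure {ξ : κ | ∃ b ∈ B, ∃ ζ ∈ R₁, ∃ ζ' ∈ R₁, ∃ ω ∈ R₂,
      ξ = b * (ψ (ζ * ω) * (ζ' * ω) ^ ℓ)} with hC
  -- `C` is stable under multiplication by `B`
  have hBC : ∀ a ∈ B, ∀ y ∈ C, a * y ∈ C := by
    intro a ha y hy
    induction hy using AddSubgroup.closure_induction with
    | mem y hy =>
      obtain ⟨b, hb, ζ, hζ, ζ', hζ', ω, hω, rfl⟩ := hy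
      exact AddSubgroup.subset_closure
        ⟨a * b, B.mul_mem ha hb, ζ, hζ, ζ', hζ', ω, hω, by ring⟩
    | zero => rw [mul_zero]; exact zero_mem _
    | add x y _ _ hx hy => rw [mul_add]; exact add_mem hx hy
    | neg x _ hx => rw [mul_neg]; exact neg_mem hx
  -- the generators, as elements of `B`
  let ψB : B →+* B := ψ.restrict B B hψ
  let G : Set B := {g | ∃ ζ ∈ R₁, ∃ ζ' ∈ R₁, ∃ ω ∈ R₂, (g : κ) = ψ (ζ * ω) * (ζ' * ω) ^ ℓ}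
  -- every element of the ideal generated by `G` lies in `C`
  have hspan : ∀ y ∈ Ideal.span G, (y : κ) ∈ C := by
    intro y hy
    induction hy using Submodule.span_induction with
    | mem y hy =>
      obtain ⟨ζ, hζ, ζ', hζ', ω, hω, hy⟩ := hy
      exact AddSubgroup.subset_closure ⟨1, B.one_mem, ζ, hζ, ζ', hζ', ω, hω, by rw [hy, one_mul]⟩
    | zero => exact zero_mem _
    | add x y _ _ hx hy => exact add_mem hx hy
    | smul a x _ hx => exact hBC a a.2 x hx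
  suffices htop : Ideal.span G = ⊤ by
    have h : (1 : B) ∈ Ideal.span G := by rw [htop]; exact Submodule.mem_top
    exact hspan 1 h
  by_contra hne
  obtain ⟨𝔫, h𝔫max, h𝔫le⟩ := Ideal.exists_le_maximal _ hne
  have h𝔫prime : 𝔫.IsPrime := h𝔫max.isPrime
  have h𝔫one : (1 : B) ∉ 𝔫 := fun h => h𝔫prime.ne_top ((Ideal.eq_top_iff_one 𝔫).2 h)
  -- the two ideals, as additive subgroups of `κ`
  let N₁ : AddSubgroup κ :=
    { carrier := {x | ∃ h : x ∈ B, ψB ⟨x, h⟩ ∈ 𝔫}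
      zero_mem' := ⟨B.zero_mem, by
        have e : (⟨0, B.zero_mem⟩ : B) = 0 := rfl
        rw [e, map_zero]; exact zero_mem _⟩
      add_mem' := by
        rintro a b ⟨ha, ha'⟩ ⟨hb, hb'⟩
        refine ⟨B.add_mem ha hb, ?_⟩
        have e : (⟨a + b, B.add_mem ha hb⟩ : B) = ⟨a, ha⟩ + ⟨b, hb⟩ := rfl
        rw [e, map_add]; exact add_mem ha' hb'
      neg_mem' := by
        rintro a ⟨ha, ha'⟩
        refine ⟨B.neg_mem ha, ?_⟩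
        have e : (⟨-a, B.neg_mem ha⟩ : B) = -⟨a, ha⟩ := rfl
        rw [e, map_neg]; exact neg_mem ha' }
  let N₂ : AddSubgroup κ :=
    { carrier := {x | ∃ h : x ∈ B, (⟨x, h⟩ : B) ∈ 𝔫}
      zero_mem' := ⟨B.zero_mem, zero_mem _⟩
      add_mem' := by
        rintro a b ⟨ha, ha'⟩ ⟨hb, hb'⟩
        exact ⟨B.add_mem ha hb, add_mem ha' hb'⟩
      neg_mem' := by
        rintro a ⟨ha, ha'⟩
        exact ⟨B.neg_mem ha, neg_mem ha'⟩ }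
  have hN₁ : (1 : κ) ∉ N₁ := by
    rintro ⟨h, h'⟩
    have e : (⟨1, h⟩ : B) = 1 := rfl
    rw [e, map_one] at h'
    exact h𝔫one h'
  have hN₂ : (1 : κ) ∉ N₂ := by
    rintro ⟨h, h'⟩
    exact h𝔫one h'
  -- the dichotomy given by primality
  have hdich : ∀ ζ ∈ R₁, ∀ ζ' ∈ R₁, ∀ ω ∈ R₂, ζ * ω ∈ N₁ ∨ ζ' * ω ∈ N₂ := by
    intro ζ hζ ζ' hζ' ω hω
    have h1 : ζ * ω ∈ B := hR ζ hζ ω hω
    have h2 : ζ' * ω ∈ B := hR ζ' hζ' ω hω
    have hg : ψB ⟨ζ * ω, h1⟩ * (⟨ζ' * ω, h2⟩ : B) ^ ℓ ∈ 𝔫 := by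
      apply h𝔫le
      apply Ideal.subset_span
      exact ⟨ζ, hζ, ζ', hζ', ω, hω, rfl⟩
    rcases h𝔫prime.mem_or_mem hg with h | h
    · exact Or.inl ⟨h1, h⟩
    · exact Or.inr ⟨h2, h𝔫prime.mem_of_pow_mem ℓ h⟩
  -- the two "bad" subgroups
  let W₁ : AddSubgroup κ :=
    { carrier := {ω | ∀ ζ ∈ R₁, ζ * ω ∈ N₁}
      zero_mem' := by intro ζ _; rw [mul_zero]; exact zero_mem _
      add_mem' := by intro a b ha hb ζ hζ; rw [mul_add]; exact add_mem (ha ζ hζ) (hb ζ hζ)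
      neg_mem' := by intro a ha ζ hζ; rw [mul_neg]; exact neg_mem (ha ζ hζ) }
  let W₂ : AddSubgroup κ :=
    { carrier := {ω | ∀ ζ ∈ R₁, ζ * ω ∈ N₂}
      zero_mem' := by intro ζ _; rw [mul_zero]; exact zero_mem _
      add_mem' := by intro a b ha hb ζ hζ; rw [mul_add]; exact add_mem (ha ζ hζ) (hb ζ hζ)
      neg_mem' := by intro a ha ζ hζ; rw [mul_neg]; exact neg_mem (ha ζ hζ) }
  have hcover : (R₂ : Set κ) ⊆ (W₁ : Set κ) ∪ (W₂ : Set κ) := by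
    intro ω hω
    by_cases h : ∀ ζ ∈ R₁, ζ * ω ∈ N₁
    · exact Or.inl h
    · push Not at h
      obtain ⟨ζ₀, hζ₀, hζ₀'⟩ := h
      refine Or.inr fun ζ' hζ' => ?_
      exact (hdich ζ₀ hζ₀ ζ' hζ' ω hω).resolve_left hζ₀'
  rcases AddSubgroupClass.subset_union.1 hcover with h | h
  · apply hN₁
    have hle : AddSubgroup.closure {ξ : κ | ∃ ζ ∈ R₁, ∃ ω ∈ R₂, ξ = ζ * ω} ≤ N₁ := by
      rw [AddSubgroup.closure_le]
      rintro _ ⟨ζ, hζ, ω, hω, rfl⟩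
      exact h hω ζ hζ
    exact hle h1
  · apply hN₂
    have hle : AddSubgroup.closure {ξ : κ | ∃ ζ ∈ R₁, ∃ ω ∈ R₂, ξ = ζ * ω} ≤ N₂ := by
      rw [AddSubgroup.closure_le]
      rintro _ ⟨ζ, hζ, ω, hω, rfl⟩
      exact h hω ζ hζ
    exact hle h1

/-- **Eichler–Shimura.**  `s` a ring endomorphism of `L` acting on divisors by `S` and on
reductions by `φ`; `T` a map with `T (M D) ⊆ M (𝕋 D)` and `red (T x) = (red x) ^ ℓ * φ (φ (red x))`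
(Kronecker congruence for `T = T_ℓ ∘ s`, `𝕋 = T_ℓ ∘ S`).  Then `S (S P) - 𝕋 P + ℓ • P ∈ Kred`
whenever `M P` is invertible. -/
theorem es_mem_Kred (s : L →+* L) (S : Dv →+ Dv) (φ : κ →+* κ) (T : L → L) (𝕋 : Dv →+ Dv) (ℓ : ℕ)
    (hs : ∀ (D : Dv) (x : L), x ∈ 𝔐.M D → s x ∈ 𝔐.M (S D))
    (hsR : ∀ (x : L) (ξ : κ), 𝔐.Red x ξ → 𝔐.Red (s x) (φ ξ))
    (hT : ∀ (D : Dv) (x : L), x ∈ 𝔐.M D → T x ∈ 𝔐.M (𝕋 D))
    (hTR : ∀ (x : L) (ξ : κ), 𝔐.Red x ξ → 𝔐.Red (T x) (ξ ^ ℓ * φ (φ ξ)))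
    {P : Dv} (h : 𝔐.Inv P) :
    S (S P) - 𝕋 P + ℓ • P ∈ 𝔐.Kred := by
  have hψB : ∀ b ∈ 𝔐.B, (φ.comp φ) b ∈ 𝔐.B := by
    rintro b ⟨β, hβ, hβr⟩
    refine ⟨s (s β), ?_, hsR _ _ (hsR _ _ hβr)⟩
    have := hs _ _ (hs _ _ hβ)
    rwa [map_zero, map_zero] at this
  refine ⟨?_, ?_⟩
  · -- witness for `Ψ P`
    have hR : ∀ ζ ∈ 𝔐.R P, ∀ ω ∈ 𝔐.R (-P), ζ * ω ∈ 𝔐.B := by
      intro ζ hζ ω hω
      have := 𝔐.mul_mem_R hζ hω
      rwa [add_neg_cancel] at this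
    have key := one_mem_closure_twisted 𝔐.B (φ.comp φ) hψB (𝔐.R P) (𝔐.R (-P)) hR h ℓ
    have hle : AddSubgroup.closure {ξ : κ | ∃ b ∈ 𝔐.B, ∃ ζ ∈ 𝔐.R P, ∃ ζ' ∈ 𝔐.R P,
        ∃ ω ∈ 𝔐.R (-P), ξ = b * ((φ.comp φ) (ζ * ω) * (ζ' * ω) ^ ℓ)} ≤
        𝔐.R (S (S P) - 𝕋 P + ℓ • P) := by
      rw [AddSubgroup.closure_le]
      rintro _ ⟨b, ⟨β, hβ, hβr⟩, ζ, ⟨z, hz, hzr⟩, ζ', ⟨z', hz', hzr'⟩, ω, ⟨w, hw, hwr⟩, rfl⟩
      refine ⟨β * (s (s z) * z' ^ ℓ * T w), ?_, ?_⟩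
      · have h1 := 𝔐.mul_mem (𝔐.mul_mem (hs _ _ (hs _ _ hz)) (𝔐.pow_mem hz' ℓ)) (hT _ _ hw)
        have h2 := 𝔐.mul_mem hβ h1
        have e : (0 : Dv) + (S (S P) + ℓ • P + 𝕋 (-P)) = S (S P) - 𝕋 P + ℓ • P := by
          rw [map_neg]; abel
        rwa [e] at h2
      · have h1 := 𝔐.red_mul hβr (𝔐.red_mul (𝔐.red_mul (hsR _ _ (hsR _ _ hzr))
          (𝔐.red_pow hzr' ℓ)) (hTR _ _ hwr))
        have e : b * (φ (φ ζ) * ζ' ^ ℓ * (ω ^ ℓ * φ (φ ω))) =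
            b * ((φ.comp φ) (ζ * ω) * (ζ' * ω) ^ ℓ) := by
          simp only [RingHom.comp_apply, map_mul]
          ring
        rwa [e] at h1
    exact hle key
  · -- witness for `-Ψ P`
    have hR : ∀ ω ∈ 𝔐.R (-P), ∀ ζ ∈ 𝔐.R P, ω * ζ ∈ 𝔐.B := by
      intro ω hω ζ hζ
      have := 𝔐.mul_mem_R hω hζ
      rwa [neg_add_cancel] at this
    have h' : (1 : κ) ∈ AddSubgroup.closure {ξ : κ | ∃ ω ∈ 𝔐.R (-P), ∃ ζ ∈ 𝔐.R P, ξ = ω * ζ} := by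
      have e : {ξ : κ | ∃ ω ∈ 𝔐.R (-P), ∃ ζ ∈ 𝔐.R P, ξ = ω * ζ} = 𝔐.prodSet P := by
        ext ξ
        constructor
        · rintro ⟨ω, hω, ζ, hζ, rfl⟩
          exact ⟨ζ, hζ, ω, hω, mul_comm ω ζ⟩
        · rintro ⟨ζ, hζ, ω, hω, rfl⟩
          exact ⟨ω, hω, ζ, hζ, mul_comm ζ ω⟩
      rw [e]
      exact h
    have key := one_mem_closure_twisted 𝔐.B (φ.comp φ) hψB (𝔐.R (-P)) (𝔐.R P) hR h' ℓ
    have hle : AddSubgroup.closure {ξ : κ | ∃ b ∈ 𝔐.B, ∃ ω ∈ 𝔐.R (-P), ∃ ω' ∈ 𝔐.R (-P),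
        ∃ ζ ∈ 𝔐.R P, ξ = b * ((φ.comp φ) (ω * ζ) * (ω' * ζ) ^ ℓ)} ≤
        𝔐.R (-(S (S P) - 𝕋 P + ℓ • P)) := by
      rw [AddSubgroup.closure_le]
      rintro _ ⟨b, ⟨β, hβ, hβr⟩, ω, ⟨w, hw, hwr⟩, ω', ⟨w', hw', hwr'⟩, ζ, ⟨z, hz, hzr⟩, rfl⟩
      refine ⟨β * (T z * s (s w) * w' ^ ℓ), ?_, ?_⟩
      · have h1 := 𝔐.mul_mem (𝔐.mul_mem (hT _ _ hz) (hs _ _ (hs _ _ hw))) (𝔐.pow_mem hw' ℓ)
        have h2 := 𝔐.mul_mem hβ h1
        have e : (0 : Dv) + (𝕋 P + S (S (-P)) + ℓ • (-P)) = -(S (S P) - 𝕋 P + ℓ • P) := by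
          simp only [map_neg, smul_neg]; abel
        rwa [e] at h2
      · have h1 := 𝔐.red_mul hβr (𝔐.red_mul (𝔐.red_mul (hTR _ _ hzr) (hsR _ _ (hsR _ _ hwr)))
          (𝔐.red_pow hwr' ℓ))
        have e : b * (ζ ^ ℓ * φ (φ ζ) * φ (φ ω) * ω' ^ ℓ) =
            b * ((φ.comp φ) (ω * ζ) * (ω' * ζ) ^ ℓ) := by
          simp only [RingHom.comp_apply, map_mul]
          ring
        rwa [e] at h1
    exact hle key

end Machine

end Fermat.Agent.S37.UnitWitness
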