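/-
S37 (E7): `Kummer.RED` by UNIT WITNESSES (helper282).

Concrete instance of `S37/UnitWitness.lean` for the function field `Fb N = ℚ̄(j(q^d) : d ∣ N)`,
a valuation ring `A` of `ℚ̄` over `ℓ`, and two "charts" `S₀`, `S₁` (arbitrary sets of places of
`Fb N`; intended: `S₀ = {P : u(P) ∈ A}`, `S₁ =` the rest, `u` a chart function).

* `Red N A x ξ`   : `x = U / W` with `U, W` integral `q`-series of `Fb N`, `red W ≠ 0`, and
                    `ξ = red U / red W` (`x` lies in the Gauss valuation ring and reduces to `ξ`);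
* `Mod N A S D`   : the `x` of the Gauss valuation ring with `x = 0` or `ord_P x ≥ D P` for all
                    `P ∈ S`;
* `machine N A S` : the unit-witness machine of the chart `S`;
* `D0_le_Kred`    : `Kummer.D0 ≤ (machine N A S).Kred` (inertia coboundaries and Eichler–Shimura
                    divisors have unit witnesses on the chart `S`);
* `RED_of_charts` : `Kummer.RED N ℓ h A σ₀`, PROVIDED, for both charts,
    (GAL) the chart is stable under the decomposition group of `A`,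
    (HT)  `div x ≥ D on S ⟹ div (T_ℓ x) ≥ heckeDiv D on S` (`T_ℓ = HeckeDivQ.heckeT`),
    (INV) for every place `P`: `1 ∈ red (Mod S P) * red (Mod S (-P))`,
    (INT) reductions of elements of `Mod S₀ 0` are integral over `k[t]`, reductions of elements
          of `Mod S₁ 0` are integral over `k[s]` up to a factor `G(s)`, `G(0) ≠ 0` (`t * s = 1`).
-/
import Fermat.Agent.S37.UnitWitness
import Fermat.Agent.S37.HeckeDivQ
import Fermat.Agent.S37.ConstEndRED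
import Fermat.Agent.S24.FF.Ord

set_option autoImplicit false
set_option linter.unusedSectionVars false
set_option linter.style.haveILetI false
set_option synthInstance.maxHeartbeats 400000
set_option maxHeartbeats 1000000

open HahnSeries ModularCurve AlgebraicCurve
open Fermat.Agent.S30

noncomputable section

namespace Fermat.Agent.S37.UnitRed

local notation "Qb" => AlgebraicClosure ℚ
local notation "Gq" => (AlgebraicClosure ℚ ≃ₐ[ℚ] AlgebraicClosure ℚ)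

/-- The function field `ℚ̄(j(q^d) : d ∣ N)` inside `ℚ̄((q))`. -/
abbrev Fb (N : ℕ) : IntermediateField Qb (LaurentSeries Qb) := modularFunctionFieldBar N

/-- The ring of reductions `k((q))`, `k` the residue field of `A`. -/
abbrev Kr (A : ValuationSubring Qb) : Type := LaurentSeries (IsLocalRing.ResidueField A)

section Red

variable (N : ℕ) (A : ValuationSubring Qb)

/-- `x` is Gauss-integral with reduction `ξ`: `x = U / W` with `U, W` integral `q`-series of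
`Fb N`, `red W ≠ 0` and `ξ * red W = red U`. -/
def Red (x : Fb N) (ξ : Kr A) : Prop :=
  ∃ U W : LaurentSeries A, Congr.incl A U ∈ Fb N ∧ Congr.incl A W ∈ Fb N ∧
    (x : LaurentSeries Qb) * Congr.incl A W = Congr.incl A U ∧ Congr.red A W ≠ 0 ∧
    ξ * Congr.red A W = Congr.red A U

variable {N A}

theorem red_zero : Red N A 0 0 :=
  ⟨0, 1, by rw [map_zero]; exact zero_mem _, by rw [map_one]; exact one_mem _,
    by rw [map_zero, map_one, mul_one]; rfl, by rw [map_one]; exact one_ne_zero,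
    by rw [map_zero, zero_mul]⟩

theorem red_one : Red N A 1 1 :=
  ⟨1, 1, by rw [map_one]; exact one_mem _, by rw [map_one]; exact one_mem _,
    by rw [map_one, mul_one]; rfl, by rw [map_one]; exact one_ne_zero,
    by rw [map_one, mul_one]⟩

theorem red_add {x y : Fb N} {ξ η : Kr A} (hx : Red N A x ξ) (hy : Red N A y η) :
    Red N A (x + y) (ξ + η) := by
  obtain ⟨U, W, hU, hW, hxW, hW0, hξ⟩ := hx
  obtain ⟨U', W', hU', hW', hyW, hW0', hη⟩ := hy
  refine ⟨U * W' + U' * W, W * W', ?_, ?_, ?_, ?_, ?_⟩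
  · rw [map_add, map_mul, map_mul]
    exact add_mem (mul_mem hU hW') (mul_mem hU' hW)
  · rw [map_mul]; exact mul_mem hW hW'
  · rw [map_add, map_mul, map_mul, map_mul, ← hxW, ← hyW]
    push_cast
    ring
  · rw [map_mul]; exact mul_ne_zero hW0 hW0'
  · rw [map_add, map_mul, map_mul, map_mul, ← hξ, ← hη]
    ring

theorem red_neg {x : Fb N} {ξ : Kr A} (hx : Red N A x ξ) : Red N A (-x) (-ξ) := by
  obtain ⟨U, W, hU, hW, hxW, hW0, hξ⟩ := hx
  refine ⟨-U, W, ?_, hW, ?_, hW0, ?_⟩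
  · rw [map_neg]; exact neg_mem hU
  · rw [map_neg, ← hxW]
    push_cast
    ring
  · rw [map_neg, ← hξ]; ring

theorem red_mul {x y : Fb N} {ξ η : Kr A} (hx : Red N A x ξ) (hy : Red N A y η) :
    Red N A (x * y) (ξ * η) := by
  obtain ⟨U, W, hU, hW, hxW, hW0, hξ⟩ := hx
  obtain ⟨U', W', hU', hW', hyW, hW0', hη⟩ := hy
  refine ⟨U * U', W * W', ?_, ?_, ?_, ?_, ?_⟩
  · rw [map_mul]; exact mul_mem hU hU'
  · rw [map_mul]; exact mul_mem hW hW'
  · rw [map_mul, map_mul, ← hxW, ← hyW]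
    push_cast
    ring
  · rw [map_mul]; exact mul_ne_zero hW0 hW0'
  · rw [map_mul, map_mul, ← hξ, ← hη]
    ring

/-- If `x ≠ 0` is Gauss-integral with reduction `ξ` and `ξ = 0`... (not needed) -/
theorem red_of_frac {U W : LaurentSeries A} (hU : Congr.incl A U ∈ Fb N)
    (hW : Congr.incl A W ∈ Fb N) (hW0 : Congr.red A W ≠ 0) {x : Fb N}
    (hx : (x : LaurentSeries Qb) * Congr.incl A W = Congr.incl A U) :
    Red N A x (Congr.red A U / Congr.red A W) :=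
  ⟨U, W, hU, hW, hx, hW0, div_mul_cancel₀ _ hW0⟩

/-- A Gauss-integral element with a reduction is zero only if its reduction is zero. -/
theorem red_zero_eq {ξ : Kr A} (h : Red N A 0 ξ) : ξ = 0 := by
  obtain ⟨U, W, _, _, hxW, hW0, hξ⟩ := h
  have hU : U = 0 := Congr.incl_injective A (by
    rw [← hxW, map_zero]
    show ((0 : Fb N) : LaurentSeries Qb) * Congr.incl A W = 0
    rw [ZeroMemClass.coe_zero, zero_mul])
  rw [hU, map_zero] at hξ
  exact (mul_eq_zero.1 hξ).resolve_right hW0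

end Red

/-! ### Galois and Hecke on the Gauss relation -/

section Galois

variable {N : ℕ} {A : ValuationSubring Qb}

/-- The Galois action of the decomposition group on a fraction of integral `q`-series. -/
theorem gal_cross (s : A.decompositionSubgroup ℚ) {x : Fb N} {U W : LaurentSeries A}
    (hx : (x : LaurentSeries Qb) * Congr.incl A W = Congr.incl A U) :
    ((E4.gal N (s : Gq) x : Fb N) : LaurentSeries Qb) * Congr.incl A (Congr.actA A s W) =
      Congr.incl A (Congr.actA A s U) := by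
  rw [Congr.incl_actA, Congr.incl_actA, ← hx, map_mul]
  rfl

theorem incl_actA_mem (s : A.decompositionSubgroup ℚ) {U : LaurentSeries A}
    (hU : Congr.incl A U ∈ Fb N) : Congr.incl A (Congr.actA A s U) ∈ Fb N := by
  have h : Congr.incl A (Congr.actA A s U) =
      ((E4.gal N (s : Gq) (⟨_, hU⟩ : Fb N) : Fb N) : LaurentSeries Qb) := by
    rw [Congr.incl_actA]
    rfl
  rw [h]
  exact (E4.gal N (s : Gq) (⟨_, hU⟩ : Fb N)).2

/-- Inertia acts trivially on reductions. -/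
theorem red_gal_inertia {τ : Gq} (hτ : τ ∈ A.inertiaSubgroupIn ℚ) {x : Fb N} {ξ : Kr A}
    (h : Red N A x ξ) : Red N A (E4.gal N τ x) ξ := by
  obtain ⟨hτd, hτr⟩ := Congr.exists_red_actA_inertia A hτ
  obtain ⟨U, W, hU, hW, hxW, hW0, hξ⟩ := h
  refine ⟨Congr.actA A ⟨τ, hτd⟩ U, Congr.actA A ⟨τ, hτd⟩ W, incl_actA_mem ⟨τ, hτd⟩ hU,
    incl_actA_mem ⟨τ, hτd⟩ hW, gal_cross ⟨τ, hτd⟩ hxW, ?_, ?_⟩
  · rw [hτr]; exact hW0
  · rw [hτr, hτr]; exact hξ

/-- A Frobenius acts on reductions by the coefficientwise Frobenius. -/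
theorem red_gal_frob {ℓ : ℕ} [Fact ℓ.Prime] [CharP (IsLocalRing.ResidueField A) ℓ]
    (hA : A.LiesOverPrime ℓ) {σ : Gq}
    (hσ : A.IsFrobeniusAt σ ℓ) {x : Fb N} {ξ : Kr A} (h : Red N A x ξ) :
    Red N A (E4.gal N σ x)
      (coeffMap (frobenius (IsLocalRing.ResidueField A) ℓ) ξ) := by
  obtain ⟨U, W, hU, hW, hxW, hW0, hξ⟩ := h
  set s : A.decompositionSubgroup ℚ := ⟨σ, hσ.mem_decompositionSubgroup⟩ with hs
  refine ⟨Congr.actA A s U, Congr.actA A s W, incl_actA_mem s hU, incl_actA_mem s hW,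
    gal_cross s hxW, Congr.red_actA_ne_zero A hA hσ hW0, ?_⟩
  rw [Congr.red_actA_frob A hσ, Congr.red_actA_frob A hσ, ← map_mul, hξ]

/-- **Kronecker congruence on the Gauss relation**: `red (T_ℓ (σ x)) = (red x) ^ ℓ * φ² (red x)`
for `σ` a Frobenius at `A`. -/
theorem red_heckeT_gal {ℓ : ℕ} [NeZero N] [NeZero ℓ] [Fact ℓ.Prime]
    [CharP (IsLocalRing.ResidueField A) ℓ] (hℓ : ℓ.Prime) (hℓN : ¬ ℓ ∣ N)
    (hA : A.LiesOverPrime ℓ) {σ : Gq} (hσ : A.IsFrobeniusAt σ ℓ) {x : Fb N} {ξ : Kr A}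
    (h : Red N A x ξ) :
    Red N A (HeckeDivQ.heckeT N ℓ (E4.gal N σ x))
      (ξ ^ ℓ * coeffMap (frobenius (IsLocalRing.ResidueField A) ℓ)
        (coeffMap (frobenius (IsLocalRing.ResidueField A) ℓ) ξ)) := by
  -- a primitive `ℓ`-th root of unity
  obtain ⟨ζ, hζ⟩ := HasEnoughRootsOfUnity.exists_primitiveRoot Qb ℓ
  set z : Qbˣ := (hζ.isUnit hℓ.ne_zero).unit with hzdef
  have hz : IsPrimitiveRoot z ℓ := IsPrimitiveRoot.coe_units_iff.1 (by
    rw [hzdef, IsUnit.unit_spec]; exact hζ)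
  have hz1 : (z : Qb) ^ ℓ = 1 := by
    have h := congrArg Units.val hz.pow_eq_one
    rwa [Units.val_pow_eq_pow_val, Units.val_one] at h
  obtain ⟨U, W, hU, hW, hxW, hW0, hξ⟩ := h
  set s : A.decompositionSubgroup ℚ := ⟨σ, hσ.mem_decompositionSubgroup⟩ with hs
  set U' : Fb N := ⟨_, hU⟩ with hU'
  set W' : Fb N := ⟨_, hW⟩ with hW'
  have hxW' : x * W' = U' := Subtype.ext hxW
  -- the integral series of `T (σ U)`, `T (σ W)`
  have hT : ∀ (V : LaurentSeries A) (hV : Congr.incl A V ∈ Fb N),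
      Congr.incl A (Congr.heckeMul ℓ hℓ.pos (Congr.unitA A hℓ.pos hz1) (Congr.actA A s V)) =
        ((HeckeDivQ.heckeT N ℓ (E4.gal N σ (⟨_, hV⟩ : Fb N)) : Fb N) : LaurentSeries Qb) := by
    intro V hV
    rw [Congr.incl_heckeMul A hℓ.pos z hz1, HeckeDivQ.coe_heckeT N ℓ hℓ hℓN z hz,
      Congr.incl_actA]
    rfl
  refine ⟨Congr.heckeMul ℓ hℓ.pos (Congr.unitA A hℓ.pos hz1) (Congr.actA A s U),
    Congr.heckeMul ℓ hℓ.pos (Congr.unitA A hℓ.pos hz1) (Congr.actA A s W), ?_, ?_, ?_, ?_, ?_⟩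
  · rw [hT U hU]; exact (HeckeDivQ.heckeT N ℓ (E4.gal N σ U')).2
  · rw [hT W hW]; exact (HeckeDivQ.heckeT N ℓ (E4.gal N σ W')).2
  · rw [hT U hU, hT W hW]
    have h1 : HeckeDivQ.heckeT N ℓ (E4.gal N σ x) * HeckeDivQ.heckeT N ℓ (E4.gal N σ W') =
        HeckeDivQ.heckeT N ℓ (E4.gal N σ U') := by
      rw [← HeckeDivQ.heckeT_mul, ← map_mul, hxW']
    exact congrArg Subtype.val h1
  · rw [Congr.red_heckeMul_frob A hℓ.pos hA hz1 hσ]
    exact mul_ne_zero (pow_ne_zero _ hW0)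
      (Congr.red_actA_ne_zero A hA hσ (Congr.red_actA_ne_zero A hA hσ hW0))
  · rw [Congr.red_heckeMul_frob A hℓ.pos hA hz1 hσ, Congr.red_heckeMul_frob A hℓ.pos hA hz1 hσ,
      Congr.red_actA_frob A hσ, Congr.red_actA_frob A hσ, Congr.red_actA_frob A hσ,
      Congr.red_actA_frob A hσ, ← hξ]
    simp only [map_mul]
    ring

theorem heckeT_zero {ℓ : ℕ} [NeZero N] [NeZero ℓ] (hℓ : ℓ.Prime) (hℓN : ¬ ℓ ∣ N) :
    HeckeDivQ.heckeT N ℓ (0 : Fb N) = 0 := by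
  obtain ⟨ζ, hζ⟩ := HasEnoughRootsOfUnity.exists_primitiveRoot Qb ℓ
  set z : Qbˣ := (hζ.isUnit hℓ.ne_zero).unit with hzdef
  have hz : IsPrimitiveRoot z ℓ := IsPrimitiveRoot.coe_units_iff.1 (by
    rw [hzdef, IsUnit.unit_spec]; exact hζ)
  apply Subtype.ext
  rw [HeckeDivQ.coe_heckeT N ℓ hℓ hℓN z hz]
  show Congr.heckeMul ℓ hℓ.pos z (0 : LaurentSeries Qb) = 0
  unfold Congr.heckeMul
  rw [map_zero, zero_mul]

end Galois

/-! ### The modules `Mod S D` and the machine of a chart -/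

section Mod

variable (N : ℕ) (A : ValuationSubring Qb) (S : Set (Place Qb (Fb N)))

/-- The elements `x` of the Gauss valuation ring with `x = 0` or `ord_P x ≥ D P` for all
`P ∈ S`. -/
def Mod (D : Divisor Qb (Fb N)) : AddSubgroup (Fb N) where
  carrier := {x | (∃ ξ : Kr A, Red N A x ξ) ∧ (x = 0 ∨ ∀ P ∈ S, D P ≤ P.ord x)}
  zero_mem' := ⟨⟨0, red_zero⟩, Or.inl rfl⟩
  add_mem' := by
    rintro x y ⟨⟨ξ, hξ⟩, hx⟩ ⟨⟨η, hη⟩, hy⟩
    refine ⟨⟨ξ + η, red_add hξ hη⟩, ?_⟩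
    by_cases hxy : x + y = 0
    · exact Or.inl hxy
    right
    intro P hP
    rcases hx with rfl | hx
    · rcases hy with rfl | hy
      · exact absurd (add_zero 0) hxy
      · rw [zero_add]; exact hy P hP
    rcases hy with rfl | hy
    · rw [add_zero]; exact hx P hP
    exact le_trans (le_min (hx P hP) (hy P hP)) (Fermat.Agent.S24.FF.ord_add_ge P hxy)
  neg_mem' := by
    rintro x ⟨⟨ξ, hξ⟩, hx⟩
    refine ⟨⟨-ξ, red_neg hξ⟩, ?_⟩
    rcases hx with rfl | hx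
    · exact Or.inl neg_zero
    · right
      intro P hP
      rw [Fermat.Agent.S24.FF.ord_neg]
      exact hx P hP

variable {N A S}

theorem mem_Mod {D : Divisor Qb (Fb N)} {x : Fb N} :
    x ∈ Mod N A S D ↔ (∃ ξ : Kr A, Red N A x ξ) ∧ (x = 0 ∨ ∀ P ∈ S, D P ≤ P.ord x) := Iff.rfl

theorem one_mem_Mod : (1 : Fb N) ∈ Mod N A S 0 := by
  refine ⟨⟨1, red_one⟩, Or.inr fun P _ => ?_⟩
  rw [Place.ord_one]
  exact le_refl _

theorem mul_mem_Mod {D D' : Divisor Qb (Fb N)} {x y : Fb N} (hx : x ∈ Mod N A S D)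
    (hy : y ∈ Mod N A S D') : x * y ∈ Mod N A S (D + D') := by
  obtain ⟨⟨ξ, hξ⟩, hx⟩ := hx
  obtain ⟨⟨η, hη⟩, hy⟩ := hy
  refine ⟨⟨ξ * η, red_mul hξ hη⟩, ?_⟩
  rcases hx with rfl | hx
  · exact Or.inl (zero_mul y)
  rcases hy with rfl | hy
  · exact Or.inl (mul_zero x)
  by_cases hx0 : x = 0
  · exact Or.inl (by rw [hx0, zero_mul])
  by_cases hy0 : y = 0
  · exact Or.inl (by rw [hy0, mul_zero])
  right
  intro P hP
  rw [P.ord_mul hx0 hy0, Finsupp.add_apply]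
  exact add_le_add (hx P hP) (hy P hP)

variable (N A S)

/-- The unit-witness machine of the chart `S`. -/
def machine : UnitWitness.Machine (Fb N) (Kr A) (Divisor Qb (Fb N)) where
  M := Mod N A S
  Red := Red N A
  one_mem := one_mem_Mod
  mul_mem := mul_mem_Mod
  red_zero := red_zero
  red_one := red_one
  red_add := red_add
  red_neg := red_neg
  red_mul := red_mul

end Mod

/-! ### `Inv` for all divisors from `Inv` at the places -/

theorem inv_of_single {L κ ι : Type*} [CommRing L] [CommRing κ]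
    (𝔐 : UnitWitness.Machine L κ (ι →₀ ℤ)) (h : ∀ i : ι, 𝔐.Inv (Finsupp.single i 1))
    (D : ι →₀ ℤ) : 𝔐.Inv D := by
  classical
  have hn : ∀ (i : ι) (m : ℕ), 𝔐.Inv (Finsupp.single i (m : ℤ)) := by
    intro i m
    have h1 := UnitWitness.Machine.Inv.nsmul 𝔐 (h i) m
    have e : m • (Finsupp.single i (1 : ℤ)) = Finsupp.single i (m : ℤ) := by
      rw [Finsupp.smul_single, nsmul_eq_mul, mul_one]
    rwa [e] at h1
  induction D using Finsupp.induction with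
  | zero => exact 𝔐.inv_zero
  | single_add i n D _ _ ih =>
    refine UnitWitness.Machine.Inv.add 𝔐 ?_ ih
    obtain ⟨m, rfl | rfl⟩ := Int.eq_nat_or_neg n
    · exact hn i m
    · have h1 := UnitWitness.Machine.Inv.neg 𝔐 (hn i m)
      rwa [← Finsupp.single_neg] at h1

/-! ### `D0 ≤ Kred` -/

section Main

variable (N ℓ : ℕ) [NeZero N] [NeZero ℓ]

/-- The Galois action on places of `Fb N`. -/
abbrev gP (σ : Gq) : SemilinearAut Qb (Fb N) := arithmeticGalois (modularFunctionFieldFull N) σ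

variable {N ℓ}

/-- Galois transport of the modules `Mod S D`, for a chart stable under the decomposition
group. -/
theorem gal_mem_Mod {A : ValuationSubring Qb} {S : Set (Place Qb (Fb N))}
    (hgal : ∀ σ ∈ A.decompositionSubgroup ℚ, ∀ P ∈ S, gP N σ • P ∈ S)
    {σ : Gq} (hσ : σ ∈ A.decompositionSubgroup ℚ) {ξ' : Kr A → Kr A}
    (hR : ∀ (x : Fb N) (ξ : Kr A), Red N A x ξ → Red N A (E4.gal N σ x) (ξ' ξ))
    (D : Divisor Qb (Fb N)) (x : Fb N) (hx : x ∈ Mod N A S D) :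
    E4.gal N σ x ∈ Mod N A S (gP N σ • D) := by
  obtain ⟨⟨ξ, hξ⟩, hx⟩ := hx
  refine ⟨⟨ξ' ξ, hR x ξ hξ⟩, ?_⟩
  rcases hx with rfl | hx
  · exact Or.inl (map_zero _)
  right
  intro P hP
  have hinv : (gP N σ)⁻¹ • P ∈ S := by
    have h1 : (gP N σ)⁻¹ = gP N σ⁻¹ := (map_inv _ σ).symm
    rw [h1]
    exact hgal σ⁻¹ (inv_mem hσ) P hP
  have h1 : (gP N σ • ((gP N σ)⁻¹ • P)).ord (gP N σ • x) = ((gP N σ)⁻¹ • P).ord x :=
    SemilinearAut.ord_smul (gP N σ) ((gP N σ)⁻¹ • P) x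
  rw [smul_inv_smul] at h1
  have h2 : gP N σ • x = E4.gal N σ x := rfl
  rw [SemilinearAut.divisor_smul_apply, ← h2, h1]
  exact hx _ hinv

/-- **`D0 ≤ Kred`**: inertia coboundaries and Eichler–Shimura divisors have unit witnesses on a
chart `S` which is stable under the decomposition group and under `T_ℓ`, and along which every
place is invertible. -/
theorem D0_le_Kred (h : HeckeInputsAlong Qb N ℓ) (A : ValuationSubring Qb) (σ₀ : Gq)
    (hℓ : ℓ.Prime) (hℓN : ¬ ℓ ∣ N) (hA : A.LiesOverPrime ℓ) (hσ₀ : A.IsFrobeniusAt σ₀ ℓ)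
    (S : Set (Place Qb (Fb N)))
    (hgal : ∀ σ ∈ A.decompositionSubgroup ℚ, ∀ P ∈ S, gP N σ • P ∈ S)
    (hT : ∀ (D : Divisor Qb (Fb N)) (x : Fb N), x ≠ 0 → (∀ P ∈ S, D P ≤ P.ord x) →
      ∀ P ∈ S, Kummer.heckeDiv N ℓ h D P ≤ P.ord (HeckeDivQ.heckeT N ℓ x))
    (hInv : ∀ P : Place Qb (Fb N), (machine N A S).Inv (Finsupp.single P 1)) :
    Kummer.D0 N ℓ h A σ₀ ≤ (machine N A S).Kred := by
  haveI : Fact ℓ.Prime := ⟨hℓ⟩
  haveI := Congr.charP_residue A hA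
  have hInvAll : ∀ D : Divisor Qb (Fb N), (machine N A S).Inv D :=
    fun D => inv_of_single (machine N A S) hInv D
  have hσ₀d : σ₀ ∈ A.decompositionSubgroup ℚ := hσ₀.mem_decompositionSubgroup
  unfold Kummer.D0
  rw [AddSubgroup.closure_le]
  rintro D (⟨τ, hτ, E, rfl⟩ | ⟨E, rfl⟩)
  · -- inertia
    obtain ⟨hτd, -⟩ := Congr.exists_red_actA_inertia A hτ
    exact (machine N A S).act_sub_mem_Kred ((E4.gal N τ : Fb N ≃+* Fb N) : Fb N →+* Fb N)
      (DistribSMul.toAddMonoidHom (Divisor Qb (Fb N)) (gP N τ))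
      (fun D x hx => gal_mem_Mod hgal hτd (ξ' := id) (fun x ξ hx => red_gal_inertia hτ hx) D x hx)
      (fun x ξ hx => red_gal_inertia hτ hx) (hInvAll E)
  · -- Eichler–Shimura
    set φ : Kr A →+* Kr A := coeffMap (frobenius (IsLocalRing.ResidueField A) ℓ) with hφ
    have key := (machine N A S).es_mem_Kred ((E4.gal N σ₀ : Fb N ≃+* Fb N) : Fb N →+* Fb N)
      (DistribSMul.toAddMonoidHom (Divisor Qb (Fb N)) (gP N σ₀)) φ
      (fun x => HeckeDivQ.heckeT N ℓ (E4.gal N σ₀ x))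
      ((Kummer.heckeDiv N ℓ h).comp
        (DistribSMul.toAddMonoidHom (Divisor Qb (Fb N)) (gP N σ₀))) ℓ
      (fun D x hx => gal_mem_Mod hgal hσ₀d (ξ' := φ)
        (fun x ξ hx => red_gal_frob hA hσ₀ hx) D x hx)
      (fun x ξ hx => red_gal_frob hA hσ₀ hx)
      (fun D x hx => by
        have hgx : E4.gal N σ₀ x ∈ Mod N A S (gP N σ₀ • D) :=
          gal_mem_Mod hgal hσ₀d (ξ' := φ) (fun x ξ hx => red_gal_frob hA hσ₀ hx) D x hx
        obtain ⟨⟨ξ, hξ⟩, -⟩ := hx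
        refine ⟨⟨_, red_heckeT_gal hℓ hℓN hA hσ₀ hξ⟩, ?_⟩
        rcases hgx.2 with h0 | hord
        · left
          rw [h0]
          exact heckeT_zero hℓ hℓN
        · by_cases h0 : E4.gal N σ₀ x = 0
          · left
            rw [h0]
            exact heckeT_zero hℓ hℓN
          · right
            exact hT (gP N σ₀ • D) (E4.gal N σ₀ x) h0 hord)
      (fun x ξ hx => red_heckeT_gal hℓ hℓN hA hσ₀ hx) (hInvAll E)
    exact key

/-- **`Kummer.RED` from two charts.** -/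
theorem RED_of_charts (h : HeckeInputsAlong Qb N ℓ) (A : ValuationSubring Qb) (σ₀ : Gq)
    (hℓ : ℓ.Prime) (hℓN : ¬ ℓ ∣ N) (hA : A.LiesOverPrime ℓ) (hσ₀ : A.IsFrobeniusAt σ₀ ℓ)
    (hGN : E4.HasGaussNorm N A)
    (S₀ S₁ : Set (Place Qb (Fb N)))
    (hgal₀ : ∀ σ ∈ A.decompositionSubgroup ℚ, ∀ P ∈ S₀, gP N σ • P ∈ S₀)
    (hgal₁ : ∀ σ ∈ A.decompositionSubgroup ℚ, ∀ P ∈ S₁, gP N σ • P ∈ S₁)
    (hT₀ : ∀ (D : Divisor Qb (Fb N)) (x : Fb N), x ≠ 0 → (∀ P ∈ S₀, D P ≤ P.ord x) →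
      ∀ P ∈ S₀, Kummer.heckeDiv N ℓ h D P ≤ P.ord (HeckeDivQ.heckeT N ℓ x))
    (hT₁ : ∀ (D : Divisor Qb (Fb N)) (x : Fb N), x ≠ 0 → (∀ P ∈ S₁, D P ≤ P.ord x) →
      ∀ P ∈ S₁, Kummer.heckeDiv N ℓ h D P ≤ P.ord (HeckeDivQ.heckeT N ℓ x))
    (hInv₀ : ∀ P : Place Qb (Fb N), (machine N A S₀).Inv (Finsupp.single P 1))
    (hInv₁ : ∀ P : Place Qb (Fb N), (machine N A S₁).Inv (Finsupp.single P 1))
    (t s : Kr A) (hts : t * s = 1) (ht : t.order < 0)
    (hInt₀ : ∀ (x : Fb N) (ξ : Kr A), x ∈ Mod N A S₀ 0 → Red N A x ξ →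
      IsIntegral (Algebra.adjoin (IsLocalRing.ResidueField A) {t}) ξ)
    (hInt₁ : ∀ (x : Fb N) (ξ : Kr A), x ∈ Mod N A S₁ 0 → Red N A x ξ →
      ∃ G : Polynomial (IsLocalRing.ResidueField A), G.eval 0 ≠ 0 ∧
        IsIntegral (Algebra.adjoin (IsLocalRing.ResidueField A) {s})
          (ξ * Polynomial.aeval s G)) :
    Kummer.RED N ℓ h A σ₀ := by
  intro f hf ⟨D, hD0, hD⟩
  have hK₀ := D0_le_Kred h A σ₀ hℓ hℓN hA hσ₀ S₀ hgal₀ hT₀ hInv₀ hD0
  have hK₁ := D0_le_Kred h A σ₀ hℓ hℓN hA hσ₀ S₁ hgal₁ hT₁ hInv₁ hD0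
  obtain ⟨c, P, Q, hP, hQ, hc, hP0, hQ0, hfPQ⟩ := hGN f hf
  set P' : Fb N := ⟨_, hP⟩ with hP'
  set Q' : Fb N := ⟨_, hQ⟩ with hQ'
  have hP'0 : P' ≠ 0 := Kummer.ne_zero_of_red_ne_zero A hP hP0
  have hQ'0 : Q' ≠ 0 := Kummer.ne_zero_of_red_ne_zero A hQ hQ0
  have hc' : algebraMap Qb (Fb N) c ≠ 0 := (map_ne_zero (algebraMap Qb (Fb N))).2 hc
  -- the Gauss-normalised function `f₀ = P / Q`
  obtain ⟨f₀, hf₀⟩ : ∃ f₀ : Fb N, f₀ = P' / Q' := ⟨_, rfl⟩
  have hf₀Q : f₀ * Q' = P' := by rw [hf₀]; exact div_mul_cancel₀ _ hQ'0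
  have hf₀0 : f₀ ≠ 0 := by rw [hf₀]; exact div_ne_zero hP'0 hQ'0
  have hff₀ : f = algebraMap Qb (Fb N) c * f₀ := by
    have h1 : f * Q' = (algebraMap Qb (Fb N) c * f₀) * Q' := by rw [hfPQ, mul_assoc, hf₀Q]
    exact mul_right_cancel₀ hQ'0 h1
  set ξ : Kr A := Congr.red A P / Congr.red A Q with hξ
  have hξQ : ξ * Congr.red A Q = Congr.red A P := div_mul_cancel₀ _ hQ0
  have hRed : Red N A f₀ ξ := red_of_frac hP hQ hQ0 (congrArg Subtype.val hf₀Q)
  have hord : ∀ Pl : Place Qb (Fb N), Pl.ord f₀ = D Pl := by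
    intro Pl
    rw [hD Pl, hff₀, Pl.ord_mul hc' hf₀0, Kummer.ord_algebraMap_eq_zero Pl hc, zero_add]
  -- `f₀ * Mod S (-D) ⊆ Mod S 0`
  have hmul : ∀ (S : Set (Place Qb (Fb N))) (y : Fb N), y ∈ Mod N A S (-D) →
      f₀ * y ∈ Mod N A S 0 := by
    rintro S y ⟨⟨η, hη⟩, hy⟩
    refine ⟨⟨ξ * η, red_mul hRed hη⟩, ?_⟩
    by_cases hy0 : y = 0
    · exact Or.inl (by rw [hy0, mul_zero])
    rcases hy with hy | hy
    · exact absurd hy hy0
    right
    intro Pl hPl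
    have h1 := hy Pl hPl
    rw [Finsupp.neg_apply] at h1
    rw [Pl.ord_mul hf₀0 hy0, hord Pl, Finsupp.zero_apply]
    linarith
  obtain ⟨x₀, hx₀, hx₀R⟩ := (machine N A S₀).red_mem_B hK₀ (f := f₀) (ξ := ξ) (hmul S₀) hRed
  obtain ⟨x₁, hx₁, hx₁R⟩ := (machine N A S₁).red_mem_B hK₁ (f := f₀) (ξ := ξ) (hmul S₁) hRed
  have hi₀ := hInt₀ x₀ ξ hx₀ hx₀R
  obtain ⟨G, hG, hi₁⟩ := hInt₁ x₁ ξ hx₁ hx₁R
  exact ConstEnd.red_of_integral N A f c hc P Q hP hQ hfPQ hP0 t s ξ hts ht hξQ hi₀ G hG hi₁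

end Main

end Fermat.Agent.S37.UnitRed
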