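/-
S37, (RED) endgame: the CONSTANT LEMMA.

* `exists_algebraMap_eq` (generic, Mathlib only): `k` algebraically closed, `t ∈ K` transcendental
  over `k`, `s = 1/t`.  If `x` is integral over `k[t]` and `x · G(s)` is integral over `k[s]` for
  some polynomial `G` with `G(0) ≠ 0`, then `x ∈ k`.
  ("A function regular on the affine `t`-line chart and at `t = ∞` is constant.")
  Proof: the minimal polynomial of `x` over `k(t)` has coefficients in `k[t]`; that of `x · G(s)`
  (the root-scaled polynomial) has coefficients in `k[s]`; compare, evaluate at `s = 0`.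
* `exists_C_eq` : the same in `k((q))` for `t` with a pole.
* `isAlgClosed_residueField` : the residue field of a valuation subring of an algebraically closed
  field is algebraically closed.
* `red_shape` / `red_of_integral` : the conclusion of `Kummer.RED` (`f = c · U / W` with
  `red U = red W ≠ 0`) from a Gauss normal form `f = c₀ · P / Q` whose reduction `red P / red Q`
  is regular on both charts.
-/
import Mathlib
import Fermat.Agent.S30.E4.Defs
import Fermat.Agent.S30.GaussBridge

set_option autoImplicit false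

namespace Fermat.Agent.S37.ConstEnd

open Polynomial IntermediateField

section Generic

variable {k K : Type*} [Field k] [Field K] [Algebra k K]

open scoped IntermediateField.algebraAdjoinAdjoin in
/-- The coefficients of the minimal polynomial over `k(t)` of an element integral over `k[t]`
are polynomials in `t` (`t` transcendental). -/
theorem coeff_minpoly_eq_aeval (F : IntermediateField k K) (t : K) (hF : F = k⟮t⟯)
    (ht : Transcendental k t) (x : K) (hx : IsIntegral (Algebra.adjoin k {t}) x) (i : ℕ) :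
    ∃ p : k[X], (((minpoly F x).coeff i : F) : K) = aeval t p := by
  subst hF
  have hinj : Function.Injective (aeval (R := k) t) := transcendental_iff_injective.1 ht
  have hrange : (aeval (R := k) t).range = Algebra.adjoin k {t} :=
    (Algebra.adjoin_singleton_eq_range_aeval k t).symm
  have hic : IsIntegrallyClosed (Algebra.adjoin k {t}) := by
    have e : k[X] ≃ₐ[k] Algebra.adjoin k {t} :=
      (AlgEquiv.ofInjective _ hinj).trans (Subalgebra.equivOfEq _ _ hrange)
    exact IsIntegrallyClosed.of_equiv e.toRingEquiv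
  have h := minpoly.isIntegrallyClosed_eq_field_fractions' (k⟮t⟯) hx
  rw [h, coeff_map]
  have hc : (((minpoly (Algebra.adjoin k {t}) x).coeff i : Algebra.adjoin k {t}) : K) ∈
      (aeval (R := k) t).range := by
    rw [hrange]
    exact ((minpoly (Algebra.adjoin k {t}) x).coeff i).2
  obtain ⟨p, hp⟩ := hc
  exact ⟨p, hp.symm⟩

/-- Minimal polynomial of a scalar multiple. -/
theorem minpoly_algebraMap_mul {F : Type*} [Field F] [Algebra F K] (g : F) (hg : g ≠ 0) (x : K)
    (hx : IsIntegral F x) :
    minpoly F (algebraMap F K g * x) = scaleRoots (minpoly F x) g := by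
  symm
  refine minpoly.unique F _ ?_ ?_ ?_
  · exact (monic_scaleRoots_iff g).2 (minpoly.monic hx)
  · exact scaleRoots_aeval_eq_zero (minpoly.aeval F x)
  · intro q hq hq0
    rw [degree_scaleRoots]
    have h1 : aeval x (scaleRoots q g⁻¹) = 0 := by
      have h2 := scaleRoots_aeval_eq_zero (r := g⁻¹) hq0
      rwa [← mul_assoc, ← map_mul, inv_mul_cancel₀ hg, map_one, one_mul] at h2
    have h3 := minpoly.min F x ((monic_scaleRoots_iff g⁻¹).2 hq) h1
    rwa [degree_scaleRoots] at h3

open scoped IntermediateField.algebraAdjoinAdjoin in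
/-- **Constant lemma.**  `x` integral over `k[t]`, and `x · G(1/t)` integral over `k[1/t]` with
`G(0) ≠ 0` (`t` transcendental over the algebraically closed field `k`): then `x ∈ k`. -/
theorem exists_algebraMap_eq [IsAlgClosed k] (t s : K) (hts : t * s = 1)
    (ht : Transcendental k t) (x : K) (hx : IsIntegral (Algebra.adjoin k {t}) x)
    (G : k[X]) (hG : G.eval 0 ≠ 0)
    (hy : IsIntegral (Algebra.adjoin k {s}) (x * aeval s G)) :
    ∃ c : k, algebraMap k K c = x := by
  have ht0 : t ≠ 0 := left_ne_zero_of_mul_eq_one hts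
  have hs0 : s ≠ 0 := right_ne_zero_of_mul_eq_one hts
  have hst : s = t⁻¹ := eq_inv_of_mul_eq_one_right hts
  have hts' : t = s⁻¹ := eq_inv_of_mul_eq_one_left hts
  -- `s` is transcendental
  have hs : Transcendental k s := by
    intro hsa
    apply ht
    rw [hts']
    exact hsa.inv
  have hinj : Function.Injective (aeval (R := k) s) := transcendental_iff_injective.1 hs
  -- the field `F = k(t) = k(s)`
  have hF : k⟮t⟯ = k⟮s⟯ := by
    apply le_antisymm
    · rw [adjoin_simple_le_iff, hts']
      exact inv_mem (mem_adjoin_simple_self k s)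
    · rw [adjoin_simple_le_iff, hst]
      exact inv_mem (mem_adjoin_simple_self k t)
  -- `x` is integral over `F`
  have hxF : IsIntegral k⟮t⟯ x := hx.tower_top
  -- `g = G(s)` as an element of `F`
  have hG0 : G ≠ 0 := by
    rintro rfl
    simp at hG
  have hgmem : aeval s G ∈ k⟮t⟯ := by
    rw [hF]
    exact algebra_adjoin_le_adjoin k {s} (aeval_mem_adjoin_singleton k s)
  have hg0 : (⟨aeval s G, hgmem⟩ : k⟮t⟯) ≠ 0 := by
    intro h
    have h1 : aeval s G = 0 := congrArg Subtype.val h
    exact hG0 (hinj (by rw [h1, map_zero]))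
  have hyF : x * aeval s G = algebraMap k⟮t⟯ K ⟨aeval s G, hgmem⟩ * x := by
    rw [mul_comm]
    rfl
  have hmin : minpoly k⟮t⟯ (x * aeval s G) =
      scaleRoots (minpoly k⟮t⟯ x) ⟨aeval s G, hgmem⟩ := by
    rw [hyF]
    exact minpoly_algebraMap_mul _ hg0 x hxF
  -- the coefficients of the minimal polynomial of `x` over `F` are constants
  have hcoeff : ∀ i, ∃ c : k,
      (((minpoly k⟮t⟯ x).coeff i : k⟮t⟯) : K) = algebraMap k K c := by
    intro i
    obtain ⟨p, hp⟩ := coeff_minpoly_eq_aeval k⟮t⟯ t rfl ht x hx i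
    obtain ⟨b, hb⟩ := coeff_minpoly_eq_aeval k⟮t⟯ s hF hs (x * aeval s G) hy i
    rw [hmin, coeff_scaleRoots] at hb
    have hb' : (((minpoly k⟮t⟯ x).coeff i : k⟮t⟯) : K) *
        aeval s G ^ ((minpoly k⟮t⟯ x).natDegree - i) = aeval s b := by
      rw [← hb]
      rfl
    by_cases hp0 : p.natDegree = 0
    · obtain ⟨c, hc⟩ := natDegree_eq_zero.1 hp0
      refine ⟨c, ?_⟩
      rw [hp, ← hc, aeval_C]
    · exfalso
      have h1 : aeval s p.reverse * t ^ p.natDegree = aeval t p := by
        have hinv : Invertible t := invertibleOfNonzero ht0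
        have h := eval₂_reverse_mul_pow (algebraMap k K) t p
        rwa [invOf_eq_inv, ← hst] at h
      have h2 : aeval s (p.reverse * G ^ ((minpoly k⟮t⟯ x).natDegree - i)) =
          aeval s (b * X ^ p.natDegree) := by
        rw [map_mul, map_mul, map_pow, map_pow, aeval_X, ← hb', hp, ← h1]
        have h3 : t ^ p.natDegree * s ^ p.natDegree = 1 := by
          rw [← mul_pow, hts, one_pow]
        calc aeval s p.reverse * aeval s G ^ ((minpoly k⟮t⟯ x).natDegree - i)
            = aeval s p.reverse * aeval s G ^ ((minpoly k⟮t⟯ x).natDegree - i) *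
                (t ^ p.natDegree * s ^ p.natDegree) := by rw [h3, mul_one]
          _ = aeval s p.reverse * t ^ p.natDegree *
                aeval s G ^ ((minpoly k⟮t⟯ x).natDegree - i) * s ^ p.natDegree := by ring
      have h4 := congrArg (eval 0) (hinj h2)
      rw [eval_mul, eval_mul, eval_pow, eval_pow, eval_X, zero_pow hp0, mul_zero,
        ← coeff_zero_eq_eval_zero, coeff_zero_reverse] at h4
      rcases mul_eq_zero.1 h4 with h5 | h5
      · apply hp0
        rw [leadingCoeff_eq_zero.1 h5, natDegree_zero]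
      · exact hG (eq_zero_of_pow_eq_zero h5)
  -- hence `x` is integral over `k`
  have hlift : (minpoly k⟮t⟯ x).map (algebraMap k⟮t⟯ K) ∈ lifts (algebraMap k K) := by
    rw [lifts_iff_coeff_lifts]
    intro i
    obtain ⟨c, hc⟩ := hcoeff i
    exact ⟨c, by rw [coeff_map, ← hc]; rfl⟩
  obtain ⟨q, hq, -, hqm⟩ := lifts_and_natDegree_eq_and_monic hlift ((minpoly.monic hxF).map _)
  have hxk : IsIntegral k x := by
    refine ⟨q, hqm, ?_⟩
    have h1 : eval x (q.map (algebraMap k K)) = 0 := by
      rw [hq, eval_map_algebraMap, minpoly.aeval]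
    rwa [eval_map] at h1
  have hdeg : (minpoly k x).degree = 1 :=
    IsAlgClosed.degree_eq_one_of_irreducible k (minpoly.irreducible hxk)
  exact minpoly.mem_range_of_degree_eq_one k x hdeg

end Generic

section Laurent

variable {k : Type*} [Field k]

/-- The constants of `k((q))`: `HahnSeries.C` is the structure map. -/
theorem C_eq_algebraMap_laurent :
    (HahnSeries.C : k →+* LaurentSeries k) = algebraMap k (LaurentSeries k) := by
  ext1 c
  rw [ModularCurve.algebraMap_laurentSeries_eq_single]
  rfl

/-- A Laurent series with a pole is transcendental over the constants. -/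
theorem transcendental_of_order_neg (t : LaurentSeries k) (ht : t.order < 0) :
    Transcendental k t := by
  rw [transcendental_iff]
  intro p hp
  refine Fermat.Agent.S30.GaussBridge.eval₂_C_eq_zero t ht p ?_
  rw [C_eq_algebraMap_laurent]
  exact (aeval_def t p).symm.trans hp

/-- **Constant lemma in `k((q))`.** -/
theorem exists_C_eq [IsAlgClosed k] (t s : LaurentSeries k) (hts : t * s = 1)
    (ht : t.order < 0) (x : LaurentSeries k) (hx : IsIntegral (Algebra.adjoin k {t}) x)
    (G : k[X]) (hG : G.eval 0 ≠ 0)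
    (hy : IsIntegral (Algebra.adjoin k {s}) (x * aeval s G)) :
    ∃ c : k, x = HahnSeries.C c := by
  obtain ⟨c, hc⟩ := exists_algebraMap_eq t s hts (transcendental_of_order_neg t ht) x hx G hG hy
  exact ⟨c, by rw [C_eq_algebraMap_laurent]; exact hc.symm⟩

end Laurent

section Residue

variable {K : Type*} [Field K] (A : ValuationSubring K)

/-- The residue field of a valuation subring of an algebraically closed field is algebraically
closed. -/
theorem isAlgClosed_residueField [IsAlgClosed K] : IsAlgClosed (IsLocalRing.ResidueField A) := by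
  refine IsAlgClosed.of_exists_root _ fun p hmonic hirr => ?_
  have hp : p ∈ Polynomial.lifts (IsLocalRing.residue A) :=
    (Polynomial.mem_lifts p).mpr
      (Polynomial.map_surjective _ (IsLocalRing.residue_surjective (R := A)) p)
  obtain ⟨q, hq, hqdeg, hqmonic⟩ := Polynomial.lifts_and_degree_eq_and_monic hp hmonic
  have hdeg : (q.map A.subtype).degree ≠ 0 := by
    rw [Polynomial.degree_map_eq_of_injective (Subtype.val_injective), hqdeg]
    exact (Polynomial.degree_pos_of_irreducible hirr).ne'
  obtain ⟨z, hz⟩ := IsAlgClosed.exists_root (q.map A.subtype) hdeg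
  have hint : IsIntegral A z := ⟨q, hqmonic, by
    rw [← Polynomial.eval_map]; exact hz⟩
  obtain ⟨z', rfl⟩ := IsIntegrallyClosed.isIntegral_iff.mp hint
  refine ⟨IsLocalRing.residue A z', ?_⟩
  rw [← hq, Polynomial.eval_map, Polynomial.eval₂_at_apply]
  have h0 : Polynomial.eval z' q = 0 := by
    apply Subtype.val_injective
    have h3 : Polynomial.eval (A.subtype z') (q.map A.subtype) = 0 := hz
    rw [Polynomial.eval_map, Polynomial.eval₂_at_apply] at h3
    exact h3
  rw [h0, map_zero]

end Residue

section Shape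

open Fermat.Agent.S30 Fermat.Agent.S30.E4

local notation "Qb" => AlgebraicClosure ℚ

variable (N : ℕ) (A : ValuationSubring Qb)

/-- **Shape lemma.**  A Gauss normal form `f · Q = c₀ · P` with `red P = a · red Q`, `a` a nonzero
constant, gives the conclusion of `Kummer.RED`. -/
theorem red_shape (f : Fb N) (c₀ : Qb) (hc₀ : c₀ ≠ 0) (P Q : LaurentSeries A)
    (hP : Congr.incl A P ∈ Fb N) (hQ : Congr.incl A Q ∈ Fb N)
    (hf : f * (⟨_, hQ⟩ : Fb N) = algebraMap Qb (Fb N) c₀ * (⟨_, hP⟩ : Fb N))
    (hP0 : Congr.red A P ≠ 0) (a : IsLocalRing.ResidueField A)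
    (hPQ : Congr.red A P = HahnSeries.C a * Congr.red A Q) :
    ∃ (c : Qb) (U W : LaurentSeries A) (hU : Congr.incl A U ∈ Fb N)
      (hW : Congr.incl A W ∈ Fb N),
      c ≠ 0 ∧ Congr.red A U = Congr.red A W ∧ Congr.red A U ≠ 0 ∧
        f * (⟨_, hW⟩ : Fb N) = algebraMap Qb (Fb N) c * (⟨_, hU⟩ : Fb N) := by
  obtain ⟨a', rfl⟩ := IsLocalRing.residue_surjective a
  have ha0 : (a' : Qb) ≠ 0 := by
    intro h
    have h1 : a' = 0 := Subtype.ext h
    apply hP0
    rw [hPQ, h1, map_zero, map_zero, zero_mul]
  have hincl : Congr.incl A (HahnSeries.C a' * Q) =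
      algebraMap Qb (LaurentSeries Qb) (a' : Qb) * Congr.incl A Q := by
    rw [map_mul, ModularCurve.algebraMap_laurentSeries_eq_single]
    congr 1
    exact ModularCurve.coeffMap_single _ 0 a'
  have hW : Congr.incl A (HahnSeries.C a' * Q) ∈ Fb N := by
    rw [hincl]
    exact mul_mem ((Fb N).algebraMap_mem _) hQ
  refine ⟨c₀ * a', P, HahnSeries.C a' * Q, hP, hW, mul_ne_zero hc₀ ha0, ?_, hP0, ?_⟩
  · rw [hPQ, map_mul]
    congr 1
    exact (ModularCurve.coeffMap_single _ 0 a').symm
  · have h1 : (⟨_, hW⟩ : Fb N) = algebraMap Qb (Fb N) (a' : Qb) * (⟨_, hQ⟩ : Fb N) :=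
      Subtype.ext hincl
    rw [h1, map_mul]
    calc f * (algebraMap Qb (Fb N) (a' : Qb) * (⟨_, hQ⟩ : Fb N))
        = algebraMap Qb (Fb N) (a' : Qb) * (f * (⟨_, hQ⟩ : Fb N)) := by ring
      _ = algebraMap Qb (Fb N) c₀ * algebraMap Qb (Fb N) (a' : Qb) * (⟨_, hP⟩ : Fb N) := by
          rw [hf]; ring

/-- **(RED) endgame.**  Let `f · Q = c₀ · P` be a Gauss normal form (`P, Q` integral `q`-series of
`Fb N` with nonzero reduction) and `x = red P / red Q`.  If `x` is integral over `k[t]` and
`x · G(s)` is integral over `k[s]`, where `t ∈ k((q))` has a pole, `t · s = 1` and `G(0) ≠ 0`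
(e.g. `t` the reduction of `j`), then `f = c · U / W` with `red U = red W ≠ 0`. -/
theorem red_of_integral (f : Fb N) (c₀ : Qb) (hc₀ : c₀ ≠ 0) (P Q : LaurentSeries A)
    (hP : Congr.incl A P ∈ Fb N) (hQ : Congr.incl A Q ∈ Fb N)
    (hf : f * (⟨_, hQ⟩ : Fb N) = algebraMap Qb (Fb N) c₀ * (⟨_, hP⟩ : Fb N))
    (hP0 : Congr.red A P ≠ 0)
    (t s x : LaurentSeries (IsLocalRing.ResidueField A)) (hts : t * s = 1) (ht : t.order < 0)
    (hxPQ : x * Congr.red A Q = Congr.red A P)
    (hx : IsIntegral (Algebra.adjoin (IsLocalRing.ResidueField A) {t}) x)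
    (G : (IsLocalRing.ResidueField A)[X]) (hG : G.eval 0 ≠ 0)
    (hy : IsIntegral (Algebra.adjoin (IsLocalRing.ResidueField A) {s}) (x * aeval s G)) :
    ∃ (c : Qb) (U W : LaurentSeries A) (hU : Congr.incl A U ∈ Fb N)
      (hW : Congr.incl A W ∈ Fb N),
      c ≠ 0 ∧ Congr.red A U = Congr.red A W ∧ Congr.red A U ≠ 0 ∧
        f * (⟨_, hW⟩ : Fb N) = algebraMap Qb (Fb N) c * (⟨_, hU⟩ : Fb N) := by
  have hk : IsAlgClosed (IsLocalRing.ResidueField A) := isAlgClosed_residueField A
  obtain ⟨a, rfl⟩ := exists_C_eq t s hts ht x hx G hG hy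
  exact red_shape N A f c₀ hc₀ P Q hP hQ hf hP0 a hxPQ.symm

end Shape

end Fermat.Agent.S37.ConstEnd
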