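/-
S37, (RED) endgame, wired into `Kummer.RED`:

`Kummer.RED N ℓ h A σ₀` holds as soon as every `f ≠ 0` with `div f ∈ D0` has a Gauss normal form
`f · Q = c₀ · P` (`P, Q` integral `q`-series of `Fb N`, `red P ≠ 0`) whose reduction
`x = red P / red Q ∈ k((q))` is regular on both charts of a line: `x` integral over `k[t]` and
`x · G(s)` integral over `k[s]` with `t · s = 1`, `t` with a pole, `G(0) ≠ 0`.
-/
import Fermat.Agent.S37.ConstEnd
import Fermat.Agent.S37.Kummer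

set_option autoImplicit false

namespace Fermat.Agent.S37.ConstEnd

open ModularCurve AlgebraicCurve Polynomial
open Fermat.Agent.S30 Fermat.Agent.S37

local notation "Qb" => AlgebraicClosure ℚ
local notation "Gq" => (AlgebraicClosure ℚ ≃ₐ[ℚ] AlgebraicClosure ℚ)

/-- **`Kummer.RED` from "the reduction is regular on both charts".** -/
theorem RED_of_integral (N ℓ : ℕ) [NeZero N] [NeZero ℓ] (h : HeckeInputsAlong Qb N ℓ)
    (A : ValuationSubring Qb) (σ₀ : Gq)
    (H : ∀ f : Kummer.Fb N, f ≠ 0 →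
      (∃ D ∈ Kummer.D0 N ℓ h A σ₀, ∀ P : Place Qb (Kummer.Fb N), D P = P.ord f) →
      ∃ (c₀ : Qb) (P Q : LaurentSeries A) (hP : Congr.incl A P ∈ Kummer.Fb N)
        (hQ : Congr.incl A Q ∈ Kummer.Fb N)
        (t s x : LaurentSeries (IsLocalRing.ResidueField A))
        (G : (IsLocalRing.ResidueField A)[X]),
        c₀ ≠ 0 ∧
        f * (⟨_, hQ⟩ : Kummer.Fb N) = algebraMap Qb (Kummer.Fb N) c₀ * (⟨_, hP⟩ : Kummer.Fb N) ∧
        Congr.red A P ≠ 0 ∧ t * s = 1 ∧ t.order < 0 ∧ x * Congr.red A Q = Congr.red A P ∧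
        IsIntegral (Algebra.adjoin (IsLocalRing.ResidueField A) {t}) x ∧ G.eval 0 ≠ 0 ∧
        IsIntegral (Algebra.adjoin (IsLocalRing.ResidueField A) {s}) (x * aeval s G)) :
    Kummer.RED N ℓ h A σ₀ := by
  intro f hf hD
  obtain ⟨c₀, P, Q, hP, hQ, t, s, x, G, hc₀, hfPQ, hP0, hts, ht, hx, hxi, hG, hyi⟩ := H f hf hD
  exact red_of_integral N A f c₀ hc₀ P Q hP hQ hfPQ hP0 t s x hts ht hx hxi G hG hyi

end Fermat.Agent.S37.ConstEnd
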