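/-
S37 (E7), row F12a: `Kummer.RED` from two unit-witness machines.

`UnitWitness.Machine` (helper282) is the abstract form of one chart of the function-only proof
of `(RED)`.  This file instantiates its two theorems (`act_sub_mem_Kred`, `es_mem_Kred`) on the
Prelude objects (`Kummer.gD`, `Kummer.heckeDiv`, `Kummer.D0`) and proves

* `mem_Kred_of_mem_D0` : for a machine `𝔐` on the divisors of `Fb N` satisfying the chart
  hypotheses `ChartHyp` (invertibility `Inv` at every place, compatibility with inertia, with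
  one Frobenius `σ₀` and with the Hecke operator), `D0 ≤ 𝔐.Kred`;
* `RED_of_machines` : `Kummer.RED N ℓ h A σ₀` from two such machines (the two charts) whose rings
  of reductions `B` consist of elements integral over `k[t]`, resp. (up to a denominator `G(s)`,
  `G(0) ≠ 0`) over `k[s]`, `t s = 1`, `t` with a pole.

No modular input: everything concrete (the modules `M_c(D)`, the Gauss ring, `INV`, `INT`) enters
through the hypotheses.
-/
import Fermat.Agent.S37.UnitWitness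
import Fermat.Agent.S37.ConstEndRED

set_option autoImplicit false
set_option linter.unusedSectionVars false
set_option linter.style.haveILetI false
set_option synthInstance.maxHeartbeats 400000
set_option maxHeartbeats 1000000

noncomputable section

namespace Fermat.Agent.S37.MachineRED

open ModularCurve AlgebraicCurve Polynomial
open Fermat.Agent.S30 Fermat.Agent.S37

local notation "Qb" => AlgebraicClosure ℚ
local notation "Gq" => (AlgebraicClosure ℚ ≃ₐ[ℚ] AlgebraicClosure ℚ)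

/-- The Galois action on divisors of `Fb N`, as an additive map. -/
def gDHom (N : ℕ) (σ : Gq) : Divisor Qb (Kummer.Fb N) →+ Divisor Qb (Kummer.Fb N) :=
  DistribSMul.toAddMonoidHom (Divisor Qb (Kummer.Fb N))
    (arithmeticGalois (modularFunctionFieldFull N) σ)

theorem gDHom_apply (N : ℕ) (σ : Gq) (D : Divisor Qb (Kummer.Fb N)) :
    gDHom N σ D = Kummer.gD N σ D := rfl

variable (N ℓ : ℕ) [NeZero N] [NeZero ℓ]

/-- The hypotheses on one chart: a machine `𝔐` on the divisors of `Fb N`, the endomorphism `φ`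
of the ring of reductions induced by the Frobenius `σ₀`, and the map `T = T_ℓ ∘ σ₀` on functions.
-/
structure ChartHyp (h : HeckeInputsAlong Qb N ℓ) (A : ValuationSubring Qb) (σ₀ : Gq)
    {κ : Type*} [CommRing κ]
    (𝔐 : UnitWitness.Machine (Kummer.Fb N) κ (Divisor Qb (Kummer.Fb N)))
    (φ : κ →+* κ) (T : Kummer.Fb N → Kummer.Fb N) : Prop where
  /-- `(INV_P)`: the module `M_c(P)` is invertible along the special fibre, for every place. -/
  inv : ∀ P : Place Qb (Kummer.Fb N), 𝔐.Inv (Finsupp.single P 1)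
  /-- inertia preserves the modules `M_c(D)` -/
  inertia_mem : ∀ τ ∈ A.inertiaSubgroupIn ℚ, ∀ (D : Divisor Qb (Kummer.Fb N)) (x : Kummer.Fb N),
    x ∈ 𝔐.M D → E4.gal N τ x ∈ 𝔐.M (Kummer.gD N τ D)
  /-- inertia acts trivially on reductions -/
  inertia_red : ∀ τ ∈ A.inertiaSubgroupIn ℚ, ∀ (x : Kummer.Fb N) (ξ : κ),
    𝔐.Red x ξ → 𝔐.Red (E4.gal N τ x) ξ
  /-- the Frobenius preserves the modules `M_c(D)` -/
  frob_mem : ∀ (D : Divisor Qb (Kummer.Fb N)) (x : Kummer.Fb N),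
    x ∈ 𝔐.M D → E4.gal N σ₀ x ∈ 𝔐.M (Kummer.gD N σ₀ D)
  /-- the Frobenius acts on reductions by `φ` -/
  frob_red : ∀ (x : Kummer.Fb N) (ξ : κ), 𝔐.Red x ξ → 𝔐.Red (E4.gal N σ₀ x) (φ ξ)
  /-- `T = T_ℓ ∘ σ₀` maps `M_c(D)` into `M_c(T_ℓ (σ₀ D))` -/
  hecke_mem : ∀ (D : Divisor Qb (Kummer.Fb N)) (x : Kummer.Fb N),
    x ∈ 𝔐.M D → T x ∈ 𝔐.M (Kummer.heckeDiv N ℓ h (Kummer.gD N σ₀ D))
  /-- Kronecker congruence for `T = T_ℓ ∘ σ₀` -/
  hecke_red : ∀ (x : Kummer.Fb N) (ξ : κ), 𝔐.Red x ξ → 𝔐.Red (T x) (ξ ^ ℓ * φ (φ ξ))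

section Chart

variable {N ℓ}
variable {h : HeckeInputsAlong Qb N ℓ} {A : ValuationSubring Qb} {σ₀ : Gq}
  {κ : Type*} [CommRing κ]
  {𝔐 : UnitWitness.Machine (Kummer.Fb N) κ (Divisor Qb (Kummer.Fb N))}
  {φ : κ →+* κ} {T : Kummer.Fb N → Kummer.Fb N}

/-- `Inv` for every divisor, from `Inv` at the places. -/
theorem ChartHyp.inv_all (H : ChartHyp N ℓ h A σ₀ 𝔐 φ T) (D : Divisor Qb (Kummer.Fb N)) :
    𝔐.Inv D := by
  classical
  induction D using Finsupp.induction with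
  | zero => exact 𝔐.inv_zero
  | single_add P n D _ _ ih =>
    refine UnitWitness.Machine.Inv.add 𝔐 ?_ ih
    have key : ∀ m : ℕ, 𝔐.Inv (Finsupp.single P (m : ℤ)) := by
      intro m
      have h1 := UnitWitness.Machine.Inv.nsmul 𝔐 (H.inv P) m
      have e : m • (Finsupp.single P (1 : ℤ) : Divisor Qb (Kummer.Fb N)) =
          Finsupp.single P (m : ℤ) := by
        rw [Finsupp.smul_single, nsmul_eq_mul, mul_one]
      rwa [e] at h1
    rcases Int.eq_nat_or_neg n with ⟨m, rfl | rfl⟩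
    · exact key m
    · have h1 := UnitWitness.Machine.Inv.neg 𝔐 (key m)
      have e : -(Finsupp.single P (m : ℤ) : Divisor Qb (Kummer.Fb N)) =
          Finsupp.single P (-(m : ℤ)) := by
        rw [Finsupp.single_neg]
      rwa [e] at h1

/-- **`D0 ≤ Kred`**: every divisor of `D0` has unit witnesses on the chart. -/
theorem ChartHyp.mem_Kred_of_mem_D0 (H : ChartHyp N ℓ h A σ₀ 𝔐 φ T)
    {D : Divisor Qb (Kummer.Fb N)} (hD : D ∈ Kummer.D0 N ℓ h A σ₀) : D ∈ 𝔐.Kred := by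
  unfold Kummer.D0 at hD
  induction hD using AddSubgroup.closure_induction with
  | mem D hD =>
    rcases hD with ⟨τ, hτ, E, rfl⟩ | ⟨E, rfl⟩
    · -- inertia
      have := 𝔐.act_sub_mem_Kred (E4.gal N τ : Kummer.Fb N →+* Kummer.Fb N) (gDHom N τ)
        (fun D x hx => H.inertia_mem τ hτ D x hx)
        (fun x ξ hx => H.inertia_red τ hτ x ξ hx) (H.inv_all E)
      exact this
    · -- Eichler–Shimura
      have := 𝔐.es_mem_Kred (E4.gal N σ₀ : Kummer.Fb N →+* Kummer.Fb N) (gDHom N σ₀) φ T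
        ((Kummer.heckeDiv N ℓ h).comp (gDHom N σ₀)) ℓ
        (fun D x hx => H.frob_mem D x hx) (fun x ξ hx => H.frob_red x ξ hx)
        (fun D x hx => H.hecke_mem D x hx) (fun x ξ hx => H.hecke_red x ξ hx) (H.inv_all E)
      exact this
  | zero => exact zero_mem _
  | add x y _ _ hx hy => exact add_mem hx hy
  | neg x _ hx => exact neg_mem hx

end Chart

/-- **`Kummer.RED` from two machines** (the two charts).

* `H₀`, `H₁` : the chart hypotheses for the two machines;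
* `hINT₀`, `hINT₁` : the rings of reductions `B` of the two charts consist of elements integral
  over `k[t]`, resp. integral over `k[s]` up to a denominator `G(s)` with `G(0) ≠ 0`
  (`t s = 1`, `t` with a pole);
* `hnorm` : Gauss normalisation: every `f ≠ 0` with divisor `D` is `c₀ · g`, where `g = P / Q`
  reduces to `x = red P / red Q` in both machines and `g · M_c(-D) ⊆ M_c(0)`. -/
theorem RED_of_machines (h : HeckeInputsAlong Qb N ℓ) (A : ValuationSubring Qb) (σ₀ : Gq)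
    (𝔐₀ 𝔐₁ : UnitWitness.Machine (Kummer.Fb N) (LaurentSeries (IsLocalRing.ResidueField A))
      (Divisor Qb (Kummer.Fb N)))
    (φ : LaurentSeries (IsLocalRing.ResidueField A) →+* LaurentSeries (IsLocalRing.ResidueField A))
    (T : Kummer.Fb N → Kummer.Fb N)
    (H₀ : ChartHyp N ℓ h A σ₀ 𝔐₀ φ T) (H₁ : ChartHyp N ℓ h A σ₀ 𝔐₁ φ T)
    (t s : LaurentSeries (IsLocalRing.ResidueField A)) (hts : t * s = 1) (ht : t.order < 0)
    (hINT₀ : ∀ ξ ∈ 𝔐₀.B, IsIntegral (Algebra.adjoin (IsLocalRing.ResidueField A) {t}) ξ)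
    (hINT₁ : ∀ ξ ∈ 𝔐₁.B, ∃ G : (IsLocalRing.ResidueField A)[X], G.eval 0 ≠ 0 ∧
      IsIntegral (Algebra.adjoin (IsLocalRing.ResidueField A) {s}) (ξ * aeval s G))
    (hnorm : ∀ f : Kummer.Fb N, f ≠ 0 → ∀ D : Divisor Qb (Kummer.Fb N),
      (∀ P : Place Qb (Kummer.Fb N), D P = P.ord f) →
      ∃ (c₀ : Qb) (P Q : LaurentSeries A) (hP : Congr.incl A P ∈ Kummer.Fb N)
        (hQ : Congr.incl A Q ∈ Kummer.Fb N)
        (x : LaurentSeries (IsLocalRing.ResidueField A)) (g : Kummer.Fb N),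
        c₀ ≠ 0 ∧
        f * (⟨_, hQ⟩ : Kummer.Fb N) = algebraMap Qb (Kummer.Fb N) c₀ * (⟨_, hP⟩ : Kummer.Fb N) ∧
        Congr.red A P ≠ 0 ∧ x * Congr.red A Q = Congr.red A P ∧
        𝔐₀.Red g x ∧ 𝔐₁.Red g x ∧
        (∀ y ∈ 𝔐₀.M (-D), g * y ∈ 𝔐₀.M 0) ∧ (∀ y ∈ 𝔐₁.M (-D), g * y ∈ 𝔐₁.M 0)) :
    Kummer.RED N ℓ h A σ₀ := by
  refine ConstEnd.RED_of_integral N ℓ h A σ₀ ?_
  rintro f hf ⟨D, hD0, hD⟩
  obtain ⟨c₀, P, Q, hP, hQ, x, g, hc₀, hfPQ, hP0, hx, hR0, hR1, hM0, hM1⟩ := hnorm f hf D hD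
  have h0 : x ∈ 𝔐₀.B := 𝔐₀.red_mem_B (H₀.mem_Kred_of_mem_D0 hD0) hM0 hR0
  have h1 : x ∈ 𝔐₁.B := 𝔐₁.red_mem_B (H₁.mem_Kred_of_mem_D0 hD0) hM1 hR1
  obtain ⟨G, hG, hGi⟩ := hINT₁ x h1
  exact ⟨c₀, P, Q, hP, hQ, t, s, x, G, hc₀, hfPQ, hP0, hts, ht, hx, hINT₀ x h0, hG, hGi⟩

end Fermat.Agent.S37.MachineRED
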