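/-
S37 / E7, row F11a: the Hecke correspondence commutes with pull-back of divisors along the
level map `Fb N → Fb (N * r)` (inclusion of `q`-series, the Prelude's `heckeAlphaBar Qb N r`):

  `heckeDiv (N * r) ℓ (pull D) = pull (heckeDiv N ℓ D)`      for all divisors `D` of `Fb N`.

Proof: both sides are additive and local in `D`, and they agree on principal divisors because
the multiplicative Hecke operator `T f = Norm_α (β f)` has the same `q`-series `heckeMul f` at
both levels (`Lib.PushPullBC.correspondence_pullbackAlong` + weak approximation on `Fb N`).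
-/
import Mathlib
import Fermat.Agent.Lib.PushPullBC
import Fermat.Agent.Lib.PlaceApprox
import Fermat.Agent.S37.HeckeDivQ
import Fermat.Agent.S30.HeckeInputs
import Fermat.Agent.S24.Modular.Defs

set_option autoImplicit false
set_option linter.unusedSectionVars false
set_option linter.style.haveILetI false
set_option synthInstance.maxHeartbeats 400000
set_option maxHeartbeats 1000000

noncomputable section

namespace Fermat.Agent.S37.HeckePull

open ModularCurve AlgebraicCurve HahnSeries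
open Fermat.Agent.S30

local notation "Qb" => AlgebraicClosure ℚ

/-- Weak approximation on the modular function field `Fb N`. -/
theorem weakApprox_bar (N : ℕ) [NeZero N] :
    Fermat.Agent.Lib.PushPullBC.WeakApprox Qb (Kummer.Fb N) := by
  intro T n
  have hu : Transcendental Qb (Fermat.Agent.S24.Modular.jF N) :=
    Fermat.Agent.S24.Modular.transcendental_jF N
  haveI : FiniteDimensional (IntermediateField.adjoin Qb {Fermat.Agent.S24.Modular.jF N})
      (Kummer.Fb N) :=
    Fermat.Agent.S24.FF.finite_adjoin_simple (HeckeInputs.trdeg_bar N) hu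
  exact Fermat.Agent.Lib.PlaceApprox.exists_forall_ord_eq _ hu T n

theorem exists_primitiveRoot_unit (ℓ : ℕ) (hℓ : 0 < ℓ) : ∃ z : Qbˣ, IsPrimitiveRoot z ℓ := by
  have : NeZero ((ℓ : ℕ) : Qb) := ⟨by exact_mod_cast hℓ.ne'⟩
  obtain ⟨ζ, hζ⟩ := HasEnoughRootsOfUnity.exists_primitiveRoot Qb ℓ
  have hu : IsUnit ζ := hζ.isUnit hℓ.ne'
  exact ⟨hu.unit, IsPrimitiveRoot.coe_units_iff.1 (by rw [IsUnit.unit_spec]; exact hζ)⟩

/-- `Fb M ≤ Fb (M * k)`. -/
theorem fb_le_mul (M k : ℕ) [NeZero M] [NeZero k] :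
    modularFunctionFieldBar M ≤ modularFunctionFieldBar (M * k) := by
  intro x hx
  have h := SetLike.coe_mem (heckeAlphaBar Qb M k ⟨x, hx⟩)
  rwa [coe_heckeAlphaBar] at h

/-- `Fb (N * ℓ) ≤ Fb (N * r * ℓ)`. -/
theorem fb_mul_le (N r ℓ : ℕ) [NeZero N] [NeZero r] [NeZero ℓ] :
    modularFunctionFieldBar (N * ℓ) ≤ modularFunctionFieldBar (N * r * ℓ) := by
  rw [Nat.mul_right_comm N r ℓ]
  exact fb_le_mul (N * ℓ) r

section Main

variable (N r ℓ : ℕ) [NeZero N] [NeZero r] [NeZero ℓ]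

/-- The level map `Fb (N * ℓ) → Fb (N * r * ℓ)` (inclusion of `q`-series). -/
def levelTop : Kummer.Fb (N * ℓ) →ₐ[Qb] Kummer.Fb (N * r * ℓ) :=
  IntermediateField.inclusion (fb_mul_le N r ℓ)

@[simp]
theorem coe_levelTop (x : Kummer.Fb (N * ℓ)) :
    ((levelTop N r ℓ x : Kummer.Fb (N * r * ℓ)) : LaurentSeries Qb) = (x : LaurentSeries Qb) :=
  IntermediateField.coe_inclusion _ x

theorem levelTop_isIntegral : (levelTop N r ℓ).toRingHom.IsIntegral :=
  Fermat.Agent.Lib.FFNorm.isIntegral_toRingHom _ (HeckeInputs.trdeg_bar (N * ℓ))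
    (HeckeInputs.trdeg_bar (N * r * ℓ))

theorem alpha_square :
    (heckeAlphaBar Qb (N * r) ℓ).comp (heckeAlphaBar Qb N r)
      = (levelTop N r ℓ).comp (heckeAlphaBar Qb N ℓ) := by
  apply AlgHom.ext
  intro x
  apply Subtype.ext
  simp only [AlgHom.comp_apply, coe_heckeAlphaBar, coe_levelTop]

theorem beta_square :
    (heckeBetaBar Qb (N * r) ℓ).comp (heckeAlphaBar Qb N r)
      = (levelTop N r ℓ).comp (heckeBetaBar Qb N ℓ) := by
  apply AlgHom.ext
  intro x
  apply Subtype.ext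
  simp only [AlgHom.comp_apply, coe_heckeAlphaBar, coe_levelTop, coe_heckeBetaBar]

/-- The multiplicative Hecke operator commutes with the level map. -/
theorem heckeT_alpha (hℓ : ℓ.Prime) (hℓNr : ¬ ℓ ∣ N * r) (f : Kummer.Fb N) :
    HeckeDivQ.heckeT (N * r) ℓ (heckeAlphaBar Qb N r f)
      = heckeAlphaBar Qb N r (HeckeDivQ.heckeT N ℓ f) := by
  have hℓN : ¬ ℓ ∣ N := fun h => hℓNr (Dvd.dvd.mul_right h r)
  obtain ⟨z, hz⟩ := exists_primitiveRoot_unit ℓ hℓ.pos
  apply Subtype.ext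
  rw [HeckeDivQ.coe_heckeT (N * r) ℓ hℓ hℓNr z hz, coe_heckeAlphaBar, coe_heckeAlphaBar,
    HeckeDivQ.coe_heckeT N ℓ hℓ hℓN z hz]

/-- **The Hecke correspondence commutes with pull-back along the level map.** -/
theorem heckeDiv_pullback (hℓ : ℓ.Prime) (hℓNr : ¬ ℓ ∣ N * r)
    (h : HeckeInputsAlong Qb N ℓ) (h' : HeckeInputsAlong Qb (N * r) ℓ)
    (hι : (heckeAlphaBar Qb N r).toRingHom.IsIntegral)
    [HasPrincipalDivisors Qb (Kummer.Fb (N * r))] (D : Divisor Qb (Kummer.Fb N)) :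
    Kummer.heckeDiv (N * r) ℓ h' (Divisor.pullbackAlong (heckeAlphaBar Qb N r) hι D)
      = Divisor.pullbackAlong (heckeAlphaBar Qb N r) hι (Kummer.heckeDiv N ℓ h D) := by
  haveI := h.snd.snd.fst
  haveI := h'.snd.snd.fst
  haveI : HasPrincipalDivisors Qb (Kummer.Fb N) := HeckeInputs.hasPrincipalDivisors_bar N
  -- pull-back of a principal divisor along the level map
  have hpull : ∀ {g : Kummer.Fb N} {E : Divisor Qb (Kummer.Fb N)},
      (∀ P : Place Qb (Kummer.Fb N), E P = P.ord g) →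
      ∀ w : Place Qb (Kummer.Fb (N * r)),
        Divisor.pullbackAlong (heckeAlphaBar Qb N r) hι E w = w.ord (heckeAlphaBar Qb N r g) := by
    intro g E hE w
    letI := algebraAlong (heckeAlphaBar Qb N r)
    haveI := isScalarTower_along (heckeAlphaBar Qb N r)
    haveI := isIntegral_along (heckeAlphaBar Qb N r) hι
    exact Divisor.pullback_apply_eq_ord hE w
  refine Fermat.Agent.Lib.PushPullBC.correspondence_pullbackAlong (weakApprox_bar N)
    (heckeBetaBar Qb N ℓ) (heckeAlphaBar Qb N ℓ) (heckeBetaBar Qb (N * r) ℓ)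
    (heckeAlphaBar Qb (N * r) ℓ) (heckeAlphaBar Qb N r) (levelTop N r ℓ)
    h.snd.fst h.fst h'.snd.fst h'.fst hι (levelTop_isIntegral N r ℓ)
    (beta_square N r ℓ) (alpha_square N r ℓ) ?_ D
  rintro E ⟨f, hf, hE⟩
  apply Finsupp.ext
  intro w
  have hf' : heckeAlphaBar Qb N r f ≠ 0 := (map_ne_zero (heckeAlphaBar Qb N r)).2 hf
  have h1 : Kummer.heckeDiv (N * r) ℓ h' (Divisor.pullbackAlong (heckeAlphaBar Qb N r) hι E) w
      = w.ord (HeckeDivQ.heckeT (N * r) ℓ (heckeAlphaBar Qb N r f)) :=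
    HeckeDivQ.heckeDiv_apply_of_principal (N * r) ℓ h' hf' (hpull hE) w
  have h2 : Divisor.pullbackAlong (heckeAlphaBar Qb N r) hι (Kummer.heckeDiv N ℓ h E) w
      = w.ord (heckeAlphaBar Qb N r (HeckeDivQ.heckeT N ℓ f)) :=
    hpull (fun P => HeckeDivQ.heckeDiv_apply_of_principal N ℓ h hf hE P) w
  exact h1.trans ((congrArg w.ord (heckeT_alpha N r ℓ hℓ hℓNr f)).trans h2.symm)

end Main

end Fermat.Agent.S37.HeckePull
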