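/-
S37 / E7, row F11a (generic-divisibility form): for `N ∣ M`, `ℓ` prime, `ℓ ∤ M`, and ANY
`Qb`-algebra map `ι : Fb N → Fb M` which is the identity on `q`-series (so: the level inclusion,
however it is packaged), the Hecke correspondence commutes with pull-back of divisors along `ι`:

  `heckeDiv M ℓ (ι^* D) = ι^* (heckeDiv N ℓ D)`.

This is `HeckePull.heckeDiv_pullback` (the case `M = N * r`, `ι = heckeAlphaBar Qb N r`) transported
along `M = N * r` and `ι = heckeAlphaBar Qb N r`.
-/
import Mathlib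
import Fermat.Agent.S37.HeckePull

set_option autoImplicit false
set_option linter.unusedSectionVars false
set_option linter.style.haveILetI false
set_option synthInstance.maxHeartbeats 400000
set_option maxHeartbeats 1000000

noncomputable section

namespace Fermat.Agent.S37.HeckePullDvd

open ModularCurve AlgebraicCurve HahnSeries
open Fermat.Agent.S30

local notation "Qb" => AlgebraicClosure ℚ

/-- An algebra map `Fb N → Fb (N * r)` which is the identity on `q`-series is the Prelude's level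
map `heckeAlphaBar Qb N r`. -/
theorem eq_heckeAlphaBar_of_coe (N r : ℕ) [NeZero N] [NeZero r]
    (ι : Kummer.Fb N →ₐ[Qb] Kummer.Fb (N * r))
    (hιcoe : ∀ x : Kummer.Fb N, ((ι x : Kummer.Fb (N * r)) : LaurentSeries Qb) = x) :
    ι = heckeAlphaBar Qb N r := by
  apply AlgHom.ext
  intro x
  apply Subtype.ext
  rw [hιcoe, coe_heckeAlphaBar]

/-- **The Hecke correspondence commutes with pull-back along the level inclusion `Fb N → Fb M`,
`N ∣ M`**, for any packaging `ι` of that inclusion. -/
theorem heckeDiv_pullbackAlong_of_coe {N M ℓ : ℕ} [NeZero N] [NeZero M] [NeZero ℓ]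
    (hNM : N ∣ M) (hℓ : ℓ.Prime) (hℓM : ¬ ℓ ∣ M)
    (ι : Kummer.Fb N →ₐ[Qb] Kummer.Fb M)
    (hιcoe : ∀ x : Kummer.Fb N, ((ι x : Kummer.Fb M) : LaurentSeries Qb) = x)
    (hι : ι.toRingHom.IsIntegral)
    (h : HeckeInputsAlong Qb N ℓ) (h' : HeckeInputsAlong Qb M ℓ)
    [HasPrincipalDivisors Qb (Kummer.Fb M)] (D : Divisor Qb (Kummer.Fb N)) :
    Kummer.heckeDiv M ℓ h' (Divisor.pullbackAlong ι hι D)
      = Divisor.pullbackAlong ι hι (Kummer.heckeDiv N ℓ h D) := by
  obtain ⟨r, rfl⟩ := hNM
  haveI : NeZero r := ⟨fun hr => NeZero.ne (N * r) (by rw [hr, Nat.mul_zero])⟩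
  obtain rfl : ι = heckeAlphaBar Qb N r := eq_heckeAlphaBar_of_coe N r ι hιcoe
  exact HeckePull.heckeDiv_pullback N r ℓ hℓ hℓM h h' hι D

end Fermat.Agent.S37.HeckePullDvd
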