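/-
S37 (E7), row F11a' (helper102): **transfer of (RED) from an auxiliary level**.

For levels `N ∣ M` the function field `Fb N` sits inside `Fb M` (same `q`-series).  If

* the Hecke correspondence commutes with the pull-back of divisors along `Fb N → Fb M`
  (`HeckePullComm`; generic push-pull base change, row F11a), and
* `Fb N` has Gauss normalisations (`E4.HasGaussNorm N A`, landed),

then `Kummer.RED M ℓ h' A σ₀` implies `Kummer.RED N ℓ h A σ₀`.

Used for `ℓ = 2, 3`, where the chart functions live at the auxiliary level `M = N * 3`,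
resp. `M = N * 2`.
-/
import Fermat.Agent.S37.Kummer
import Fermat.Agent.S30.HeckeInputs
import Fermat.Agent.S30.E4.GaussNorm

set_option autoImplicit false
set_option linter.unusedSectionVars false
set_option linter.style.haveILetI false

noncomputable section

namespace Fermat.Agent.S37.LevelPull

open ModularCurve AlgebraicCurve HahnSeries
open Fermat.Agent.S30

local notation "Qb" => AlgebraicClosure ℚ
local notation "Gq" => (AlgebraicClosure ℚ ≃ₐ[ℚ] AlgebraicClosure ℚ)

/-! ### Generic part: pull-back of divisors and semilinear automorphisms -/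

section Generic

variable {K F F' : Type*} [Field K] [Field F] [Field F'] [Algebra K F] [Algebra K F']

/-- restriction along `φ` is equivariant for intertwined semilinear automorphisms -/
theorem restrictAlong_smul_of_intertwines (φ : F →ₐ[K] F') (hφ : φ.toRingHom.IsIntegral)
    (g : SemilinearAut K F) (g' : SemilinearAut K F')
    (h : SemilinearAut.IntertwinesAlong (φ : F →+* F') g g') (w : Place K F') :
    (g' • w).restrictAlong φ hφ = g • w.restrictAlong φ hφ := by
  apply Place.ext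
  ext f
  show φ f ∈ (g' • w).toValuationSubring ↔ f ∈ (g • w.restrictAlong φ hφ).toValuationSubring
  rw [SemilinearAut.smul_toValuationSubring, SemilinearAut.smul_toValuationSubring,
    ValuationSubring.mem_pointwise_smul_iff_inv_smul_mem,
    ValuationSubring.mem_pointwise_smul_iff_inv_smul_mem]
  have h1 : g'⁻¹ • φ f = φ (g⁻¹ • f) := h.inv f
  rw [h1]
  exact Iff.rfl

/-- the ramification index along `φ` is invariant under intertwined semilinear automorphisms -/
theorem ramificationIndexAlong_smul_of_intertwines (φ : F →ₐ[K] F')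
    (g : SemilinearAut K F) (g' : SemilinearAut K F')
    (h : SemilinearAut.IntertwinesAlong (φ : F →+* F') g g') (w : Place K F') :
    (g' • w).ramificationIndexAlong φ = w.ramificationIndexAlong φ := by
  show sInf {n : ℕ | 0 < n ∧ ∃ f : F, f ≠ 0 ∧ (g' • w).ord (φ f) = n}
    = sInf {n : ℕ | 0 < n ∧ ∃ f : F, f ≠ 0 ∧ w.ord (φ f) = n}
  congr 1
  ext n
  simp only [Set.mem_ofPred_eq]
  refine and_congr Iff.rfl ⟨?_, ?_⟩
  · rintro ⟨f, hf, hn⟩
    refine ⟨g⁻¹ • f, ?_, ?_⟩
    · intro h0
      apply hf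
      have := congrArg (g • ·) h0
      simpa using this
    · have h1 : g'⁻¹ • φ f = φ (g⁻¹ • f) := h.inv f
      have h2 : (g' • w).ord (g' • (g'⁻¹ • φ f)) = w.ord (g'⁻¹ • φ f) :=
        SemilinearAut.ord_smul g' w _
      rw [smul_inv_smul] at h2
      rw [← h1, ← h2, hn]
  · rintro ⟨f, hf, hn⟩
    refine ⟨g • f, ?_, ?_⟩
    · intro h0
      apply hf
      have := congrArg (g⁻¹ • ·) h0
      simpa using this
    · have h1 : g' • φ f = φ (g • f) := h f
      rw [← h1, SemilinearAut.ord_smul g' w, hn]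

variable [HasPrincipalDivisors K F']

/-- pull-back of divisors along `φ` is equivariant for intertwined semilinear automorphisms -/
theorem pullbackAlong_smul_of_intertwines (φ : F →ₐ[K] F') (hφ : φ.toRingHom.IsIntegral)
    (g : SemilinearAut K F) (g' : SemilinearAut K F')
    (h : SemilinearAut.IntertwinesAlong (φ : F →+* F') g g') (D : Divisor K F) :
    Divisor.pullbackAlong φ hφ (g • D) = g' • Divisor.pullbackAlong φ hφ D := by
  ext w
  rw [Divisor.pullbackAlong_apply, SemilinearAut.divisor_smul_apply,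
    SemilinearAut.divisor_smul_apply, Divisor.pullbackAlong_apply,
    restrictAlong_smul_of_intertwines φ hφ g⁻¹ g'⁻¹ h.inv w,
    ramificationIndexAlong_smul_of_intertwines φ g⁻¹ g'⁻¹ h.inv w]

/-- the pull-back of the divisor of `f` is the divisor of `φ f` -/
theorem pullbackAlong_apply_eq_ord (φ : F →ₐ[K] F') (hφ : φ.toRingHom.IsIntegral)
    {f : F} {D : Divisor K F} (hD : ∀ v : Place K F, D v = v.ord f) (w : Place K F') :
    Divisor.pullbackAlong φ hφ D w = w.ord (φ f) := by
  rw [Divisor.pullbackAlong_apply, hD, ← Place.ord_restrictAlong]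

end Generic

/-! ### The modular instance -/

section Modular

open Fermat.Agent.S37.Kummer

theorem fb_mono {N M : ℕ} [NeZero N] [NeZero M] (hNM : N ∣ M) : Fb N ≤ Fb M := by
  show laurentBaseChange Qb _ ≤ laurentBaseChange Qb _
  rw [laurentBaseChange, IntermediateField.adjoin_le_iff]
  rintro _ ⟨y, hy, rfl⟩
  exact coeffEmb_mem_laurentBaseChange Qb (full_degeneracy_le hNM hy)

/-- The level map `Fb N → Fb M` (`N ∣ M`): the inclusion of subfields of `ℚ̄((q))`. -/
def lvl {N M : ℕ} [NeZero N] [NeZero M] (hNM : N ∣ M) : Fb N →ₐ[Qb] Fb M :=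
  IntermediateField.inclusion (fb_mono hNM)

@[simp]
theorem coe_lvl {N M : ℕ} [NeZero N] [NeZero M] (hNM : N ∣ M) (x : Fb N) :
    ((lvl hNM x : Fb M) : LaurentSeries Qb) = (x : LaurentSeries Qb) :=
  IntermediateField.coe_inclusion _ x

theorem lvl_isIntegral {N M : ℕ} [NeZero N] [NeZero M] (hNM : N ∣ M) :
    (lvl hNM).toRingHom.IsIntegral :=
  Fermat.Agent.Lib.FFNorm.isIntegral_toRingHom _ (HeckeInputs.trdeg_bar N)
    (HeckeInputs.trdeg_bar M)

/-- Pull-back of divisors along the level map. -/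
def pull {N M : ℕ} [NeZero N] [NeZero M] (hNM : N ∣ M) :
    Divisor Qb (Fb N) →+ Divisor Qb (Fb M) :=
  haveI := HeckeInputs.hasPrincipalDivisors_bar M
  Divisor.pullbackAlong (lvl hNM) (lvl_isIntegral hNM)

/-- The level map commutes with the coefficientwise Galois action. -/
theorem lvl_intertwines {N M : ℕ} [NeZero N] [NeZero M] (hNM : N ∣ M) (σ : Gq) :
    SemilinearAut.IntertwinesAlong ((lvl hNM : Fb N →ₐ[Qb] Fb M) : Fb N →+* Fb M)
      (arithmeticGalois (modularFunctionFieldFull N) σ)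
      (arithmeticGalois (modularFunctionFieldFull M) σ) := by
  intro x
  apply Subtype.ext
  rw [RingHom.coe_coe, coe_arithmeticGalois_smul, coe_lvl, coe_lvl, coe_arithmeticGalois_smul]

/-- The pull-back of divisors along the level map is Galois-equivariant. -/
theorem pull_gD {N M : ℕ} [NeZero N] [NeZero M] (hNM : N ∣ M) (σ : Gq)
    (D : Divisor Qb (Fb N)) : pull hNM (gD N σ D) = gD M σ (pull hNM D) := by
  haveI := HeckeInputs.hasPrincipalDivisors_bar M
  exact pullbackAlong_smul_of_intertwines (lvl hNM) (lvl_isIntegral hNM) _ _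
    (lvl_intertwines hNM σ) D

/-- The pull-back of the divisor of `f` is the divisor of `f`, seen at level `M`. -/
theorem pull_apply_eq_ord {N M : ℕ} [NeZero N] [NeZero M] (hNM : N ∣ M) {f : Fb N}
    {D : Divisor Qb (Fb N)} (hD : ∀ P : Place Qb (Fb N), D P = P.ord f) (P : Place Qb (Fb M)) :
    pull hNM D P = P.ord (lvl hNM f) := by
  haveI := HeckeInputs.hasPrincipalDivisors_bar M
  exact pullbackAlong_apply_eq_ord (lvl hNM) (lvl_isIntegral hNM) hD P

variable {N M : ℕ} [NeZero N] [NeZero M] (ℓ : ℕ) [NeZero ℓ]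

/-- **Push-pull base change** (row F11a): the Hecke correspondence commutes with the pull-back
of divisors along the level map `Fb N → Fb M`. -/
def HeckePullComm (hNM : N ∣ M) (h : HeckeInputsAlong Qb N ℓ) (h' : HeckeInputsAlong Qb M ℓ) :
    Prop :=
  ∀ D : Divisor Qb (Fb N), heckeDiv M ℓ h' (pull hNM D) = pull hNM (heckeDiv N ℓ h D)

theorem pull_inertia_gen (hNM : N ∣ M) (h' : HeckeInputsAlong Qb M ℓ) (A : ValuationSubring Qb)
    (σ₀ : Gq) (τ : Gq) (hτ : τ ∈ A.inertiaSubgroupIn ℚ) (E : Divisor Qb (Fb N)) :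
    pull hNM (gD N τ E - E) ∈ D0 M ℓ h' A σ₀ := by
  rw [map_sub, pull_gD]
  exact AddSubgroup.subset_closure (Or.inl ⟨τ, hτ, pull hNM E, rfl⟩)

theorem pull_es_gen (hNM : N ∣ M) (h : HeckeInputsAlong Qb N ℓ) (h' : HeckeInputsAlong Qb M ℓ)
    (hBC : HeckePullComm ℓ hNM h h') (A : ValuationSubring Qb) (σ₀ : Gq)
    (E : Divisor Qb (Fb N)) :
    pull hNM (gD N σ₀ (gD N σ₀ E) - heckeDiv N ℓ h (gD N σ₀ E) + ℓ • E) ∈ D0 M ℓ h' A σ₀ := by
  rw [map_add, map_sub, map_nsmul, pull_gD, pull_gD, ← hBC (gD N σ₀ E), pull_gD]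
  exact AddSubgroup.subset_closure (Or.inr ⟨pull hNM E, rfl⟩)

/-- The pull-back of a divisor of `D0` at level `N` lies in `D0` at level `M`. -/
theorem pull_mem_D0 (hNM : N ∣ M) (h : HeckeInputsAlong Qb N ℓ) (h' : HeckeInputsAlong Qb M ℓ)
    (hBC : HeckePullComm ℓ hNM h h') (A : ValuationSubring Qb) (σ₀ : Gq)
    {D : Divisor Qb (Fb N)} (hD : D ∈ D0 N ℓ h A σ₀) : pull hNM D ∈ D0 M ℓ h' A σ₀ := by
  induction hD using AddSubgroup.closure_induction with
  | mem D hD =>
    rcases hD with ⟨τ, hτ, E, rfl⟩ | ⟨E, rfl⟩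
    · exact pull_inertia_gen ℓ hNM h' A σ₀ τ hτ E
    · exact pull_es_gen ℓ hNM h h' hBC A σ₀ E
  | zero => rw [map_zero]; exact AddSubgroup.zero_mem _
  | add D E _ _ hD hE => rw [map_add]; exact AddSubgroup.add_mem _ hD hE
  | neg D _ hD => rw [map_neg]; exact AddSubgroup.neg_mem _ hD

theorem incl_C (A : ValuationSubring Qb) (a : A) :
    Congr.incl A (HahnSeries.C a) = algebraMap Qb (LaurentSeries Qb) (a : Qb) := by
  rw [HahnSeries.C_apply, algebraMap_laurentSeries_eq_single]
  exact coeffMap_single _ _ _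

theorem red_C (A : ValuationSubring Qb) (a : A) :
    Congr.red A (HahnSeries.C a) = HahnSeries.C (IsLocalRing.residue A a) := by
  rw [HahnSeries.C_apply, HahnSeries.C_apply]
  exact coeffMap_single _ _ _

/-- If `a • X = Y` with `X`, `Y` integral and `a ∈ A`, the identity holds over `A`. -/
theorem eq_C_mul_of_mem (A : ValuationSubring Qb) (a : A) (X Y : LaurentSeries A)
    (h : algebraMap Qb (LaurentSeries Qb) (a : Qb) * Congr.incl A X = Congr.incl A Y) :
    Y = HahnSeries.C a * X := by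
  apply Congr.incl_injective A
  rw [map_mul, incl_C, h]

/-- **Gauss lemma** for integral `q`-series: if `a • X = Y` with `X`, `Y` integral of nonzero
reduction, then `a` is (the image of) an element of `A` and `Y = a • X` already over `A`. -/
theorem exists_C_mul_eq (A : ValuationSubring Qb) (a : Qb) (X Y : LaurentSeries A)
    (hX : Congr.red A X ≠ 0) (hY : Congr.red A Y ≠ 0)
    (h : algebraMap Qb (LaurentSeries Qb) a * Congr.incl A X = Congr.incl A Y) :
    ∃ a' : A, (a' : Qb) = a ∧ Y = HahnSeries.C a' * X := by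
  have ha0 : a ≠ 0 := by
    rintro rfl
    rw [map_zero, zero_mul] at h
    have hY0 : Y = 0 := Congr.incl_injective A (by rw [← h, map_zero])
    exact hY (by rw [hY0, map_zero])
  suffices ha : a ∈ A from ⟨⟨a, ha⟩, rfl, eq_C_mul_of_mem A ⟨a, ha⟩ X Y h⟩
  rcases A.mem_or_inv_mem a with ha | hb
  · exact ha
  · -- `b = a⁻¹ ∈ A`, `X = b • Y`
    have h2 : algebraMap Qb (LaurentSeries Qb) ((⟨a⁻¹, hb⟩ : A) : Qb) * Congr.incl A Y
        = Congr.incl A X := by
      rw [← h, ← mul_assoc, ← map_mul]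
      show algebraMap Qb (LaurentSeries Qb) (a⁻¹ * a) * Congr.incl A X = Congr.incl A X
      rw [inv_mul_cancel₀ ha0, map_one, one_mul]
    have h3 : X = HahnSeries.C (⟨a⁻¹, hb⟩ : A) * Y := eq_C_mul_of_mem A ⟨a⁻¹, hb⟩ Y X h2
    have h4 : IsLocalRing.residue A (⟨a⁻¹, hb⟩ : A) ≠ 0 := by
      intro h0
      apply hX
      rw [h3, map_mul, red_C, h0, map_zero, zero_mul]
    have h5 : IsUnit (⟨a⁻¹, hb⟩ : A) := by
      by_contra hnu
      exact h4 ((IsLocalRing.residue_eq_zero_iff _).2 ((IsLocalRing.mem_maximalIdeal _).2 hnu))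
    obtain ⟨c, hc⟩ := h5.exists_right_inv
    have h6 : a⁻¹ * (c : Qb) = 1 := congrArg Subtype.val hc
    have h7 : (c : Qb) = a := by
      field_simp at h6
      exact h6
    rw [← h7]
    exact c.2

/-- **Level transfer of (RED)**: for `N ∣ M`, `(RED)` at level `M` implies `(RED)` at level `N`,
given the push-pull base change `HeckePullComm` and Gauss normalisations at level `N`. -/
theorem red_of_red (hNM : N ∣ M) (A : ValuationSubring Qb) (σ₀ : Gq)
    (h : HeckeInputsAlong Qb N ℓ) (h' : HeckeInputsAlong Qb M ℓ)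
    (hBC : HeckePullComm ℓ hNM h h') (hG : E4.HasGaussNorm N A)
    (hRED : RED M ℓ h' A σ₀) : RED N ℓ h A σ₀ := by
  intro f hf0 hD
  obtain ⟨D, hD0, hD⟩ := hD
  have hf0' : lvl hNM f ≠ 0 := (map_ne_zero (lvl hNM)).2 hf0
  obtain ⟨c, U, W, hU, hW, hc, hred, hred0, hfW⟩ :=
    hRED (lvl hNM f) hf0' ⟨pull hNM D, pull_mem_D0 ℓ hNM h h' hBC A σ₀ hD0,
      fun P => pull_apply_eq_ord hNM hD P⟩
  obtain ⟨c₁, P, Q, hP, hQ, hc₁, hP0, hQ0, hfQ⟩ := hG f hf0
  -- the two identities on `q`-series
  have e1 : (f : LaurentSeries Qb) * Congr.incl A W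
      = algebraMap Qb (LaurentSeries Qb) c * Congr.incl A U := by
    have := congrArg (Subtype.val : Fb M → LaurentSeries Qb) hfW
    rwa [MulMemClass.coe_mul, MulMemClass.coe_mul, coe_lvl] at this
  have e2 : (f : LaurentSeries Qb) * Congr.incl A Q
      = algebraMap Qb (LaurentSeries Qb) c₁ * Congr.incl A P := by
    have := congrArg (Subtype.val : Fb N → LaurentSeries Qb) hfQ
    rwa [MulMemClass.coe_mul, MulMemClass.coe_mul] at this
  have hcL : algebraMap Qb (LaurentSeries Qb) c ≠ 0 :=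
    (map_ne_zero (algebraMap Qb (LaurentSeries Qb))).2 hc
  have e3 : algebraMap Qb (LaurentSeries Qb) (c₁ / c) * Congr.incl A (P * W)
      = Congr.incl A (U * Q) := by
    apply mul_left_cancel₀ hcL
    rw [← mul_assoc, ← map_mul, mul_div_cancel₀ c₁ hc, map_mul, map_mul, ← mul_assoc, ← e2,
      ← mul_assoc, ← e1]
    ring
  have hW0 : Congr.red A W ≠ 0 := hred ▸ hred0
  obtain ⟨a', ha', hUQ⟩ := exists_C_mul_eq A (c₁ / c) (P * W) (U * Q)
    (by rw [map_mul]; exact mul_ne_zero hP0 hW0) (by rw [map_mul]; exact mul_ne_zero hred0 hQ0) e3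
  -- the reductions
  have hredQ : Congr.red A (HahnSeries.C a' * P) = Congr.red A Q := by
    have h1 := congrArg (Congr.red A) hUQ
    rw [map_mul, ← mul_assoc, map_mul, hred] at h1
    have h2 : Congr.red A W * Congr.red A Q = Congr.red A W * Congr.red A (HahnSeries.C a' * P) := by
      rw [h1]; ring
    exact (mul_left_cancel₀ hW0 h2).symm
  have hU' : Congr.incl A (HahnSeries.C a' * P) ∈ Fb N := by
    rw [map_mul, incl_C]
    exact mul_mem ((Fb N).algebraMap_mem _) hP
  refine ⟨c, HahnSeries.C a' * P, Q, hU', hQ, hc, hredQ, hredQ ▸ hQ0, ?_⟩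
  apply Subtype.ext
  rw [MulMemClass.coe_mul, MulMemClass.coe_mul]
  show (f : LaurentSeries Qb) * Congr.incl A Q
    = algebraMap Qb (LaurentSeries Qb) c * Congr.incl A (HahnSeries.C a' * P)
  rw [e2, map_mul, incl_C, ha', ← mul_assoc, ← map_mul, mul_div_cancel₀ c₁ hc]

/-- `red_of_red` for the auxiliary level `M = N * r`, with the Gauss normalisation discharged
by the landed `E4.hasGaussNorm`. -/
theorem red_of_red_mul (N r ℓ : ℕ) [NeZero N] [NeZero r] [NeZero ℓ] [Fact ℓ.Prime]
    (A : ValuationSubring Qb) (hA : A.LiesOverPrime ℓ) (σ₀ : Gq)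
    (h : HeckeInputsAlong Qb N ℓ) (h' : HeckeInputsAlong Qb (N * r) ℓ)
    (hBC : HeckePullComm ℓ (Dvd.intro r rfl) h h')
    (hRED : RED (N * r) ℓ h' A σ₀) : RED N ℓ h A σ₀ :=
  red_of_red ℓ (Dvd.intro r rfl) A σ₀ h h' hBC (E4.hasGaussNorm N ℓ A hA) hRED

end Modular

end Fermat.Agent.S37.LevelPull
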