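/-
S37 / E7, row F11a, in the vocabulary of row F11a' (`S37/LevelPull.lean`, helper102):

  `heckePullComm : LevelPull.HeckePullComm ℓ hNM h h'`      (`N ∣ M`, `ℓ` prime, `ℓ ∤ M`)

i.e. `heckeDiv M ℓ (pull D) = pull (heckeDiv N ℓ D)`, and the resulting unconditional level
transfer of `(RED)`:  `RED M ℓ ⟹ RED N ℓ`.
-/
import Mathlib
import Fermat.Agent.S37.HeckePullDvd
import Fermat.Agent.S37.LevelPull

set_option autoImplicit false
set_option linter.unusedSectionVars false
set_option linter.style.haveILetI false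
set_option synthInstance.maxHeartbeats 400000
set_option maxHeartbeats 1000000

noncomputable section

namespace Fermat.Agent.S37.HeckePullComm

open ModularCurve AlgebraicCurve HahnSeries
open Fermat.Agent.S30

local notation "Qb" => AlgebraicClosure ℚ
local notation "Gq" => (AlgebraicClosure ℚ ≃ₐ[ℚ] AlgebraicClosure ℚ)

variable {N M : ℕ} [NeZero N] [NeZero M] (ℓ : ℕ) [NeZero ℓ]

/-- **Push-pull base change for the Hecke correspondence** (row F11a): for `N ∣ M`, `ℓ` prime,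
`ℓ ∤ M`, the Hecke correspondence `T_ℓ` commutes with the pull-back of divisors along the level
map `Fb N → Fb M`. -/
theorem heckePullComm (hNM : N ∣ M) (hℓ : ℓ.Prime) (hℓM : ¬ ℓ ∣ M)
    (h : HeckeInputsAlong Qb N ℓ) (h' : HeckeInputsAlong Qb M ℓ) :
    LevelPull.HeckePullComm ℓ hNM h h' := by
  intro D
  haveI := HeckeInputs.hasPrincipalDivisors_bar M
  exact HeckePullDvd.heckeDiv_pullbackAlong_of_coe hNM hℓ hℓM (LevelPull.lvl hNM)
    (LevelPull.coe_lvl hNM) (LevelPull.lvl_isIntegral hNM) h h' D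

/-- **Level transfer of (RED)**, unconditional in the base change: for `N ∣ M`, `ℓ ∤ M`,
`(RED)` at level `M` implies `(RED)` at level `N` (given Gauss normalisations at level `N`). -/
theorem red_of_red (hNM : N ∣ M) (hℓ : ℓ.Prime) (hℓM : ¬ ℓ ∣ M) (A : ValuationSubring Qb)
    (σ₀ : Gq) (h : HeckeInputsAlong Qb N ℓ) (h' : HeckeInputsAlong Qb M ℓ)
    (hG : E4.HasGaussNorm N A) (hRED : Kummer.RED M ℓ h' A σ₀) : Kummer.RED N ℓ h A σ₀ :=
  LevelPull.red_of_red ℓ hNM A σ₀ h h' (heckePullComm ℓ hNM hℓ hℓM h h') hG hRED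

/-- `red_of_red` for the auxiliary level `M = N * r`, `ℓ ∤ N * r`, with the Gauss normalisation
discharged by the landed `E4.hasGaussNorm`. -/
theorem red_of_red_mul (N r ℓ : ℕ) [NeZero N] [NeZero r] [NeZero ℓ] [Fact ℓ.Prime]
    (hℓNr : ¬ ℓ ∣ N * r) (A : ValuationSubring Qb) (hA : A.LiesOverPrime ℓ) (σ₀ : Gq)
    (h : HeckeInputsAlong Qb N ℓ) (h' : HeckeInputsAlong Qb (N * r) ℓ)
    (hRED : Kummer.RED (N * r) ℓ h' A σ₀) : Kummer.RED N ℓ h A σ₀ :=
  LevelPull.red_of_red_mul N r ℓ A hA σ₀ h h'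
    (heckePullComm ℓ (Dvd.intro r rfl) (Fact.out : ℓ.Prime) hℓNr h h') hRED

end Fermat.Agent.S37.HeckePullComm
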