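/-
S37, brick E7-top: the frozen statement of S37 from three inputs

* `HeckeInputsAlong Qb N ℓ`   (the Prelude's Hecke operator is the genuine correspondence),
* `E4.K1 N ℓ A`               (the Kummer statement of Program E),
* `Kummer.RED N ℓ h A σ₀`     (functions with divisor in `D0` reduce to constants),

for every prime `ℓ ∤ N`, every place `A` over `ℓ` and every Frobenius `σ₀` at `A`.
-/
import Fermat.Agent.S37.Kummer
import Fermat.Agent.Lib.Frobenius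

set_option autoImplicit false
set_option linter.style.haveILetI false

namespace Fermat.Agent.S37.Reduce

open ModularCurve
open Fermat.Agent.S30

local notation "Qb" => AlgebraicClosure ℚ
local notation "Gq" => (AlgebraicClosure ℚ ≃ₐ[ℚ] AlgebraicClosure ℚ)

/-- The statement of S37 from `HeckeInputsAlong`, `K1` and `RED`. -/
theorem result_of (N p : ℕ) [NeZero N] (hcomm : ModularCurve.HeckeOperatorsCommuteBar N)
    (hH : ∀ (ℓ : ℕ) [NeZero ℓ], ℓ.Prime → ¬ ℓ ∣ N → HeckeInputsAlong Qb N ℓ)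
    (hK1 : ∀ ℓ : ℕ, ℓ.Prime → ¬ ℓ ∣ N → ∀ A : ValuationSubring Qb, A.LiesOverPrime ℓ →
      E4.K1 N ℓ A)
    (hRED : ∀ (ℓ : ℕ) [NeZero ℓ], ℓ.Prime → ¬ ℓ ∣ N → ∀ A : ValuationSubring Qb,
      A.LiesOverPrime ℓ → ∀ σ₀ : Gq, A.IsFrobeniusAt σ₀ ℓ →
        ∀ h : HeckeInputsAlong Qb N ℓ, Kummer.RED N ℓ h A σ₀) :
    letI := ModularCurve.heckeModuleBar N; ∀ (_ : SMulCommClass (AlgebraicClosure ℚ ≃ₐ[ℚ] AlgebraicClosure ℚ) ModularCurve.HeckeAlg (ModularCurve.JZero N)), ModularCurve.SpecializationExists (K := ℚ) (L := AlgebraicClosure ℚ) N p (ModularCurve.JZero N) := by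
  letI := ModularCurve.heckeModuleBar N
  intro hsc
  refine Wiring.specializationExists_of_inj N p (JZero N)
    (fun ℓ hℓ _ A hA => Fermat.Agent.Lib.Frobenius.exists_isFrobeniusAt A hℓ hA) ?_
  intro ℓ hℓ hℓNp A hA σ₀ h₀
  haveI : NeZero ℓ := ⟨hℓ.ne_zero⟩
  have hℓN : ¬ ℓ ∣ N := fun hd => hℓNp (Dvd.dvd.mul_right hd p)
  have hℓp : ¬ ℓ ∣ p := fun hd => hℓNp (Dvd.dvd.mul_left hd N)
  have h := hH ℓ hℓ hℓN
  exact Kummer.eq_zero_of_mem_K0 N ℓ p hℓ hℓp hcomm h A σ₀ (hRED ℓ hℓ hℓN A hA σ₀ h₀ h)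
    (hK1 ℓ hℓ hℓN A hA) hsc

end Fermat.Agent.S37.Reduce
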