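/-
S37 (E7), row F12: the final assembly, with the chart inputs as ONE explicit hypothesis per
case (`ChartData`).

* `ChartData M A ℓ h` : a chart function `u ∈ Fb M` with a Gauss reduction `ū` having a pole at
  `q = 0`, together with the five contract `Prop`s of `Fn/Defs.lean`
  (`InvPlaces`, `IntZero`, `IntInf`, `GalStable`, `HeckeStable`).
* `red_of_chartData` : `ChartData M A ℓ h ⟹ Kummer.RED M ℓ h A σ₀`   (`ℓ ∤ M`).
* `red_small` : `ChartData (N * r) A ℓ h' ⟹ Kummer.RED N ℓ h A σ₀`   (`ℓ ∤ N * r`): the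
  auxiliary-level form used for `ℓ = 2, 3`.
* `result_of_chartData` : the frozen statement of S37 from `ChartData` at level `N` for every
  `ℓ > 3`, at level `N * 2` for `ℓ = 3` and at level `N * 3` for `ℓ = 2`.
-/
import Fermat.Agent.S37.Reduce
import Fermat.Agent.S37.Fn.Main
import Fermat.Agent.S37.Fn.GalRedUW
import Fermat.Agent.S37.HeckePullComm
import Fermat.Agent.S30.HeckeInputs

set_option autoImplicit false
set_option linter.unusedSectionVars false
set_option linter.style.haveILetI false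

noncomputable section

namespace Fermat.Agent.S37.Final

open ModularCurve AlgebraicCurve HahnSeries
open Fermat.Agent.S30 Fermat.Agent.S37 Fermat.Agent.S37.Fn

local notation "Qb" => AlgebraicClosure ℚ
local notation "Gq" => (AlgebraicClosure ℚ ≃ₐ[ℚ] AlgebraicClosure ℚ)

/-- The chart inputs of the function-only proof of `(RED)` at level `M`, for the valuation ring
`A` and the prime `ℓ`: a chart function `u` whose Gauss reduction `ū` has a pole at `q = 0`, and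
the five contract properties of `Fn/Defs.lean`. -/
def ChartData (M : ℕ) [NeZero M] (A : ValuationSubring Qb) (ℓ : ℕ) [NeZero ℓ]
    (h : HeckeInputsAlong Qb M ℓ) : Prop :=
  ∃ (u : Kummer.Fb M) (ub : LaurentSeries (Res A)), IsRed M A u ub ∧ ub.order < 0 ∧
    InvPlaces M A u ∧ IntZero M A u ∧ IntInf M A u ∧ GalStable M A u ∧ HeckeStable M A u ℓ h

/-- Constructor of `ChartData`. -/
theorem ChartData.mk' {M : ℕ} [NeZero M] {A : ValuationSubring Qb} {ℓ : ℕ} [NeZero ℓ]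
    {h : HeckeInputsAlong Qb M ℓ} (u : Kummer.Fb M) (ub : LaurentSeries (Res A))
    (hu : IsRed M A u ub) (hub : ub.order < 0) (hInv : InvPlaces M A u) (hI0 : IntZero M A u)
    (hI1 : IntInf M A u) (hGal : GalStable M A u) (hHecke : HeckeStable M A u ℓ h) :
    ChartData M A ℓ h :=
  ⟨u, ub, hu, hub, hInv, hI0, hI1, hGal, hHecke⟩

/-- `(RED)` at level `M` from the chart inputs (`ℓ ∤ M`). -/
theorem red_of_chartData (M ℓ : ℕ) [NeZero M] [NeZero ℓ] (hℓ : ℓ.Prime) (hℓM : ¬ ℓ ∣ M)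
    (A : ValuationSubring Qb) (hA : A.LiesOverPrime ℓ) (σ₀ : Gq) (hσ₀ : A.IsFrobeniusAt σ₀ ℓ)
    (h : HeckeInputsAlong Qb M ℓ) (hC : ChartData M A ℓ h) : Kummer.RED M ℓ h A σ₀ := by
  haveI : Fact ℓ.Prime := ⟨hℓ⟩
  obtain ⟨u, ub, hu, hub, hInv, hI0, hI1, hGal, hHecke⟩ := hC
  exact Fn.red_of_contract ℓ hA hσ₀ h u ub hu hub hInv hI0 hI1 hGal hHecke
    (GalRedUW.galRed' M ℓ A hℓM hA σ₀ hσ₀)

/-- `(RED)` at level `N` from the chart inputs at the auxiliary level `N * r` (`ℓ ∤ N * r`). -/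
theorem red_small (N r ℓ : ℕ) [NeZero N] [NeZero r] [NeZero ℓ] (hℓ : ℓ.Prime)
    (hℓNr : ¬ ℓ ∣ N * r) (A : ValuationSubring Qb) (hA : A.LiesOverPrime ℓ) (σ₀ : Gq)
    (hσ₀ : A.IsFrobeniusAt σ₀ ℓ) (h : HeckeInputsAlong Qb N ℓ)
    (hC : ∀ h' : HeckeInputsAlong Qb (N * r) ℓ, ChartData (N * r) A ℓ h') :
    Kummer.RED N ℓ h A σ₀ := by
  haveI : Fact ℓ.Prime := ⟨hℓ⟩
  have h' : HeckeInputsAlong Qb (N * r) ℓ := HeckeInputs.heckeInputsAlong (N * r) ℓ
  exact HeckePullComm.red_of_red_mul N r ℓ hℓNr A hA σ₀ h h'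
    (red_of_chartData (N * r) ℓ hℓ hℓNr A hA σ₀ hσ₀ h' (hC h'))

/-- **S37 from the chart inputs and `(K1)`**: the frozen statement of S37 from `ChartData` at
level `N` for the primes `ℓ > 3`, at level `N * 2` for `ℓ = 3`, at level `N * 3` for `ℓ = 2`. -/
theorem result_of_chartData (N p : ℕ) [NeZero N]
    (hcomm : ModularCurve.HeckeOperatorsCommuteBar N)
    (hK1 : ∀ ℓ : ℕ, ℓ.Prime → ¬ ℓ ∣ N → ∀ A : ValuationSubring Qb, A.LiesOverPrime ℓ →
      E4.K1 N ℓ A)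
    (hbig : ∀ (ℓ : ℕ) [NeZero ℓ], ℓ.Prime → 3 < ℓ → ¬ ℓ ∣ N → ∀ A : ValuationSubring Qb,
      A.LiesOverPrime ℓ → ∀ h : HeckeInputsAlong Qb N ℓ, ChartData N A ℓ h)
    (h3 : ¬ 3 ∣ N → ∀ A : ValuationSubring Qb, A.LiesOverPrime 3 →
      ∀ h : HeckeInputsAlong Qb (N * 2) 3, ChartData (N * 2) A 3 h)
    (h2 : ¬ 2 ∣ N → ∀ A : ValuationSubring Qb, A.LiesOverPrime 2 →
      ∀ h : HeckeInputsAlong Qb (N * 3) 2, ChartData (N * 3) A 2 h) :
    letI := ModularCurve.heckeModuleBar N; ∀ (_ : SMulCommClass (AlgebraicClosure ℚ ≃ₐ[ℚ] AlgebraicClosure ℚ) ModularCurve.HeckeAlg (ModularCurve.JZero N)), ModularCurve.SpecializationExists (K := ℚ) (L := AlgebraicClosure ℚ) N p (ModularCurve.JZero N) := by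
  refine Reduce.result_of N p hcomm (fun ℓ _ _ _ => HeckeInputs.heckeInputsAlong N ℓ) hK1 ?_
  intro ℓ _ hℓ hℓN A hA σ₀ hσ₀ h
  by_cases h3lt : 3 < ℓ
  · exact red_of_chartData N ℓ hℓ hℓN A hA σ₀ hσ₀ h (hbig ℓ hℓ h3lt hℓN A hA h)
  · have hle : ℓ ≤ 3 := not_lt.mp h3lt
    have h2le : 2 ≤ ℓ := hℓ.two_le
    obtain rfl | rfl : ℓ = 3 ∨ ℓ = 2 := by
      rcases Nat.lt_or_ge ℓ 3 with h | h
      · right; omega
      · left; omega
    · -- `ℓ = 3`, auxiliary level `N * 2`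
      have hNr : ¬ 3 ∣ N * 2 := by
        intro hd
        rcases (Nat.Prime.dvd_mul Nat.prime_three).1 hd with hd | hd
        · exact hℓN hd
        · exact absurd hd (by decide)
      exact red_small N 2 3 hℓ hNr A hA σ₀ hσ₀ h (h3 hℓN A hA)
    · -- `ℓ = 2`, auxiliary level `N * 3`
      have hNr : ¬ 2 ∣ N * 3 := by
        intro hd
        rcases (Nat.Prime.dvd_mul Nat.prime_two).1 hd with hd | hd
        · exact hℓN hd
        · exact absurd hd (by decide)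
      exact red_small N 3 2 hℓ hNr A hA σ₀ hσ₀ h (h2 hℓN A hA)

end Fermat.Agent.S37.Final
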