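/-
S37 (E7) -- the Atkin–Lehner swap `w` of the function field of `X₀(N ℓ)` (`ℓ` prime, `ℓ ∤ N`):
a `ℚ̄`-algebra automorphism `w` of `F_{Nℓ}` with `w ∘ α = β` and `w ∘ β = α`, where
`α, β : F_N → F_{Nℓ}` are the two degeneracy maps of the Prelude (`heckeAlphaBar`, `heckeBetaBar`).

Construction: on the analytic side `w` is `f ↦ f ∘ W`, `W τ = g • (ℓ τ)` with
`g = [x, -y; N, ℓ] ∈ Γ₀(N)` (`x ℓ + y N = 1`); it exchanges `τ ↦ j(d τ)` and `τ ↦ j(d ℓ τ)` for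
`d ∣ N`, hence it preserves the image of `theta : A0 (N ℓ) → HolH`.  (helper24)
-/
import Mathlib
import Fermat.Agent.S24.Theta
import Fermat.Prelude.Def_ModularCurve_HeckeOperator

set_option autoImplicit false

noncomputable section

open UpperHalfPlane ModularCurve HahnSeries ModularForm
open scoped MatrixGroups Manifold

namespace Fermat.Agent.S37.Swap

open Fermat.Agent.S24.HolH Fermat.Agent.S24.JFun Fermat.Agent.S24.StabAbs
open Fermat.Agent.S24.Modular Fermat.Agent.S24.Theta Fermat.Agent.S24.StabJ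
open CongruenceSubgroup

/-! ### The Atkin–Lehner matrix -/

/-- Bezout data: `x ℓ + y N = 1`. -/
theorem exists_bezout {N ℓ : ℕ} (h : Nat.Coprime ℓ N) : ∃ x y : ℤ, x * ℓ + y * N = 1 := by
  have h1 := Int.gcd_eq_gcd_ab (ℓ : ℤ) (N : ℤ)
  have h2 : Int.gcd (ℓ : ℤ) (N : ℤ) = 1 := by
    rw [Int.gcd_natCast_natCast]
    exact h
  rw [h2] at h1
  refine ⟨Int.gcdA ℓ N, Int.gcdB ℓ N, ?_⟩
  have h3 : ((1 : ℕ) : ℤ) = 1 := by norm_num
  rw [h3] at h1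
  rw [h1]
  ring

/-- The matrix `[x, -y; N, ℓ]` of `SL(2, ℤ)`. -/
def alMat (N ℓ : ℕ) (x y : ℤ) (h : x * ℓ + y * N = 1) : SL(2, ℤ) :=
  ⟨!![x, -y; (N : ℤ), (ℓ : ℤ)], by
    rw [Matrix.det_fin_two_of]
    linarith⟩

theorem alMat_mem_Gamma0 (N ℓ : ℕ) (x y : ℤ) (h : x * ℓ + y * N = 1) :
    alMat N ℓ x y h ∈ Gamma0 N := by
  rw [Gamma0_mem]
  show (((N : ℤ) : ℤ) : ZMod N) = 0
  simp

variable {N ℓ : ℕ} [NeZero N] [NeZero ℓ]

theorem scaleH_scaleH (d e : ℕ) [NeZero d] [NeZero e] (τ : ℍ) :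
    scaleH d (scaleH e τ) = scaleH (d * e) τ := by
  apply UpperHalfPlane.ext
  rw [coe_scaleH, coe_scaleH, coe_scaleH]
  push_cast
  ring

/-- The Atkin–Lehner map `τ ↦ g • (ℓ τ)` of the upper half plane. -/
def wH (x y : ℤ) (h : x * ℓ + y * N = 1) (τ : ℍ) : ℍ := alMat N ℓ x y h • scaleH ℓ τ

/-- `j(d · W τ) = j(d ℓ τ)` for `d ∣ N`. -/
theorem jFun_scale_wH (x y : ℤ) (h : x * ℓ + y * N = 1) {d : ℕ} [NeZero d] (hd : d ∣ N) (τ : ℍ) :
    jFun (scaleH d (wH x y h τ)) = jFun (scaleH (d * ℓ) τ) := by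
  rw [wH, jFun_scale_smul_of_mem_Gamma0 hd _ (alMat_mem_Gamma0 N ℓ x y h), scaleH_scaleH]

/-- `j(d ℓ · W τ) = j(d τ)` for `d ∣ N`. -/
theorem jFun_scale_mul_wH (x y : ℤ) (h : x * ℓ + y * N = 1) {d : ℕ} [NeZero d] (hd : d ∣ N)
    (τ : ℍ) : jFun (scaleH (d * ℓ) (wH x y h τ)) = jFun (scaleH d τ) := by
  obtain ⟨c, hc⟩ := hd
  let g' : SL(2, ℤ) := ⟨!![(ℓ : ℤ) * x, -y * d; (c : ℤ), 1], by
    rw [Matrix.det_fin_two_of]
    have hN : (N : ℤ) = (d : ℤ) * c := by exact_mod_cast hc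
    rw [hN] at h
    linarith⟩
  have hkey : scaleH (d * ℓ) (wH x y h τ) = g' • scaleH d τ := by
    apply UpperHalfPlane.ext
    rw [wH, coe_scaleH, UpperHalfPlane.coe_specialLinearGroup_apply,
      UpperHalfPlane.coe_specialLinearGroup_apply, coe_scaleH, coe_scaleH]
    have hℓ0 : (ℓ : ℂ) ≠ 0 := by exact_mod_cast NeZero.ne ℓ
    have hden := UpperHalfPlane.denom_ne_zero
      (Matrix.SpecialLinearGroup.toGL ((Matrix.SpecialLinearGroup.map (Int.castRingHom ℝ))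
        (alMat N ℓ x y h))) (scaleH ℓ τ)
    rw [ModularGroup.denom_apply] at hden
    have hNc : (N : ℂ) = (d : ℂ) * (c : ℂ) := by exact_mod_cast hc
    simp only [alMat, g', Matrix.of_apply, Matrix.cons_val',
      Matrix.cons_val_zero, Matrix.cons_val_one, Matrix.cons_val_fin_one,
      algebraMap_int_eq, Int.coe_castRingHom, Int.cast_mul, Int.cast_natCast, coe_scaleH] at hden ⊢
    push_cast at hden ⊢
    rw [hNc] at hden ⊢
    have hden' : (c : ℂ) * ((d : ℂ) * (τ : ℂ)) + 1 ≠ 0 := by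
      intro h0
      apply hden
      have : (d : ℂ) * (c : ℂ) * ((ℓ : ℂ) * (τ : ℂ)) + (ℓ : ℂ)
          = (ℓ : ℂ) * ((c : ℂ) * ((d : ℂ) * (τ : ℂ)) + 1) := by ring
      rw [this, h0, mul_zero]
    field_simp
  rw [hkey, jFun_smul]


/-! ### The swap on `A0 (N ℓ)` -/

omit [NeZero N] [NeZero ℓ] in
/-- A divisor of `N ℓ` is a divisor of `N` or `ℓ` times a divisor of `N`. -/
theorem dvd_cases (hℓ : ℓ.Prime) {e : ℕ} (he : e ∣ N * ℓ) : e ∣ N ∨ ∃ d, d ∣ N ∧ e = d * ℓ := by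
  by_cases hℓe : ℓ ∣ e
  · obtain ⟨d, rfl⟩ := hℓe
    right
    refine ⟨d, ?_, mul_comm _ _⟩
    rw [mul_comm N ℓ] at he
    exact Nat.dvd_of_mul_dvd_mul_left hℓ.pos he
  · left
    have hcop : Nat.Coprime e ℓ := ((Nat.Prime.coprime_iff_not_dvd hℓ).2 hℓe).symm
    exact hcop.dvd_of_dvd_mul_right he

variable (ι : Kbar →+* ℂ)

/-- Every `f ∘ W`, `f ∈ theta (A0 (N ℓ))`, is again in `theta (A0 (N ℓ))`. -/
theorem exists_swap (x y : ℤ) (h : x * ℓ + y * N = 1) (hℓ : ℓ.Prime) (a : A0 (N * ℓ)) :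
    ∃ b : A0 (N * ℓ), ∀ τ : ℍ,
      (theta ι (N * ℓ) b : ℍ → ℂ) τ = (theta ι (N * ℓ) a : ℍ → ℂ) (wH x y h τ) := by
  refine A0_induction (p := fun a : A0 (N * ℓ) => ∃ b : A0 (N * ℓ), ∀ τ : ℍ,
      (theta ι (N * ℓ) b : ℍ → ℂ) τ = (theta ι (N * ℓ) a : ℍ → ℂ) (wH x y h τ)) ?_ ?_ ?_ ?_ a
  · intro e _ he
    rcases dvd_cases hℓ he with he' | ⟨d, hd, rfl⟩
    · refine ⟨gen (N * ℓ) (e * ℓ) (mul_dvd_mul_right he' ℓ), fun τ => ?_⟩
      rw [theta_gen_apply, theta_gen_apply, jFun_scale_wH x y h he']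
    · have : NeZero d := ⟨fun h0 => by
        have := NeZero.ne (d * ℓ)
        rw [h0, zero_mul] at this
        exact this rfl⟩
      refine ⟨gen (N * ℓ) d (Dvd.dvd.mul_right hd ℓ), fun τ => ?_⟩
      rw [theta_gen_apply, theta_gen_apply, jFun_scale_mul_wH x y h hd]
  · intro c
    refine ⟨algebraMap Kbar (A0 (N * ℓ)) c, fun τ => ?_⟩
    rw [theta_algebraMap_apply, theta_algebraMap_apply]
  · rintro a₁ a₂ ⟨b₁, h₁⟩ ⟨b₂, h₂⟩
    refine ⟨b₁ + b₂, fun τ => ?_⟩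
    rw [map_add, map_add]
    show (theta ι (N * ℓ) b₁ : ℍ → ℂ) τ + (theta ι (N * ℓ) b₂ : ℍ → ℂ) τ = _
    rw [h₁, h₂]
    rfl
  · rintro a₁ a₂ ⟨b₁, h₁⟩ ⟨b₂, h₂⟩
    refine ⟨b₁ * b₂, fun τ => ?_⟩
    rw [map_mul, map_mul]
    show (theta ι (N * ℓ) b₁ : ℍ → ℂ) τ * (theta ι (N * ℓ) b₂ : ℍ → ℂ) τ = _
    rw [h₁, h₂]
    rfl

/-- underlying function of the swap -/
def swapFun (x y : ℤ) (h : x * ℓ + y * N = 1) (hℓ : ℓ.Prime) (a : A0 (N * ℓ)) : A0 (N * ℓ) :=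
  (exists_swap ι x y h hℓ a).choose

theorem swapFun_spec (x y : ℤ) (h : x * ℓ + y * N = 1) (hℓ : ℓ.Prime) (a : A0 (N * ℓ)) (τ : ℍ) :
    (theta ι (N * ℓ) (swapFun ι x y h hℓ a) : ℍ → ℂ) τ
      = (theta ι (N * ℓ) a : ℍ → ℂ) (wH x y h τ) :=
  (exists_swap ι x y h hℓ a).choose_spec τ

theorem swapFun_eq (x y : ℤ) (h : x * ℓ + y * N = 1) (hℓ : ℓ.Prime) {a b : A0 (N * ℓ)}
    (hb : ∀ τ : ℍ, (theta ι (N * ℓ) b : ℍ → ℂ) τ = (theta ι (N * ℓ) a : ℍ → ℂ) (wH x y h τ)) :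
    swapFun ι x y h hℓ a = b := by
  apply theta_injective ι (N * ℓ)
  apply Subtype.ext
  funext τ
  rw [swapFun_spec, hb]

/-- The swap as a `ℚ̄`-algebra endomorphism of `A0 (N ℓ)`. -/
def swapHom (x y : ℤ) (h : x * ℓ + y * N = 1) (hℓ : ℓ.Prime) :
    A0 (N * ℓ) →ₐ[Kbar] A0 (N * ℓ) where
  toFun := swapFun ι x y h hℓ
  map_one' := swapFun_eq ι x y h hℓ (fun τ => by rw [map_one]; rfl)
  map_mul' a b := swapFun_eq ι x y h hℓ (fun τ => by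
    rw [map_mul, map_mul]
    show (theta ι (N * ℓ) (swapFun ι x y h hℓ a) : ℍ → ℂ) τ
      * (theta ι (N * ℓ) (swapFun ι x y h hℓ b) : ℍ → ℂ) τ = _
    rw [swapFun_spec, swapFun_spec]
    rfl)
  map_zero' := swapFun_eq ι x y h hℓ (fun τ => by rw [map_zero]; rfl)
  map_add' a b := swapFun_eq ι x y h hℓ (fun τ => by
    rw [map_add, map_add]
    show (theta ι (N * ℓ) (swapFun ι x y h hℓ a) : ℍ → ℂ) τ
      + (theta ι (N * ℓ) (swapFun ι x y h hℓ b) : ℍ → ℂ) τ = _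
    rw [swapFun_spec, swapFun_spec]
    rfl)
  commutes' c := swapFun_eq ι x y h hℓ (fun τ => by
    rw [theta_algebraMap_apply, theta_algebraMap_apply])

theorem swapHom_gen (x y : ℤ) (h : x * ℓ + y * N = 1) (hℓ : ℓ.Prime) {d : ℕ} [NeZero d]
    (hd : d ∣ N) :
    swapHom ι x y h hℓ (gen (N * ℓ) d (Dvd.dvd.mul_right hd ℓ))
      = gen (N * ℓ) (d * ℓ) (mul_dvd_mul_right hd ℓ) :=
  swapFun_eq ι x y h hℓ (fun τ => by
    rw [theta_gen_apply, theta_gen_apply, jFun_scale_wH x y h hd])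

theorem swapHom_gen_mul (x y : ℤ) (h : x * ℓ + y * N = 1) (hℓ : ℓ.Prime) {d : ℕ} [NeZero d]
    (hd : d ∣ N) :
    swapHom ι x y h hℓ (gen (N * ℓ) (d * ℓ) (mul_dvd_mul_right hd ℓ))
      = gen (N * ℓ) d (Dvd.dvd.mul_right hd ℓ) :=
  swapFun_eq ι x y h hℓ (fun τ => by
    rw [theta_gen_apply, theta_gen_apply, jFun_scale_mul_wH x y h hd])

/-- The swap is an involution of `A0 (N ℓ)`. -/
theorem swapHom_swapHom (x y : ℤ) (h : x * ℓ + y * N = 1) (hℓ : ℓ.Prime) (a : A0 (N * ℓ)) :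
    swapHom ι x y h hℓ (swapHom ι x y h hℓ a) = a := by
  refine A0_induction (p := fun a : A0 (N * ℓ) =>
    swapHom ι x y h hℓ (swapHom ι x y h hℓ a) = a) ?_ ?_ ?_ ?_ a
  · intro e _ he
    rcases dvd_cases hℓ he with he' | ⟨d, hd, rfl⟩
    · rw [swapHom_gen ι x y h hℓ he', swapHom_gen_mul ι x y h hℓ he']
    · have : NeZero d := ⟨fun h0 => by
        have := NeZero.ne (d * ℓ)
        rw [h0, zero_mul] at this
        exact this rfl⟩
      rw [swapHom_gen_mul ι x y h hℓ hd, swapHom_gen ι x y h hℓ hd]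
  · intro c
    rw [AlgHom.commutes, AlgHom.commutes]
  · intro a₁ a₂ h₁ h₂
    rw [map_add, map_add, h₁, h₂]
  · intro a₁ a₂ h₁ h₂
    rw [map_mul, map_mul, h₁, h₂]

/-- The swap as a `ℚ̄`-algebra automorphism of `A0 (N ℓ)`. -/
def swapEquiv (x y : ℤ) (h : x * ℓ + y * N = 1) (hℓ : ℓ.Prime) :
    A0 (N * ℓ) ≃ₐ[Kbar] A0 (N * ℓ) :=
  AlgEquiv.ofAlgHom (swapHom ι x y h hℓ) (swapHom ι x y h hℓ)
    (AlgHom.ext fun a => swapHom_swapHom ι x y h hℓ a)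
    (AlgHom.ext fun a => swapHom_swapHom ι x y h hℓ a)

theorem swapEquiv_apply (x y : ℤ) (h : x * ℓ + y * N = 1) (hℓ : ℓ.Prime) (a : A0 (N * ℓ)) :
    swapEquiv ι x y h hℓ a = swapHom ι x y h hℓ a := rfl

/-- The Atkin–Lehner swap as a `ℚ̄`-algebra automorphism of the function field `F_{Nℓ}`. -/
def swapField (x y : ℤ) (h : x * ℓ + y * N = 1) (hℓ : ℓ.Prime) :
    FN (N * ℓ) ≃ₐ[Kbar] FN (N * ℓ) :=
  IsFractionRing.algEquivOfAlgEquiv (K := FN (N * ℓ)) (L := FN (N * ℓ)) (swapEquiv ι x y h hℓ)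

theorem swapField_coe (x y : ℤ) (h : x * ℓ + y * N = 1) (hℓ : ℓ.Prime) (a : A0 (N * ℓ)) :
    swapField ι x y h hℓ (a : FN (N * ℓ)) = (swapHom ι x y h hℓ a : FN (N * ℓ)) :=
  IsFractionRing.algEquivOfAlgEquiv_algebraMap (K := FN (N * ℓ)) (L := FN (N * ℓ))
    (swapEquiv ι x y h hℓ) a


/-! ### The swap exchanges the two degeneracy maps -/

theorem swapField_swapField (x y : ℤ) (h : x * ℓ + y * N = 1) (hℓ : ℓ.Prime) (z : FN (N * ℓ)) :
    swapField ι x y h hℓ (swapField ι x y h hℓ z) = z := by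
  obtain ⟨a, b, hb, hab⟩ := exists_mul_eq z
  have h1 : swapField ι x y h hℓ (swapField ι x y h hℓ (z * (b : FN (N * ℓ))))
      = z * (b : FN (N * ℓ)) := by
    rw [hab, swapField_coe, swapField_coe, swapHom_swapHom]
  rw [map_mul, map_mul, swapField_coe, swapField_coe, swapHom_swapHom] at h1
  exact mul_right_cancel₀ hb h1

/-- `α` sends the generator `j(q^d)` of level `N` to the generator `j(q^d)` of level `N ℓ`. -/
theorem alpha_gen {d : ℕ} [NeZero d] (hd : d ∣ N) :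
    heckeAlphaBar Kbar N ℓ (gen N d hd : FN N)
      = (gen (N * ℓ) d (Dvd.dvd.mul_right hd ℓ) : FN (N * ℓ)) := by
  apply Subtype.ext
  rw [coe_heckeAlphaBar, coe_gen, coe_gen]

/-- `β` sends the generator `j(q^d)` of level `N` to the generator `j(q^{dℓ})` of level `N ℓ`. -/
theorem beta_gen {d : ℕ} [NeZero d] (hd : d ∣ N) :
    heckeBetaBar Kbar N ℓ (gen N d hd : FN N)
      = (gen (N * ℓ) (d * ℓ) (mul_dvd_mul_right hd ℓ) : FN (N * ℓ)) := by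
  apply Subtype.ext
  rw [coe_heckeBetaBar, coe_gen, coe_gen, Fermat.Agent.S24.Puiseux.coeffEmb_qExpand_jq,
    Fermat.Agent.S24.Puiseux.coeffEmb_qExpand_jq, qExpand_qExpand,
    qExpand_congr (mul_comm ℓ d)]

theorem swapField_alpha_coe (x y : ℤ) (h : x * ℓ + y * N = 1) (hℓ : ℓ.Prime) (a : A0 N) :
    swapField ι x y h hℓ (heckeAlphaBar Kbar N ℓ (a : FN N))
      = heckeBetaBar Kbar N ℓ (a : FN N) := by
  refine A0_induction (p := fun a : A0 N =>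
    swapField ι x y h hℓ (heckeAlphaBar Kbar N ℓ (a : FN N))
      = heckeBetaBar Kbar N ℓ (a : FN N)) ?_ ?_ ?_ ?_ a
  · intro d _ hd
    rw [alpha_gen hd, beta_gen hd, swapField_coe, swapHom_gen ι x y h hℓ hd]
  · intro c
    have hc : ((algebraMap Kbar (A0 N) c : A0 N) : FN N) = algebraMap Kbar (FN N) c := rfl
    rw [hc, AlgHom.commutes, AlgHom.commutes, AlgEquiv.commutes]
  · intro a₁ a₂ h₁ h₂
    have hc : ((a₁ + a₂ : A0 N) : FN N) = (a₁ : FN N) + (a₂ : FN N) := rfl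
    rw [hc, map_add, map_add, map_add, h₁, h₂]
  · intro a₁ a₂ h₁ h₂
    have hc : ((a₁ * a₂ : A0 N) : FN N) = (a₁ : FN N) * (a₂ : FN N) := rfl
    rw [hc, map_mul, map_mul, map_mul, h₁, h₂]

/-- `w ∘ α = β`. -/
theorem swapField_alpha (x y : ℤ) (h : x * ℓ + y * N = 1) (hℓ : ℓ.Prime) (f : FN N) :
    swapField ι x y h hℓ (heckeAlphaBar Kbar N ℓ f) = heckeBetaBar Kbar N ℓ f := by
  obtain ⟨a, b, hb, hab⟩ := exists_mul_eq f
  have h1 := swapField_alpha_coe ι x y h hℓ a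
  rw [← hab, map_mul, map_mul, map_mul, swapField_alpha_coe ι x y h hℓ b] at h1
  have hb' : heckeBetaBar Kbar N ℓ (b : FN N) ≠ 0 := by
    intro h0
    exact hb ((map_eq_zero_iff _ (heckeBetaBar Kbar N ℓ).injective).mp h0)
  exact mul_right_cancel₀ hb' h1

/-- `w ∘ β = α`. -/
theorem swapField_beta (x y : ℤ) (h : x * ℓ + y * N = 1) (hℓ : ℓ.Prime) (f : FN N) :
    swapField ι x y h hℓ (heckeBetaBar Kbar N ℓ f) = heckeAlphaBar Kbar N ℓ f := by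
  rw [← swapField_alpha ι x y h hℓ f, swapField_swapField]

/-- **The Atkin–Lehner swap.**  For a prime `ℓ ∤ N` there is a `ℚ̄`-algebra automorphism `w` of
the function field of `X₀(N ℓ)`, an involution, exchanging the two degeneracy maps
`α, β : F_N → F_{Nℓ}` of the Prelude. -/
theorem exists_swap_algEquiv (N ℓ : ℕ) [NeZero N] [NeZero ℓ] (hℓ : ℓ.Prime) (hℓN : ¬ ℓ ∣ N) :
    ∃ w : FN (N * ℓ) ≃ₐ[Kbar] FN (N * ℓ),
      (∀ f : FN N, w (heckeAlphaBar Kbar N ℓ f) = heckeBetaBar Kbar N ℓ f) ∧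
      (∀ f : FN N, w (heckeBetaBar Kbar N ℓ f) = heckeAlphaBar Kbar N ℓ f) ∧
      (∀ z : FN (N * ℓ), w (w z) = z) := by
  obtain ⟨x, y, h⟩ := exists_bezout ((Nat.Prime.coprime_iff_not_dvd hℓ).2 hℓN)
  exact ⟨swapField iotaBar x y h hℓ, swapField_alpha iotaBar x y h hℓ,
    swapField_beta iotaBar x y h hℓ, swapField_swapField iotaBar x y h hℓ⟩

end Fermat.Agent.S37.Swap

end
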