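/-
S37, brick "ChartStable": `T_ℓ`-stability of the `A`-adic charts `S_0 = {P : j(P) ∈ A}` and
`S_∞ = its complement` on the places of the function field of `X₀(N)` over `ℚ̄`.

* `exists_modPoly`   : a monic `P ∈ A[X][Y]` with `P(j(q), j(q^ℓ)) = 0` (the modular polynomial of
                       S28 has coefficients in every valuation subring `A` of `ℚ̄`);
* `modPoly_alpha_beta`, `modPoly_beta_alpha` : `P(α j, β j) = 0 = P(β j, α j)` in `F_{Nℓ}`
                       (the second one through the Atkin–Lehner swap);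
* `chart_iff`        : for every place `W` of `F_{Nℓ}`: `α j` has a value in `A` at `W` iff `β j` has;
* `JInt`, `restrict_iff`, `heckeDivBar_nonneg` : the same on places of `F_N` and positivity of the
                       Hecke correspondence on divisors that are effective on `S_0` (resp. `S_∞`).
-/
import Mathlib
import Fermat.Agent.S30.ModSepInst
import Fermat.Agent.S30.HeckeNormQ
import Fermat.Agent.S37.Swap
import Fermat.Agent.S24.FF.Residue
import Fermat.Agent.S30.HeckeInputs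

set_option autoImplicit false
set_option linter.deprecated false
set_option linter.style.haveILetI false

noncomputable section

namespace Fermat.Agent.S37.ChartStable

open ModularCurve AlgebraicCurve HahnSeries
open Fermat.Agent.S28 Fermat.Agent.S28.Defs Fermat.Agent.S30 Fermat.Agent.S30.ModSep

local notation "Qb" => AlgebraicClosure ℚ

/-! ### The modular polynomial with coefficients in a valuation subring -/

section ModPoly

variable (A : ValuationSubring Qb)

/-- Evaluation of `P ∈ A[X][Y]` at a pair `(x, y)` of a commutative ring `R` under `φ : A →+* R`. -/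
def ev2 {R : Type*} [CommRing R] (φ : A →+* R) (x y : R) (P : Polynomial (Polynomial A)) : R :=
  P.eval₂ (Polynomial.eval₂RingHom φ x) y

theorem ev2_map {R R' : Type*} [CommRing R] [CommRing R'] (φ : A →+* R) (g : R →+* R') (x y : R)
    (P : Polynomial (Polynomial A)) :
    g (ev2 A φ x y P) = ev2 A (g.comp φ) (g x) (g y) P := by
  unfold ev2
  rw [Polynomial.hom_eval₂]
  congr 1
  refine Polynomial.ringHom_ext (fun a => ?_) ?_
  · simp
  · simp

/-- A primitive `ℓ`-th root of unity of `ℚ̄` mapping to `e^{2πi/ℓ}` under an embedding. -/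
theorem exists_zeta (ℓ : ℕ) [NeZero ℓ] (ι : Qb →+* ℂ) :
    ∃ ζ : Qbˣ, ι (ζ : Qb) = (zetaC ℓ : ℂ) ∧ (ζ : Qb) ^ ℓ = 1 := by
  have hι : Function.Injective ι := ι.injective
  obtain ⟨ζ₀, hζ₀⟩ := HasEnoughRootsOfUnity.exists_primitiveRoot Qb ℓ
  have h1 : IsPrimitiveRoot (ι ζ₀) ℓ := hζ₀.map_of_injective hι
  have h2 : ((zetaC ℓ : ℂˣ) : ℂ) ^ ℓ = 1 :=
    (Complex.isPrimitiveRoot_exp ℓ (NeZero.ne ℓ)).pow_eq_one
  obtain ⟨i, -, hi⟩ := h1.eq_pow_of_pow_eq_one h2
  let u : Qbˣ := (hζ₀.isUnit (NeZero.ne ℓ)).unit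
  have hu : (u : Qb) = ζ₀ := IsUnit.unit_spec _
  refine ⟨u ^ i, ?_, ?_⟩
  · rw [Units.val_pow_eq_pow_val, hu, map_pow, hi]
  · rw [Units.val_pow_eq_pow_val, hu, ← pow_mul, mul_comm, pow_mul, hζ₀.pow_eq_one, one_pow]

/-- The conjugates of `j(q^ℓ)` have coefficients in `A`. -/
theorem conj_mem_range (ℓ : ℕ) [NeZero ℓ] (ζ : Qbˣ) (hζ : (ζ : Qb) ^ ℓ = 1) (ν : Qb)
    (q : (Hermite.rowSystem ℓ).C) :
    ∃ u : LaurentSeries A, Congr.incl A u = conj Qb (Hermite.rowSystem ℓ) ζ ν q := by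
  rw [conj_eq]
  generalize (Hermite.rowSystem ℓ).a q ℓ * (Hermite.rowSystem ℓ).b q ℓ = k
  generalize (Hermite.rowSystem ℓ).a q ℓ * (Hermite.rowSystem ℓ).a q ℓ = m
  have hpow : ((ζ ^ k : Qbˣ) : Qb) ^ ℓ = 1 := by
    rw [Units.val_pow_eq_pow_val, ← pow_mul, mul_comm, pow_mul, hζ, one_pow]
  refine ⟨twist A (Congr.unitA A (Nat.pos_of_ne_zero (NeZero.ne ℓ)) hpow) m (jqModC A), ?_⟩
  show coeffMap A.subtype _ = _
  rw [Formal.coeffMap_twist, coeffMap_jqModC,
    Congr.map_subtype_unitA A _ hpow (ζ ^ k) rfl]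

theorem eval₂RingHom_comp_map {R : Type*} [CommRing R] (x : R) (φ : Qb →+* R) :
    (Polynomial.eval₂RingHom φ x).comp (Polynomial.mapRingHom (A.subtype : A →+* Qb)) =
      Polynomial.eval₂RingHom (φ.comp A.subtype) x := by
  refine Polynomial.ringHom_ext (fun a => ?_) ?_
  · simp
  · simp

/-- **The modular polynomial over `A`**: a monic `P ∈ A[X][Y]` with `P(j(q), j(q^ℓ)) = 0`. -/
theorem exists_modPoly (ℓ : ℕ) [NeZero ℓ] :
    ∃ P : Polynomial (Polynomial A), P.Monic ∧
      P.natDegree = (CongruenceSubgroup.Gamma0 ℓ).index ∧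
      ev2 A ((HahnSeries.C : Qb →+* LaurentSeries Qb).comp A.subtype) (jqModC Qb)
        (qE Qb ℓ (jqModC Qb)) P = 0 := by
  classical
  let ι : Qb →+* ℂ := Fermat.Agent.S24.Theta.iotaBar
  have hι : Function.Injective ι := Fermat.Agent.S24.Theta.iotaBar_injective
  obtain ⟨ζ, hζ, hζℓ⟩ := exists_zeta ℓ ι
  have hℓ0 : (ℓ : Qb) ≠ 0 := Nat.cast_ne_zero.mpr (NeZero.ne ℓ)
  obtain ⟨P₀, hmonic, hdeg, hP⟩ :=
    exists_isModPoly_of_embedding ℓ ι hι ζ hζ (ℓ : Qb)⁻¹ (mul_inv_cancel₀ hℓ0)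
  -- the product of the `X - conj` lies in the image of `A((q))[X]`
  have hconj : ∀ q : (Hermite.rowSystem ℓ).C, ∃ u : LaurentSeries A,
      Congr.incl A u = conj Qb (Hermite.rowSystem ℓ) ζ (ℓ : Qb)⁻¹ q :=
    fun q => conj_mem_range A ℓ ζ hζℓ (ℓ : Qb)⁻¹ q
  choose u hu using hconj
  obtain ⟨G, hG⟩ : ∃ G : Polynomial (LaurentSeries A), G.map (Congr.incl A) =
      ∏ q : (Hermite.rowSystem ℓ).C,
        (Polynomial.X - Polynomial.C (conj Qb (Hermite.rowSystem ℓ) ζ (ℓ : Qb)⁻¹ q)) := by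
    refine ⟨∏ q : (Hermite.rowSystem ℓ).C, (Polynomial.X - Polynomial.C (u q)), ?_⟩
    simp only [Polynomial.map_prod, Polynomial.map_sub, Polynomial.map_X, Polynomial.map_C, hu]
  have hmem : P₀ ∈ Polynomial.lifts (Polynomial.mapRingHom (A.subtype : A →+* Qb)) := by
    rw [Polynomial.lifts_iff_coeff_lifts]
    intro k
    obtain ⟨p, hp⟩ := Formal.exists_map_eq_of_coeff_mem_range (A.subtype : A →+* Qb) ℓ
      (P₀.coeff k) (fun m => by
        have h1 : Polynomial.eval₂ (HahnSeries.C : Qb →+* LaurentSeries Qb)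
            (qE Qb ℓ (jqModC Qb)) (P₀.coeff k) = (P₀.map (phi Qb ℓ)).coeff k := by
          rw [Polynomial.coeff_map]
          rfl
        rw [h1, hP, ← hG]
        exact ⟨(G.coeff k).coeff m, by simp [Polynomial.coeff_map]⟩)
    exact ⟨p, hp⟩
  obtain ⟨P, hPmap, hPdeg, hPmonic⟩ :=
    Polynomial.lifts_and_natDegree_eq_and_monic hmem hmonic
  refine ⟨P, hPmonic, hPdeg.trans hdeg, ?_⟩
  have hζN : ζ ^ ℓ = 1 := Units.ext (by rw [Units.val_pow_eq_pow_val, hζℓ]; rfl)
  have hroot := hP.root Qb (Hermite.rowSystem ℓ) ζ (ℓ : Qb)⁻¹ hζN (mul_inv_cancel₀ hℓ0)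
  unfold ev2
  rw [← eval₂RingHom_comp_map A, ← Polynomial.eval₂_map]
  have : P.map (Polynomial.mapRingHom (A.subtype : A →+* Qb)) = P₀ := hPmap
  rw [this]
  exact hroot

end ModPoly

/-! ### The modular equation in the function field `F_{Nℓ}` -/

section Field

open Fermat.Agent.S24.Modular Fermat.Agent.S24.DegreeGen

variable (A : ValuationSubring Qb) (N ℓ : ℕ) [NeZero N] [NeZero ℓ]

/-- `α j = j(q)` in `F_{Nℓ}`. -/
def jA : FN (N * ℓ) := heckeAlphaBar Qb N ℓ (jBar N)

/-- `β j = j(q^ℓ)` in `F_{Nℓ}`. -/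
def jB : FN (N * ℓ) := heckeBetaBar Qb N ℓ (jBar N)

/-- The structure map `A → F_M`. -/
def toF (M : ℕ) : A →+* FN M := (algebraMap Qb (FN M)).comp A.subtype

theorem coe_jA : ((jA N ℓ : FN (N * ℓ)) : LaurentSeries Qb) = jqModC Qb := by
  unfold jA
  rw [coe_heckeAlphaBar, coe_jBar]
  exact Fermat.Agent.S24.Puiseux.coeffEmb_jq

omit [NeZero N] in
theorem coe_jB : ((jB N ℓ : FN (N * ℓ)) : LaurentSeries Qb) = qE Qb ℓ (jqModC Qb) := by
  unfold jB
  rw [coe_heckeBetaBar, coe_jBar, Fermat.Agent.S24.Puiseux.coeffEmb_jq,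
    Orders.qE_of_ne_zero Qb (NeZero.ne ℓ)]

/-- `P(α j, β j) = 0` in `F_{Nℓ}`. -/
theorem modPoly_alpha_beta (P : Polynomial (Polynomial A))
    (hP : ev2 A ((HahnSeries.C : Qb →+* LaurentSeries Qb).comp A.subtype) (jqModC Qb)
      (qE Qb ℓ (jqModC Qb)) P = 0) :
    ev2 A (toF A (N * ℓ)) (jA N ℓ) (jB N ℓ) P = 0 := by
  have hinj : Function.Injective
      ((modularFunctionFieldBar (N * ℓ)).val : FN (N * ℓ) →+* LaurentSeries Qb) :=
    Subtype.val_injective
  apply hinj
  rw [map_zero, ev2_map]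
  have h1 : ((modularFunctionFieldBar (N * ℓ)).val : FN (N * ℓ) →+* LaurentSeries Qb).comp
      (toF A (N * ℓ)) = (HahnSeries.C : Qb →+* LaurentSeries Qb).comp A.subtype := by
    refine RingHom.ext fun a => ?_
    show algebraMap Qb (LaurentSeries Qb) (a : Qb) = HahnSeries.C (a : Qb)
    rw [algebraMap_laurentSeries_eq_single, HahnSeries.C_apply]
  rw [h1]
  have h2 : ((modularFunctionFieldBar (N * ℓ)).val : FN (N * ℓ) →+* LaurentSeries Qb)
      (jA N ℓ) = jqModC Qb := coe_jA N ℓ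
  have h3 : ((modularFunctionFieldBar (N * ℓ)).val : FN (N * ℓ) →+* LaurentSeries Qb)
      (jB N ℓ) = qE Qb ℓ (jqModC Qb) := coe_jB N ℓ
  rw [h2, h3]
  exact hP

/-- `P(β j, α j) = 0` in `F_{Nℓ}` (Atkin–Lehner swap). -/
theorem modPoly_beta_alpha (hℓ : ℓ.Prime) (hℓN : ¬ ℓ ∣ N) (P : Polynomial (Polynomial A))
    (hP : ev2 A ((HahnSeries.C : Qb →+* LaurentSeries Qb).comp A.subtype) (jqModC Qb)
      (qE Qb ℓ (jqModC Qb)) P = 0) :
    ev2 A (toF A (N * ℓ)) (jB N ℓ) (jA N ℓ) P = 0 := by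
  obtain ⟨w, hwα, hwβ, -⟩ := Swap.exists_swap_algEquiv N ℓ hℓ hℓN
  have h0 := modPoly_alpha_beta A N ℓ P hP
  have h1 := congrArg (w : FN (N * ℓ) →+* FN (N * ℓ)) h0
  rw [map_zero, ev2_map] at h1
  have h2 : (w : FN (N * ℓ) →+* FN (N * ℓ)).comp (toF A (N * ℓ)) = toF A (N * ℓ) := by
    refine RingHom.ext fun a => ?_
    exact w.commutes (a : Qb)
  have h3 : (w : FN (N * ℓ) →+* FN (N * ℓ)) (jA N ℓ) = jB N ℓ := hwα (jBar N)
  have h4 : (w : FN (N * ℓ) →+* FN (N * ℓ)) (jB N ℓ) = jA N ℓ := hwβ (jBar N)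
  rw [h2, h3, h4] at h1
  exact h1

end Field

/-! ### Values at a place -/

section Value

variable (A : ValuationSubring Qb)

/-- `P(a, b)` for `a ∈ A`, as the value at `b` of a monic polynomial over `A`. -/
theorem ev2_subtype_eq (P : Polynomial (Polynomial A)) (a : A) (b : Qb) :
    ev2 A A.subtype (a : Qb) b P =
      Polynomial.eval₂ (A.subtype : A →+* Qb) b (P.map (Polynomial.evalRingHom a)) := by
  unfold ev2
  rw [Polynomial.eval₂_map]
  congr 1
  refine Polynomial.ringHom_ext (fun c => ?_) ?_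
  · simp
  · simp

/-- A root `b ∈ ℚ̄` of `P(a, Y)`, `a ∈ A`, `P` monic over `A[X]`, lies in `A`. -/
theorem mem_of_ev2_eq_zero (P : Polynomial (Polynomial A)) (hP : P.Monic) (a : A) (b : Qb)
    (h : ev2 A A.subtype (a : Qb) b P = 0) : b ∈ A := by
  rw [ev2_subtype_eq] at h
  have hint : IsIntegral A b := ⟨P.map (Polynomial.evalRingHom a), hP.map _, h⟩
  obtain ⟨y, hy⟩ := IsIntegrallyClosed.isIntegral_iff.mp hint
  rw [← hy]
  exact y.2

variable {F : Type*} [Field F] [Algebra Qb F]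

/-- **Values and the modular equation.**  If `P(x, y) = 0` with `P` monic over `A[X]` and `x` has
a value `a ∈ A` at the place `W`, then `y` has a value `b ∈ A` at `W`. -/
theorem exists_value (htr : Algebra.trdeg Qb F = 1) (W : Place Qb F)
    (P : Polynomial (Polynomial A)) (hmonic : P.Monic) (x y : F)
    (hP : ev2 A ((algebraMap Qb F).comp A.subtype) x y P = 0)
    (a : Qb) (ha : a ∈ A) (hx : W.toValuationSubring.valuation (x - algebraMap Qb F a) < 1) :
    ∃ b : Qb, b ∈ A ∧ W.toValuationSubring.valuation (y - algebraMap Qb F b) < 1 := by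
  set O := W.toValuationSubring with hO
  -- `x ∈ O`
  have hxa : x - algebraMap Qb F a ∈ O := O.mem_of_valuation_le_one _ hx.le
  have hxO : x ∈ O := by
    have := add_mem hxa (W.algebraMap_mem' a)
    rwa [sub_add_cancel] at this
  let xO : O := ⟨x, hxO⟩
  let φO : A →+* O := (algebraMap Qb O).comp A.subtype
  have hφ : (O.subtype : O →+* F).comp φO = (algebraMap Qb F).comp A.subtype :=
    RingHom.ext fun c => rfl
  -- `y ∈ O`
  have hyO : y ∈ O := by
    have hint : IsIntegral O y := by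
      refine ⟨P.map (Polynomial.eval₂RingHom φO xO), hmonic.map _, ?_⟩
      rw [Polynomial.eval₂_map]
      have h1 : (algebraMap O F).comp (Polynomial.eval₂RingHom φO xO) =
          Polynomial.eval₂RingHom ((algebraMap Qb F).comp A.subtype) x := by
        refine Polynomial.ringHom_ext (fun c => ?_) ?_
        · simp only [RingHom.comp_apply, Polynomial.coe_eval₂RingHom, Polynomial.eval₂_C]
          rfl
        · simp only [RingHom.comp_apply, Polynomial.coe_eval₂RingHom, Polynomial.eval₂_X]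
          rfl
      rw [h1]
      exact hP
    obtain ⟨z, hz⟩ := IsIntegrallyClosed.isIntegral_iff.mp hint
    rw [← hz]
    exact z.2
  let yO : O := ⟨y, hyO⟩
  have hPO : ev2 A φO xO yO P = 0 := by
    apply Subtype.val_injective
    have := ev2_map A φO (O.subtype : O →+* F) xO yO P
    rw [hφ] at this
    exact this.trans hP
  -- the value of `y`
  obtain ⟨b, hb⟩ := Fermat.Agent.S24.FF.exists_residue_sub_mem htr W yO
  have hxm : xO - algebraMap Qb O a ∈ IsLocalRing.maximalIdeal O :=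
    (O.valuation_lt_one_iff _).mpr hx
  -- reduce the modular equation
  let res : O →+* IsLocalRing.ResidueField O := IsLocalRing.residue O
  have hrx : res xO = res (algebraMap Qb O a) := by
    rw [← sub_eq_zero, ← map_sub]
    exact (IsLocalRing.residue_eq_zero_iff _).mpr hxm
  have hry : res yO = res (algebraMap Qb O b) := by
    rw [← sub_eq_zero, ← map_sub]
    exact (IsLocalRing.residue_eq_zero_iff _).mpr hb
  have h0 : res (algebraMap Qb O (ev2 A A.subtype a b P)) = 0 := by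
    have h1 := ev2_map A φO res xO yO P
    rw [hPO, map_zero, hrx, hry] at h1
    have h2 := ev2_map A A.subtype (res.comp (algebraMap Qb O)) a b P
    rw [RingHom.comp_apply] at h2
    rw [h2]
    exact h1.symm
  have hc : ev2 A A.subtype a b P = 0 := by
    by_contra hne
    have hu : IsUnit (algebraMap Qb O (ev2 A A.subtype a b P)) :=
      (IsUnit.mk0 _ hne).map (algebraMap Qb O)
    exact ((IsLocalRing.residue_eq_zero_iff _).mp h0) hu
  refine ⟨b, mem_of_ev2_eq_zero A P hmonic ⟨a, ha⟩ b hc, ?_⟩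
  exact (O.valuation_lt_one_iff (yO - algebraMap Qb O b)).mp hb

end Value

/-! ### The two charts on the places of `F_{Nℓ}` and of `F_N` -/

section Chart

open Fermat.Agent.S24.Modular Fermat.Agent.S24.DegreeGen

variable (A : ValuationSubring Qb)

/-- `f` has a value in `A` at the place `W`: `f ≡ a` modulo the maximal ideal of `W` for some
`a ∈ A`. -/
def HasValueIn {F : Type*} [Field F] [Algebra Qb F] (W : Place Qb F) (f : F) : Prop :=
  ∃ a : Qb, a ∈ A ∧ W.toValuationSubring.valuation (f - algebraMap Qb F a) < 1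

variable (N ℓ : ℕ) [NeZero N] [NeZero ℓ]

/-- **`T_ℓ`-stability of the charts, on the places of `F_{Nℓ}`**: `j(q)` has a value in `A` at `W`
iff `j(q^ℓ)` has. -/
theorem chart_iff (hℓ : ℓ.Prime) (hℓN : ¬ ℓ ∣ N) (W : Place Qb (FN (N * ℓ))) :
    HasValueIn A W (jA N ℓ) ↔ HasValueIn A W (jB N ℓ) := by
  obtain ⟨P, hmonic, -, hP⟩ := exists_modPoly A ℓ
  have htr := Fermat.Agent.S30.HeckeInputs.trdeg_bar (N * ℓ)
  constructor
  · rintro ⟨a, ha, hx⟩
    exact exists_value A htr W P hmonic _ _ (modPoly_alpha_beta A N ℓ P hP) a ha hx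
  · rintro ⟨a, ha, hx⟩
    exact exists_value A htr W P hmonic _ _ (modPoly_beta_alpha A N ℓ hℓ hℓN P hP) a ha hx

end Chart

/-! ### Restriction of places along an algebra hom -/

section Restrict

theorem valuation_lt_one_iff_inv {K : Type*} [Field K] (O : ValuationSubring K) (f : K) :
    O.valuation f < 1 ↔ f = 0 ∨ f⁻¹ ∉ O := by
  rcases eq_or_ne f 0 with rfl | hf
  · simp
  · rw [← O.valuation_le_one_iff, map_inv₀, not_le]
    have h0 : 0 < O.valuation f := by
      rw [pos_iff_ne_zero, ne_eq, map_eq_zero]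
      exact hf
    constructor
    · intro h
      right
      exact (one_lt_inv₀ h0).mpr h
    · rintro (h | h)
      · exact absurd h hf
      · exact (one_lt_inv₀ h0).mp h

theorem valuation_comap_lt_one {K L : Type*} [Field K] [Field L] (φ : K →+* L)
    (O : ValuationSubring L) (f : K) :
    (O.comap φ).valuation f < 1 ↔ O.valuation (φ f) < 1 := by
  rw [valuation_lt_one_iff_inv, valuation_lt_one_iff_inv, ValuationSubring.mem_comap, map_inv₀,
    map_eq_zero]

variable (A : ValuationSubring Qb)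
variable {F F' : Type*} [Field F] [Field F'] [Algebra Qb F] [Algebra Qb F']

/-- The restriction of a place of `F'` along an integral `ℚ̄`-algebra hom `φ : F → F'`. -/
def restrictAlong (φ : F →ₐ[Qb] F') (hφ : φ.toRingHom.IsIntegral) (W : Place Qb F') :
    Place Qb F :=
  letI := algebraAlong φ
  haveI := isScalarTower_along φ
  haveI := isIntegral_along φ hφ
  W.restrict F

theorem restrictAlong_toValuationSubring (φ : F →ₐ[Qb] F') (hφ : φ.toRingHom.IsIntegral)
    (W : Place Qb F') :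
    (restrictAlong φ hφ W).toValuationSubring = W.toValuationSubring.comap φ.toRingHom := rfl

theorem hasValueIn_restrictAlong (φ : F →ₐ[Qb] F') (hφ : φ.toRingHom.IsIntegral)
    (W : Place Qb F') (f : F) :
    HasValueIn A (restrictAlong φ hφ W) f ↔ HasValueIn A W (φ f) := by
  unfold HasValueIn
  refine exists_congr fun a => and_congr Iff.rfl ?_
  rw [restrictAlong_toValuationSubring, valuation_comap_lt_one]
  have : φ.toRingHom (f - algebraMap Qb F a) = φ f - algebraMap Qb F' a := by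
    rw [map_sub]
    congr 1
    exact φ.commutes a
  rw [this]

end Restrict

/-! ### Positivity of a correspondence on a stable set of places -/

section Positivity

variable {F F' : Type*} [Field F] [Field F'] [Algebra Qb F] [Algebra Qb F']
  [HasPrincipalDivisors Qb F']

theorem pullbackAlong_nonneg (φ : F →ₐ[Qb] F') (hφ : φ.toRingHom.IsIntegral)
    (D : Divisor Qb F) (W : Place Qb F') (h : 0 ≤ D (restrictAlong φ hφ W)) :
    0 ≤ Divisor.pullbackAlong φ hφ D W := by
  letI := algebraAlong φ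
  haveI := isScalarTower_along φ
  haveI := isIntegral_along φ hφ
  have h1 : Divisor.pullbackAlong φ hφ D W = Divisor.pullback F' D W := rfl
  rw [h1, Divisor.pullback_apply]
  exact mul_nonneg (Int.natCast_nonneg _) h

omit [HasPrincipalDivisors Qb F'] in
theorem pushforwardAlong_nonneg (ψ : F →ₐ[Qb] F') (hψ : ψ.toRingHom.IsIntegral)
    (E : Divisor Qb F') (Q : Place Qb F)
    (h : ∀ W : Place Qb F', restrictAlong ψ hψ W = Q → 0 ≤ E W) :
    0 ≤ Divisor.pushforwardAlong ψ hψ E Q := by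
  classical
  letI := algebraAlong ψ
  haveI := isScalarTower_along ψ
  haveI := isIntegral_along ψ hψ
  have h1 : Divisor.pushforwardAlong ψ hψ E Q = Divisor.pushforward F E Q := rfl
  rw [h1, Divisor.pushforward_apply]
  refine Finset.sum_nonneg fun W _ => ?_
  split_ifs with hW
  · exact mul_nonneg (h W hW) (Int.natCast_nonneg _)
  · exact le_rfl

/-- A correspondence `ψ_* φ^*` maps divisors that are effective on `S` to divisors effective on
`S`, as soon as `W|_ψ ∈ S → W|_φ ∈ S` for the places `W` upstairs. -/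
theorem correspondence_nonneg (φ ψ : F →ₐ[Qb] F') (hφ : φ.toRingHom.IsIntegral)
    (hψ : ψ.toRingHom.IsIntegral) (S : Place Qb F → Prop)
    (hS : ∀ W : Place Qb F', S (restrictAlong ψ hψ W) → S (restrictAlong φ hφ W))
    (D : Divisor Qb F) (hD : ∀ P, S P → 0 ≤ D P) (Q : Place Qb F) (hQ : S Q) :
    0 ≤ Divisor.correspondence φ ψ hφ hψ D Q := by
  have h1 : Divisor.correspondence φ ψ hφ hψ D Q =
      Divisor.pushforwardAlong ψ hψ (Divisor.pullbackAlong φ hφ D) Q := rfl
  rw [h1]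
  refine pushforwardAlong_nonneg ψ hψ _ Q fun W hW => ?_
  refine pullbackAlong_nonneg φ hφ D W (hD _ (hS W ?_))
  rw [hW]
  exact hQ

end Positivity

/-! ### The Hecke correspondence preserves the two charts -/

section Hecke

open Fermat.Agent.S24.Modular Fermat.Agent.S24.DegreeGen

variable (A : ValuationSubring Qb) (N ℓ : ℕ) [NeZero N] [NeZero ℓ]

/-- `P ∈ S_0`: the value of `j` at the place `P` of `F_N` lies in `A`. (`S_∞` is the
complement: the cusps and the places where the value of `j` is not `A`-integral.) -/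
def JInt (P : Place Qb (FN N)) : Prop := HasValueIn A P (jBar N)

theorem valuation_lt_one_iff_ord_pos {F : Type*} [Field F] [Algebra Qb F] (W : Place Qb F)
    (g : F) : W.toValuationSubring.valuation g < 1 ↔ g = 0 ∨ 0 < W.ord g := by
  rcases eq_or_ne g 0 with rfl | hg
  · simp
  constructor
  · intro h
    right
    have hmem : g ∈ W.toValuationSubring := W.toValuationSubring.mem_of_valuation_le_one _ h.le
    have hm : (⟨g, hmem⟩ : W.toValuationSubring) ∈
        IsLocalRing.maximalIdeal W.toValuationSubring :=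
      (W.toValuationSubring.valuation_lt_one_iff _).mpr h
    exact (Fermat.Agent.S24.FF.mem_maximalIdeal_iff_ord_pos W ⟨g, hmem⟩ hg).mp hm
  · rintro (h | h)
    · exact absurd h hg
    · exact (W.toValuationSubring.valuation_lt_one_iff _).mp
        (Fermat.Agent.S24.FF.mem_maximalIdeal_of_ord_pos W h)

omit [NeZero N] in
/-- `S_0` in terms of `ord`: `P ∈ S_0` iff `j - a` vanishes at `P` for some `a ∈ A`. -/
theorem jInt_iff_ord (P : Place Qb (FN N)) :
    JInt A N P ↔ ∃ a : Qb, a ∈ A ∧ 0 < P.ord (jBar N - algebraMap Qb (FN N) a) := by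
  unfold JInt HasValueIn
  refine exists_congr fun a => and_congr Iff.rfl ?_
  rw [valuation_lt_one_iff_ord_pos]
  constructor
  · rintro (h | h)
    · exact absurd ⟨a, (sub_eq_zero.mp h).symm⟩ (jBar_not_mem_range N)
    · exact h
  · exact fun h => Or.inr h

variable {N ℓ}

/-- **`T_ℓ`-stability of the charts, on places of `F_N`**: for a place `W` of `F_{Nℓ}`, its
restriction along `α` lies in `S_0` iff its restriction along `β` does. -/
theorem restrict_iff (hℓ : ℓ.Prime) (hℓN : ¬ ℓ ∣ N) (hα : HeckeAlphaBarIntegral Qb N ℓ)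
    (hβ : HeckeBetaBarIntegral Qb N ℓ) (W : Place Qb (FN (N * ℓ))) :
    JInt A N (restrictAlong (heckeAlphaBar Qb N ℓ) hα W) ↔
      JInt A N (restrictAlong (heckeBetaBar Qb N ℓ) hβ W) := by
  exact ((hasValueIn_restrictAlong A (heckeAlphaBar Qb N ℓ) hα W (jBar N)).trans
    (chart_iff A N ℓ hℓ hℓN W)).trans
    (hasValueIn_restrictAlong A (heckeBetaBar Qb N ℓ) hβ W (jBar N)).symm

variable [HasPrincipalDivisors Qb (FN (N * ℓ))]

/-- **Positivity on `S_0`**: if `D ≥ 0` on `S_0` then `T_ℓ D ≥ 0` on `S_0`. -/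
theorem heckeDivBar_nonneg_of_jInt (hℓ : ℓ.Prime) (hℓN : ¬ ℓ ∣ N)
    (hα : HeckeAlphaBarIntegral Qb N ℓ) (hβ : HeckeBetaBarIntegral Qb N ℓ)
    (D : Divisor Qb (FN N)) (hD : ∀ P, JInt A N P → 0 ≤ D P) (Q : Place Qb (FN N))
    (hQ : JInt A N Q) : 0 ≤ heckeDivBar hα hβ D Q :=
  correspondence_nonneg (heckeBetaBar Qb N ℓ) (heckeAlphaBar Qb N ℓ) hβ hα (JInt A N)
    (fun W h => (restrict_iff A hℓ hℓN hα hβ W).mp h) D hD Q hQ

/-- **Positivity on `S_∞`**: if `D ≥ 0` on `S_∞` then `T_ℓ D ≥ 0` on `S_∞`. -/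
theorem heckeDivBar_nonneg_of_not_jInt (hℓ : ℓ.Prime) (hℓN : ¬ ℓ ∣ N)
    (hα : HeckeAlphaBarIntegral Qb N ℓ) (hβ : HeckeBetaBarIntegral Qb N ℓ)
    (D : Divisor Qb (FN N)) (hD : ∀ P, ¬ JInt A N P → 0 ≤ D P) (Q : Place Qb (FN N))
    (hQ : ¬ JInt A N Q) : 0 ≤ heckeDivBar hα hβ D Q :=
  correspondence_nonneg (heckeBetaBar Qb N ℓ) (heckeAlphaBar Qb N ℓ) hβ hα
    (fun P => ¬ JInt A N P)
    (fun W h h' => h ((restrict_iff A hℓ hℓN hα hβ W).mpr h')) D hD Q hQ

/-- Positivity on `S_0` for the transposed correspondence `β_* α^*`. -/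
theorem heckeDivBarTranspose_nonneg_of_jInt (hℓ : ℓ.Prime) (hℓN : ¬ ℓ ∣ N)
    (hα : HeckeAlphaBarIntegral Qb N ℓ) (hβ : HeckeBetaBarIntegral Qb N ℓ)
    (D : Divisor Qb (FN N)) (hD : ∀ P, JInt A N P → 0 ≤ D P) (Q : Place Qb (FN N))
    (hQ : JInt A N Q) : 0 ≤ heckeDivBarTranspose hα hβ D Q :=
  correspondence_nonneg (heckeAlphaBar Qb N ℓ) (heckeBetaBar Qb N ℓ) hα hβ (JInt A N)
    (fun W h => (restrict_iff A hℓ hℓN hα hβ W).mpr h) D hD Q hQ

/-- Positivity on `S_∞` for the transposed correspondence `β_* α^*`. -/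
theorem heckeDivBarTranspose_nonneg_of_not_jInt (hℓ : ℓ.Prime) (hℓN : ¬ ℓ ∣ N)
    (hα : HeckeAlphaBarIntegral Qb N ℓ) (hβ : HeckeBetaBarIntegral Qb N ℓ)
    (D : Divisor Qb (FN N)) (hD : ∀ P, ¬ JInt A N P → 0 ≤ D P) (Q : Place Qb (FN N))
    (hQ : ¬ JInt A N Q) : 0 ≤ heckeDivBarTranspose hα hβ D Q :=
  correspondence_nonneg (heckeAlphaBar Qb N ℓ) (heckeBetaBar Qb N ℓ) hα hβ
    (fun P => ¬ JInt A N P)
    (fun W h h' => h ((restrict_iff A hℓ hℓN hα hβ W).mp h')) D hD Q hQ

end Hecke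

end Fermat.Agent.S37.ChartStable
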