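/-
S37, brick F3a (continued): `T_ℓ`-stability of the `A`-adic charts in the literal vocabulary of
`Fn/Defs.lean`, for a GENERIC chart function `u ∈ Fb M` satisfying a modular equation.

Input: a monic `P ∈ A[X][Y]` with `P(u(q), u(q^ℓ)) = 0` as `q`-series (`ℓ` prime, `ℓ ∤ M`; the
equation the other way round follows from the Atkin–Lehner swap).  Output:

* `uInt_restrict_iff`        : `UInt M A u (W|α) ↔ UInt M A u (W|β)` for the places `W` of `F_{Mℓ}`;
* `chart_restrict_iff`       : the same for both charts `chart M A u c`;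
* `heckeDiv_nonneg_on_chart` : `D ≥ 0` on `chart M A u c` ⇒ `Kummer.heckeDiv M ℓ h D ≥ 0` there;
* `heckeDiv_le_ord_heckeT`   : `x ≠ 0`, `D ≤ div x` on `chart M A u c` ⇒
                               `Kummer.heckeDiv M ℓ h D ≤ div (heckeT x)` there;
* the instances for `u = j` (`jBar M`), from `ChartStable.exists_modPoly`;
* `isRed_heckeT`, `heckeStable`, `heckeStable_j` : the contract `Fn.HeckeStable M A u ℓ h` (for `A`
  over `ℓ`), for a generic chart function with a modular equation and for `u = j`.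
-/
import Fermat.Agent.S37.ChartStable
import Fermat.Agent.S37.Fn.Defs

set_option autoImplicit false
set_option linter.unusedSectionVars false
set_option linter.style.haveILetI false

noncomputable section

namespace Fermat.Agent.S37.ChartStableFn

open ModularCurve AlgebraicCurve HahnSeries
open Fermat.Agent.S28 Fermat.Agent.S28.Defs Fermat.Agent.S30
open Fermat.Agent.S37.ChartStable Fermat.Agent.S37.Fn
open Fermat.Agent.S24.Modular Fermat.Agent.S24.DegreeGen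

local notation "Qb" => AlgebraicClosure ℚ

variable (A : ValuationSubring Qb) (M ℓ : ℕ) [NeZero M] [NeZero ℓ]

/-- `ChartStable.restrictAlong` is the Prelude's `Place.restrictAlong`. -/
theorem restrictAlong_eq {F F' : Type*} [Field F] [Field F'] [Algebra Qb F] [Algebra Qb F']
    (φ : F →ₐ[Qb] F') (hφ : φ.toRingHom.IsIntegral) (W : Place Qb F') :
    restrictAlong φ hφ W = W.restrictAlong φ hφ := rfl

/-! ### The modular equation of a chart function, in the function field -/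

/-- `P(α u, β u) = 0` in `F_{Mℓ}` from the `q`-series identity `P(u(q), u(q^ℓ)) = 0`. -/
theorem ev2_alpha_beta (u : Kummer.Fb M) (P : Polynomial (Polynomial A))
    (h : ev2 A ((HahnSeries.C : Qb →+* LaurentSeries Qb).comp A.subtype)
      (u : LaurentSeries Qb) (qExpand Qb ℓ (u : LaurentSeries Qb)) P = 0) :
    ev2 A (toF A (M * ℓ)) (heckeAlphaBar Qb M ℓ u) (heckeBetaBar Qb M ℓ u) P = 0 := by
  have hinj : Function.Injective
      ((modularFunctionFieldBar (M * ℓ)).val : FN (M * ℓ) →+* LaurentSeries Qb) :=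
    Subtype.val_injective
  apply hinj
  rw [map_zero, ev2_map]
  have h1 : ((modularFunctionFieldBar (M * ℓ)).val : FN (M * ℓ) →+* LaurentSeries Qb).comp
      (toF A (M * ℓ)) = (HahnSeries.C : Qb →+* LaurentSeries Qb).comp A.subtype := by
    refine RingHom.ext fun a => ?_
    show algebraMap Qb (LaurentSeries Qb) (a : Qb) = HahnSeries.C (a : Qb)
    rw [algebraMap_laurentSeries_eq_single, HahnSeries.C_apply]
  have h2 : ((modularFunctionFieldBar (M * ℓ)).val : FN (M * ℓ) →+* LaurentSeries Qb)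
      (heckeAlphaBar Qb M ℓ u) = (u : LaurentSeries Qb) := coe_heckeAlphaBar M ℓ u
  have h3 : ((modularFunctionFieldBar (M * ℓ)).val : FN (M * ℓ) →+* LaurentSeries Qb)
      (heckeBetaBar Qb M ℓ u) = qExpand Qb ℓ (u : LaurentSeries Qb) := coe_heckeBetaBar M ℓ u
  rw [h1, h2, h3]
  exact h

/-- `P(β u, α u) = 0` in `F_{Mℓ}` (Atkin–Lehner swap). -/
theorem ev2_beta_alpha (hℓ : ℓ.Prime) (hℓM : ¬ ℓ ∣ M) (u : Kummer.Fb M)
    (P : Polynomial (Polynomial A))
    (h : ev2 A ((HahnSeries.C : Qb →+* LaurentSeries Qb).comp A.subtype)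
      (u : LaurentSeries Qb) (qExpand Qb ℓ (u : LaurentSeries Qb)) P = 0) :
    ev2 A (toF A (M * ℓ)) (heckeBetaBar Qb M ℓ u) (heckeAlphaBar Qb M ℓ u) P = 0 := by
  obtain ⟨w, hwα, hwβ, -⟩ := Swap.exists_swap_algEquiv M ℓ hℓ hℓM
  have h0 := ev2_alpha_beta A M ℓ u P h
  have h1 := congrArg (w : FN (M * ℓ) →+* FN (M * ℓ)) h0
  rw [map_zero, ev2_map] at h1
  have h2 : (w : FN (M * ℓ) →+* FN (M * ℓ)).comp (toF A (M * ℓ)) = toF A (M * ℓ) := by
    refine RingHom.ext fun a => ?_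
    exact w.commutes (a : Qb)
  have h3 : (w : FN (M * ℓ) →+* FN (M * ℓ)) (heckeAlphaBar Qb M ℓ u) = heckeBetaBar Qb M ℓ u :=
    hwα u
  have h4 : (w : FN (M * ℓ) →+* FN (M * ℓ)) (heckeBetaBar Qb M ℓ u) = heckeAlphaBar Qb M ℓ u :=
    hwβ u
  rw [h2, h3, h4] at h1
  exact h1

/-- **Generic chart stability on the places of `F_{Mℓ}`.** -/
theorem hasValueIn_alpha_iff_beta (hℓ : ℓ.Prime) (hℓM : ¬ ℓ ∣ M) (u : Kummer.Fb M)
    (P : Polynomial (Polynomial A)) (hmonic : P.Monic)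
    (h : ev2 A ((HahnSeries.C : Qb →+* LaurentSeries Qb).comp A.subtype)
      (u : LaurentSeries Qb) (qExpand Qb ℓ (u : LaurentSeries Qb)) P = 0)
    (W : Place Qb (Kummer.Fb (M * ℓ))) :
    HasValueIn A W (heckeAlphaBar Qb M ℓ u) ↔ HasValueIn A W (heckeBetaBar Qb M ℓ u) := by
  have htr := Fermat.Agent.S30.HeckeInputs.trdeg_bar (M * ℓ)
  constructor
  · rintro ⟨a, ha, hx⟩
    exact exists_value A htr W P hmonic _ _ (ev2_alpha_beta A M ℓ u P h) a ha hx
  · rintro ⟨a, ha, hx⟩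
    exact exists_value A htr W P hmonic _ _ (ev2_beta_alpha A M ℓ hℓ hℓM u P h) a ha hx

/-! ### `UInt` and the charts of `Fn/Defs.lean` -/

omit [NeZero M] in
/-- For a non-constant `u`, `UInt` is `HasValueIn`. -/
theorem uInt_iff_hasValueIn (u : Kummer.Fb M)
    (hu : u ∉ Set.range (algebraMap Qb (Kummer.Fb M))) (P : Place Qb (Kummer.Fb M)) :
    UInt M A u P ↔ HasValueIn A P u := by
  unfold UInt HasValueIn
  refine exists_congr fun a => and_congr Iff.rfl ?_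
  rw [valuation_lt_one_iff_ord_pos]
  constructor
  · exact fun h => Or.inr h
  · rintro (h | h)
    · exact absurd ⟨a, (sub_eq_zero.mp h).symm⟩ hu
    · exact h

omit [NeZero M] in
/-- A constant has no `UInt` place (`ord` of a constant is `0`). -/
theorem not_uInt_of_const (u : Kummer.Fb M)
    (hu : u ∈ Set.range (algebraMap Qb (Kummer.Fb M))) (P : Place Qb (Kummer.Fb M)) :
    ¬ UInt M A u P := by
  rintro ⟨a, -, h⟩
  obtain ⟨c, rfl⟩ := hu
  rw [← map_sub, Fermat.Agent.S24.FF.ord_algebraMap] at h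
  exact lt_irrefl _ h

/-- **`T_ℓ`-stability of `S_0` for a generic chart function.** -/
theorem uInt_restrict_iff (hℓ : ℓ.Prime) (hℓM : ¬ ℓ ∣ M) (u : Kummer.Fb M)
    (P : Polynomial (Polynomial A)) (hmonic : P.Monic)
    (h : ev2 A ((HahnSeries.C : Qb →+* LaurentSeries Qb).comp A.subtype)
      (u : LaurentSeries Qb) (qExpand Qb ℓ (u : LaurentSeries Qb)) P = 0)
    (hα : HeckeAlphaBarIntegral Qb M ℓ) (hβ : HeckeBetaBarIntegral Qb M ℓ)
    (W : Place Qb (Kummer.Fb (M * ℓ))) :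
    UInt M A u (restrictAlong (heckeAlphaBar Qb M ℓ) hα W) ↔
      UInt M A u (restrictAlong (heckeBetaBar Qb M ℓ) hβ W) := by
  by_cases hu : u ∈ Set.range (algebraMap Qb (Kummer.Fb M))
  · exact iff_of_false (not_uInt_of_const A M u hu _) (not_uInt_of_const A M u hu _)
  · rw [uInt_iff_hasValueIn A M u hu, uInt_iff_hasValueIn A M u hu]
    exact ((hasValueIn_restrictAlong A (heckeAlphaBar Qb M ℓ) hα W u).trans
      (hasValueIn_alpha_iff_beta A M ℓ hℓ hℓM u P hmonic h W)).trans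
      (hasValueIn_restrictAlong A (heckeBetaBar Qb M ℓ) hβ W u).symm

/-- **`T_ℓ`-stability of both charts.** -/
theorem chart_restrict_iff (hℓ : ℓ.Prime) (hℓM : ¬ ℓ ∣ M) (u : Kummer.Fb M)
    (P : Polynomial (Polynomial A)) (hmonic : P.Monic)
    (h : ev2 A ((HahnSeries.C : Qb →+* LaurentSeries Qb).comp A.subtype)
      (u : LaurentSeries Qb) (qExpand Qb ℓ (u : LaurentSeries Qb)) P = 0)
    (hα : HeckeAlphaBarIntegral Qb M ℓ) (hβ : HeckeBetaBarIntegral Qb M ℓ) (c : Bool)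
    (W : Place Qb (Kummer.Fb (M * ℓ))) :
    restrictAlong (heckeAlphaBar Qb M ℓ) hα W ∈ chart M A u c ↔
      restrictAlong (heckeBetaBar Qb M ℓ) hβ W ∈ chart M A u c := by
  have key := uInt_restrict_iff A M ℓ hℓ hℓM u P hmonic h hα hβ W
  cases c
  · rw [mem_chart_false, mem_chart_false]
    exact key
  · rw [mem_chart_true, mem_chart_true]
    exact not_congr key

/-! ### Positivity of the Hecke correspondence on the charts -/

/-- **`T_ℓ` preserves effectivity on each chart**: if `D ≥ 0` on `chart M A u c` then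
`T_ℓ D ≥ 0` on `chart M A u c`. -/
theorem heckeDiv_nonneg_on_chart (hℓ : ℓ.Prime) (hℓM : ¬ ℓ ∣ M) (u : Kummer.Fb M)
    (P : Polynomial (Polynomial A)) (hmonic : P.Monic)
    (h : ev2 A ((HahnSeries.C : Qb →+* LaurentSeries Qb).comp A.subtype)
      (u : LaurentSeries Qb) (qExpand Qb ℓ (u : LaurentSeries Qb)) P = 0)
    (hI : HeckeInputsAlong Qb M ℓ) (c : Bool) (D : Divisor Qb (Kummer.Fb M))
    (hD : ∀ Q ∈ chart M A u c, 0 ≤ D Q) (Q : Place Qb (Kummer.Fb M))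
    (hQ : Q ∈ chart M A u c) : 0 ≤ Kummer.heckeDiv M ℓ hI D Q := by
  haveI := hI.snd.snd.fst
  have e : Kummer.heckeDiv M ℓ hI D Q =
      Divisor.correspondence (heckeBetaBar Qb M ℓ) (heckeAlphaBar Qb M ℓ) hI.snd.fst hI.fst D Q :=
    rfl
  rw [e]
  exact correspondence_nonneg (heckeBetaBar Qb M ℓ) (heckeAlphaBar Qb M ℓ) hI.snd.fst hI.fst
    (fun R => R ∈ chart M A u c)
    (fun W hW => (chart_restrict_iff A M ℓ hℓ hℓM u P hmonic h hI.fst hI.snd.fst c W).mp hW)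
    D hD Q hQ

/-- **Monotonicity on each chart**: `D ≤ E` on `chart M A u c` ⇒ `T_ℓ D ≤ T_ℓ E` there. -/
theorem heckeDiv_mono_on_chart (hℓ : ℓ.Prime) (hℓM : ¬ ℓ ∣ M) (u : Kummer.Fb M)
    (P : Polynomial (Polynomial A)) (hmonic : P.Monic)
    (h : ev2 A ((HahnSeries.C : Qb →+* LaurentSeries Qb).comp A.subtype)
      (u : LaurentSeries Qb) (qExpand Qb ℓ (u : LaurentSeries Qb)) P = 0)
    (hI : HeckeInputsAlong Qb M ℓ) (c : Bool) (D E : Divisor Qb (Kummer.Fb M))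
    (hDE : ∀ Q ∈ chart M A u c, D Q ≤ E Q) (Q : Place Qb (Kummer.Fb M))
    (hQ : Q ∈ chart M A u c) : Kummer.heckeDiv M ℓ hI D Q ≤ Kummer.heckeDiv M ℓ hI E Q := by
  have h1 := heckeDiv_nonneg_on_chart A M ℓ hℓ hℓM u P hmonic h hI c (E - D)
    (fun R hR => by rw [Finsupp.sub_apply]; exact sub_nonneg.mpr (hDE R hR)) Q hQ
  rw [map_sub, Finsupp.sub_apply] at h1
  exact sub_nonneg.mp h1

/-- **The order inequality of (HECKE)**: if `x ≠ 0` and `D ≤ div x` on `chart M A u c`, then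
`T_ℓ D ≤ div (heckeT x)` on `chart M A u c`. -/
theorem heckeDiv_le_ord_heckeT (hℓ : ℓ.Prime) (hℓM : ¬ ℓ ∣ M) (u : Kummer.Fb M)
    (P : Polynomial (Polynomial A)) (hmonic : P.Monic)
    (h : ev2 A ((HahnSeries.C : Qb →+* LaurentSeries Qb).comp A.subtype)
      (u : LaurentSeries Qb) (qExpand Qb ℓ (u : LaurentSeries Qb)) P = 0)
    (hI : HeckeInputsAlong Qb M ℓ) (c : Bool) (D : Divisor Qb (Kummer.Fb M))
    {x : Kummer.Fb M} (hx0 : x ≠ 0) (hx : ∀ R ∈ chart M A u c, D R ≤ R.ord x)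
    (Q : Place Qb (Kummer.Fb M)) (hQ : Q ∈ chart M A u c) :
    Kummer.heckeDiv M ℓ hI D Q ≤ Q.ord (HeckeDivQ.heckeT M ℓ x) := by
  haveI := Fermat.Agent.S30.HeckeInputs.hasPrincipalDivisors_bar M
  obtain ⟨E, hE, -⟩ := HasPrincipalDivisors.exists_divisor (K := Qb) x hx0
  rw [← HeckeDivQ.heckeDiv_apply_of_principal M ℓ hI hx0 hE Q]
  exact heckeDiv_mono_on_chart A M ℓ hℓ hℓM u P hmonic h hI c D E
    (fun R hR => by rw [hE R]; exact hx R hR) Q hQ

/-! ### The chart `u = j` -/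

omit [NeZero M] in
/-- The modular equation of `j`, in the shape consumed above. -/
theorem exists_modPoly_jBar :
    ∃ P : Polynomial (Polynomial A), P.Monic ∧
      ev2 A ((HahnSeries.C : Qb →+* LaurentSeries Qb).comp A.subtype)
        ((jBar M : Kummer.Fb M) : LaurentSeries Qb)
        (qExpand Qb ℓ ((jBar M : Kummer.Fb M) : LaurentSeries Qb)) P = 0 := by
  obtain ⟨P, hmonic, -, hP⟩ := exists_modPoly A ℓ
  refine ⟨P, hmonic, ?_⟩
  rw [coe_jBar, Fermat.Agent.S24.Puiseux.coeffEmb_jq]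
  rw [Orders.qE_of_ne_zero Qb (NeZero.ne ℓ)] at hP
  exact hP

/-- `T_ℓ`-stability of the `j`-charts. -/
theorem chart_restrict_iff_j (hℓ : ℓ.Prime) (hℓM : ¬ ℓ ∣ M)
    (hα : HeckeAlphaBarIntegral Qb M ℓ) (hβ : HeckeBetaBarIntegral Qb M ℓ) (c : Bool)
    (W : Place Qb (Kummer.Fb (M * ℓ))) :
    restrictAlong (heckeAlphaBar Qb M ℓ) hα W ∈ chart M A (jBar M) c ↔
      restrictAlong (heckeBetaBar Qb M ℓ) hβ W ∈ chart M A (jBar M) c := by
  obtain ⟨P, hmonic, hP⟩ := exists_modPoly_jBar A M ℓ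
  exact chart_restrict_iff A M ℓ hℓ hℓM (jBar M) P hmonic hP hα hβ c W

/-- Positivity of `T_ℓ` on the `j`-charts. -/
theorem heckeDiv_nonneg_on_chart_j (hℓ : ℓ.Prime) (hℓM : ¬ ℓ ∣ M)
    (hI : HeckeInputsAlong Qb M ℓ) (c : Bool) (D : Divisor Qb (Kummer.Fb M))
    (hD : ∀ Q ∈ chart M A (jBar M) c, 0 ≤ D Q) (Q : Place Qb (Kummer.Fb M))
    (hQ : Q ∈ chart M A (jBar M) c) : 0 ≤ Kummer.heckeDiv M ℓ hI D Q := by
  obtain ⟨P, hmonic, hP⟩ := exists_modPoly_jBar A M ℓ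
  exact heckeDiv_nonneg_on_chart A M ℓ hℓ hℓM (jBar M) P hmonic hP hI c D hD Q hQ

/-- The order inequality of (HECKE) on the `j`-charts. -/
theorem heckeDiv_le_ord_heckeT_j (hℓ : ℓ.Prime) (hℓM : ¬ ℓ ∣ M)
    (hI : HeckeInputsAlong Qb M ℓ) (c : Bool) (D : Divisor Qb (Kummer.Fb M))
    {x : Kummer.Fb M} (hx0 : x ≠ 0) (hx : ∀ R ∈ chart M A (jBar M) c, D R ≤ R.ord x)
    (Q : Place Qb (Kummer.Fb M)) (hQ : Q ∈ chart M A (jBar M) c) :
    Kummer.heckeDiv M ℓ hI D Q ≤ Q.ord (HeckeDivQ.heckeT M ℓ x) := by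
  obtain ⟨P, hmonic, hP⟩ := exists_modPoly_jBar A M ℓ
  exact heckeDiv_le_ord_heckeT A M ℓ hℓ hℓM (jBar M) P hmonic hP hI c D hx0 hx Q hQ

/-! ### The contract `HeckeStable` -/

section HeckeStable

variable {A M ℓ}

/-- In residue characteristic `ℓ`, the reduction of `heckeMul` of an integral series `U` is
`Ū(q^ℓ) · Frob(Ū)`. -/
theorem red_heckeMul_eq [Fact ℓ.Prime] (hA : A.LiesOverPrime ℓ) (hℓ : 0 < ℓ) {ζ : Qb}
    (hζ : ζ ^ ℓ = 1) (U : LaurentSeries A) :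
    haveI := Congr.charP_residue A hA
    Congr.red A (Congr.heckeMul ℓ hℓ (Congr.unitA A hℓ hζ) U) =
      Congr.expand ℓ hℓ (Congr.red A U) * coeffMap (frobenius (Res A) ℓ) (Congr.red A U) := by
  haveI := Congr.charP_residue A hA
  rw [Congr.red, Congr.coeffMap_heckeMul, Congr.map_residue_unitA A hA hℓ hζ,
    Congr.heckeMul_one_unit]

/-- `heckeT 0 = 0`. -/
theorem heckeT_zero : HeckeDivQ.heckeT M ℓ (0 : Kummer.Fb M) = 0 := by
  letI := AlgebraicCurve.algebraAlong (heckeAlphaBar Qb M ℓ)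
  haveI : Module.Finite (Kummer.Fb M) (Kummer.Fb (M * ℓ)) := HeckeNormQ.finite_alpha M ℓ
  haveI : Module.Free (Kummer.Fb M) (Kummer.Fb (M * ℓ)) := Module.Free.of_divisionRing _ _
  change Algebra.norm (Kummer.Fb M) (heckeBetaBar Qb M ℓ 0) = 0
  rw [map_zero, Algebra.norm_zero]

/-- **`T` preserves Gauss integrality** (`ℓ` the residue characteristic of `A`): if `x` is
Gauss-integral with reduction `y`, then `heckeT x` is Gauss-integral (with reduction
`y(q^ℓ) · Frob(y)`). -/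
theorem isRed_heckeT (hℓ : ℓ.Prime) (hℓM : ¬ ℓ ∣ M) (hA : A.LiesOverPrime ℓ)
    {x : Kummer.Fb M} {y : LaurentSeries (Res A)} (hx : IsRed M A x y) :
    ∃ y' : LaurentSeries (Res A), IsRed M A (HeckeDivQ.heckeT M ℓ x) y' := by
  haveI : Fact ℓ.Prime := ⟨hℓ⟩
  haveI := Congr.charP_residue A hA
  refine ⟨Congr.expand ℓ hℓ.pos y * coeffMap (frobenius (Res A) ℓ) y, ?_⟩
  obtain ⟨ζ₀, hζ₀⟩ := HasEnoughRootsOfUnity.exists_primitiveRoot Qb ℓ
  let z : Qbˣ := (hζ₀.isUnit (NeZero.ne ℓ)).unit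
  have hzc : (z : Qb) = ζ₀ := IsUnit.unit_spec _
  have hz : IsPrimitiveRoot z ℓ := IsPrimitiveRoot.coe_units_iff.mp (by rw [hzc]; exact hζ₀)
  have hz1 : (z : Qb) ^ ℓ = 1 := by rw [hzc]; exact hζ₀.pow_eq_one
  obtain ⟨P, Q, hQm, hQ, hxQ, hy⟩ := hx
  have hPm : Congr.incl A P ∈ Kummer.Fb M := by
    rw [← hxQ]
    exact (Kummer.Fb M).mul_mem x.2 hQm
  have hmul : x * (⟨_, hQm⟩ : Kummer.Fb M) = (⟨_, hPm⟩ : Kummer.Fb M) := Subtype.ext hxQ
  have hT : HeckeDivQ.heckeT M ℓ x * HeckeDivQ.heckeT M ℓ (⟨_, hQm⟩ : Kummer.Fb M) =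
      HeckeDivQ.heckeT M ℓ (⟨_, hPm⟩ : Kummer.Fb M) := by
    rw [← HeckeDivQ.heckeT_mul, hmul]
  have hcQ : ((HeckeDivQ.heckeT M ℓ (⟨_, hQm⟩ : Kummer.Fb M) : Kummer.Fb M) : LaurentSeries Qb) =
      Congr.incl A (Congr.heckeMul ℓ hℓ.pos (Congr.unitA A hℓ.pos hz1) Q) := by
    rw [HeckeDivQ.coe_heckeT M ℓ hℓ hℓM z hz, Congr.incl_heckeMul A hℓ.pos z hz1]
  have hcP : ((HeckeDivQ.heckeT M ℓ (⟨_, hPm⟩ : Kummer.Fb M) : Kummer.Fb M) : LaurentSeries Qb) =
      Congr.incl A (Congr.heckeMul ℓ hℓ.pos (Congr.unitA A hℓ.pos hz1) P) := by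
    rw [HeckeDivQ.coe_heckeT M ℓ hℓ hℓM z hz, Congr.incl_heckeMul A hℓ.pos z hz1]
  refine ⟨Congr.heckeMul ℓ hℓ.pos (Congr.unitA A hℓ.pos hz1) P,
    Congr.heckeMul ℓ hℓ.pos (Congr.unitA A hℓ.pos hz1) Q, ?_, ?_, ?_, ?_⟩
  · rw [← hcQ]
    exact (HeckeDivQ.heckeT M ℓ (⟨_, hQm⟩ : Kummer.Fb M)).2
  · rw [red_heckeMul_eq hA hℓ.pos hz1]
    refine mul_ne_zero ?_ ?_
    · intro h0
      exact hQ (Congr.expand_injective ℓ hℓ.pos (by rw [h0, map_zero]))
    · intro h0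
      exact hQ (Congr.coeffMap_injective _ (frobenius_inj (Res A) ℓ) (by rw [h0, map_zero]))
  · rw [← hcQ, ← hcP]
    exact congrArg Subtype.val hT
  · rw [red_heckeMul_eq hA hℓ.pos hz1, red_heckeMul_eq hA hℓ.pos hz1, hy, map_mul, map_mul]
    ring

/-- **(HECKE)** for a chart function `u` with a modular equation: the multiplicative Hecke
operator `T = Norm_α ∘ β` maps `M_c(D)` into `M_c(T_ℓ D)`, on both charts. -/
theorem heckeStable (hℓ : ℓ.Prime) (hℓM : ¬ ℓ ∣ M) (hA : A.LiesOverPrime ℓ) (u : Kummer.Fb M)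
    (P : Polynomial (Polynomial A)) (hmonic : P.Monic)
    (h : ev2 A ((HahnSeries.C : Qb →+* LaurentSeries Qb).comp A.subtype)
      (u : LaurentSeries Qb) (qExpand Qb ℓ (u : LaurentSeries Qb)) P = 0)
    (hI : HeckeInputsAlong Qb M ℓ) : HeckeStable M A u ℓ hI := by
  intro c D x hx
  obtain ⟨⟨y, hy⟩, hx'⟩ := hx
  refine ⟨isRed_heckeT hℓ hℓM hA hy, ?_⟩
  by_cases hx0 : x = 0
  · left
    rw [hx0]
    exact heckeT_zero
  · right
    have hx'' : ∀ R ∈ chart M A u c, D R ≤ R.ord x := hx'.resolve_left hx0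
    exact fun Q hQ => heckeDiv_le_ord_heckeT A M ℓ hℓ hℓM u P hmonic h hI c D hx0 hx'' Q hQ

/-- **(HECKE) for the `j`-charts.** -/
theorem heckeStable_j (hℓ : ℓ.Prime) (hℓM : ¬ ℓ ∣ M) (hA : A.LiesOverPrime ℓ)
    (hI : HeckeInputsAlong Qb M ℓ) : HeckeStable M A (jBar M) ℓ hI := by
  obtain ⟨P, hmonic, hP⟩ := exists_modPoly_jBar A M ℓ
  exact heckeStable hℓ hℓM hA (jBar M) P hmonic hP hI

end HeckeStable

end Fermat.Agent.S37.ChartStableFn
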