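/-
S37 (E7) -- the CONSTANT LEMMA (helper232).  Mathlib only.

Last step of (RED): a function `f` in an extension field `K` of `k` which is "regular on the chart
`u`" (integral over `k[u]`) and "regular on the chart `1/u` near `1/u = 0`" (`g(1/u) * f` integral
over `k[1/u]` for some polynomial `g` with `g(0) ≠ 0`) is algebraic over `k`.

* `isIntegralElem_of_range_le` : integrality only depends on the image of the base ring.
* `exists_monic_coeff_mem_two` : abstract core.  If `f` is integral over two integrally closed
  domains `R₁`, `R₂` with the same fraction field `F`, its minimal polynomial over `R₁` has all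
  coefficients in `R₂` as well.
* `isIntegral_of_two_charts` : the constant lemma.
* `isIntegral_of_two_charts_shift` : the same with the second chart `1/(u - c₀)`.
* `isIntegral_of_two_charts_mul` : second chart function any `t` with `u * t = 1`, hypothesis
  `IsIntegral k[t] (f * g(t))` (the shape produced by `S37/Fn/IntAbs.int_infty`).
* `isIntegral_of_two_charts_hom` : polynomial form, `P(u, f) = 0`, `Q(1/u, g(1/u) f) = 0` with
  `P, Q ∈ k[X][Y]` monic in `Y` (the shape obtained by reducing integral equations mod `π`).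
* `exists_algebraMap_eq_of_two_charts` : `k` algebraically closed ⇒ `f ∈ k`.
* `laurent_eq_C_of_isIntegral` : `k` is algebraically closed in `k((q))` (any field `k`).
* `laurent_const_of_two_charts`, `laurent_const_of_two_charts_mul`,
  `laurent_const_of_two_charts_hom` : the constant lemma in
  `k((q))`, conclusion `f = C c`.
-/
import Mathlib

set_option autoImplicit false

namespace Fermat.Agent.S37.ConstLemma

open Polynomial

/-- Integrality of an element only depends on the image of the base ring: if the image of `ψ` is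
contained in the image of `φ`, an element integral over `ψ` is integral over `φ`. -/
theorem isIntegralElem_of_range_le {R S A : Type*} [CommRing R] [CommRing S] [CommRing A]
    (φ : R →+* A) (ψ : S →+* A) (h : ψ.range ≤ φ.range) {x : A} (hx : ψ.IsIntegralElem x) :
    φ.IsIntegralElem x := by
  obtain ⟨p, hp, hpx⟩ := hx
  have hl : p.map ψ ∈ Polynomial.lifts φ := by
    rw [Polynomial.lifts_iff_coeff_lifts]
    intro n
    rw [Polynomial.coeff_map]
    exact h ⟨p.coeff n, rfl⟩
  obtain ⟨q, hq, -, hqm⟩ := Polynomial.lifts_and_natDegree_eq_and_monic hl (hp.map ψ)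
  refine ⟨q, hqm, ?_⟩
  rw [← Polynomial.eval_map, hq, Polynomial.eval_map]
  exact hpx

/-- Abstract core: if `f` is integral over two integrally closed domains `R₁`, `R₂` with the same
fraction field `F`, then the minimal polynomial of `f` over `R₁` has all its coefficients in (the
image of) `R₂`. -/
theorem exists_monic_coeff_mem_two {R₁ R₂ F K : Type*} [CommRing R₁] [IsDomain R₁]
    [IsIntegrallyClosed R₁] [CommRing R₂] [IsDomain R₂] [IsIntegrallyClosed R₂] [Field F]
    [Field K] [Algebra R₁ F] [IsFractionRing R₁ F] [Algebra R₂ F] [IsFractionRing R₂ F]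
    [Algebra F K] [Algebra R₁ K] [Algebra R₂ K] [IsScalarTower R₁ F K] [IsScalarTower R₂ F K]
    (f : K) (h1 : IsIntegral R₁ f) (h2 : IsIntegral R₂ f) :
    ∃ p : R₁[X], p.Monic ∧ Polynomial.eval₂ (algebraMap R₁ K) f p = 0 ∧
      ∀ i, ∃ r : R₂, algebraMap R₂ F r = algebraMap R₁ F (p.coeff i) := by
  refine ⟨minpoly R₁ f, minpoly.monic h1, minpoly.aeval R₁ f, fun i => ?_⟩
  have e1 := minpoly.isIntegrallyClosed_eq_field_fractions' F h1
  have e2 := minpoly.isIntegrallyClosed_eq_field_fractions' F h2
  refine ⟨(minpoly R₂ f).coeff i, ?_⟩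
  rw [← Polynomial.coeff_map, ← Polynomial.coeff_map, ← e1, ← e2]


section RatFunc

open scoped Classical in
/-- `h(1/X)` is integral at infinity. -/
theorem inftyValuation_aeval_inv_le {k : Type*} [Field k] (h : k[X]) :
    RatFunc.inftyValuation k (Polynomial.aeval (RatFunc.X : RatFunc k)⁻¹ h) ≤ 1 := by
  have hX : RatFunc.inftyValuation k (RatFunc.X : RatFunc k)⁻¹ ≤ 1 := by
    rw [map_inv₀, RatFunc.inftyValuation.X, ← WithZero.exp_neg, ← WithZero.exp_zero,
      WithZero.exp_le_exp]
    norm_num
  induction h using Polynomial.induction_on' with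
  | add p q hp hq =>
    rw [map_add]
    exact (Valuation.map_add _ _ _).trans (max_le hp hq)
  | monomial n a =>
    rw [Polynomial.aeval_monomial, map_mul, map_pow]
    have ha : RatFunc.inftyValuation k (algebraMap k (RatFunc k) a) ≤ 1 := by
      by_cases ha0 : a = 0
      · simp [ha0]
      · rw [RatFunc.algebraMap_eq_C, RatFunc.inftyValuation.C k ha0]
    exact mul_le_one' ha (pow_le_one' hX n)

open scoped Classical in
/-- `g(1/X)` is a unit at infinity when `g(0) ≠ 0`. -/
theorem inftyValuation_aeval_inv_eq_one {k : Type*} [Field k] (g : k[X]) (hg : g.eval 0 ≠ 0) :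
    RatFunc.inftyValuation k (Polynomial.aeval (RatFunc.X : RatFunc k)⁻¹ g) = 1 := by
  have hX : RatFunc.inftyValuation k (RatFunc.X : RatFunc k)⁻¹ < 1 := by
    rw [map_inv₀, RatFunc.inftyValuation.X, ← WithZero.exp_neg, ← WithZero.exp_zero,
      WithZero.exp_lt_exp]
    norm_num
  have hg0 : g.coeff 0 ≠ 0 := by rwa [Polynomial.coeff_zero_eq_eval_zero]
  have hdecomp : Polynomial.aeval (RatFunc.X : RatFunc k)⁻¹ g =
      Polynomial.aeval (RatFunc.X : RatFunc k)⁻¹ g.divX * (RatFunc.X : RatFunc k)⁻¹ +
        algebraMap k (RatFunc k) (g.coeff 0) := by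
    conv_lhs => rw [← Polynomial.divX_mul_X_add g]
    simp
  have h1 : RatFunc.inftyValuation k (algebraMap k (RatFunc k) (g.coeff 0)) = 1 := by
    rw [RatFunc.algebraMap_eq_C, RatFunc.inftyValuation.C k hg0]
  have h2 : RatFunc.inftyValuation k
      (Polynomial.aeval (RatFunc.X : RatFunc k)⁻¹ g.divX * (RatFunc.X : RatFunc k)⁻¹) < 1 := by
    rw [map_mul]
    exact (mul_le_of_le_one_left' (inftyValuation_aeval_inv_le g.divX)).trans_lt hX
  rw [hdecomp, Valuation.map_add_eq_of_lt_right _ (by rw [h1]; exact h2), h1]

end RatFunc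

/-- **The constant lemma.**  `f` integral over `k[u]`, and `g(1/u) * f` integral over `k[1/u]` for
some polynomial `g` with `g(0) ≠ 0` (i.e. `f` is integral over the local ring of the chart `1/u`
at `1/u = 0`).  Then `f` is integral (= algebraic) over `k`. -/
theorem isIntegral_of_two_charts {k K : Type*} [Field k] [Field K] [Algebra k K] (u f : K)
    (h1 : IsIntegral (Algebra.adjoin k {u}) f) (g : k[X]) (hg : g.eval 0 ≠ 0)
    (h2 : IsIntegral (Algebra.adjoin k {u⁻¹}) (Polynomial.aeval u⁻¹ g * f)) :
    IsIntegral k f := by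
  classical
  by_cases hu : IsIntegral k u
  · -- `k[u]` is integral over `k`
    have hle : Algebra.adjoin k {u} ≤ integralClosure k K :=
      Algebra.adjoin_le (Set.singleton_subset_iff.mpr hu)
    have : Algebra.IsIntegral k (Algebra.adjoin k {u}) :=
      le_integralClosure_iff_isIntegral.mp hle
    exact isIntegral_trans f h1
  · -- `u` transcendental: `k(X) ↪ K`, `X ↦ u`
    have hinj : Function.Injective (Polynomial.aeval (R := k) u) :=
      transcendental_iff_injective.mp (fun h => hu h.isIntegral)
    let φ : RatFunc k →ₐ[k] K := IsFractionRing.liftAlgHom (K := RatFunc k) hinj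
    have hφ : ∀ p : k[X], φ (algebraMap k[X] (RatFunc k) p) = Polynomial.aeval u p :=
      fun p => IsFractionRing.lift_algebraMap hinj p
    have hφX : φ (RatFunc.X : RatFunc k) = u := by
      rw [← RatFunc.algebraMap_X, hφ, Polynomial.aeval_X]
    have hφa : ∀ h : k[X], φ (Polynomial.aeval (RatFunc.X : RatFunc k)⁻¹ h) =
        Polynomial.aeval u⁻¹ h := by
      intro h
      rw [← Polynomial.aeval_algHom_apply, map_inv₀, hφX]
    let O := (RatFunc.inftyValuation k).valuationSubring
    let _ : Algebra (RatFunc k) K := φ.toRingHom.toAlgebra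
    let _ : Algebra k[X] K := (φ.toRingHom.comp (algebraMap k[X] (RatFunc k))).toAlgebra
    let _ : Algebra O K := (φ.toRingHom.comp (algebraMap O (RatFunc k))).toAlgebra
    have : IsScalarTower k[X] (RatFunc k) K := IsScalarTower.of_algebraMap_eq (fun _ => rfl)
    have : IsScalarTower O (RatFunc k) K := IsScalarTower.of_algebraMap_eq (fun _ => rfl)
    have h1' : IsIntegral k[X] f := by
      refine isIntegralElem_of_range_le _ (algebraMap (Algebra.adjoin k {u}) K) ?_ h1
      rintro _ ⟨⟨x, hx⟩, rfl⟩
      rw [Algebra.adjoin_singleton_eq_range_aeval] at hx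
      obtain ⟨p, rfl⟩ := hx
      exact ⟨p, hφ p⟩
    have h2y : IsIntegral O (Polynomial.aeval u⁻¹ g * f) := by
      refine isIntegralElem_of_range_le _ (algebraMap (Algebra.adjoin k {u⁻¹}) K) ?_ h2
      rintro _ ⟨⟨x, hx⟩, rfl⟩
      rw [Algebra.adjoin_singleton_eq_range_aeval] at hx
      obtain ⟨p, rfl⟩ := hx
      exact ⟨⟨Polynomial.aeval (RatFunc.X : RatFunc k)⁻¹ p,
        (Valuation.mem_valuationSubring_iff _ _).mpr (inftyValuation_aeval_inv_le p)⟩, hφa p⟩
    have hgv := inftyValuation_aeval_inv_eq_one g hg
    have hg0 : Polynomial.aeval (RatFunc.X : RatFunc k)⁻¹ g ≠ 0 := by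
      intro h0
      rw [h0, map_zero] at hgv
      exact zero_ne_one hgv
    have h2' : IsIntegral O f := by
      have hmem : (Polynomial.aeval (RatFunc.X : RatFunc k)⁻¹ g)⁻¹ ∈ O := by
        rw [Valuation.mem_valuationSubring_iff, map_inv₀, hgv, inv_one]
      have hprod : f = algebraMap O K ⟨_, hmem⟩ * (Polynomial.aeval u⁻¹ g * f) := by
        have : algebraMap O K ⟨_, hmem⟩ =
            φ ((Polynomial.aeval (RatFunc.X : RatFunc k)⁻¹ g)⁻¹) := rfl
        rw [this, ← hφa g, ← mul_assoc, ← map_mul, inv_mul_cancel₀ hg0, map_one, one_mul]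
      rw [hprod]
      exact IsIntegral.mul isIntegral_algebraMap h2y
    obtain ⟨p, hpm, hpf, hp⟩ := exists_monic_coeff_mem_two (F := RatFunc k) f h1' h2'
    -- the coefficients of `p` are constants
    have hc : ∀ i, p.coeff i ∈ Set.range (Polynomial.C : k →+* k[X]) := by
      intro i
      obtain ⟨r, hr⟩ := hp i
      by_cases h0 : p.coeff i = 0
      · exact ⟨0, by simp [h0]⟩
      · have hv : RatFunc.inftyValuation k (algebraMap k[X] (RatFunc k) (p.coeff i)) ≤ 1 := by
          rw [← hr]
          exact (Valuation.mem_valuationSubring_iff _ _).mp r.2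
        rw [RatFunc.inftyValuation_apply, RatFunc.inftyValuation.polynomial k h0,
          ← WithZero.exp_zero, WithZero.exp_le_exp] at hv
        have hdeg : (p.coeff i).natDegree = 0 := by omega
        exact ⟨(p.coeff i).coeff 0, (Polynomial.eq_C_of_natDegree_eq_zero hdeg).symm⟩
    have hl : p ∈ Polynomial.lifts (Polynomial.C : k →+* k[X]) := by
      rw [Polynomial.lifts_iff_coeff_lifts]
      exact hc
    obtain ⟨q, hq, -, hqm⟩ := Polynomial.lifts_and_natDegree_eq_and_monic hl hpm
    refine ⟨q, hqm, ?_⟩
    have hcomp : (algebraMap k[X] K).comp (Polynomial.C : k →+* k[X]) = algebraMap k K := by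
      ext a
      change φ (algebraMap k[X] (RatFunc k) (Polynomial.C a)) = _
      rw [hφ, Polynomial.aeval_C]
    rw [← hcomp, ← Polynomial.eval₂_map, hq]
    exact hpf

/-- The constant lemma with the second chart `1/(u - c₀)`. -/
theorem isIntegral_of_two_charts_shift {k K : Type*} [Field k] [Field K] [Algebra k K] (u f : K)
    (c₀ : k) (h1 : IsIntegral (Algebra.adjoin k {u}) f) (g : k[X]) (hg : g.eval 0 ≠ 0)
    (h2 : IsIntegral (Algebra.adjoin k {(u - algebraMap k K c₀)⁻¹})
      (Polynomial.aeval (u - algebraMap k K c₀)⁻¹ g * f)) :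
    IsIntegral k f := by
  have hadj : Algebra.adjoin k {u - algebraMap k K c₀} = Algebra.adjoin k {u} := by
    apply le_antisymm
    · refine Algebra.adjoin_le (Set.singleton_subset_iff.mpr ?_)
      exact sub_mem (Algebra.self_mem_adjoin_singleton k u) (Subalgebra.algebraMap_mem _ c₀)
    · refine Algebra.adjoin_le (Set.singleton_subset_iff.mpr ?_)
      have h : u = (u - algebraMap k K c₀) + algebraMap k K c₀ := by ring
      have hm : (u - algebraMap k K c₀) + algebraMap k K c₀ ∈
          Algebra.adjoin k {u - algebraMap k K c₀} :=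
        add_mem (Algebra.self_mem_adjoin_singleton k _) (Subalgebra.algebraMap_mem _ c₀)
      rw [← h] at hm
      exact hm
  have h1' : IsIntegral (Algebra.adjoin k {u - algebraMap k K c₀}) f := by
    refine isIntegralElem_of_range_le _ (algebraMap (Algebra.adjoin k {u}) K) ?_ h1
    rintro _ ⟨⟨x, hx⟩, rfl⟩
    exact ⟨⟨x, hadj.symm ▸ hx⟩, rfl⟩
  exact isIntegral_of_two_charts (u - algebraMap k K c₀) f h1' g hg h2

/-- The constant lemma, polynomial form: `P(u, f) = 0` with `P ∈ k[X][Y]` monic in `Y`, and
`Q(1/u, g(1/u) f) = 0` with `Q ∈ k[X][Y]` monic in `Y`, `g(0) ≠ 0`.  (This is the shape produced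
by reducing an integral equation over `O[u]`, resp. `O[1/u]`, modulo a uniformiser.) -/
theorem isIntegral_of_two_charts_hom {k K : Type*} [Field k] [Field K] [Algebra k K] (u f : K)
    (h1 : (Polynomial.aeval (R := k) u).toRingHom.IsIntegralElem f) (g : k[X])
    (hg : g.eval 0 ≠ 0)
    (h2 : (Polynomial.aeval (R := k) u⁻¹).toRingHom.IsIntegralElem
      (Polynomial.aeval u⁻¹ g * f)) :
    IsIntegral k f := by
  have key : ∀ (w x : K), (Polynomial.aeval (R := k) w).toRingHom.IsIntegralElem x →
      IsIntegral (Algebra.adjoin k {w}) x := by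
    intro w x hx
    refine isIntegralElem_of_range_le (algebraMap (Algebra.adjoin k {w}) K) _ ?_ hx
    rintro _ ⟨p, rfl⟩
    exact ⟨⟨Polynomial.aeval w p, Polynomial.aeval_mem_adjoin_singleton k w⟩, rfl⟩
  exact isIntegral_of_two_charts u f (key u f h1) g hg (key u⁻¹ _ h2)

/-- The constant lemma in the shape produced by `S37/Fn/IntAbs` (`int_zero`, `int_infty`): the
second chart function is any `t` with `u * t = 1`, and the denominator multiplies on the right. -/
theorem isIntegral_of_two_charts_mul {k K : Type*} [Field k] [Field K] [Algebra k K] (u t f : K)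
    (hut : u * t = 1) (h1 : IsIntegral (Algebra.adjoin k {u}) f) (g : k[X]) (hg : g.eval 0 ≠ 0)
    (h2 : IsIntegral (Algebra.adjoin k {t}) (f * Polynomial.aeval t g)) :
    IsIntegral k f := by
  have ht : t = u⁻¹ := eq_inv_of_mul_eq_one_right hut
  subst ht
  rw [mul_comm] at h2
  exact isIntegral_of_two_charts u f h1 g hg h2

/-- The constant lemma over an algebraically closed field: `f` is a constant. -/
theorem exists_algebraMap_eq_of_two_charts {k K : Type*} [Field k] [IsAlgClosed k] [Field K]
    [Algebra k K] (u f : K) (h1 : IsIntegral (Algebra.adjoin k {u}) f) (g : k[X])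
    (hg : g.eval 0 ≠ 0)
    (h2 : IsIntegral (Algebra.adjoin k {u⁻¹}) (Polynomial.aeval u⁻¹ g * f)) :
    ∃ c : k, algebraMap k K c = f := by
  have hf := isIntegral_of_two_charts u f h1 g hg h2
  exact minpoly.mem_range_of_degree_eq_one k f
    (IsAlgClosed.degree_eq_one_of_irreducible k (minpoly.irreducible hf))

section Laurent

variable {k : Type*} [Field k]

/-- A polynomial expression in a Laurent series of nonnegative order has nonnegative order. -/
theorem addVal_aeval_nonneg (z : LaurentSeries k) (hz : 0 ≤ HahnSeries.addVal ℤ k z)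
    (P : k[X]) : 0 ≤ HahnSeries.addVal ℤ k (Polynomial.aeval z P) := by
  induction P using Polynomial.induction_on' with
  | add p q hp hq =>
    rw [map_add]
    exact (le_min hp hq).trans (AddValuation.map_add _ _ _)
  | monomial n a =>
    rw [Polynomial.aeval_monomial, AddValuation.map_mul, AddValuation.map_pow]
    have ha : 0 ≤ HahnSeries.addVal ℤ k (algebraMap k (LaurentSeries k) a) := by
      by_cases ha0 : a = 0
      · rw [ha0, map_zero, AddValuation.map_zero]
        exact le_top
      · rw [LaurentSeries.algebraMap_apply,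
          HahnSeries.addVal_apply_of_ne (by simpa using ha0), HahnSeries.order_C]
        exact le_rfl
    exact add_nonneg ha (nsmul_nonneg hz n)

/-- A Laurent series of positive order which is algebraic over `k` is zero. -/
theorem laurent_eq_zero_of_isIntegral_of_pos (z : LaurentSeries k) (hz : IsIntegral k z)
    (hpos : 0 < HahnSeries.addVal ℤ k z) : z = 0 := by
  by_contra hz0
  have hQ0 : (minpoly k z).coeff 0 ≠ 0 := minpoly.coeff_zero_ne_zero hz hz0
  have hQ : Polynomial.aeval z (minpoly k z) = 0 := minpoly.aeval k z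
  have hdecomp : Polynomial.aeval z (minpoly k z) =
      Polynomial.aeval z (minpoly k z).divX * z +
        algebraMap k (LaurentSeries k) ((minpoly k z).coeff 0) := by
    conv_lhs => rw [← Polynomial.divX_mul_X_add (minpoly k z)]
    simp
  have hw := addVal_aeval_nonneg z hpos.le (minpoly k z).divX
  have hval : HahnSeries.addVal ℤ k (algebraMap k (LaurentSeries k) ((minpoly k z).coeff 0))
      = 0 := by
    rw [LaurentSeries.algebraMap_apply,
      HahnSeries.addVal_apply_of_ne (by simpa using hQ0), HahnSeries.order_C]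
    rfl
  have hval' : 0 < HahnSeries.addVal ℤ k
      (algebraMap k (LaurentSeries k) ((minpoly k z).coeff 0)) := by
    have e : algebraMap k (LaurentSeries k) ((minpoly k z).coeff 0) =
        -(Polynomial.aeval z (minpoly k z).divX * z) := by
      rw [eq_neg_iff_add_eq_zero, add_comm, ← hdecomp, hQ]
    rw [e, AddValuation.map_neg, AddValuation.map_mul]
    exact lt_of_lt_of_le hpos (le_add_of_nonneg_left hw)
  rw [hval] at hval'
  exact lt_irrefl _ hval'

/-- `k` is algebraically closed in `k((q))` (for any field `k`): a Laurent series which is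
algebraic over `k` is a constant. -/
theorem laurent_eq_C_of_isIntegral (x : LaurentSeries k) (hx : IsIntegral k x) :
    ∃ c : k, HahnSeries.C c = x := by
  refine ⟨x.coeff 0, ?_⟩
  set y : LaurentSeries k := x - HahnSeries.C (x.coeff 0) with hy
  have hyint : IsIntegral k y := by
    have hC : IsIntegral k (algebraMap k (LaurentSeries k) (x.coeff 0)) := isIntegral_algebraMap
    rw [LaurentSeries.algebraMap_apply] at hC
    exact hx.sub hC
  have hy0 : y.coeff 0 = 0 := by
    rw [hy, HahnSeries.coeff_sub, HahnSeries.C_apply, HahnSeries.coeff_single_same, sub_self]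
  suffices h : y = 0 by
    rw [hy, sub_eq_zero] at h
    exact h.symm
  by_contra hne
  have hord : y.order ≠ 0 := by
    intro h0
    have := (HahnSeries.coeff_order_eq_zero (x := y)).not.mpr hne
    rw [h0] at this
    exact this hy0
  rcases lt_or_gt_of_ne hord with hlt | hgt
  · -- negative order: pass to the inverse
    have hinv : y⁻¹ ≠ 0 := inv_ne_zero hne
    have e : ((y.order : ℤ) : WithTop ℤ) + ((y⁻¹.order : ℤ) : WithTop ℤ) = 0 := by
      rw [← HahnSeries.addVal_apply_of_ne hne, ← HahnSeries.addVal_apply_of_ne hinv,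
        ← AddValuation.map_mul, mul_inv_cancel₀ hne, AddValuation.map_one]
    have e' : y.order + y⁻¹.order = 0 := by exact_mod_cast e
    have hpos : 0 < HahnSeries.addVal ℤ k y⁻¹ := by
      rw [HahnSeries.addVal_apply_of_ne hinv]
      exact_mod_cast (by omega : (0 : ℤ) < y⁻¹.order)
    exact hinv (laurent_eq_zero_of_isIntegral_of_pos y⁻¹ hyint.inv hpos)
  · have hpos : 0 < HahnSeries.addVal ℤ k y := by
      rw [HahnSeries.addVal_apply_of_ne hne]
      exact_mod_cast hgt
    exact hne (laurent_eq_zero_of_isIntegral_of_pos y hyint hpos)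

/-- **The constant lemma in `k((q))`** (any field `k`): `f` integral over `k[u]`, and
`g(1/u) * f` integral over `k[1/u]` with `g(0) ≠ 0`; then `f` is a constant. -/
theorem laurent_const_of_two_charts (u f : LaurentSeries k)
    (h1 : IsIntegral (Algebra.adjoin k {u}) f) (g : k[X]) (hg : g.eval 0 ≠ 0)
    (h2 : IsIntegral (Algebra.adjoin k {u⁻¹}) (Polynomial.aeval u⁻¹ g * f)) :
    ∃ c : k, HahnSeries.C c = f :=
  laurent_eq_C_of_isIntegral f (isIntegral_of_two_charts u f h1 g hg h2)

/-- The constant lemma in `k((q))`, polynomial form (see `isIntegral_of_two_charts_hom`). -/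
theorem laurent_const_of_two_charts_hom (u f : LaurentSeries k)
    (h1 : (Polynomial.aeval (R := k) u).toRingHom.IsIntegralElem f) (g : k[X])
    (hg : g.eval 0 ≠ 0)
    (h2 : (Polynomial.aeval (R := k) u⁻¹).toRingHom.IsIntegralElem
      (Polynomial.aeval u⁻¹ g * f)) :
    ∃ c : k, HahnSeries.C c = f :=
  laurent_eq_C_of_isIntegral f (isIntegral_of_two_charts_hom u f h1 g hg h2)

/-- The constant lemma in `k((q))` in the shape produced by `S37/Fn/IntAbs`
(see `isIntegral_of_two_charts_mul`). -/
theorem laurent_const_of_two_charts_mul (u t f : LaurentSeries k) (hut : u * t = 1)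
    (h1 : IsIntegral (Algebra.adjoin k {u}) f) (g : k[X]) (hg : g.eval 0 ≠ 0)
    (h2 : IsIntegral (Algebra.adjoin k {t}) (f * Polynomial.aeval t g)) :
    ∃ c : k, HahnSeries.C c = f :=
  laurent_eq_C_of_isIntegral f (isIntegral_of_two_charts_mul u t f hut h1 g hg h2)

end Laurent

end Fermat.Agent.S37.ConstLemma
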