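/-
S37 (E7) / S34 (Program U) -- the Atkin–Lehner swap `w` of `F_{Nℓ}` (`Swap.lean`) commutes with
the coefficientwise Galois action, and its values on the generators `j(q^d)`.

Final packaged statement `exists_swap_gal`: for a prime `ℓ ∤ N` there is a `ℚ̄`-algebra
automorphism `w` of `F_{Nℓ} = ℚ̄(j(q^d) : d ∣ Nℓ)` which
  * exchanges the degeneracy maps: `w ∘ α = β`, `w ∘ β = α`,
  * is an involution,
  * commutes with `arithmeticRingAut σ` (the action of `Gal(ℚ̄/ℚ)` on coefficients),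
  * sends `j(q^d)` to `j(q^{dℓ})` and `j(q^{dℓ})` to `j(q^d)` for `d ∣ N`
    (in particular `j ↦ j(q^ℓ)`, `j(q^ℓ) ↦ j`).                                   (helper24)
-/
import Mathlib
import Fermat.Agent.S37.Swap

set_option autoImplicit false

noncomputable section

open UpperHalfPlane ModularCurve HahnSeries

namespace Fermat.Agent.S37.SwapGal

open Fermat.Agent.S24.Modular Fermat.Agent.S24.Theta Fermat.Agent.S37.Swap

local notation "Gq" => (AlgebraicClosure ℚ ≃ₐ[ℚ] AlgebraicClosure ℚ)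

/-- The generators `j(q^d)` have rational coefficients: they are Galois-fixed. -/
theorem gal_gen (N : ℕ) (σ : Gq) {d : ℕ} [NeZero d] (hd : d ∣ N) :
    arithmeticRingAut (modularFunctionFieldFull N) σ (gen N d hd : FN N) = (gen N d hd : FN N) := by
  apply Subtype.ext
  rw [coe_arithmeticRingAut_apply, coe_gen]
  show coeffMap (σ : Kbar →+* Kbar) (coeffMap (algebraMap ℚ Kbar) (qExpand ℚ d jq))
    = coeffMap (algebraMap ℚ Kbar) (qExpand ℚ d jq)
  rw [coeffMap_coeffMap]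
  exact coeffMap_congr (RingHom.ext fun r => σ.commutes r) _

variable {N ℓ : ℕ} [NeZero N] [NeZero ℓ] (ι : Kbar →+* ℂ)

theorem swapField_gen (x y : ℤ) (h : x * ℓ + y * N = 1) (hℓ : ℓ.Prime) {d : ℕ} [NeZero d]
    (hd : d ∣ N) :
    swapField ι x y h hℓ (gen (N * ℓ) d (Dvd.dvd.mul_right hd ℓ) : FN (N * ℓ))
      = (gen (N * ℓ) (d * ℓ) (mul_dvd_mul_right hd ℓ) : FN (N * ℓ)) := by
  rw [swapField_coe, swapHom_gen ι x y h hℓ hd]

theorem swapField_gen_mul (x y : ℤ) (h : x * ℓ + y * N = 1) (hℓ : ℓ.Prime) {d : ℕ} [NeZero d]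
    (hd : d ∣ N) :
    swapField ι x y h hℓ (gen (N * ℓ) (d * ℓ) (mul_dvd_mul_right hd ℓ) : FN (N * ℓ))
      = (gen (N * ℓ) d (Dvd.dvd.mul_right hd ℓ) : FN (N * ℓ)) := by
  rw [swapField_coe, swapHom_gen_mul ι x y h hℓ hd]

/-- The swap commutes with the coefficientwise Galois action, on `A0 (N ℓ)`. -/
theorem swapField_gal_coe (x y : ℤ) (h : x * ℓ + y * N = 1) (hℓ : ℓ.Prime) (σ : Gq)
    (a : A0 (N * ℓ)) :
    swapField ι x y h hℓ (arithmeticRingAut (modularFunctionFieldFull (N * ℓ)) σ (a : FN (N * ℓ)))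
      = arithmeticRingAut (modularFunctionFieldFull (N * ℓ)) σ
          (swapField ι x y h hℓ (a : FN (N * ℓ))) := by
  refine A0_induction (p := fun a : A0 (N * ℓ) =>
    swapField ι x y h hℓ (arithmeticRingAut (modularFunctionFieldFull (N * ℓ)) σ (a : FN (N * ℓ)))
      = arithmeticRingAut (modularFunctionFieldFull (N * ℓ)) σ
          (swapField ι x y h hℓ (a : FN (N * ℓ)))) ?_ ?_ ?_ ?_ a
  · intro e _ he
    rcases dvd_cases hℓ he with he' | ⟨d, hd, rfl⟩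
    · rw [gal_gen, swapField_gen ι x y h hℓ he', gal_gen]
    · have : NeZero d := ⟨fun h0 => by
        have := NeZero.ne (d * ℓ)
        rw [h0, zero_mul] at this
        exact this rfl⟩
      rw [gal_gen, swapField_gen_mul ι x y h hℓ hd, gal_gen]
  · intro c
    have hc : ((algebraMap Kbar (A0 (N * ℓ)) c : A0 (N * ℓ)) : FN (N * ℓ))
        = algebraMap Kbar (FN (N * ℓ)) c := rfl
    rw [hc, arithmeticRingAut_algebraMap, AlgEquiv.commutes, AlgEquiv.commutes,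
      arithmeticRingAut_algebraMap]
  · intro a₁ a₂ h₁ h₂
    have hc : ((a₁ + a₂ : A0 (N * ℓ)) : FN (N * ℓ)) = (a₁ : FN (N * ℓ)) + (a₂ : FN (N * ℓ)) := rfl
    rw [hc, map_add, map_add, map_add, map_add, h₁, h₂]
  · intro a₁ a₂ h₁ h₂
    have hc : ((a₁ * a₂ : A0 (N * ℓ)) : FN (N * ℓ)) = (a₁ : FN (N * ℓ)) * (a₂ : FN (N * ℓ)) := rfl
    rw [hc, map_mul, map_mul, map_mul, map_mul, h₁, h₂]

/-- The swap commutes with the coefficientwise Galois action. -/
theorem swapField_gal (x y : ℤ) (h : x * ℓ + y * N = 1) (hℓ : ℓ.Prime) (σ : Gq)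
    (z : FN (N * ℓ)) :
    swapField ι x y h hℓ (arithmeticRingAut (modularFunctionFieldFull (N * ℓ)) σ z)
      = arithmeticRingAut (modularFunctionFieldFull (N * ℓ)) σ (swapField ι x y h hℓ z) := by
  obtain ⟨a, b, hb, hab⟩ := exists_mul_eq z
  have h1 := swapField_gal_coe ι x y h hℓ σ a
  rw [← hab, map_mul, map_mul, map_mul, map_mul, swapField_gal_coe ι x y h hℓ σ b] at h1
  have hb' : arithmeticRingAut (modularFunctionFieldFull (N * ℓ)) σ
      (swapField ι x y h hℓ (b : FN (N * ℓ))) ≠ 0 := by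
    intro h0
    rw [EmbeddingLike.map_eq_zero_iff, EmbeddingLike.map_eq_zero_iff] at h0
    exact hb h0
  exact mul_right_cancel₀ hb' h1

/-- **The Atkin–Lehner swap, packaged.** -/
theorem exists_swap_gal (N ℓ : ℕ) [NeZero N] [NeZero ℓ] (hℓ : ℓ.Prime) (hℓN : ¬ ℓ ∣ N) :
    ∃ w : FN (N * ℓ) ≃ₐ[Kbar] FN (N * ℓ),
      (∀ f : FN N, w (heckeAlphaBar Kbar N ℓ f) = heckeBetaBar Kbar N ℓ f) ∧
      (∀ f : FN N, w (heckeBetaBar Kbar N ℓ f) = heckeAlphaBar Kbar N ℓ f) ∧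
      (∀ z : FN (N * ℓ), w (w z) = z) ∧
      (∀ (σ : Gq) (z : FN (N * ℓ)),
        w (arithmeticRingAut (modularFunctionFieldFull (N * ℓ)) σ z)
          = arithmeticRingAut (modularFunctionFieldFull (N * ℓ)) σ (w z)) ∧
      (∀ (d : ℕ) [NeZero d] (hd : d ∣ N),
        w (gen (N * ℓ) d (Dvd.dvd.mul_right hd ℓ) : FN (N * ℓ))
          = (gen (N * ℓ) (d * ℓ) (mul_dvd_mul_right hd ℓ) : FN (N * ℓ))) ∧
      (∀ (d : ℕ) [NeZero d] (hd : d ∣ N),
        w (gen (N * ℓ) (d * ℓ) (mul_dvd_mul_right hd ℓ) : FN (N * ℓ))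
          = (gen (N * ℓ) d (Dvd.dvd.mul_right hd ℓ) : FN (N * ℓ))) := by
  obtain ⟨x, y, h⟩ := exists_bezout ((Nat.Prime.coprime_iff_not_dvd hℓ).2 hℓN)
  exact ⟨swapField iotaBar x y h hℓ, swapField_alpha iotaBar x y h hℓ,
    swapField_beta iotaBar x y h hℓ, swapField_swapField iotaBar x y h hℓ,
    swapField_gal iotaBar x y h hℓ,
    fun d _ hd => swapField_gen iotaBar x y h hℓ hd,
    fun d _ hd => swapField_gen_mul iotaBar x y h hℓ hd⟩


/-- **The Atkin–Lehner swap, `j`-form** (shape for consumers working with `q`-expansions):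
`w` exchanges `j` and `j(q^ℓ)`, commutes with Galois, exchanges `α` and `β`. -/
theorem exists_swap_gal_j (N ℓ : ℕ) [NeZero N] [NeZero ℓ] (hℓ : ℓ.Prime) (hℓN : ¬ ℓ ∣ N) :
    ∃ w : FN (N * ℓ) ≃ₐ[Kbar] FN (N * ℓ),
      (∀ f : FN N, w (heckeAlphaBar Kbar N ℓ f) = heckeBetaBar Kbar N ℓ f) ∧
      (∀ f : FN N, w (heckeBetaBar Kbar N ℓ f) = heckeAlphaBar Kbar N ℓ f) ∧
      (∀ z : FN (N * ℓ), w (w z) = z) ∧
      (∀ (σ : Gq) (z : FN (N * ℓ)),
        w (arithmeticRingAut (modularFunctionFieldFull (N * ℓ)) σ z)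
          = arithmeticRingAut (modularFunctionFieldFull (N * ℓ)) σ (w z)) ∧
      (∀ z : FN (N * ℓ), (z : LaurentSeries Kbar) = coeffEmb Kbar jq →
        ((w z : FN (N * ℓ)) : LaurentSeries Kbar) = coeffEmb Kbar (qExpand ℚ ℓ jq)) ∧
      (∀ z : FN (N * ℓ), (z : LaurentSeries Kbar) = coeffEmb Kbar (qExpand ℚ ℓ jq) →
        ((w z : FN (N * ℓ)) : LaurentSeries Kbar) = coeffEmb Kbar jq) := by
  obtain ⟨w, h1, h2, h3, h4, h5, h6⟩ := exists_swap_gal N ℓ hℓ hℓN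
  refine ⟨w, h1, h2, h3, h4, ?_, ?_⟩
  · intro z hz
    have hz' : z = (gen (N * ℓ) 1 (Dvd.dvd.mul_right (one_dvd N) ℓ) : FN (N * ℓ)) := by
      apply Subtype.ext
      rw [hz, coe_gen, qExpand_one_apply]
    rw [hz', h5 1 (one_dvd N), coe_gen, qExpand_congr (one_mul ℓ)]
  · intro z hz
    have hz' : z = (gen (N * ℓ) (1 * ℓ) (mul_dvd_mul_right (one_dvd N) ℓ) : FN (N * ℓ)) := by
      apply Subtype.ext
      rw [hz, coe_gen, qExpand_congr (one_mul ℓ)]
    rw [hz', h6 1 (one_dvd N), coe_gen, qExpand_one_apply]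

end Fermat.Agent.S37.SwapGal

end
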