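/-
S37 (E7) -- the Hecke correspondence of the Prelude equals its transpose (`ℓ` prime, `ℓ ∤ N`).

Generic part: for function fields of curves `F`, `F'` over an algebraically closed field `K` of
characteristic zero, `K`-embeddings `φ, ψ : F → F'` and an automorphism `w` of `F'/K`, the
correspondences `push_ψ ∘ pull_φ` and `push_{w∘ψ} ∘ pull_{w∘φ}` on divisors of `F` coincide.
Applied to the Atkin–Lehner swap (`w ∘ α = β`, `w ∘ β = α`) this gives
`heckeDivBar = heckeDivBarTranspose` and the same for the Prelude operators on `Pic⁰`.  (helper24)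
-/
import Mathlib
import Fermat.Agent.S37.Swap
import Fermat.Agent.Lib.FFNorm.Along
import Fermat.Agent.S30.HeckeInputs

set_option autoImplicit false
set_option linter.style.haveILetI false

noncomputable section

namespace Fermat.Agent.S37.SwapDiv

open AlgebraicCurve ModularCurve

section Generic

variable {K F F' : Type*} [Field K] [Field F] [Field F'] [Algebra K F] [Algebra K F']

/-- restriction along `w ∘ φ` of the translated place `w • P` is the restriction of `P` along `φ` -/
theorem restrictAlong_smul (φ φ' : F →ₐ[K] F') (hφ : φ.toRingHom.IsIntegral)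
    (hφ' : φ'.toRingHom.IsIntegral) (w : F' ≃ₐ[K] F') (h : ∀ f, φ' f = w (φ f))
    (P : Place K F') :
    (SemilinearAut.ofAlgAut w • P).restrictAlong φ' hφ' = P.restrictAlong φ hφ := by
  apply Place.ext
  ext f
  show φ' f ∈ (SemilinearAut.ofAlgAut w • P).toValuationSubring ↔ φ f ∈ P.toValuationSubring
  rw [SemilinearAut.smul_toValuationSubring, ValuationSubring.mem_pointwise_smul_iff_inv_smul_mem,
    h f, ← SemilinearAut.ofAlgAut_smul w (φ f), inv_smul_smul]

/-- the ramification index along `w ∘ φ` at `w • P` is the ramification index of `P` along `φ` -/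
theorem ramificationIndexAlong_smul (φ φ' : F →ₐ[K] F') (w : F' ≃ₐ[K] F')
    (h : ∀ f, φ' f = w (φ f)) (P : Place K F') :
    (SemilinearAut.ofAlgAut w • P).ramificationIndexAlong φ' = P.ramificationIndexAlong φ := by
  show sInf {n : ℕ | 0 < n ∧ ∃ f : F, f ≠ 0 ∧ (SemilinearAut.ofAlgAut w • P).ord (φ' f) = n}
    = sInf {n : ℕ | 0 < n ∧ ∃ f : F, f ≠ 0 ∧ P.ord (φ f) = n}
  congr 1
  ext n
  simp only [Set.mem_ofPred_eq]
  refine and_congr Iff.rfl (exists_congr fun f => and_congr Iff.rfl ?_)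
  rw [h f, ← SemilinearAut.ofAlgAut_smul w (φ f), SemilinearAut.ord_smul]

variable [HasPrincipalDivisors K F']

/-- pull-back along `w ∘ φ` is the `w`-translate of the pull-back along `φ` -/
theorem pullbackAlong_smul (φ φ' : F →ₐ[K] F') (hφ : φ.toRingHom.IsIntegral)
    (hφ' : φ'.toRingHom.IsIntegral) (w : F' ≃ₐ[K] F') (h : ∀ f, φ' f = w (φ f))
    (D : Divisor K F) :
    Divisor.pullbackAlong φ' hφ' D = SemilinearAut.ofAlgAut w • Divisor.pullbackAlong φ hφ D := by
  ext Q
  obtain ⟨P, rfl⟩ : ∃ P : Place K F', SemilinearAut.ofAlgAut w • P = Q :=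
    ⟨(SemilinearAut.ofAlgAut w)⁻¹ • Q, smul_inv_smul _ _⟩
  rw [SemilinearAut.divisor_smul_apply_smul, Divisor.pullbackAlong_apply,
    Divisor.pullbackAlong_apply, restrictAlong_smul φ φ' hφ hφ' w h,
    ramificationIndexAlong_smul φ φ' w h]


/-- over an algebraically closed constant field all inertia degrees are one -/
theorem inertiaDegAlong_eq_one [IsAlgClosed K] [CharZero K] (ψ : F →ₐ[K] F') (hψ : ψ.toRingHom.IsIntegral)
    (hfin : FiniteAlong K ψ) (htr' : Algebra.trdeg K F' = 1) (P : Place K F') :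
    P.inertiaDegAlong ψ hψ = 1 := by
  letI := algebraAlong ψ
  haveI := isScalarTower_along ψ
  haveI := isIntegral_along ψ hψ
  haveI : Module.Finite F F' := hfin
  haveI : CharZero F := charZero_of_injective_algebraMap (algebraMap K F).injective
  exact Fermat.Agent.Lib.FFNorm.inertiaDeg_eq_one htr' P

/-- push-forward along `w ∘ ψ` of the `w`-translate is the push-forward along `ψ` -/
theorem pushforwardAlong_smul [IsAlgClosed K] [CharZero K] (ψ ψ' : F →ₐ[K] F') (hψ : ψ.toRingHom.IsIntegral)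
    (hψ' : ψ'.toRingHom.IsIntegral) (w : F' ≃ₐ[K] F') (h : ∀ f, ψ' f = w (ψ f))
    (hfin : FiniteAlong K ψ) (hfin' : FiniteAlong K ψ') (htr' : Algebra.trdeg K F' = 1)
    (D : Divisor K F') :
    Divisor.pushforwardAlong ψ' hψ' (SemilinearAut.ofAlgAut w • D)
      = Divisor.pushforwardAlong ψ hψ D := by
  induction D using Finsupp.induction with
  | zero => rw [smul_zero, map_zero, map_zero]
  | single_add P n D _ _ ih =>
    rw [smul_add, map_add, map_add, ih, SemilinearAut.smul_single,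
      Divisor.pushforwardAlong_single, Divisor.pushforwardAlong_single,
      restrictAlong_smul ψ ψ' hψ hψ' w h, inertiaDegAlong_eq_one ψ hψ hfin htr',
      inertiaDegAlong_eq_one ψ' hψ' hfin' htr']

/-- **A correspondence is unchanged by an automorphism of the upper curve.** -/
theorem correspondence_eq_of_algEquiv [IsAlgClosed K] [CharZero K] (φ ψ φ' ψ' : F →ₐ[K] F')
    (hφ : φ.toRingHom.IsIntegral) (hψ : ψ.toRingHom.IsIntegral)
    (hφ' : φ'.toRingHom.IsIntegral) (hψ' : ψ'.toRingHom.IsIntegral)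
    (w : F' ≃ₐ[K] F') (h1 : ∀ f, φ' f = w (φ f)) (h2 : ∀ f, ψ' f = w (ψ f))
    (hfin : FiniteAlong K ψ) (hfin' : FiniteAlong K ψ') (htr' : Algebra.trdeg K F' = 1) :
    Divisor.correspondence φ' ψ' hφ' hψ' = Divisor.correspondence φ ψ hφ hψ := by
  refine AddMonoidHom.ext fun D => ?_
  rw [Divisor.correspondence_apply, Divisor.correspondence_apply,
    pullbackAlong_smul φ φ' hφ hφ' w h1, pushforwardAlong_smul ψ ψ' hψ hψ' w h2 hfin hfin' htr']

omit [HasPrincipalDivisors K F'] in
/-- **The norm is unchanged by an automorphism of the upper field**: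
`N_{w∘φ}(w x) = N_φ(x)`. -/
theorem norm_along_algEquiv (φ φ' : F →ₐ[K] F') (w : F' ≃ₐ[K] F') (h : ∀ f, φ' f = w (φ f))
    (x : F') :
    (letI := algebraAlong φ'; Algebra.norm F (w x)) = (letI := algebraAlong φ; Algebra.norm F x) := by
  let e : @AlgEquiv F F' F' _ _ _ (algebraAlong φ) (algebraAlong φ') :=
    letI := algebraAlong φ
    @AlgEquiv.mk F F' F' _ _ _ (algebraAlong φ) (algebraAlong φ') w.toEquiv w.map_mul w.map_add
      (fun f => (h f).symm)
  exact @Algebra.norm_eq_of_algEquiv F F' F' _ _ (algebraAlong φ) _ (algebraAlong φ') e x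

end Generic


/-! ### The modular instance -/

section Modular

open Fermat.Agent.S24.Modular Fermat.Agent.S30.HeckeInputs Fermat.Agent.S37.Swap

variable (N ℓ : ℕ) [NeZero N] [NeZero ℓ]

/-- **The Hecke correspondence equals its transpose** on divisors of `X₀(N)` over `ℚ̄`
(`ℓ` prime, `ℓ ∤ N`): `α_* β^* = β_* α^*`. -/
theorem heckeDivBar_eq_transpose (hℓ : ℓ.Prime) (hℓN : ¬ ℓ ∣ N)
    (hα : HeckeAlphaBarIntegral Kbar N ℓ) (hβ : HeckeBetaBarIntegral Kbar N ℓ)
    [HasPrincipalDivisors Kbar (modularFunctionFieldBar (N * ℓ))] :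
    heckeDivBar hα hβ = heckeDivBarTranspose hα hβ := by
  obtain ⟨w, h1, h2, -⟩ := exists_swap_algEquiv N ℓ hℓ hℓN
  exact correspondence_eq_of_algEquiv (heckeAlphaBar Kbar N ℓ) (heckeBetaBar Kbar N ℓ)
    (heckeBetaBar Kbar N ℓ) (heckeAlphaBar Kbar N ℓ) hα hβ hβ hα w
    (fun f => (h1 f).symm) (fun f => (h2 f).symm) (finiteAlong_beta N ℓ) (finiteAlong_alpha N ℓ)
    (trdeg_bar (N * ℓ))

/-- The transpose statement on `Pic⁰`. -/
theorem heckePic0Bar_eq_transpose (hℓ : ℓ.Prime) (hℓN : ¬ ℓ ∣ N)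
    (hα : HeckeAlphaBarIntegral Kbar N ℓ) (hβ : HeckeBetaBarIntegral Kbar N ℓ)
    [HasPrincipalDivisors Kbar (modularFunctionFieldBar (N * ℓ))]
    (hFI : FundamentalIdentityAlong Kbar (heckeBetaBar Kbar N ℓ) hβ)
    (hfin : FiniteAlong Kbar (heckeAlphaBar Kbar N ℓ))
    (hN : NormFormulaAlong Kbar (heckeAlphaBar Kbar N ℓ) hfin)
    (hFI' : FundamentalIdentityAlong Kbar (heckeAlphaBar Kbar N ℓ) hα)
    (hfin' : FiniteAlong Kbar (heckeBetaBar Kbar N ℓ))
    (hN' : NormFormulaAlong Kbar (heckeBetaBar Kbar N ℓ) hfin') :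
    heckePic0Bar hα hβ hFI hfin hN = heckePic0BarTranspose hα hβ hFI' hfin' hN' := by
  refine AddMonoidHom.ext fun x => ?_
  induction x using QuotientAddGroup.induction_on with
  | H D =>
    have key : Pic0.degZeroCorrespondence (heckeBetaBar Kbar N ℓ) (heckeAlphaBar Kbar N ℓ) hβ hα
          hFI D
        = Pic0.degZeroCorrespondence (heckeAlphaBar Kbar N ℓ) (heckeBetaBar Kbar N ℓ) hα hβ
          hFI' D := by
      apply Subtype.ext
      exact congrArg
        (fun T : Divisor Kbar (FN N) →+ Divisor Kbar (FN N) => T (D : Divisor Kbar (FN N)))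
        (heckeDivBar_eq_transpose N ℓ hℓ hℓN hα hβ)
    exact congrArg Pic0.mk key

/-- **Norm symmetry**: the norm of `α u` along `β` equals the norm of `β u` along `α`
(both are elements of `F_N`; the latter is the multiplicative Hecke operator `heckeMul`). -/
theorem norm_beta_alpha_eq (hℓ : ℓ.Prime) (hℓN : ¬ ℓ ∣ N) (u : FN N) :
    (letI := algebraAlong (heckeBetaBar Kbar N ℓ);
      Algebra.norm (FN N) (heckeAlphaBar Kbar N ℓ u))
      = (letI := algebraAlong (heckeAlphaBar Kbar N ℓ);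
        Algebra.norm (FN N) (heckeBetaBar Kbar N ℓ u)) := by
  obtain ⟨w, h1, h2, -⟩ := exists_swap_algEquiv N ℓ hℓ hℓN
  have h := norm_along_algEquiv (heckeAlphaBar Kbar N ℓ) (heckeBetaBar Kbar N ℓ) w
    (fun f => (h1 f).symm) (heckeBetaBar Kbar N ℓ u)
  rw [h2 u] at h
  exact h

end Modular

end Fermat.Agent.S37.SwapDiv

end
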