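import Mathlib
import Fermat.Agent.S30.HeckeNormQ

/-!
# S37 / E7: the `q`-formula of the Hecke characteristic polynomial

For `ℓ` prime, `ℓ ∤ N`, `f ∈ F_N`, let `χ_f` be the characteristic polynomial of `β f` over
`α(F_N)` (`α`, `β : F_N → F_{Nℓ}` the Prelude degeneracy maps).  Then, after the substitution
`q ↦ q^ℓ`, the `q`-expansion of `χ_f` is

  `(X - f(q^{ℓ²})) · ∏_{i<ℓ} (X - f(zⁱ q))`,

i.e. the roots of `χ_f` are `f(q^ℓ)` and `f(zⁱ q^{1/ℓ})`, `i < ℓ` (`charpoly_coe_expand`).

Proof: both sides are polynomials over the field `ℚ̄((q))` which agree at every constant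
`c ∈ ℚ̄`, since `χ_f(c) = Norm(c - β f) = Norm(β(c - f)) = heckeMul(c - f)`
(`HeckeNormQ.coe_norm_heckeBeta`).
-/

set_option autoImplicit false

open ModularCurve AlgebraicCurve HahnSeries Polynomial

noncomputable section

namespace Fermat.Agent.S37.HeckeCharpolyQ

open Fermat.Agent.S24.Modular Fermat.Agent.S30

/-! ### Generic: the characteristic polynomial at a constant is a norm -/

theorem eval_charpoly_lmul {K L : Type*} [Field K] [Field L] [Algebra K L]
    [FiniteDimensional K L] (y : L) (c : K) :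
    ((Algebra.lmul K L y).charpoly).eval c = Algebra.norm K (algebraMap K L c - y) := by
  classical
  let b := Module.finBasis K L
  rw [← LinearMap.charpoly_toMatrix (Algebra.lmul K L y) b, Matrix.eval_charpoly,
    Algebra.norm_eq_matrix_det b, map_sub]
  congr 1
  have h1 : Algebra.leftMulMatrix b (algebraMap K L c) = Matrix.scalar _ c := by
    rw [AlgHom.commutes]
    rfl
  rw [h1]
  rfl

/-! ### Formal lemmas on constants -/

section Formal

variable {R : Type*} [CommRing R]

theorem expand_C (ℓ : ℕ) (hℓ : 0 < ℓ) (c : R) :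
    Congr.expand ℓ hℓ (HahnSeries.C c : LaurentSeries R) = HahnSeries.C c := by
  rw [HahnSeries.C_apply, Congr.expand_single, mul_zero]

theorem rescale_C (z : Rˣ) (c : R) :
    Congr.rescale z (HahnSeries.C c : LaurentSeries R) = HahnSeries.C c := by
  ext n
  rw [Congr.coeff_rescale, HahnSeries.C_apply, HahnSeries.coeff_single]
  split_ifs with h
  · subst h
    simp
  · simp

theorem conjProd_C_sub (ℓ : ℕ) (z : Rˣ) (c : R) (F : LaurentSeries R) :
    Congr.conjProd ℓ z (HahnSeries.C c - F)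
      = ∏ i ∈ Finset.range ℓ, (HahnSeries.C c - Congr.rescale (z ^ i) F) := by
  unfold Congr.conjProd
  refine Finset.prod_congr rfl fun i _ => ?_
  rw [map_sub, rescale_C]

end Formal

/-! ### The main identity -/

variable (N ℓ : ℕ) [NeZero N] [NeZero ℓ]

/-- the inclusion `F_N → ℚ̄((q))` as a ring hom -/
def coeHom : FN N →+* LaurentSeries Kbar := (modularFunctionFieldBar N).val.toRingHom

@[simp] theorem coeHom_apply (f : FN N) : coeHom N f = (f : LaurentSeries Kbar) := rfl

omit [NeZero N] in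
theorem coe_algebraMap (c : Kbar) :
    ((algebraMap Kbar (FN N) c : FN N) : LaurentSeries Kbar) = HahnSeries.C c := by
  show algebraMap Kbar (LaurentSeries Kbar) c = HahnSeries.C c
  rw [algebraMap_laurentSeries_eq_single, HahnSeries.C_apply]

/-- the characteristic polynomial of `β f` over `α(F_N)` -/
def heckeCharpoly (f : FN N) : Polynomial (FN N) :=
  letI := AlgebraicCurve.algebraAlong (heckeAlphaBar Kbar N ℓ)
  haveI : Module.Finite (FN N) (FN (N * ℓ)) := HeckeNormQ.finite_alpha N ℓ
  (Algebra.lmul (FN N) (FN (N * ℓ)) (heckeBetaBar Kbar N ℓ f)).charpoly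

/-- the value of the Hecke characteristic polynomial at a constant -/
theorem coe_eval_heckeCharpoly (hℓ : ℓ.Prime) (hℓN : ¬ ℓ ∣ N) (z : Kbarˣ)
    (hz : IsPrimitiveRoot z ℓ) (f : FN N) (c : Kbar) :
    (((heckeCharpoly N ℓ f).eval (algebraMap Kbar (FN N) c) : FN N) : LaurentSeries Kbar)
      = Congr.heckeMul ℓ hℓ.pos z (HahnSeries.C c - (f : LaurentSeries Kbar)) := by
  letI := AlgebraicCurve.algebraAlong (heckeAlphaBar Kbar N ℓ)
  haveI : Module.Finite (FN N) (FN (N * ℓ)) := HeckeNormQ.finite_alpha N ℓ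
  have h1 : (heckeCharpoly N ℓ f).eval (algebraMap Kbar (FN N) c)
      = Algebra.norm (FN N) (heckeBetaBar Kbar N ℓ (algebraMap Kbar (FN N) c - f)) := by
    unfold heckeCharpoly
    rw [eval_charpoly_lmul]
    congr 1
    rw [map_sub (heckeBetaBar Kbar N ℓ), AlgHom.commutes]
    congr 1
  rw [h1, HeckeNormQ.coe_norm_heckeBeta N ℓ hℓ hℓN z hz]
  congr 1
  show ((algebraMap Kbar (FN N) c : FN N) : LaurentSeries Kbar) - (f : LaurentSeries Kbar) = _
  rw [coe_algebraMap]

/-- **`q`-formula of the Hecke characteristic polynomial** (after `q ↦ q^ℓ`). -/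
theorem charpoly_coe_expand (hℓ : ℓ.Prime) (hℓN : ¬ ℓ ∣ N) (z : Kbarˣ)
    (hz : IsPrimitiveRoot z ℓ) (f : FN N) :
    ((heckeCharpoly N ℓ f).map (coeHom N)).map (Congr.expand ℓ hℓ.pos)
      = (X - Polynomial.C
          (Congr.expand ℓ hℓ.pos (Congr.expand ℓ hℓ.pos (f : LaurentSeries Kbar))))
        * ∏ i ∈ Finset.range ℓ,
          (X - Polynomial.C (Congr.rescale (z ^ i) (f : LaurentSeries Kbar))) := by
  apply Polynomial.eq_of_infinite_eval_eq
  have hinj : Function.Injective (fun c : Kbar => (HahnSeries.C c : LaurentSeries Kbar)) :=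
    HahnSeries.C_injective
  refine Set.Infinite.mono ?_ (Set.infinite_range_of_injective hinj)
  rintro _ ⟨c, rfl⟩
  show eval (HahnSeries.C c) _ = eval (HahnSeries.C c) _
  have hc : (HahnSeries.C c : LaurentSeries Kbar)
      = ((Congr.expand ℓ hℓ.pos).comp (coeHom N)) (algebraMap Kbar (FN N) c) := by
    show _ = Congr.expand ℓ hℓ.pos ((algebraMap Kbar (FN N) c : FN N) : LaurentSeries Kbar)
    rw [coe_algebraMap, expand_C]
  have hL : eval (HahnSeries.C c)
      (((heckeCharpoly N ℓ f).map (coeHom N)).map (Congr.expand ℓ hℓ.pos))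
      = Congr.expand ℓ hℓ.pos
          (Congr.heckeMul ℓ hℓ.pos z (HahnSeries.C c - (f : LaurentSeries Kbar))) := by
    rw [Polynomial.map_map]
    conv_lhs => rw [hc]
    rw [Polynomial.eval_map_apply, RingHom.comp_apply, coeHom_apply,
      coe_eval_heckeCharpoly N ℓ hℓ hℓN z hz]
  rw [hL]
  unfold Congr.heckeMul
  rw [map_mul, Congr.expand_normL ℓ hℓ.pos z hz, conjProd_C_sub, map_sub, map_sub, expand_C,
    expand_C, eval_mul, eval_sub, eval_X, eval_C, eval_prod]
  congr 1
  refine Finset.prod_congr rfl fun i _ => ?_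
  rw [eval_sub, eval_X, eval_C]

/-! ### Coefficientwise contraction of polynomials over Laurent series -/

section Contract

variable {R S : Type*} [CommRing R] [CommRing S]

theorem contract_zero (ℓ : ℕ) (hℓ : 0 < ℓ) :
    Congr.contract ℓ hℓ (0 : LaurentSeries R) = 0 := by
  ext n
  rw [Congr.coeff_contract]
  rfl

/-- apply `contract` to every coefficient -/
def contractPoly (ℓ : ℕ) (hℓ : 0 < ℓ) (P : Polynomial (LaurentSeries R)) :
    Polynomial (LaurentSeries R) :=
  ∑ k ∈ Finset.range (P.natDegree + 1), Polynomial.monomial k (Congr.contract ℓ hℓ (P.coeff k))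

theorem coeff_contractPoly (ℓ : ℕ) (hℓ : 0 < ℓ) (P : Polynomial (LaurentSeries R)) (k : ℕ) :
    (contractPoly ℓ hℓ P).coeff k = Congr.contract ℓ hℓ (P.coeff k) := by
  unfold contractPoly
  rw [Polynomial.finset_sum_coeff]
  simp only [Polynomial.coeff_monomial]
  rw [Finset.sum_ite_eq' (Finset.range (P.natDegree + 1)) k]
  split_ifs with h
  · rfl
  · have hk : P.natDegree < k := by
      by_contra hlt
      exact h (Finset.mem_range.mpr (by omega))
    rw [Polynomial.coeff_eq_zero_of_natDegree_lt hk, contract_zero]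

theorem contractPoly_map_expand (ℓ : ℕ) (hℓ : 0 < ℓ) (Q : Polynomial (LaurentSeries R)) :
    contractPoly ℓ hℓ (Q.map (Congr.expand ℓ hℓ)) = Q := by
  ext k : 1
  rw [coeff_contractPoly, Polynomial.coeff_map, Congr.contract_expand]

theorem contractPoly_map_coeffMap (φ : R →+* S) (ℓ : ℕ) (hℓ : 0 < ℓ)
    (P : Polynomial (LaurentSeries R)) :
    (contractPoly ℓ hℓ P).map (coeffMap φ) = contractPoly ℓ hℓ (P.map (coeffMap φ)) := by
  ext k : 1
  rw [Polynomial.coeff_map, coeff_contractPoly, coeff_contractPoly, Polynomial.coeff_map,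
    Congr.coeffMap_contract]

end Contract

/-! ### The Kronecker congruence for the Hecke characteristic polynomial -/

section Kronecker

local notation "Qb" => AlgebraicClosure ℚ
local notation "Gq" => (AlgebraicClosure ℚ ≃ₐ[ℚ] AlgebraicClosure ℚ)

variable (A : ValuationSubring Qb)

/-- the integral model of the right-hand side of `charpoly_coe_expand` -/
def modelPoly (ℓ : ℕ) (hℓ : 0 < ℓ) (zA : Aˣ) (U : LaurentSeries A) :
    Polynomial (LaurentSeries A) :=
  (X - Polynomial.C (Congr.expand ℓ hℓ (Congr.expand ℓ hℓ U)))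
    * ∏ i ∈ Finset.range ℓ, (X - Polynomial.C (Congr.rescale (zA ^ i) U))

theorem modelPoly_map {S : Type*} [CommRing S] (φ : A →+* S) (ℓ : ℕ) (hℓ : 0 < ℓ) (zA : Aˣ)
    (U : LaurentSeries A) :
    (modelPoly A ℓ hℓ zA U).map (coeffMap φ)
      = (X - Polynomial.C (Congr.expand ℓ hℓ (Congr.expand ℓ hℓ (coeffMap φ U))))
        * ∏ i ∈ Finset.range ℓ,
          (X - Polynomial.C (Congr.rescale (Units.map (φ : A →* S) zA ^ i) (coeffMap φ U))) := by
  unfold modelPoly
  rw [Polynomial.map_mul, Polynomial.map_sub, Polynomial.map_X, Polynomial.map_C,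
    Polynomial.map_prod, Congr.coeffMap_expand, Congr.coeffMap_expand]
  congr 1
  refine Finset.prod_congr rfl fun i _ => ?_
  rw [Polynomial.map_sub, Polynomial.map_X, Polynomial.map_C, Congr.coeffMap_rescale, map_pow]

/-- **Kronecker congruence for the Hecke characteristic polynomial.**  If `f ∈ F_N` has an
`A`-integral `q`-expansion `U` (`A` a valuation subring of `ℚ̄` over `ℓ ∤ N`), then the
characteristic polynomial of `β f` over `α(F_N)` has `A`-integral coefficients, and for a
Frobenius `σ` at `A` its reduction is `(X - Ū(q^ℓ)) (X^ℓ - σ(U)‾)`. -/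
theorem exists_integral_charpoly (hℓ : ℓ.Prime) (hℓN : ¬ ℓ ∣ N) (hA : A.LiesOverPrime ℓ)
    {σ : Gq} (hσ : A.IsFrobeniusAt σ ℓ) (f : FN N) (U : LaurentSeries A)
    (hU : Congr.incl A U = (f : LaurentSeries Qb)) :
    ∃ G : Polynomial (LaurentSeries A),
      G.map (Congr.incl A) = (heckeCharpoly N ℓ f).map (coeHom N) ∧
      G.map (Congr.red A)
        = (X - Polynomial.C (Congr.expand ℓ hℓ.pos (Congr.red A U)))
          * (X ^ ℓ - Polynomial.C
              (Congr.red A (Congr.actA A ⟨σ, hσ.mem_decompositionSubgroup⟩ U))) := by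
  haveI : Fact ℓ.Prime := ⟨hℓ⟩
  haveI hchar : CharP (IsLocalRing.ResidueField A) ℓ := Congr.charP_residue A hA
  -- a primitive `ℓ`-th root of unity
  have hℓ0 : (ℓ : Qb) ≠ 0 := Nat.cast_ne_zero.mpr hℓ.ne_zero
  haveI : NeZero (ℓ : Qb) := ⟨hℓ0⟩
  obtain ⟨ζ, hζ⟩ := HasEnoughRootsOfUnity.exists_primitiveRoot Qb ℓ
  have hζ1 : ζ ^ ℓ = 1 := hζ.pow_eq_one
  let z : Qbˣ := (hζ.isUnit hℓ.ne_zero).unit
  have hz : IsPrimitiveRoot z ℓ := by
    rw [← IsPrimitiveRoot.coe_units_iff]
    exact hζ
  let zA : Aˣ := Congr.unitA A hℓ.pos hζ1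
  refine ⟨contractPoly ℓ hℓ.pos (modelPoly A ℓ hℓ.pos zA U), ?_, ?_⟩
  · have h1 : (modelPoly A ℓ hℓ.pos zA U).map (Congr.incl A)
        = ((heckeCharpoly N ℓ f).map (coeHom N)).map (Congr.expand ℓ hℓ.pos) := by
      rw [charpoly_coe_expand N ℓ hℓ hℓN z hz f]
      show (modelPoly A ℓ hℓ.pos zA U).map (coeffMap A.subtype) = _
      rw [modelPoly_map, Congr.map_subtype_unitA A hℓ.pos hζ1 z rfl]
      show _ = (X - Polynomial.C (Congr.expand ℓ hℓ.pos (Congr.expand ℓ hℓ.pos
        (f : LaurentSeries Qb)))) * _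
      rw [← hU]
      rfl
    show (contractPoly ℓ hℓ.pos (modelPoly A ℓ hℓ.pos zA U)).map (coeffMap A.subtype) = _
    rw [contractPoly_map_coeffMap]
    show contractPoly ℓ hℓ.pos ((modelPoly A ℓ hℓ.pos zA U).map (Congr.incl A)) = _
    rw [h1, contractPoly_map_expand]
  · have h2 : (modelPoly A ℓ hℓ.pos zA U).map (Congr.red A)
        = ((X - Polynomial.C (Congr.expand ℓ hℓ.pos (Congr.red A U)))
          * (X ^ ℓ - Polynomial.C
              (Congr.red A (Congr.actA A ⟨σ, hσ.mem_decompositionSubgroup⟩ U)))).map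
            (Congr.expand ℓ hℓ.pos) := by
      show (modelPoly A ℓ hℓ.pos zA U).map (coeffMap (IsLocalRing.residue A)) = _
      rw [modelPoly_map, Congr.map_residue_unitA A hA hℓ.pos hζ1]
      simp only [one_pow, Congr.rescale_one, Finset.prod_const, Finset.card_range]
      rw [Polynomial.map_mul, Polynomial.map_sub, Polynomial.map_sub, Polynomial.map_X,
        Polynomial.map_pow, Polynomial.map_X, Polynomial.map_C, Polynomial.map_C,
        Congr.expand_red_actA_frob A hℓ.pos hA hσ U]
      congr 1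
      haveI : CharP (Polynomial (LaurentSeries (IsLocalRing.ResidueField A))) ℓ := by
        haveI : CharP (LaurentSeries (IsLocalRing.ResidueField A)) ℓ :=
          charP_of_injective_algebraMap
            (algebraMap (IsLocalRing.ResidueField A)
              (LaurentSeries (IsLocalRing.ResidueField A))).injective ℓ
        infer_instance
      rw [sub_pow_char, ← Polynomial.C_pow]
      rfl
    show (contractPoly ℓ hℓ.pos (modelPoly A ℓ hℓ.pos zA U)).map
      (coeffMap (IsLocalRing.residue A)) = _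
    rw [contractPoly_map_coeffMap]
    show contractPoly ℓ hℓ.pos ((modelPoly A ℓ hℓ.pos zA U).map (Congr.red A)) = _
    rw [h2, contractPoly_map_expand]

end Kronecker

end Fermat.Agent.S37.HeckeCharpolyQ

end
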