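/-
S37 (E7) -- FORMAL REDUCTION (helper43).

`SpecializationExists N p J` is reduced, by pure algebra, to ONE statement about `J`:

  for every prime `ℓ ∤ N * p` and every valuation subring `A` over `ℓ`, the additive subgroup of `J`
  generated by
      `τ • x - x`                                   (`τ` in the inertia group of `A`, `x : J`)
      `σ • σ • x - heckeGen ℓ • (σ • x) + ℓ • x`     (`σ` a Frobenius element at `A`, `x : J`)
  contains no nonzero element killed by a power of `p`.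

The witness is `J' := J ⧸ K`, `K` the subgroup above (it is automatically a Hecke submodule and
stable under every Frobenius element), `sp` the quotient map, `F` induced by a Frobenius element.
No geometry is used here; consumers only have to put the two kinds of generators into a subgroup
(e.g. the classes of divisors `∑ (P_i - P_i')` with `P_i`, `P_i'` of equal reduction) which meets the
`p`-power torsion trivially.
-/
import Mathlib
import Fermat.Prelude.Def_HeckeGalois_EichlerShimura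

set_option autoImplicit false

namespace Fermat.Agent.S37.Formal

open ModularCurve

section Valuation

variable {K L : Type*} [Field K] [Field L] [Algebra K L]

/-- Conjugating an inertia element by an element of the decomposition group gives an inertia
element. -/
theorem conj_mem_inertiaSubgroupIn (A : ValuationSubring L) {g τ : L ≃ₐ[K] L}
    (hg : g ∈ A.decompositionSubgroup K) (hτ : τ ∈ A.inertiaSubgroupIn K) :
    g * τ * g⁻¹ ∈ A.inertiaSubgroupIn K := by
  obtain ⟨τ', hτ', rfl⟩ := hτ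
  refine ⟨⟨g, hg⟩ * τ' * ⟨g, hg⟩⁻¹, ?_, rfl⟩
  have hn : (A.inertiaSubgroup K).Normal := by
    unfold ValuationSubring.inertiaSubgroup
    infer_instance
  exact hn.conj_mem τ' hτ' ⟨g, hg⟩

/-- Conjugating a Frobenius element by an element of the decomposition group gives a Frobenius
element. -/
theorem isFrobeniusAt_conj (A : ValuationSubring L) {g σ : L ≃ₐ[K] L} {q : ℕ}
    (hg : g ∈ A.decompositionSubgroup K) (hσ : A.IsFrobeniusAt σ q) :
    A.IsFrobeniusAt (g * σ * g⁻¹) q := by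
  obtain ⟨hσD, hσx⟩ := hσ
  have hmem : g * σ * g⁻¹ ∈ A.decompositionSubgroup K :=
    mul_mem (mul_mem hg hσD) (inv_mem hg)
  refine ⟨hmem, fun x => ?_⟩
  have e : (⟨g * σ * g⁻¹, hmem⟩ : A.decompositionSubgroup K) =
      ⟨g, hg⟩ * ⟨σ, hσD⟩ * ⟨g, hg⟩⁻¹ := rfl
  rw [e, mul_smul, mul_smul, hσx, smul_pow', smul_inv_smul]

/-- Two Frobenius elements at `A` differ by an element of the inertia group. -/
theorem inv_mul_mem_inertiaSubgroupIn (A : ValuationSubring L) {σ₀ σ : L ≃ₐ[K] L} {q : ℕ}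
    (h₀ : A.IsFrobeniusAt σ₀ q) (h : A.IsFrobeniusAt σ q) :
    σ₀⁻¹ * σ ∈ A.inertiaSubgroupIn K := by
  obtain ⟨h₀D, h₀x⟩ := h₀
  obtain ⟨hD, hx⟩ := h
  refine ⟨⟨σ₀, h₀D⟩⁻¹ * ⟨σ, hD⟩, ?_, rfl⟩
  unfold ValuationSubring.inertiaSubgroup
  refine MonoidHom.mem_ker.mpr ?_
  ext x
  show (⟨σ₀, h₀D⟩⁻¹ * ⟨σ, hD⟩ : A.decompositionSubgroup K) • x = x
  rw [mul_smul, hx, inv_smul_eq_iff, h₀x]

end Valuation

noncomputable section Main

variable (K : Type*) {L : Type*} [Field K] [Field L] [Algebra K L]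
variable (J : Type) [AddCommGroup J] [Module HeckeAlg J]
  [DistribMulAction (L ≃ₐ[K] L) J] [SMulCommClass (L ≃ₐ[K] L) HeckeAlg J]

/-- The generators of the universal kernel: inertia moves, and the Eichler–Shimura expressions. -/
def genSet (A : ValuationSubring L) (ℓ : ℕ) (hℓ : ℓ.Prime) : Set J :=
  {y | ∃ τ ∈ A.inertiaSubgroupIn K, ∃ x : J, y = τ • x - x} ∪
    {y | ∃ σ : L ≃ₐ[K] L, A.IsFrobeniusAt σ ℓ ∧
      ∃ x : J, y = σ • σ • x - heckeGen ⟨ℓ, hℓ⟩ • (σ • x) + ℓ • x}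

variable {J}

omit [SMulCommClass (L ≃ₐ[K] L) HeckeAlg J] in
theorem inertia_mem_genSet (A : ValuationSubring L) (ℓ : ℕ) (hℓ : ℓ.Prime) {τ : L ≃ₐ[K] L}
    (hτ : τ ∈ A.inertiaSubgroupIn K) (x : J) : τ • x - x ∈ genSet K J A ℓ hℓ :=
  Or.inl ⟨τ, hτ, x, rfl⟩

omit [SMulCommClass (L ≃ₐ[K] L) HeckeAlg J] in
theorem frobenius_mem_genSet (A : ValuationSubring L) (ℓ : ℕ) (hℓ : ℓ.Prime) {σ : L ≃ₐ[K] L}
    (hσ : A.IsFrobeniusAt σ ℓ) (x : J) :
    σ • σ • x - heckeGen ⟨ℓ, hℓ⟩ • (σ • x) + ℓ • x ∈ genSet K J A ℓ hℓ :=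
  Or.inr ⟨σ, hσ, x, rfl⟩

/-- The generating set is stable under the Hecke algebra. -/
theorem smul_mem_genSet (A : ValuationSubring L) (ℓ : ℕ) (hℓ : ℓ.Prime) (T : HeckeAlg) {y : J}
    (hy : y ∈ genSet K J A ℓ hℓ) : T • y ∈ genSet K J A ℓ hℓ := by
  rcases hy with ⟨τ, hτ, x, rfl⟩ | ⟨σ, hσ, x, rfl⟩
  · refine Or.inl ⟨τ, hτ, T • x, ?_⟩
    rw [smul_sub, smul_comm τ T x]
  · refine Or.inr ⟨σ, hσ, T • x, ?_⟩
    generalize heckeGen ⟨ℓ, hℓ⟩ = h
    have e1 : σ • σ • (T • x) = T • (σ • σ • x) := by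
      rw [smul_comm σ T x, smul_comm σ T (σ • x)]
    have e2 : h • (σ • (T • x)) = T • (h • (σ • x)) := by
      rw [smul_comm σ T x, ← mul_smul, ← mul_smul, mul_comm]
    have e3 : ℓ • (T • x) = T • (ℓ • x) := (smul_comm T ℓ x).symm
    rw [e1, e2, e3, smul_add, smul_sub]

/-- The generating set is stable under the decomposition group. -/
theorem galois_smul_mem_genSet (A : ValuationSubring L) (ℓ : ℕ) (hℓ : ℓ.Prime)
    {g : L ≃ₐ[K] L} (hg : g ∈ A.decompositionSubgroup K) {y : J}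
    (hy : y ∈ genSet K J A ℓ hℓ) : g • y ∈ genSet K J A ℓ hℓ := by
  rcases hy with ⟨τ, hτ, x, rfl⟩ | ⟨σ, hσ, x, rfl⟩
  · refine Or.inl ⟨g * τ * g⁻¹, conj_mem_inertiaSubgroupIn A hg hτ, g • x, ?_⟩
    rw [smul_sub, mul_smul, mul_smul, inv_smul_smul]
  · refine Or.inr ⟨g * σ * g⁻¹, isFrobeniusAt_conj A hg hσ, g • x, ?_⟩
    generalize heckeGen ⟨ℓ, hℓ⟩ = h
    have e0 : ∀ z : J, (g * σ * g⁻¹) • (g • z) = g • (σ • z) := fun z => by
      rw [mul_smul, mul_smul, inv_smul_smul]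
    have e2 : h • (g • (σ • x)) = g • (h • (σ • x)) := (smul_comm g h (σ • x)).symm
    have e3 : ℓ • (g • x) = g • (ℓ • x) := (smul_comm g ℓ x).symm
    rw [e0, e0, e2, e3, smul_add, smul_sub]

variable (J) in
/-- The universal kernel, as a Hecke submodule. -/
def kernel (A : ValuationSubring L) (ℓ : ℕ) (hℓ : ℓ.Prime) : Submodule HeckeAlg J where
  carrier := AddSubgroup.closure (genSet K J A ℓ hℓ)
  add_mem' := fun ha hb => AddSubgroup.add_mem _ ha hb
  zero_mem' := AddSubgroup.zero_mem _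
  smul_mem' := by
    intro T y hy
    induction hy using AddSubgroup.closure_induction with
    | mem y hy => exact AddSubgroup.subset_closure (smul_mem_genSet K A ℓ hℓ T hy)
    | zero => rw [smul_zero]; exact AddSubgroup.zero_mem _
    | add y z _ _ hy hz => rw [smul_add]; exact AddSubgroup.add_mem _ hy hz
    | neg y _ hy => rw [smul_neg]; exact AddSubgroup.neg_mem _ hy

theorem mem_kernel_iff (A : ValuationSubring L) (ℓ : ℕ) (hℓ : ℓ.Prime) (y : J) :
    y ∈ kernel K J A ℓ hℓ ↔ y ∈ AddSubgroup.closure (genSet K J A ℓ hℓ) :=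
  Iff.rfl

theorem galois_smul_mem_kernel (A : ValuationSubring L) (ℓ : ℕ) (hℓ : ℓ.Prime)
    {g : L ≃ₐ[K] L} (hg : g ∈ A.decompositionSubgroup K) {y : J}
    (hy : y ∈ kernel K J A ℓ hℓ) : g • y ∈ kernel K J A ℓ hℓ := by
  rw [mem_kernel_iff] at hy ⊢
  induction hy using AddSubgroup.closure_induction with
  | mem y hy => exact AddSubgroup.subset_closure (galois_smul_mem_genSet K A ℓ hℓ hg hy)
  | zero => rw [smul_zero]; exact AddSubgroup.zero_mem _
  | add y z _ _ hy hz => rw [smul_add]; exact AddSubgroup.add_mem _ hy hz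
  | neg y _ hy => rw [smul_neg]; exact AddSubgroup.neg_mem _ hy

variable (J) in
/-- A Galois element as a Hecke-linear endomorphism of `J`. -/
def galoisLin (g : L ≃ₐ[K] L) : J →ₗ[HeckeAlg] J where
  toFun x := g • x
  map_add' := smul_add g
  map_smul' T x := smul_comm g T x

@[simp] theorem galoisLin_apply (g : L ≃ₐ[K] L) (x : J) : galoisLin K J g x = g • x := rfl

variable (J) in
/-- The endomorphism of `J ⧸ kernel` induced by an element of the decomposition group. -/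
def frobQuot (A : ValuationSubring L) (ℓ : ℕ) (hℓ : ℓ.Prime) (g : L ≃ₐ[K] L)
    (hg : g ∈ A.decompositionSubgroup K) :
    (J ⧸ kernel K J A ℓ hℓ) →ₗ[HeckeAlg] (J ⧸ kernel K J A ℓ hℓ) :=
  (kernel K J A ℓ hℓ).liftQ ((kernel K J A ℓ hℓ).mkQ ∘ₗ galoisLin K J g) (by
    intro x hx
    rw [LinearMap.mem_ker, LinearMap.comp_apply, galoisLin_apply, Submodule.mkQ_apply,
      Submodule.Quotient.mk_eq_zero]
    exact galois_smul_mem_kernel K A ℓ hℓ hg hx)

theorem frobQuot_mk (A : ValuationSubring L) (ℓ : ℕ) (hℓ : ℓ.Prime) (g : L ≃ₐ[K] L)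
    (hg : g ∈ A.decompositionSubgroup K) (x : J) :
    frobQuot K J A ℓ hℓ g hg (Submodule.Quotient.mk x) = Submodule.Quotient.mk (g • x) :=
  rfl

/-- **Formal reduction of `SpecializationExists`.**  If Frobenius elements exist and the subgroup
generated by the inertia moves and the Eichler–Shimura expressions has no `p`-power torsion, then
`SpecializationExists N p J` holds. -/
theorem specializationExists_of_closure (N p : ℕ)
    (hfrob : ∀ ℓ : ℕ, ℓ.Prime → ¬ ℓ ∣ N * p → ∀ A : ValuationSubring L, A.LiesOverPrime ℓ →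
      ∃ σ : L ≃ₐ[K] L, A.IsFrobeniusAt σ ℓ)
    (hmain : ∀ (ℓ : ℕ) (hℓ : ℓ.Prime), ¬ ℓ ∣ N * p → ∀ A : ValuationSubring L,
      A.LiesOverPrime ℓ → ∀ y ∈ AddSubgroup.closure (genSet K J A ℓ hℓ),
        (∃ n : ℕ, p ^ n • y = 0) → y = 0) :
    SpecializationExists (K := K) (L := L) N p J := by
  intro ℓ hℓ hℓNp A hA
  obtain ⟨σ₀, hσ₀⟩ := hfrob ℓ hℓ hℓNp A hA
  have hσ₀D : σ₀ ∈ A.decompositionSubgroup K := hσ₀.mem_decompositionSubgroup
  refine ⟨J ⧸ kernel K J A ℓ hℓ, inferInstance, inferInstance,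
    ((kernel K J A ℓ hℓ).mkQ : J →ₗ[HeckeAlg] _).toAddMonoidHom,
    (frobQuot K J A ℓ hℓ σ₀ hσ₀D).toAddMonoidHom, ⟨?_, ?_, ?_, ?_⟩, ?_⟩
  · -- Hecke equivariance
    intro T x
    exact map_smul (kernel K J A ℓ hℓ).mkQ T x
  · -- inertia
    intro σ hσ x
    show Submodule.Quotient.mk (σ • x) = Submodule.Quotient.mk x
    rw [Submodule.Quotient.eq]
    exact AddSubgroup.subset_closure (inertia_mem_genSet K A ℓ hℓ hσ x)
  · -- Frobenius
    intro σ hσ x
    show Submodule.Quotient.mk (σ • x) = frobQuot K J A ℓ hℓ σ₀ hσ₀D (Submodule.Quotient.mk x)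
    rw [frobQuot_mk, Submodule.Quotient.eq]
    have hι := inv_mul_mem_inertiaSubgroupIn A hσ₀ hσ
    have h1 : (σ₀⁻¹ * σ) • x - x ∈ kernel K J A ℓ hℓ :=
      AddSubgroup.subset_closure (inertia_mem_genSet K A ℓ hℓ hι x)
    have h2 := galois_smul_mem_kernel K A ℓ hℓ hσ₀D h1
    rwa [smul_sub, ← mul_smul, mul_inv_cancel_left] at h2
  · -- injectivity on `p`-power torsion
    intro x hx hsp
    have hxK : x ∈ kernel K J A ℓ hℓ := (Submodule.Quotient.mk_eq_zero _).mp hsp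
    exact hmain ℓ hℓ hℓNp A hA x hxK hx
  · -- the relation on the quotient
    intro y
    obtain ⟨x, rfl⟩ := Submodule.Quotient.mk_surjective _ y
    show frobQuot K J A ℓ hℓ σ₀ hσ₀D (frobQuot K J A ℓ hℓ σ₀ hσ₀D (Submodule.Quotient.mk x))
      - heckeGen ⟨ℓ, hℓ⟩ • frobQuot K J A ℓ hℓ σ₀ hσ₀D (Submodule.Quotient.mk x)
      + ℓ • (Submodule.Quotient.mk x : J ⧸ kernel K J A ℓ hℓ) = 0
    rw [frobQuot_mk, frobQuot_mk, ← Submodule.Quotient.mk_smul, ← Submodule.Quotient.mk_sub,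
      ← Submodule.Quotient.mk_smul, ← Submodule.Quotient.mk_add, Submodule.Quotient.mk_eq_zero]
    exact AddSubgroup.subset_closure (frobenius_mem_genSet K A ℓ hℓ hσ₀ x)

/-- Consumer form: it suffices to exhibit, for every `ℓ` and `A`, an additive subgroup `G` of `J`
containing the inertia moves and the Eichler–Shimura expressions and meeting the `p`-power torsion
trivially (e.g. the classes of divisors supported on pairs of points with the same reduction). -/
theorem specializationExists_of_subgroup (N p : ℕ)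
    (hfrob : ∀ ℓ : ℕ, ℓ.Prime → ¬ ℓ ∣ N * p → ∀ A : ValuationSubring L, A.LiesOverPrime ℓ →
      ∃ σ : L ≃ₐ[K] L, A.IsFrobeniusAt σ ℓ)
    (hG : ∀ (ℓ : ℕ) (hℓ : ℓ.Prime), ¬ ℓ ∣ N * p → ∀ A : ValuationSubring L, A.LiesOverPrime ℓ →
      ∃ G : AddSubgroup J,
        (∀ τ ∈ A.inertiaSubgroupIn K, ∀ x : J, τ • x - x ∈ G) ∧
        (∀ σ : L ≃ₐ[K] L, A.IsFrobeniusAt σ ℓ → ∀ x : J,
          σ • σ • x - heckeGen ⟨ℓ, hℓ⟩ • (σ • x) + ℓ • x ∈ G) ∧
        (∀ y ∈ G, (∃ n : ℕ, p ^ n • y = 0) → y = 0)) :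
    SpecializationExists (K := K) (L := L) N p J := by
  refine specializationExists_of_closure K N p hfrob ?_
  intro ℓ hℓ hℓNp A hA y hy htors
  obtain ⟨G, hI, hF, hT⟩ := hG ℓ hℓ hℓNp A hA
  refine hT y ?_ htors
  refine (AddSubgroup.closure_le G).mpr ?_ hy
  rintro z (⟨τ, hτ, x, rfl⟩ | ⟨σ, hσ, x, rfl⟩)
  · exact hI τ hτ x
  · exact hF σ hσ x

end Main

end Fermat.Agent.S37.Formal
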