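/-
S37 (E7) -- instantiation of the formal reduction `Fermat.Agent.S37.Formal` at
`K = ℚ`, `L = AlgebraicClosure ℚ`, `J = JZero N` (helper43).

`result_of_subgroup` has the frozen S37 statement as its conclusion.  Its only hypothesis: for every
prime `ℓ ∤ N * p` and every place `A` of `AlgebraicClosure ℚ` over `ℓ` there is an additive subgroup
`G` of `JZero N` which
  * contains `τ • x - x` for `τ` in the inertia group of `A`,
  * contains `σ • σ • x - T_ℓ (σ • x) + ℓ • x` for every Frobenius element `σ` at `A`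
    (`T_ℓ = heckeOperatorBar N ℓ`, the Prelude Hecke operator on `JZero N`),
  * has no nonzero element killed by a power of `p`.
-/
import Fermat.Agent.S37.Formal
import Fermat.Agent.Lib.Frobenius
import Fermat.Prelude.Def_ModularCurve_HeckeModule

set_option autoImplicit false

namespace Fermat.Agent.S37.Bar

open ModularCurve

/-- **S37 from a subgroup without `p`-power torsion.** -/
theorem result_of_subgroup (N p : ℕ) [NeZero N] (hcomm : HeckeOperatorsCommuteBar N)
    (hG : ∀ (ℓ : ℕ) (hℓ : ℓ.Prime), ¬ ℓ ∣ N * p →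
      ∀ A : ValuationSubring (AlgebraicClosure ℚ), A.LiesOverPrime ℓ →
      ∃ G : AddSubgroup (JZero N),
        (∀ τ ∈ A.inertiaSubgroupIn ℚ, ∀ x : JZero N, τ • x - x ∈ G) ∧
        (∀ σ : AlgebraicClosure ℚ ≃ₐ[ℚ] AlgebraicClosure ℚ, A.IsFrobeniusAt σ ℓ → ∀ x : JZero N,
          σ • σ • x - heckeOperatorBar N ⟨ℓ, hℓ⟩ (σ • x) + ℓ • x ∈ G) ∧
        (∀ y ∈ G, (∃ n : ℕ, p ^ n • y = 0) → y = 0)) :
    letI := heckeModuleBar N
    ∀ (_ : SMulCommClass (AlgebraicClosure ℚ ≃ₐ[ℚ] AlgebraicClosure ℚ) HeckeAlg (JZero N)),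
      SpecializationExists (K := ℚ) (L := AlgebraicClosure ℚ) N p (JZero N) := by
  letI := heckeModuleBar N
  intro _
  refine Formal.specializationExists_of_subgroup ℚ N p
    (fun ℓ hℓ _ A hA => Lib.Frobenius.exists_isFrobeniusAt A hℓ hA) ?_
  intro ℓ hℓ hℓNp A hA
  obtain ⟨G, h1, h2, h3⟩ := hG ℓ hℓ hℓNp A hA
  refine ⟨G, h1, ?_, h3⟩
  intro σ hσ x
  rw [heckeModuleBar_heckeGen_smul hcomm]
  exact h2 σ hσ x

end Fermat.Agent.S37.Bar
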