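/-
S37, brick (D3)(i) of the function-only (RED) route: positivity of a correspondence on a
stable set of places, and the resulting lower bound for the orders of a norm.

Generic setting (Mathlib + Prelude only): `φ ψ : F →ₐ[K] F'` integral, the correspondence
`ψ_* φ^*` on divisors of `F`, and a set `S` of places of `F` such that every place `w` of `F'`
whose restriction along `ψ` lies in `S` also has its restriction along `φ` in `S`.

* `pushforwardAlong_nonneg_on` : a divisor of `F'` which is `≥ 0` at all places over `S`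
  (along `ψ`) has a pushforward which is `≥ 0` on `S`;
* `correspondence_nonneg_on`   : `D ≥ 0` on `S`  ⇒  `ψ_* φ^* D ≥ 0` on `S`;
* `correspondence_le_ord_norm` : `ord_v f ≥ D v` on `S`  ⇒  `ord_v (Norm_ψ (φ f)) ≥ (ψ_* φ^* D) v`
  on `S` (given the norm formula along `ψ`).
-/
import Mathlib
import Fermat.Prelude.Def_AlgebraicCurve_Correspondence

set_option autoImplicit false
set_option linter.style.haveILetI false

noncomputable section

namespace Fermat.Agent.S37.HeckeChart

open AlgebraicCurve

variable {K F F' : Type*} [Field K] [Field F] [Field F'] [Algebra K F] [Algebra K F']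

section Push

variable (ψ : F →ₐ[K] F') (hψ : ψ.toRingHom.IsIntegral)

open scoped Classical in
/-- The value of a pushforward at a place, as a sum over the support. -/
theorem pushforwardAlong_apply (E : Divisor K F') (v : Place K F) :
    Divisor.pushforwardAlong ψ hψ E v =
      ∑ w ∈ E.support, if w.restrictAlong ψ hψ = v then E w * (w.inertiaDegAlong ψ hψ : ℤ)
        else 0 := by
  letI := algebraAlong ψ
  haveI := isScalarTower_along ψ
  haveI := isIntegral_along ψ hψ
  exact Divisor.pushforward_apply (K := K) (F := F) (F' := F') E v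

/-- A divisor which is non-negative at all places lying (along `ψ`) over `S` has a pushforward
which is non-negative on `S`. -/
theorem pushforwardAlong_nonneg_on (S : Set (Place K F)) (E : Divisor K F')
    (hE : ∀ w : Place K F', w.restrictAlong ψ hψ ∈ S → 0 ≤ E w) :
    ∀ v ∈ S, 0 ≤ Divisor.pushforwardAlong ψ hψ E v := by
  classical
  intro v hv
  rw [pushforwardAlong_apply]
  refine Finset.sum_nonneg fun w _ => ?_
  split_ifs with h
  · exact mul_nonneg (hE w (h ▸ hv)) (Int.natCast_nonneg _)
  · exact le_rfl

end Push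

section Corr

variable [HasPrincipalDivisors K F']
variable (φ ψ : F →ₐ[K] F') (hφ : φ.toRingHom.IsIntegral) (hψ : ψ.toRingHom.IsIntegral)

/-- **Positivity of a correspondence on a stable set of places.** -/
theorem correspondence_nonneg_on (S : Set (Place K F))
    (hS : ∀ w : Place K F', w.restrictAlong ψ hψ ∈ S → w.restrictAlong φ hφ ∈ S)
    (D : Divisor K F) (hD : ∀ v ∈ S, 0 ≤ D v) :
    ∀ v ∈ S, 0 ≤ Divisor.correspondence φ ψ hφ hψ D v := by
  rw [Divisor.correspondence_apply]
  refine pushforwardAlong_nonneg_on ψ hψ S _ fun w hw => ?_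
  rw [Divisor.pullbackAlong_apply]
  exact mul_nonneg (Int.natCast_nonneg _) (hD _ (hS w hw))

/-- Monotonicity form. -/
theorem correspondence_le_on (S : Set (Place K F))
    (hS : ∀ w : Place K F', w.restrictAlong ψ hψ ∈ S → w.restrictAlong φ hφ ∈ S)
    (D D' : Divisor K F) (hD : ∀ v ∈ S, D v ≤ D' v) :
    ∀ v ∈ S, Divisor.correspondence φ ψ hφ hψ D v ≤ Divisor.correspondence φ ψ hφ hψ D' v := by
  intro v hv
  have h := correspondence_nonneg_on φ ψ hφ hψ S hS (D' - D)
    (fun v hv => by rw [Finsupp.sub_apply]; exact sub_nonneg.mpr (hD v hv)) v hv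
  rw [map_sub, Finsupp.sub_apply] at h
  exact sub_nonneg.mp h

/-- **Orders of a norm.** If `ord_v f ≥ D v` on a stable set `S`, then
`ord_v (Norm_ψ (φ f)) ≥ (ψ_* φ^* D) v` on `S`. -/
theorem correspondence_le_ord_norm (S : Set (Place K F))
    (hS : ∀ w : Place K F', w.restrictAlong ψ hψ ∈ S → w.restrictAlong φ hφ ∈ S)
    (hfin : FiniteAlong K ψ) (hN : NormFormulaAlong K ψ hfin)
    (f : F) (hf : f ≠ 0) (D : Divisor K F) (hD : ∀ v ∈ S, D v ≤ v.ord f) :
    ∀ v ∈ S, Divisor.correspondence φ ψ hφ hψ D v ≤
      v.ord (letI := algebraAlong ψ; Algebra.norm F (φ f)) := by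
  intro v hv
  have hφf : φ f ≠ 0 := (map_ne_zero φ).mpr hf
  obtain ⟨E', hE', -⟩ := HasPrincipalDivisors.exists_divisor (K := K) (φ f) hφf
  -- the norm formula
  have hnorm : Divisor.pushforwardAlong ψ hψ E' v =
      v.ord (letI := algebraAlong ψ; Algebra.norm F (φ f)) := by
    letI := algebraAlong ψ
    haveI := isScalarTower_along ψ
    haveI := isIntegral_along ψ hψ
    haveI : Module.Finite F F' := hfin
    exact hN (φ f) hφf E' hE' v
  rw [← hnorm, Divisor.correspondence_apply]
  have h := pushforwardAlong_nonneg_on ψ hψ S (E' - Divisor.pullbackAlong φ hφ D)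
    (fun w hw => by
      rw [Finsupp.sub_apply, Divisor.pullbackAlong_apply, hE', Place.ord_restrictAlong φ hφ,
        ← mul_sub]
      exact mul_nonneg (Int.natCast_nonneg _) (sub_nonneg.mpr (hD _ (hS w hw)))) v hv
  rw [map_sub, Finsupp.sub_apply] at h
  exact sub_nonneg.mp h

end Corr

end Fermat.Agent.S37.HeckeChart
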