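import Mathlib
import Fermat.Agent.S30.Model.RegUse
import Fermat.Agent.S30.Model.ChartProv
import Fermat.Agent.S30.Model.GlueChart
import Fermat.Agent.S24.FF.Dedekind

/-!
# S37 / F9b, generic finite-level part: the centre of a rational point of a chart

`O` a discrete valuation ring with fraction field `E`, `L / E` a field, `t : L` transcendental,
`C := integralClosure (Algebra.adjoin O {t}) L` (a chart ring of the model), `P : Place E L` a
place at which `t` is regular.

* `chartHom P t ht : C →+* P.toValuationSubring`, `qP P t ht : Ideal C` : the horizontal prime of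
  `P` (elements of `C` vanishing at `P`), `mem_qP_iff`, `cst t : O →+* C` (the constants),
  `cst_not_mem_qP`.
* `exists_cst_sub_mem` : if `P` is `E`-rational and `t(P) ∈ O`, every element of `C` is
  congruent modulo `q_P` to a constant of `O` (`C = O + q_P`: values are integral).
* `isMaximal_qP_sup` : then `q_P ⊔ (π)` is a maximal ideal (the hypothesis `hmax` of
  `RegUse.exists_inv_frac`).
-/

set_option autoImplicit false
set_option linter.unusedSectionVars false

open Polynomial AlgebraicCurve IsDedekindDomain

namespace Fermat.Agent.S37.InvChart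

open Fermat.Agent.S30.Model Fermat.Agent.S24.FF

section Chart

variable {O E L : Type*} [CommRing O] [IsDomain O]
  [Field E] [Algebra O E] [IsFractionRing O E]
  [Field L] [Algebra E L] [Algebra O L] [IsScalarTower O E L]

omit [IsDomain O] [IsFractionRing O E] in
/-- The image of `O` lies in every place ring. -/
theorem algebraMap_base_mem (P : Place E L) (o : O) :
    algebraMap O L o ∈ P.toValuationSubring := by
  rw [IsScalarTower.algebraMap_apply O E L]
  exact P.algebraMap_mem' _

omit [IsDomain O] [IsFractionRing O E] in
/-- Elements of `O[t]` lie in the valuation ring of a place at which `t` is regular. -/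
theorem adjoin_mem (P : Place E L) (t : L) (ht : t ∈ P.toValuationSubring)
    (x : Algebra.adjoin O {t}) : (x : L) ∈ P.toValuationSubring := by
  obtain ⟨x, hx⟩ := x
  induction hx using Algebra.adjoin_induction with
  | mem y hy => rw [Set.mem_singleton_iff] at hy; subst hy; exact ht
  | algebraMap o => exact algebraMap_base_mem P o
  | add y z _ _ hy hz => exact add_mem hy hz
  | mul y z _ _ hy hz => exact mul_mem hy hz

omit [IsDomain O] [IsFractionRing O E] in
/-- Elements of the chart ring lie in the valuation ring of a place at which `t` is regular. -/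
theorem chart_mem (P : Place E L) (t : L) (ht : t ∈ P.toValuationSubring)
    (c : integralClosure (Algebra.adjoin O {t}) L) : (c : L) ∈ P.toValuationSubring :=
  mem_of_isIntegral P (R := Algebra.adjoin O {t}) (fun r => adjoin_mem P t ht r) c.2

/-- The chart ring maps to the valuation ring of a place at which `t` is regular. -/
noncomputable def chartHom (P : Place E L) (t : L) (ht : t ∈ P.toValuationSubring) :
    integralClosure (Algebra.adjoin O {t}) L →+* P.toValuationSubring :=
  (algebraMap (integralClosure (Algebra.adjoin O {t}) L) L).codRestrict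
    P.toValuationSubring.toSubring (chart_mem P t ht)

omit [IsDomain O] [IsFractionRing O E] in
@[simp]
theorem coe_chartHom (P : Place E L) (t : L) (ht : t ∈ P.toValuationSubring)
    (c : integralClosure (Algebra.adjoin O {t}) L) :
    ((chartHom P t ht c : P.toValuationSubring) : L) = (c : L) := rfl

/-- The horizontal prime of the place `P` on the chart. -/
noncomputable def qP (P : Place E L) (t : L) (ht : t ∈ P.toValuationSubring) :
    Ideal (integralClosure (Algebra.adjoin O {t}) L) :=
  (IsLocalRing.maximalIdeal P.toValuationSubring).comap (chartHom P t ht)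

omit [IsDomain O] [IsFractionRing O E] in
theorem qP_isPrime (P : Place E L) (t : L) (ht : t ∈ P.toValuationSubring) :
    (qP (O := O) P t ht).IsPrime :=
  Ideal.comap_isPrime _ _

omit [IsDomain O] [IsFractionRing O E] in
theorem mem_qP_iff (P : Place E L) (t : L) (ht : t ∈ P.toValuationSubring)
    (c : integralClosure (Algebra.adjoin O {t}) L) :
    c ∈ qP P t ht ↔ (c : L) = 0 ∨ 0 < P.ord (c : L) := by
  rw [qP, Ideal.mem_comap]
  by_cases hc : (c : L) = 0
  · simp only [hc, true_or, iff_true]
    have : chartHom P t ht c = 0 := Subtype.ext hc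
    rw [this]
    exact Ideal.zero_mem _
  · rw [mem_maximalIdeal_iff_ord_pos P _ hc]
    simp [hc]

/-- The constants of the chart ring. -/
noncomputable def cst (t : L) : O →+* integralClosure (Algebra.adjoin O {t}) L :=
  (algebraMap (Algebra.adjoin O {t}) (integralClosure (Algebra.adjoin O {t}) L)).comp
    (algebraMap O (Algebra.adjoin O {t}))

omit [IsDomain O] [IsFractionRing O E] in
@[simp]
theorem coe_cst (t : L) (o : O) :
    ((cst t o : integralClosure (Algebra.adjoin O {t}) L) : L) = algebraMap O L o := rfl

omit [IsDomain O] [IsFractionRing O E] in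
theorem cst_eq_piElt (t : L) (π : O) : cst t π = GlueChart.piElt (Algebra.adjoin O {t}) π := rfl

/-- A nonzero constant does not vanish at `P`. -/
theorem cst_not_mem_qP (P : Place E L) (t : L) (ht : t ∈ P.toValuationSubring) {o : O}
    (ho : o ≠ 0) : cst t o ∉ qP P t ht := by
  rw [mem_qP_iff, coe_cst]
  have hinj : Function.Injective (algebraMap O L) := ChartProv.algebraMap_injective_base O E L
  have h0 : algebraMap O L o ≠ 0 := (map_ne_zero_iff _ hinj).mpr ho
  have h1 : P.ord (algebraMap O L o) = 0 := by
    rw [IsScalarTower.algebraMap_apply O E L]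
    exact ord_algebraMap P _
  rintro (h | h)
  · exact h0 h
  · omega

end Chart

section Res

variable {E L : Type*} [Field E] [Field L] [Algebra E L]

/-- Two elements of a place ring whose difference vanishes at the place have the same residue. -/
theorem residue_eq_of_ord_pos (P : Place E L) (x y : P.toValuationSubring)
    (h : (x : L) = (y : L) ∨ 0 < P.ord ((x : L) - (y : L))) :
    IsLocalRing.residue P.toValuationSubring x = IsLocalRing.residue P.toValuationSubring y := by
  rw [← sub_eq_zero, ← map_sub, IsLocalRing.residue_eq_zero_iff]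
  rcases h with h | h
  · have : x - y = 0 := sub_eq_zero.mpr (Subtype.ext h)
    rw [this]
    exact Ideal.zero_mem _
  · have hne : (((x - y : P.toValuationSubring)) : L) ≠ 0 := by
      intro h0
      have h1 : (x : L) - (y : L) = 0 := h0
      rw [h1] at h
      simp at h
    exact (mem_maximalIdeal_iff_ord_pos P (x - y) hne).mpr h

end Res

section Rat

variable {O E L : Type*} [CommRing O] [IsDomain O] [IsDiscreteValuationRing O]
  [Field E] [Algebra O E] [IsFractionRing O E]
  [Field L] [Algebra E L] [Algebra O L] [IsScalarTower O E L]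

/-- **Values are integral.**  At an `E`-rational place `P` with `t(P) = a ∈ O`, every element of
the chart ring is congruent modulo `q_P` to a constant of `O`. -/
theorem exists_cst_sub_mem (P : Place E L) (t : L) (ht : Transcendental E t) (a : O)
    (hPa : 0 < P.ord (t - algebraMap O L a))
    (hrat : ∀ x : L, x ∈ P.toValuationSubring →
      ∃ e : E, x = algebraMap E L e ∨ 0 < P.ord (x - algebraMap E L e))
    (ht' : t ∈ P.toValuationSubring)
    (c : integralClosure (Algebra.adjoin O {t}) L) :
    ∃ o : O, c - cst t o ∈ qP P t ht' := by
  classical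
  obtain ⟨e, he⟩ := hrat c (chart_mem P t ht' c)
  have htO : Transcendental O t := ChartProv.transcendental_base t ht
  -- the residue field and the maps into it
  let res := IsLocalRing.residue P.toValuationSubring
  let g : O →+* P.toValuationSubring := (algebraMap E P.toValuationSubring).comp (algebraMap O E)
  have hg : ∀ o : O, ((g o : P.toValuationSubring) : L) = algebraMap O L o := fun o => by
    change algebraMap E L (algebraMap O E o) = _
    rw [← IsScalarTower.algebraMap_apply]
  let pe := ChartInst.polyEquiv O t htO
  let evA : Algebra.adjoin O {t} →+* O := (evalRingHom a).comp (pe.symm : _ →+* O[X])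
  let ι := algebraMap (Algebra.adjoin O {t}) (integralClosure (Algebra.adjoin O {t}) L)
  let ρ : integralClosure (Algebra.adjoin O {t}) L →+* IsLocalRing.ResidueField P.toValuationSubring :=
    res.comp (chartHom P t ht')
  -- the two maps `O[X] → κ` agree
  have hφ : (ρ.comp ι).comp (pe : O[X] →+* Algebra.adjoin O {t}) =
      (res.comp g).comp (evalRingHom a) := by
    apply Polynomial.ringHom_ext
    · intro o
      simp only [RingHom.comp_apply, coe_evalRingHom, eval_C]
      refine residue_eq_of_ord_pos P _ _ (Or.inl ?_)
      change aeval t (C o : O[X]) = algebraMap E L (algebraMap O E o)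
      rw [aeval_C, ← IsScalarTower.algebraMap_apply]
    · simp only [RingHom.comp_apply, coe_evalRingHom, eval_X]
      refine residue_eq_of_ord_pos P _ _ (Or.inr ?_)
      change 0 < P.ord (aeval t (X : O[X]) - algebraMap E L (algebraMap O E a))
      rw [aeval_X, ← IsScalarTower.algebraMap_apply]
      exact hPa
  have hφ' : ρ.comp ι = (res.comp g).comp evA := by
    ext x
    obtain ⟨p, rfl⟩ := pe.surjective x
    have h1 := congrArg (fun f : O[X] →+* _ => f p) hφ
    simp only [RingHom.comp_apply] at h1
    simp only [RingHom.comp_apply, evA]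
    rw [show ((pe.symm : Algebra.adjoin O {t} →+* O[X]) (pe p)) = p from pe.symm_apply_apply p]
    exact h1
  -- integrality of the value
  obtain ⟨F, hF, hFc⟩ := integralClosure.isIntegral c
  have h2 : eval₂ (ρ.comp ι) (ρ c) F = 0 := by
    rw [← Polynomial.hom_eval₂, hFc, map_zero]
  rw [hφ', ← Polynomial.eval₂_map] at h2
  -- the value of `c` is `e`
  let ψ : E →+* IsLocalRing.ResidueField P.toValuationSubring :=
    res.comp (algebraMap E P.toValuationSubring)
  have hρc : ρ c = ψ e := by
    refine residue_eq_of_ord_pos P _ _ ?_
    exact he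
  have hψ : res.comp g = ψ.comp (algebraMap O E) := rfl
  rw [hρc, hψ, ← Polynomial.hom_eval₂] at h2
  have h3 : eval₂ (algebraMap O E) e (F.map evA) = 0 := by
    have hinj : Function.Injective ψ := ψ.injective
    exact hinj (by rw [h2, map_zero])
  have hint : IsIntegral O e := ⟨F.map evA, hF.map evA, h3⟩
  obtain ⟨o, ho⟩ := IsIntegrallyClosed.isIntegral_iff.mp hint
  refine ⟨o, ?_⟩
  rw [mem_qP_iff]
  have hcoe : ((c - cst t o : integralClosure (Algebra.adjoin O {t}) L) : L) =
      (c : L) - algebraMap E L e := by
    rw [Subalgebra.coe_sub, coe_cst, IsScalarTower.algebraMap_apply O E L, ho]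
  rw [hcoe]
  rcases he with he | he
  · left; rw [he, sub_self]
  · right; exact he

/-- **The centre of a rational point is a maximal ideal.** -/
theorem isMaximal_qP_sup (π : O) (hπ : Irreducible π) (P : Place E L) (t : L)
    (ht : Transcendental E t) (a : O) (hPa : 0 < P.ord (t - algebraMap O L a))
    (hrat : ∀ x : L, x ∈ P.toValuationSubring →
      ∃ e : E, x = algebraMap E L e ∨ 0 < P.ord (x - algebraMap E L e))
    (ht' : t ∈ P.toValuationSubring) :
    (qP P t ht' ⊔ Ideal.span {cst (O := O) t π}).IsMaximal := by
  classical
  have hqI : qP (O := O) P t ht' ≤ qP P t ht' ⊔ Ideal.span {cst (O := O) t π} := le_sup_left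
  have hπI : cst (O := O) t π ∈ qP P t ht' ⊔ Ideal.span {cst (O := O) t π} :=
    (le_sup_right : Ideal.span {cst (O := O) t π} ≤ _) (Ideal.subset_span rfl)
  rw [Ideal.isMaximal_iff]
  refine ⟨?_, ?_⟩
  · intro h1
    obtain ⟨y, hy, w, hw, hyw⟩ := Submodule.mem_sup.mp h1
    obtain ⟨c, rfl⟩ := Ideal.mem_span_singleton'.mp hw
    obtain ⟨o, ho⟩ := exists_cst_sub_mem P t ht a hPa hrat ht' c
    have h2 : cst t (1 - o * π) ∈ qP (O := O) P t ht' := by
      have h3 : cst (O := O) t (1 - o * π) = y + (c - cst t o) * cst t π := by
        rw [map_sub, map_one, map_mul, ← hyw]; ring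
      rw [h3]
      exact Ideal.add_mem _ hy (Ideal.mul_mem_right _ _ ho)
    have h4 : (1 - o * π : O) ≠ 0 := by
      intro h0
      have h5 : π * o = 1 := by linear_combination -h0
      exact hπ.not_isUnit (IsUnit.of_mul_eq_one _ h5)
    exact cst_not_mem_qP P t ht' h4 h2
  · intro J x hIJ hxI hxJ
    obtain ⟨o, ho⟩ := exists_cst_sub_mem P t ht a hPa hrat ht' x
    have hnd : ¬ π ∣ o := by
      rintro ⟨b, rfl⟩
      apply hxI
      have h3 : x = (x - cst t (π * b)) + cst t b * cst t π := by
        rw [map_mul]; ring
      rw [h3]
      exact Ideal.add_mem _ (hqI ho) (Ideal.mul_mem_left _ _ hπI)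
    have hu : IsUnit o := by
      by_contra hnu
      have h3 : o ∈ IsLocalRing.maximalIdeal O := (IsLocalRing.mem_maximalIdeal o).mpr hnu
      rw [hπ.maximalIdeal_eq, Ideal.mem_span_singleton] at h3
      exact hnd h3
    obtain ⟨o', ho'⟩ := hu.exists_right_inv
    have h4 : (1 : integralClosure (Algebra.adjoin O {t}) L) =
        cst t o' * x - cst t o' * (x - cst t o) := by
      have h5 : cst (O := O) t o * cst t o' = 1 := by rw [← map_mul, ho', map_one]
      linear_combination -h5
    rw [h4]
    exact J.sub_mem (J.mul_mem_left _ hxJ) (J.mul_mem_left _ (hIJ (hqI ho)))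

end Rat

end Fermat.Agent.S37.InvChart
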