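/-
S37, row F11b (wrapper): the contract `Fn.HeckeStable` for the two Hauptmodul charts.

For residue characteristic `3` the chart function is `u = 1/s2` (`s2 = Δ(q²)/Δ(q)` the Hauptmodul
of `Γ₀(2)`, level `M` with `2 ∣ M`), for residue characteristic `2` it is `u = 1/s3`
(`s3 = (η(q³)/η(q))¹²`, level `M` with `3 ∣ M`).  The explicit modular equations
`Φ₂(u(q), u(q³)) = 0`, `Φ₃(u(q), u(q²)) = 0` of `S30/Haupt/ModEq.lean` are monic with integer
coefficients, so the generic `ChartStableFn.heckeStable` applies.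

Everything is stated for an ARBITRARY element `u` of the function field `Fb M` whose `q`-series is
`(coeffEmb ℚ̄ s_r)⁻¹` (no divisibility hypothesis `r ∣ M` is needed for the statements: it is
only needed to produce such a `u`).

* `ev2_phiTwoPoly`, `ev2_phiThreePoly` : the modular equations in the `ev2`-shape;
* `uInt_restrict_iff_two/_three`       : `UInt M A u (W|α) ↔ UInt M A u (W|β)` on places of `F_{Mℓ}`;
* `chart_restrict_iff_two/_three`      : the same for both charts `chart M A u c`;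
* `heckeStable_two/_three`             : `Fn.HeckeStable M A u ℓ hI`, `(ℓ, r) = (3, 2), (2, 3)`;
* `heckeStable_mul_two/_mul_three`     : the same at the levels `N * 2`, `N * 3` used by
                                         `Final.result_of_chartData`.
-/
import Fermat.Agent.S37.ChartStableFn
import Fermat.Agent.S30.Haupt.ModEq

set_option autoImplicit false
set_option linter.unusedSectionVars false

noncomputable section

namespace Fermat.Agent.S37.HauptStable

open ModularCurve AlgebraicCurve HahnSeries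
open Fermat.Agent.S30 Fermat.Agent.S30.Haupt
open Fermat.Agent.S37.ChartStable Fermat.Agent.S37.Fn

local notation "Qb" => AlgebraicClosure ℚ

variable (A : ValuationSubring Qb)

/-! ### The modular equations in the `ev2`-shape -/

/-- `Φ(u(q), u(q³)) = 0` for `u = 1/s2`, with `Φ = ModEq.phiTwoPoly A` monic over `A[X]`. -/
theorem ev2_phiTwoPoly :
    ev2 A ((HahnSeries.C : Qb →+* LaurentSeries Qb).comp A.subtype)
      (coeffEmb Qb Two.s2)⁻¹ (qExpand Qb 3 (coeffEmb Qb Two.s2)⁻¹) (ModEq.phiTwoPoly A) = 0 := by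
  unfold ev2
  rw [ModEq.eval₂_phiTwoPoly]
  exact ModEq.eval_phiTwo_coeffEmb Qb

/-- `Φ(u(q), u(q²)) = 0` for `u = 1/s3`, with `Φ = ModEq.phiThreePoly A` monic over `A[X]`. -/
theorem ev2_phiThreePoly :
    ev2 A ((HahnSeries.C : Qb →+* LaurentSeries Qb).comp A.subtype)
      (coeffEmb Qb Three.s3)⁻¹ (qExpand Qb 2 (coeffEmb Qb Three.s3)⁻¹) (ModEq.phiThreePoly A) = 0 := by
  unfold ev2
  rw [ModEq.eval₂_phiThreePoly]
  exact ModEq.eval_phiThree_coeffEmb Qb

/-- The same for an element `u` of `Fb M` with `q`-series `1/s2`. -/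
theorem ev2_two {M : ℕ} (u : Kummer.Fb M)
    (hu : (u : LaurentSeries Qb) = (coeffEmb Qb Two.s2)⁻¹) :
    ev2 A ((HahnSeries.C : Qb →+* LaurentSeries Qb).comp A.subtype)
      (u : LaurentSeries Qb) (qExpand Qb 3 (u : LaurentSeries Qb)) (ModEq.phiTwoPoly A) = 0 := by
  rw [hu]
  exact ev2_phiTwoPoly A

/-- The same for an element `u` of `Fb M` with `q`-series `1/s3`. -/
theorem ev2_three {M : ℕ} (u : Kummer.Fb M)
    (hu : (u : LaurentSeries Qb) = (coeffEmb Qb Three.s3)⁻¹) :
    ev2 A ((HahnSeries.C : Qb →+* LaurentSeries Qb).comp A.subtype)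
      (u : LaurentSeries Qb) (qExpand Qb 2 (u : LaurentSeries Qb)) (ModEq.phiThreePoly A) = 0 := by
  rw [hu]
  exact ev2_phiThreePoly A

/-! ### Chart stability on the places of `F_{Mℓ}` -/

section Places

variable (M : ℕ) [NeZero M]

/-- **`T_3`-stability of `S_0` for the chart `u = 1/s2`.** -/
theorem uInt_restrict_iff_two (h3M : ¬ 3 ∣ M) (u : Kummer.Fb M)
    (hu : (u : LaurentSeries Qb) = (coeffEmb Qb Two.s2)⁻¹)
    (hα : HeckeAlphaBarIntegral Qb M 3) (hβ : HeckeBetaBarIntegral Qb M 3)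
    (W : Place Qb (Kummer.Fb (M * 3))) :
    UInt M A u (W.restrictAlong (heckeAlphaBar Qb M 3) hα) ↔
      UInt M A u (W.restrictAlong (heckeBetaBar Qb M 3) hβ) :=
  ChartStableFn.uInt_restrict_iff A M 3 Nat.prime_three h3M u (ModEq.phiTwoPoly A)
    ModEq.phiTwoPoly_monic (ev2_two A u hu) hα hβ W

/-- **`T_2`-stability of `S_0` for the chart `u = 1/s3`.** -/
theorem uInt_restrict_iff_three (h2M : ¬ 2 ∣ M) (u : Kummer.Fb M)
    (hu : (u : LaurentSeries Qb) = (coeffEmb Qb Three.s3)⁻¹)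
    (hα : HeckeAlphaBarIntegral Qb M 2) (hβ : HeckeBetaBarIntegral Qb M 2)
    (W : Place Qb (Kummer.Fb (M * 2))) :
    UInt M A u (W.restrictAlong (heckeAlphaBar Qb M 2) hα) ↔
      UInt M A u (W.restrictAlong (heckeBetaBar Qb M 2) hβ) :=
  ChartStableFn.uInt_restrict_iff A M 2 Nat.prime_two h2M u (ModEq.phiThreePoly A)
    ModEq.phiThreePoly_monic (ev2_three A u hu) hα hβ W

/-- **`T_3`-stability of both charts of `u = 1/s2`.** -/
theorem chart_restrict_iff_two (h3M : ¬ 3 ∣ M) (u : Kummer.Fb M)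
    (hu : (u : LaurentSeries Qb) = (coeffEmb Qb Two.s2)⁻¹)
    (hα : HeckeAlphaBarIntegral Qb M 3) (hβ : HeckeBetaBarIntegral Qb M 3) (c : Bool)
    (W : Place Qb (Kummer.Fb (M * 3))) :
    W.restrictAlong (heckeAlphaBar Qb M 3) hα ∈ chart M A u c ↔
      W.restrictAlong (heckeBetaBar Qb M 3) hβ ∈ chart M A u c :=
  ChartStableFn.chart_restrict_iff A M 3 Nat.prime_three h3M u (ModEq.phiTwoPoly A)
    ModEq.phiTwoPoly_monic (ev2_two A u hu) hα hβ c W

/-- **`T_2`-stability of both charts of `u = 1/s3`.** -/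
theorem chart_restrict_iff_three (h2M : ¬ 2 ∣ M) (u : Kummer.Fb M)
    (hu : (u : LaurentSeries Qb) = (coeffEmb Qb Three.s3)⁻¹)
    (hα : HeckeAlphaBarIntegral Qb M 2) (hβ : HeckeBetaBarIntegral Qb M 2) (c : Bool)
    (W : Place Qb (Kummer.Fb (M * 2))) :
    W.restrictAlong (heckeAlphaBar Qb M 2) hα ∈ chart M A u c ↔
      W.restrictAlong (heckeBetaBar Qb M 2) hβ ∈ chart M A u c :=
  ChartStableFn.chart_restrict_iff A M 2 Nat.prime_two h2M u (ModEq.phiThreePoly A)
    ModEq.phiThreePoly_monic (ev2_three A u hu) hα hβ c W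

end Places

/-! ### The contract `Fn.HeckeStable` for the Hauptmodul charts -/

section Contract

variable {A}

/-- **(HECKE) for the chart `u = 1/s2`, residue characteristic `3`.** -/
theorem heckeStable_two (M : ℕ) [NeZero M] (h3M : ¬ 3 ∣ M) (hA : A.LiesOverPrime 3)
    (u : Kummer.Fb M) (hu : (u : LaurentSeries Qb) = (coeffEmb Qb Two.s2)⁻¹)
    (hI : HeckeInputsAlong Qb M 3) : HeckeStable M A u 3 hI :=
  ChartStableFn.heckeStable Nat.prime_three h3M hA u (ModEq.phiTwoPoly A)
    ModEq.phiTwoPoly_monic (ev2_two A u hu) hI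

/-- **(HECKE) for the chart `u = 1/s3`, residue characteristic `2`.** -/
theorem heckeStable_three (M : ℕ) [NeZero M] (h2M : ¬ 2 ∣ M) (hA : A.LiesOverPrime 2)
    (u : Kummer.Fb M) (hu : (u : LaurentSeries Qb) = (coeffEmb Qb Three.s3)⁻¹)
    (hI : HeckeInputsAlong Qb M 2) : HeckeStable M A u 2 hI :=
  ChartStableFn.heckeStable Nat.prime_two h2M hA u (ModEq.phiThreePoly A)
    ModEq.phiThreePoly_monic (ev2_three A u hu) hI

/-- The level `N * 2` form consumed by `Final.result_of_chartData` (`ℓ = 3`, `3 ∤ N`). -/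
theorem heckeStable_mul_two (N : ℕ) [NeZero N] (h3N : ¬ 3 ∣ N) (hA : A.LiesOverPrime 3)
    (u : Kummer.Fb (N * 2)) (hu : (u : LaurentSeries Qb) = (coeffEmb Qb Two.s2)⁻¹)
    (hI : HeckeInputsAlong Qb (N * 2) 3) : HeckeStable (N * 2) A u 3 hI :=
  heckeStable_two (N * 2)
    (fun h => (Nat.prime_three.dvd_mul.mp h).elim h3N (by decide)) hA u hu hI

/-- The level `N * 3` form consumed by `Final.result_of_chartData` (`ℓ = 2`, `2 ∤ N`). -/
theorem heckeStable_mul_three (N : ℕ) [NeZero N] (h2N : ¬ 2 ∣ N) (hA : A.LiesOverPrime 2)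
    (u : Kummer.Fb (N * 3)) (hu : (u : LaurentSeries Qb) = (coeffEmb Qb Three.s3)⁻¹)
    (hI : HeckeInputsAlong Qb (N * 3) 2) : HeckeStable (N * 3) A u 2 hI :=
  heckeStable_three (N * 3)
    (fun h => (Nat.prime_two.dvd_mul.mp h).elim h2N (by decide)) hA u hu hI

end Contract

end Fermat.Agent.S37.HauptStable
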