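/-
S37 (E7) / Program U -- local algebra at a regular closed point of the special fibre (helper43).
Mathlib only.

`B` a domain with fraction field `L`, `π : B` a prime element (think: `B = C_M`, the local ring of
the normal model at a closed point `M` of the special fibre, `π` a uniformiser of the base DVR).

* `exists_algebraMap_eq_of_pow_mul_of_mul` (LEMMA U): `B[1/π] ∩ B_(π) = B`.
* `exists_pow_mul_eq` : an element of `L` lying in `B_𝔮` for every prime `𝔮 ∌ π` lies in `B[1/π]`.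
* `exists_algebraMap_eq_of_forall_prime`, `exists_unit_of_forall_prime` : hence an element (a unit)
  of `B_(π)` which is an element (a unit) of `B_𝔮` for every prime `𝔮 ∌ π` is an element (a unit)
  of `B`.  No UFD property, no regularity, no dimension theory.
* `eq_span_singleton_of_maximalIdeal_eq_span_pair` (LEMMA G, Nakayama): in a local ring with
  maximal ideal `(π, t)`, a finitely generated prime `𝔮 ∌ π` containing `t` is `(t)`.
* `ker_eq_span_sub` : the kernel of a section `φ : B →ₐ[O] O` of a local `O`-algebra `B` with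
  maximal ideal `(π, t)` is generated by `t - φ t`.
* `exists_mul_prod_zpow_sub_one` : `∏ T i ^ m i ≡ 1 mod π` in `B_(π)` if `T i ≡ t mod π`,
  `π ∤ t` and `∑ m i = 0`.
* `exists_unit_sub` : **the local unit theorem**.  If `f ∈ L` is a unit of `B_(π)` and, at every
  prime `𝔮 ∌ π`, `f` is a unit of `B_𝔮` times `∏ T i ^ m i` (with `T i ≡ t mod π`, `∑ m i = 0`),
  then `f ≡ w mod π B_(π)` for a unit `w` of `B`.
-/
import Mathlib

set_option autoImplicit false

namespace Fermat.Agent.S37.LocalUnit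

section Domain

variable {B L : Type*} [CommRing B] [IsDomain B] [Field L] [Algebra B L] [IsFractionRing B L]

/-- **LEMMA U.**  `B[1/π] ∩ B_(π) = B` for a prime element `π` of a domain `B`. -/
theorem exists_algebraMap_eq_of_pow_mul_of_mul {π : B} (hπ : Prime π) {x : L} {n : ℕ} {a s b : B}
    (ha : algebraMap B L (π ^ n) * x = algebraMap B L a) (hs : ¬ π ∣ s)
    (hb : algebraMap B L s * x = algebraMap B L b) : ∃ y : B, algebraMap B L y = x := by
  have hinj : Function.Injective (algebraMap B L) := IsFractionRing.injective B L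
  have h1 : s * a = π ^ n * b := by
    apply hinj
    rw [map_mul, map_mul, ← ha, ← hb]
    ring
  have h2 : π ^ n ∣ a := hπ.pow_dvd_of_dvd_mul_left n hs ⟨b, h1⟩
  obtain ⟨y, rfl⟩ := h2
  refine ⟨y, ?_⟩
  have hπ0 : algebraMap B L (π ^ n) ≠ 0 := by
    rw [Ne, map_eq_zero_iff _ hinj]
    exact pow_ne_zero n hπ.ne_zero
  rw [map_mul] at ha
  exact (mul_left_cancel₀ hπ0 ha).symm

/-- The ideal of denominators of an element of the fraction field. -/
def denomIdeal (x : L) : Ideal B where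
  carrier := {s | ∃ b : B, algebraMap B L s * x = algebraMap B L b}
  add_mem' := by
    rintro s s' ⟨b, hb⟩ ⟨b', hb'⟩
    exact ⟨b + b', by rw [map_add, add_mul, hb, hb', map_add]⟩
  zero_mem' := ⟨0, by rw [map_zero, zero_mul]⟩
  smul_mem' := by
    rintro c s ⟨b, hb⟩
    exact ⟨c * b, by rw [smul_eq_mul, map_mul, mul_assoc, hb, map_mul]⟩

omit [IsDomain B] [IsFractionRing B L] in
theorem mem_denomIdeal {x : L} {s : B} :
    s ∈ denomIdeal (B := B) x ↔ ∃ b : B, algebraMap B L s * x = algebraMap B L b := Iff.rfl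

omit [IsDomain B] [IsFractionRing B L] in
/-- An element of `L` which lies in `B_𝔮` for every prime `𝔮 ∌ π` lies in `B[1/π]`. -/
theorem exists_pow_mul_eq {π : B} {x : L}
    (h : ∀ 𝔮 : Ideal B, 𝔮.IsPrime → π ∉ 𝔮 →
      ∃ s : B, s ∉ 𝔮 ∧ ∃ b : B, algebraMap B L s * x = algebraMap B L b) :
    ∃ (n : ℕ) (a : B), algebraMap B L (π ^ n) * x = algebraMap B L a := by
  have hrad : π ∈ (denomIdeal (B := B) x).radical := by
    rw [Ideal.radical_eq_sInf, Ideal.mem_sInf]
    rintro J ⟨hIJ, hJ⟩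
    by_contra hπJ
    obtain ⟨s, hs, b, hb⟩ := h J hJ hπJ
    exact hs (hIJ ⟨b, hb⟩)
  obtain ⟨n, hn⟩ := hrad
  exact ⟨n, hn⟩

/-- An element of `B_(π)` which lies in `B_𝔮` for every prime `𝔮 ∌ π` lies in `B`. -/
theorem exists_algebraMap_eq_of_forall_prime {π : B} (hπ : Prime π) {x : L}
    (hπx : ∃ s : B, ¬ π ∣ s ∧ ∃ b : B, algebraMap B L s * x = algebraMap B L b)
    (h : ∀ 𝔮 : Ideal B, 𝔮.IsPrime → π ∉ 𝔮 →
      ∃ s : B, s ∉ 𝔮 ∧ ∃ b : B, algebraMap B L s * x = algebraMap B L b) :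
    ∃ y : B, algebraMap B L y = x := by
  obtain ⟨n, a, ha⟩ := exists_pow_mul_eq h
  obtain ⟨s, hs, b, hb⟩ := hπx
  exact exists_algebraMap_eq_of_pow_mul_of_mul hπ ha hs hb

/-- A unit of `B_(π)` which is a unit of `B_𝔮` for every prime `𝔮 ∌ π` is a unit of `B`. -/
theorem exists_unit_of_forall_prime {π : B} (hπ : Prime π) {x : L}
    (hπx : ∃ s a : B, ¬ π ∣ s ∧ ¬ π ∣ a ∧ algebraMap B L s * x = algebraMap B L a)
    (h : ∀ 𝔮 : Ideal B, 𝔮.IsPrime → π ∉ 𝔮 →
      ∃ s a : B, s ∉ 𝔮 ∧ a ∉ 𝔮 ∧ algebraMap B L s * x = algebraMap B L a) :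
    ∃ w : Bˣ, algebraMap B L (w : B) = x := by
  have hinj : Function.Injective (algebraMap B L) := IsFractionRing.injective B L
  obtain ⟨s₀, a₀, hs₀, ha₀, h₀⟩ := hπx
  have ha₀0 : a₀ ≠ 0 := fun h0 => ha₀ (h0 ▸ dvd_zero π)
  have hs₀0 : s₀ ≠ 0 := fun h0 => hs₀ (h0 ▸ dvd_zero π)
  have hx0 : x ≠ 0 := by
    rintro rfl
    rw [mul_zero] at h₀
    exact ha₀0 (hinj (by rw [← h₀, map_zero]))
  -- `x ∈ B`
  obtain ⟨y, hy⟩ := exists_algebraMap_eq_of_forall_prime hπ ⟨s₀, hs₀, a₀, h₀⟩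
    (fun 𝔮 h𝔮 hπ𝔮 => by
      obtain ⟨s, a, hs, _, hsa⟩ := h 𝔮 h𝔮 hπ𝔮
      exact ⟨s, hs, a, hsa⟩)
  -- `x⁻¹ ∈ B`
  have hinv : ∀ {s a : B}, algebraMap B L s * x = algebraMap B L a →
      algebraMap B L a * x⁻¹ = algebraMap B L s := by
    intro s a hsa
    rw [← hsa, mul_assoc, mul_inv_cancel₀ hx0, mul_one]
  obtain ⟨y', hy'⟩ := exists_algebraMap_eq_of_forall_prime (x := x⁻¹) hπ ⟨a₀, ha₀, s₀, hinv h₀⟩
    (fun 𝔮 h𝔮 hπ𝔮 => by
      obtain ⟨s, a, _, ha, hsa⟩ := h 𝔮 h𝔮 hπ𝔮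
      exact ⟨a, ha, s, hinv hsa⟩)
  have hyy' : y * y' = 1 := by
    apply hinj
    rw [map_mul, hy, hy', mul_inv_cancel₀ hx0, map_one]
  exact ⟨⟨y, y', hyy', by rw [mul_comm, hyy']⟩, hy⟩

omit [IsDomain B] in
/-- `∏ T i ^ m i ≡ 1` modulo `π` in `B_(π)` when `T i ≡ t` modulo `π`, `π ∤ t`, `∑ m i = 0`. -/
theorem exists_mul_prod_zpow_sub_one {π t : B} (hπ : Prime π) (ht : ¬ π ∣ t) {ι : Type*}
    (s : Finset ι) (T : ι → B) (hT : ∀ i ∈ s, π ∣ T i - t) (m : ι → ℤ)
    (hm : ∑ i ∈ s, m i = 0) :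
    ∃ N D a : B, ¬ π ∣ N ∧ ¬ π ∣ D ∧
      algebraMap B L D * ∏ i ∈ s, algebraMap B L (T i) ^ m i = algebraMap B L N ∧
      N - D = π * a := by
  classical
  have hinj : Function.Injective (algebraMap B L) := IsFractionRing.injective B L
  have hTi : ∀ i ∈ s, ¬ π ∣ T i := by
    intro i hi hdvd
    apply ht
    have := dvd_sub hdvd (hT i hi)
    simpa using this
  have hTi0 : ∀ i ∈ s, algebraMap B L (T i) ≠ 0 := by
    intro i hi h0
    apply hTi i hi
    have : T i = 0 := hinj (by rw [h0, map_zero])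
    rw [this]
    exact dvd_zero π
  refine ⟨∏ i ∈ s, T i ^ (m i).toNat, ∏ i ∈ s, T i ^ (-m i).toNat, ?_⟩
  have hN : ¬ π ∣ ∏ i ∈ s, T i ^ (m i).toNat := by
    rw [hπ.dvd_finsetProd_iff]
    rintro ⟨i, hi, hdvd⟩
    exact hTi i hi (hπ.dvd_of_dvd_pow hdvd)
  have hD : ¬ π ∣ ∏ i ∈ s, T i ^ (-m i).toNat := by
    rw [hπ.dvd_finsetProd_iff]
    rintro ⟨i, hi, hdvd⟩
    exact hTi i hi (hπ.dvd_of_dvd_pow hdvd)
  have hprod : algebraMap B L (∏ i ∈ s, T i ^ (-m i).toNat) *
      ∏ i ∈ s, algebraMap B L (T i) ^ m i = algebraMap B L (∏ i ∈ s, T i ^ (m i).toNat) := by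
    rw [map_prod, map_prod, ← Finset.prod_mul_distrib]
    refine Finset.prod_congr rfl fun i hi => ?_
    rw [map_pow, map_pow]
    have h0 := hTi0 i hi
    have key : algebraMap B L (T i) ^ m i =
        algebraMap B L (T i) ^ (m i).toNat / algebraMap B L (T i) ^ (-m i).toNat := by
      rw [← zpow_natCast, ← zpow_natCast, ← zpow_sub₀ h0, Int.toNat_sub_toNat_neg]
    rw [key]
    have h1 : algebraMap B L (T i) ^ (-m i).toNat ≠ 0 := pow_ne_zero _ h0
    field_simp
  -- the congruence modulo `π`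
  have hcong : (Ideal.Quotient.mk (Ideal.span {π})) (∏ i ∈ s, T i ^ (m i).toNat) =
      (Ideal.Quotient.mk (Ideal.span {π})) (∏ i ∈ s, T i ^ (-m i).toNat) := by
    have hq : ∀ i ∈ s, (Ideal.Quotient.mk (Ideal.span {π})) (T i) =
        (Ideal.Quotient.mk (Ideal.span {π})) t := by
      intro i hi
      rw [Ideal.Quotient.eq, Ideal.mem_span_singleton]
      exact hT i hi
    have e1 : ∀ k : ι → ℕ, (Ideal.Quotient.mk (Ideal.span {π})) (∏ i ∈ s, T i ^ k i) =
        (Ideal.Quotient.mk (Ideal.span {π})) t ^ ∑ i ∈ s, k i := by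
      intro k
      rw [map_prod, ← Finset.prod_pow_eq_pow_sum]
      refine Finset.prod_congr rfl fun i hi => ?_
      rw [map_pow, hq i hi]
    rw [e1, e1]
    congr 1
    have h1 : ((∑ i ∈ s, (m i).toNat : ℕ) : ℤ) - ((∑ i ∈ s, (-m i).toNat : ℕ) : ℤ) = 0 := by
      rw [Nat.cast_sum, Nat.cast_sum, ← Finset.sum_sub_distrib, ← hm]
      exact Finset.sum_congr rfl fun i _ => Int.toNat_sub_toNat_neg (m i)
    omega
  obtain ⟨a, ha⟩ : π ∣ ∏ i ∈ s, T i ^ (m i).toNat - ∏ i ∈ s, T i ^ (-m i).toNat := by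
    rw [← Ideal.mem_span_singleton, ← Ideal.Quotient.eq]
    exact hcong
  exact ⟨a, hN, hD, hprod, ha⟩

/-- **The local unit theorem.**  Let `π` be a prime element of the domain `B`, `t : B` with
`π ∤ t`, and `T i ≡ t` modulo `π` with exponents `m i` of sum `0`.  If `f ∈ L` is a unit of
`B_(π)` and at every prime `𝔮 ∌ π` of `B` it is a unit of `B_𝔮` times `∏ T i ^ m i`, then there
is a unit `w` of `B` with `f ≡ w` modulo `π B_(π)`: `b * (f - w) = π * a` with `π ∤ b`. -/
theorem exists_unit_sub {π t : B} (hπ : Prime π) (ht : ¬ π ∣ t) {ι : Type*}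
    (s : Finset ι) (T : ι → B) (hT : ∀ i ∈ s, π ∣ T i - t) (m : ι → ℤ)
    (hm : ∑ i ∈ s, m i = 0) {f : L}
    (hπf : ∃ c a : B, ¬ π ∣ c ∧ ¬ π ∣ a ∧ algebraMap B L c * f = algebraMap B L a)
    (h : ∀ 𝔮 : Ideal B, 𝔮.IsPrime → π ∉ 𝔮 → ∃ c a : B, c ∉ 𝔮 ∧ a ∉ 𝔮 ∧
      algebraMap B L c * f = algebraMap B L a * ∏ i ∈ s, algebraMap B L (T i) ^ m i) :
    ∃ (w : Bˣ) (a b : B), ¬ π ∣ b ∧
      algebraMap B L b * (f - algebraMap B L (w : B)) = algebraMap B L (π * a) := by
  have hinj : Function.Injective (algebraMap B L) := IsFractionRing.injective B L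
  obtain ⟨N, D, a, hN, hD, hND, hsub⟩ :=
    exists_mul_prod_zpow_sub_one (L := L) hπ ht s T hT m hm
  set g : L := ∏ i ∈ s, algebraMap B L (T i) ^ m i with hg
  have hN0 : algebraMap B L N ≠ 0 := by
    intro h0
    exact hN ((hinj (by rw [h0, map_zero]) : N = 0) ▸ dvd_zero π)
  have hD0 : algebraMap B L D ≠ 0 := by
    intro h0
    exact hD ((hinj (by rw [h0, map_zero]) : D = 0) ▸ dvd_zero π)
  have hg0 : g ≠ 0 := by
    intro h0
    rw [h0, mul_zero] at hND
    exact hN0 hND.symm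
  have hgeq : g = algebraMap B L N / algebraMap B L D := by
    rw [eq_div_iff hD0, mul_comm]
    exact hND
  obtain ⟨w, hw⟩ := exists_unit_of_forall_prime (x := f / g) hπ
    (by
      obtain ⟨c, a₀, hc, ha₀, hca⟩ := hπf
      refine ⟨c * N, a₀ * D, ?_, ?_, ?_⟩
      · exact fun hdvd => (hπ.dvd_or_dvd hdvd).elim hc hN
      · exact fun hdvd => (hπ.dvd_or_dvd hdvd).elim ha₀ hD
      · rw [map_mul, map_mul, ← hca, hgeq]
        field_simp)
    (fun 𝔮 h𝔮 hπ𝔮 => by
      obtain ⟨c, a₀, hc, ha₀, hca⟩ := h 𝔮 h𝔮 hπ𝔮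
      refine ⟨c, a₀, hc, ha₀, ?_⟩
      rw [← mul_div_assoc, hca, mul_div_assoc, div_self hg0, mul_one])
  refine ⟨w, (w : B) * a, D, hD, ?_⟩
  have hf : f = algebraMap B L (w : B) * g := by
    rw [hw, div_mul_cancel₀ _ hg0]
  have hsub' : algebraMap B L N - algebraMap B L D = algebraMap B L π * algebraMap B L a := by
    rw [← map_sub, hsub, map_mul]
  rw [hf, map_mul, map_mul]
  linear_combination (algebraMap B L (w : B)) * hND + (algebraMap B L (w : B)) * hsub'

end Domain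

section Nakayama

/-- **LEMMA G.**  In a local ring with maximal ideal `(π, t)`, a finitely generated prime ideal
`𝔮` with `π ∉ 𝔮` and `t ∈ 𝔮` is generated by `t`. -/
theorem eq_span_singleton_of_maximalIdeal_eq_span_pair {B : Type*} [CommRing B] [IsLocalRing B]
    (𝔮 : Ideal B) [h𝔮 : 𝔮.IsPrime] (hfg : 𝔮.FG) {π t : B} (hπ : π ∉ 𝔮) (ht : t ∈ 𝔮)
    (hM : IsLocalRing.maximalIdeal B = Ideal.span {π, t}) : 𝔮 = Ideal.span {t} := by
  refine le_antisymm ?_ ((Ideal.span_singleton_le_iff_mem _).mpr ht)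
  have hπM : π ∈ IsLocalRing.maximalIdeal B := by
    rw [hM]
    exact Ideal.subset_span (Set.mem_insert _ _)
  have hJ : Ideal.span {π} ≤ Ideal.jacobson (⊥ : Ideal B) := by
    rw [IsLocalRing.jacobson_eq_maximalIdeal ⊥ bot_ne_top]
    exact (Ideal.span_singleton_le_iff_mem _).mpr hπM
  refine Submodule.le_of_le_smul_of_le_jacobson_bot hfg hJ ?_
  intro x hx
  have hxM : x ∈ IsLocalRing.maximalIdeal B := IsLocalRing.le_maximalIdeal h𝔮.ne_top hx
  rw [hM, Ideal.mem_span_pair] at hxM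
  obtain ⟨a, b, rfl⟩ := hxM
  have ha : a ∈ 𝔮 := by
    have h1 : a * π ∈ 𝔮 := by
      have h2 := 𝔮.sub_mem hx (𝔮.mul_mem_left b ht)
      rwa [add_sub_cancel_right] at h2
    exact (h𝔮.mem_or_mem h1).resolve_right hπ
  rw [add_comm]
  refine Submodule.add_mem_sup ?_ ?_
  · exact Ideal.mul_mem_left _ b (Ideal.mem_span_singleton_self t)
  · rw [mul_comm]
    exact Submodule.smul_mem_smul (Ideal.mem_span_singleton_self π) ha

/-- The kernel of a section `φ : B →ₐ[O] O` of a Noetherian local `O`-algebra `B` with maximal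
ideal `(π, t)` is generated by `t - φ t` (`O` a local domain with maximal ideal `(π)`,
`π ≠ 0`). -/
theorem ker_eq_span_sub {O B : Type*} [CommRing O] [IsDomain O] [IsLocalRing O] [CommRing B]
    [Algebra O B] [IsLocalRing B] [IsNoetherianRing B] (φ : B →ₐ[O] O) {π : O} (hπ0 : π ≠ 0)
    (hπ : IsLocalRing.maximalIdeal O = Ideal.span {π}) {t : B}
    (hM : IsLocalRing.maximalIdeal B = Ideal.span {algebraMap O B π, t}) :
    RingHom.ker (φ : B →+* O) = Ideal.span {t - algebraMap O B (φ t)} ∧ π ∣ φ t := by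
  have hker_ne : RingHom.ker (φ : B →+* O) ≠ ⊤ := RingHom.ker_ne_top _
  have hprime : (RingHom.ker (φ : B →+* O)).IsPrime := RingHom.ker_isPrime _
  -- `φ` maps the maximal ideal into the maximal ideal
  have hloc : ∀ x ∈ IsLocalRing.maximalIdeal B, φ x ∈ IsLocalRing.maximalIdeal O := by
    intro x hx
    by_contra hnot
    have hu : IsUnit (φ x) := by
      by_contra hnu
      exact hnot ((IsLocalRing.mem_maximalIdeal _).mpr hnu)
    obtain ⟨v, hv⟩ := hu.exists_right_inv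
    have h1 : (1 : B) - x * algebraMap O B v ∈ RingHom.ker (φ : B →+* O) := by
      rw [RingHom.mem_ker]
      show φ (1 - x * algebraMap O B v) = 0
      rw [map_sub, map_one, map_mul, AlgHom.commutes, Algebra.algebraMap_self_apply, hv, sub_self]
    have h2 : (1 : B) - x * algebraMap O B v ∈ IsLocalRing.maximalIdeal B :=
      IsLocalRing.le_maximalIdeal hker_ne h1
    have h3 : (1 : B) ∈ IsLocalRing.maximalIdeal B := by
      have := Ideal.add_mem _ h2 (Ideal.mul_mem_right (algebraMap O B v) _ hx)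
      rwa [sub_add_cancel] at this
    exact (Ideal.ne_top_iff_one _).mp (IsLocalRing.maximalIdeal.isMaximal B).ne_top h3
  have htM : t ∈ IsLocalRing.maximalIdeal B := by
    rw [hM]
    exact Ideal.subset_span (Set.mem_insert_of_mem _ rfl)
  have hdvd : π ∣ φ t := by
    have := hloc t htM
    rwa [hπ, Ideal.mem_span_singleton] at this
  refine ⟨?_, hdvd⟩
  obtain ⟨c, hc⟩ := hdvd
  set t' : B := t - algebraMap O B (φ t) with ht'
  have hM' : IsLocalRing.maximalIdeal B = Ideal.span {algebraMap O B π, t'} := by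
    rw [hM]
    apply le_antisymm
    · rw [Ideal.span_le]
      rintro x (rfl | rfl)
      · exact Ideal.subset_span (Set.mem_insert _ _)
      · have : x = t' + algebraMap O B c * algebraMap O B π := by
          rw [ht', hc, map_mul]; ring
        rw [this]
        exact Ideal.add_mem _ (Ideal.subset_span (Set.mem_insert_of_mem _ rfl))
          (Ideal.mul_mem_left _ _ (Ideal.subset_span (Set.mem_insert _ _)))
    · rw [Ideal.span_le]
      rintro x (rfl | rfl)
      · exact Ideal.subset_span (Set.mem_insert _ _)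
      · have : t' = t - algebraMap O B c * algebraMap O B π := by
          rw [ht', hc, map_mul]; ring
        rw [this]
        exact Ideal.sub_mem _ (Ideal.subset_span (Set.mem_insert_of_mem _ rfl))
          (Ideal.mul_mem_left _ _ (Ideal.subset_span (Set.mem_insert _ _)))
  have hπker : algebraMap O B π ∉ RingHom.ker (φ : B →+* O) := by
    rw [RingHom.mem_ker]
    show ¬ φ (algebraMap O B π) = 0
    rw [AlgHom.commutes]
    exact hπ0
  have ht'ker : t' ∈ RingHom.ker (φ : B →+* O) := by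
    rw [RingHom.mem_ker]
    show φ (t - algebraMap O B (φ t)) = 0
    rw [map_sub, AlgHom.commutes, Algebra.algebraMap_self_apply, sub_self]
  exact eq_span_singleton_of_maximalIdeal_eq_span_pair _
    ((isNoetherianRing_iff_ideal_fg B).mp inferInstance _) hπker ht'ker hM'

end Nakayama

end Fermat.Agent.S37.LocalUnit
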