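/-
S37 (E7) -- LEVEL 2: the DIVISOR / PLACE form (helper153).

On top of `Fermat.Agent.S37.Bar.result_of_subgroup` (helper43) and
`Fermat.Agent.S30.HeckeInputs` (helper18: the Prelude `T_ℓ` on `JZero N` is the genuine
correspondence `α_* β^*`), the frozen statement S37 is reduced to statements about DIVISORS of
`F_N = ℚ̄(j(q^d) : d ∣ N)` -- no divisor classes, no Hecke algebra, no quotient modules:

* `result_of_divisors`      : for every `ℓ ∤ N p` and `A` over `ℓ`, a subgroup `H` of divisors with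
    (D1) `τ P - P ∈ H`                          (`τ` in the inertia group of `A`, `P` a place),
    (D3) `σ² P - T_ℓ (σ P) + ℓ P ∈ H`           (`σ` a Frobenius element at `A`, `P` a place),
    (D4) `D ∈ H`, `deg D = 0`, `p ^ n • D` principal  ⟹  `D` principal.
* `result_of_divisor_closure`: the universal choice `H :=` the subgroup generated by (D1), (D3).
* `result_of_reduction`     : `H := ker r_*` for a map `r : places → X` into any type `X`
    ("the point of the special fibre"), with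
    (S1) `r (τ P) = r P`,   (S3) `r_* (T_ℓ (σ P)) = r (σ² P) + ℓ r (P)`,
    (S4) `deg D = 0`, `r_* D = 0`, `p ^ n • D` principal  ⟹  `D` principal.

`heckeDiv N ℓ` is the Prelude correspondence `heckeDivBar` on divisors; `heckeDiv_single` gives
`T_ℓ P = ∑_{W over P along β} e_β(W) f_α(W) • (W restricted along α)`.
-/
import Fermat.Agent.S37.Bar
import Fermat.Agent.S30.HeckeInputs

set_option autoImplicit false

namespace Fermat.Agent.S37.Places

open ModularCurve AlgebraicCurve

noncomputable section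

/-! ### Generalities on divisors and classes -/

section General

variable {K F : Type*} [Field K] [Field F] [Algebra K F]

/-- An additive map on divisors takes values in a subgroup as soon as it does so on the places. -/
theorem map_mem_of_single {M : Type*} [AddCommGroup M] (Φ : Divisor K F →+ M) (H : AddSubgroup M)
    (h : ∀ P : Place K F, Φ (Finsupp.single P 1) ∈ H) (D : Divisor K F) : Φ D ∈ H := by
  induction D using Finsupp.induction_linear with
  | zero => rw [map_zero]; exact H.zero_mem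
  | add f g hf hg => rw [map_add]; exact H.add_mem hf hg
  | single P n =>
    have e : (Finsupp.single P n : Divisor K F) = n • Finsupp.single P 1 := by
      rw [Finsupp.smul_single, smul_eq_mul, mul_one]
    rw [e, map_zsmul]
    exact H.zsmul_mem (h P) n

/-- The classes in `Pic0` of the degree-zero divisors lying in a subgroup `H` of divisors. -/
def classSubgroup (H : AddSubgroup (Divisor K F)) : AddSubgroup (Pic0 K F) where
  carrier := {x | ∃ D : Divisor.degZero (K := K) (F := F), (D : Divisor K F) ∈ H ∧ Pic0.mk D = x}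
  zero_mem' := ⟨0, H.zero_mem, rfl⟩
  add_mem' := by
    rintro _ _ ⟨D, hD, rfl⟩ ⟨E, hE, rfl⟩
    exact ⟨D + E, H.add_mem hD hE, rfl⟩
  neg_mem' := by
    rintro _ ⟨D, hD, rfl⟩
    exact ⟨-D, H.neg_mem hD, rfl⟩

theorem mem_classSubgroup {H : AddSubgroup (Divisor K F)} {x : Pic0 K F} :
    x ∈ classSubgroup H ↔
      ∃ D : Divisor.degZero (K := K) (F := F), (D : Divisor K F) ∈ H ∧ Pic0.mk D = x :=
  Iff.rfl

theorem mk_mem_classSubgroup {H : AddSubgroup (Divisor K F)}
    (D : Divisor.degZero (K := K) (F := F)) (hD : (D : Divisor K F) ∈ H) :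
    Pic0.mk D ∈ classSubgroup H :=
  ⟨D, hD, rfl⟩

/-- `Pic0.mk D = 0` iff `D` is principal. -/
theorem mk_eq_zero_iff (D : Divisor.degZero (K := K) (F := F)) :
    Pic0.mk D = 0 ↔ (D : Divisor K F) ∈ Divisor.principal (K := K) (F := F) := by
  rw [Pic0.mk, QuotientAddGroup.eq_zero_iff, AddSubgroup.mem_addSubgroupOf]

/-- If the degree-zero divisors of `H` with a principal `p`-power multiple are principal, then
`classSubgroup H` has no `p`-power torsion. -/
theorem eq_zero_of_mem_classSubgroup {H : AddSubgroup (Divisor K F)} {p : ℕ}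
    (hH : ∀ D ∈ H, D ∈ Divisor.degZero (K := K) (F := F) →
      ∀ n : ℕ, p ^ n • D ∈ Divisor.principal (K := K) (F := F) →
        D ∈ Divisor.principal (K := K) (F := F))
    {y : Pic0 K F} (hy : y ∈ classSubgroup H) (htors : ∃ n : ℕ, p ^ n • y = 0) : y = 0 := by
  obtain ⟨D, hD, rfl⟩ := hy
  obtain ⟨n, hn⟩ := htors
  rw [mk_eq_zero_iff]
  refine hH _ hD D.2 n ?_
  have h1 : Pic0.mk (p ^ n • D) = 0 := hn
  rw [mk_eq_zero_iff] at h1
  exact h1

end General

/-! ### The Galois action and the Hecke correspondence on divisors of `X₀(N)` -/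

section Modular

variable (N : ℕ)

/-- The semilinear automorphism of `F_N / ℚ̄` attached to `σ ∈ Gal(ℚ̄ / ℚ)` (action on the
coefficients of `q`-expansions). It acts on places, divisors and `JZero N`. -/
abbrev gal (σ : AlgebraicClosure ℚ ≃ₐ[ℚ] AlgebraicClosure ℚ) :
    SemilinearAut (AlgebraicClosure ℚ) (modularFunctionFieldBar N) :=
  arithmeticGalois (modularFunctionFieldFull N) σ

/-- The Galois action on `JZero N` in terms of divisors. -/
theorem galois_smul_mk (σ : AlgebraicClosure ℚ ≃ₐ[ℚ] AlgebraicClosure ℚ)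
    (D : Divisor.degZero (K := AlgebraicClosure ℚ) (F := modularFunctionFieldBar N)) :
    σ • (Pic0.mk D : JZero N) = Pic0.mk (SemilinearAut.degZeroSMulHom (gal N σ) D) :=
  rfl

variable [NeZero N] (ℓ : ℕ) [NeZero ℓ]

/-- The Hecke correspondence `T_ℓ = α_* β^*` on the divisors of `X₀(N)` over `ℚ̄`
(the Prelude `heckeDivBar`, with its hypotheses discharged). -/
def heckeDiv :
    Divisor (AlgebraicClosure ℚ) (modularFunctionFieldBar N) →+
      Divisor (AlgebraicClosure ℚ) (modularFunctionFieldBar N) :=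
  haveI := Fermat.Agent.S30.HeckeInputs.hasPrincipalDivisors_bar (N * ℓ)
  heckeDivBar (Fermat.Agent.S30.HeckeInputs.heckeAlphaBarIntegral N ℓ)
    (Fermat.Agent.S30.HeckeInputs.heckeBetaBarIntegral N ℓ)

/-- `heckeDiv` is the Prelude `heckeDivBar`, whatever proofs of its hypotheses are used. -/
theorem heckeDiv_eq (hα : HeckeAlphaBarIntegral (AlgebraicClosure ℚ) N ℓ)
    (hβ : HeckeBetaBarIntegral (AlgebraicClosure ℚ) N ℓ)
    [HasPrincipalDivisors (AlgebraicClosure ℚ) (modularFunctionFieldBar (N * ℓ))] :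
    heckeDiv N ℓ = heckeDivBar hα hβ :=
  rfl

/-- `T_ℓ` of a divisor: push forward along `α` the pull back along `β`. -/
theorem heckeDiv_apply (hα : HeckeAlphaBarIntegral (AlgebraicClosure ℚ) N ℓ)
    (hβ : HeckeBetaBarIntegral (AlgebraicClosure ℚ) N ℓ)
    [HasPrincipalDivisors (AlgebraicClosure ℚ) (modularFunctionFieldBar (N * ℓ))]
    (D : Divisor (AlgebraicClosure ℚ) (modularFunctionFieldBar N)) :
    heckeDiv N ℓ D =
      Divisor.pushforwardAlong (heckeAlphaBar (AlgebraicClosure ℚ) N ℓ) hα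
        (Divisor.pullbackAlong (heckeBetaBar (AlgebraicClosure ℚ) N ℓ) hβ D) :=
  rfl

/-- `T_ℓ` of a place `P`: the sum over the places `W` of `F_{Nℓ}` above `P` along `β` of
`e_β(W) f_α(W)` times the restriction of `W` along `α`. -/
theorem heckeDiv_single (hα : HeckeAlphaBarIntegral (AlgebraicClosure ℚ) N ℓ)
    (hβ : HeckeBetaBarIntegral (AlgebraicClosure ℚ) N ℓ)
    [HasPrincipalDivisors (AlgebraicClosure ℚ) (modularFunctionFieldBar (N * ℓ))]
    (P : Place (AlgebraicClosure ℚ) (modularFunctionFieldBar N)) (n : ℤ) :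
    heckeDiv N ℓ (Finsupp.single P n) =
      ∑ W ∈ Place.fiberAlong (heckeBetaBar (AlgebraicClosure ℚ) N ℓ) hβ P,
        Finsupp.single (W.restrictAlong (heckeAlphaBar (AlgebraicClosure ℚ) N ℓ) hα)
          (n * W.ramificationIndexAlong (heckeBetaBar (AlgebraicClosure ℚ) N ℓ) *
            W.inertiaDegAlong (heckeAlphaBar (AlgebraicClosure ℚ) N ℓ) hα) := by
  rw [heckeDiv_apply N ℓ hα hβ, Divisor.pullbackAlong_single, map_sum]
  exact Finset.sum_congr rfl fun W _ => Divisor.pushforwardAlong_single _ hα W _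

/-- The Prelude Hecke operator on `JZero N` in terms of divisors: the class of `D` goes to the
class of `heckeDiv N ℓ D`. -/
theorem exists_heckeOperatorBar_mk (hℓ : ℓ.Prime)
    (D : Divisor.degZero (K := AlgebraicClosure ℚ) (F := modularFunctionFieldBar N)) :
    ∃ E : Divisor.degZero (K := AlgebraicClosure ℚ) (F := modularFunctionFieldBar N),
      (E : Divisor (AlgebraicClosure ℚ) (modularFunctionFieldBar N)) =
          heckeDiv N ℓ (D : Divisor (AlgebraicClosure ℚ) (modularFunctionFieldBar N)) ∧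
        heckeOperatorBar N ⟨ℓ, hℓ⟩ (Pic0.mk D : JZero N) = Pic0.mk E := by
  haveI := Fermat.Agent.S30.HeckeInputs.hasPrincipalDivisors_bar (N * ℓ)
  refine ⟨Pic0.degZeroCorrespondence (heckeBetaBar (AlgebraicClosure ℚ) N ℓ)
    (heckeAlphaBar (AlgebraicClosure ℚ) N ℓ)
    (Fermat.Agent.S30.HeckeInputs.heckeBetaBarIntegral N ℓ)
    (Fermat.Agent.S30.HeckeInputs.heckeAlphaBarIntegral N ℓ)
    (Fermat.Agent.Lib.FFNorm.fundamentalIdentityAlong _ _
      (Fermat.Agent.S30.HeckeInputs.trdeg_bar N) (Fermat.Agent.S30.HeckeInputs.trdeg_bar (N * ℓ)))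
    D, rfl, ?_⟩
  have h := DFunLike.congr_fun
    (Fermat.Agent.S30.HeckeInputs.heckeOperatorAlong_eq_heckePic0Bar N ℓ) (Pic0.mk D : JZero N)
  exact h

end Modular

/-! ### The divisor form of S37 -/

section Main

/-- `H` is a *reduction kernel* at `(A, ℓ)` for the exponent `p`: a subgroup of the divisors of
`X₀(N)` over `ℚ̄` which contains `τ P - P` for `τ` in the inertia group of `A` (D1), contains
`σ² P - T_ℓ (σ P) + ℓ P` for every Frobenius element `σ` at `A` (D3), and whose degree-zero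
elements with a principal `p`-power multiple are principal (D4). -/
def IsRedKernel (N p ℓ : ℕ) [NeZero N] [NeZero ℓ] (A : ValuationSubring (AlgebraicClosure ℚ))
    (H : AddSubgroup (Divisor (AlgebraicClosure ℚ) (modularFunctionFieldBar N))) : Prop :=
  (∀ τ ∈ A.inertiaSubgroupIn ℚ, ∀ P : Place (AlgebraicClosure ℚ) (modularFunctionFieldBar N),
      Finsupp.single (gal N τ • P) (1 : ℤ) - Finsupp.single P 1 ∈ H) ∧
  (∀ σ : AlgebraicClosure ℚ ≃ₐ[ℚ] AlgebraicClosure ℚ, A.IsFrobeniusAt σ ℓ →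
      ∀ P : Place (AlgebraicClosure ℚ) (modularFunctionFieldBar N),
        Finsupp.single (gal N σ • gal N σ • P) (1 : ℤ)
          - heckeDiv N ℓ (Finsupp.single (gal N σ • P) 1) + ℓ • Finsupp.single P (1 : ℤ) ∈ H) ∧
  (∀ D ∈ H, D ∈ Divisor.degZero (K := AlgebraicClosure ℚ) (F := modularFunctionFieldBar N) →
      ∀ n : ℕ, p ^ n • D ∈
          Divisor.principal (K := AlgebraicClosure ℚ) (F := modularFunctionFieldBar N) →
        D ∈ Divisor.principal (K := AlgebraicClosure ℚ) (F := modularFunctionFieldBar N))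

variable {N p ℓ : ℕ} [NeZero N] [NeZero ℓ] {A : ValuationSubring (AlgebraicClosure ℚ)}
  {H : AddSubgroup (Divisor (AlgebraicClosure ℚ) (modularFunctionFieldBar N))}

/-- (D1) on all divisors. -/
theorem IsRedKernel.inertia_mem (h : IsRedKernel N p ℓ A H)
    {τ : AlgebraicClosure ℚ ≃ₐ[ℚ] AlgebraicClosure ℚ} (hτ : τ ∈ A.inertiaSubgroupIn ℚ)
    (D : Divisor (AlgebraicClosure ℚ) (modularFunctionFieldBar N)) : gal N τ • D - D ∈ H := by
  have key := map_mem_of_single
    (DistribSMul.toAddMonoidHom (Divisor (AlgebraicClosure ℚ) (modularFunctionFieldBar N))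
      (gal N τ) - AddMonoidHom.id _) H (fun P => by
      show gal N τ • Finsupp.single P (1 : ℤ) - Finsupp.single P 1 ∈ H
      rw [SemilinearAut.smul_single]
      exact h.1 τ hτ P) D
  exact key

/-- (D3) on all divisors. -/
theorem IsRedKernel.frobenius_mem (h : IsRedKernel N p ℓ A H)
    {σ : AlgebraicClosure ℚ ≃ₐ[ℚ] AlgebraicClosure ℚ} (hσ : A.IsFrobeniusAt σ ℓ)
    (D : Divisor (AlgebraicClosure ℚ) (modularFunctionFieldBar N)) :
    gal N σ • gal N σ • D - heckeDiv N ℓ (gal N σ • D) + ℓ • D ∈ H := by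
  have key := map_mem_of_single
    ((DistribSMul.toAddMonoidHom (Divisor (AlgebraicClosure ℚ) (modularFunctionFieldBar N))
        (gal N σ)).comp
        (DistribSMul.toAddMonoidHom (Divisor (AlgebraicClosure ℚ) (modularFunctionFieldBar N))
          (gal N σ))
      - (heckeDiv N ℓ).comp
        (DistribSMul.toAddMonoidHom (Divisor (AlgebraicClosure ℚ) (modularFunctionFieldBar N))
          (gal N σ))
      + ℓ • AddMonoidHom.id _) H (fun P => by
      show gal N σ • gal N σ • Finsupp.single P (1 : ℤ)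
        - heckeDiv N ℓ (gal N σ • Finsupp.single P (1 : ℤ)) + ℓ • Finsupp.single P (1 : ℤ) ∈ H
      rw [SemilinearAut.smul_single, SemilinearAut.smul_single]
      exact h.2.1 σ hσ P) D
  exact key

/-- The class subgroup of a reduction kernel has the three properties asked by
`Bar.result_of_subgroup`. -/
theorem IsRedKernel.classSubgroup_spec (hℓ : ℓ.Prime) (h : IsRedKernel N p ℓ A H) :
    (∀ τ ∈ A.inertiaSubgroupIn ℚ, ∀ x : JZero N, τ • x - x ∈ classSubgroup H) ∧
    (∀ σ : AlgebraicClosure ℚ ≃ₐ[ℚ] AlgebraicClosure ℚ, A.IsFrobeniusAt σ ℓ → ∀ x : JZero N,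
      σ • σ • x - heckeOperatorBar N ⟨ℓ, hℓ⟩ (σ • x) + ℓ • x ∈ classSubgroup H) ∧
    (∀ y ∈ classSubgroup H, (∃ n : ℕ, p ^ n • y = 0) → y = 0) := by
  refine ⟨?_, ?_, ?_⟩
  · intro τ hτ x
    obtain ⟨D, rfl⟩ := Pic0.mk_surjective x
    rw [galois_smul_mk]
    exact mk_mem_classSubgroup (SemilinearAut.degZeroSMulHom (gal N τ) D - D)
      (h.inertia_mem hτ (D : Divisor (AlgebraicClosure ℚ) (modularFunctionFieldBar N)))
  · intro σ hσ x
    obtain ⟨D, rfl⟩ := Pic0.mk_surjective x
    rw [galois_smul_mk, galois_smul_mk]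
    obtain ⟨E, hE, hT⟩ := exists_heckeOperatorBar_mk N ℓ hℓ
      (SemilinearAut.degZeroSMulHom (gal N σ) D)
    rw [hT]
    refine mk_mem_classSubgroup
      (SemilinearAut.degZeroSMulHom (gal N σ) (SemilinearAut.degZeroSMulHom (gal N σ) D) - E
        + ℓ • D) ?_
    have key := h.frobenius_mem hσ
      (D : Divisor (AlgebraicClosure ℚ) (modularFunctionFieldBar N))
    rw [← SemilinearAut.coe_degZeroSMulHom, ← hE] at key
    exact key
  · intro y hy htors
    exact eq_zero_of_mem_classSubgroup h.2.2 hy htors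

end Main

/-! ### The three forms of the reduction of S37 -/

section Results

/-- **S37 from reduction kernels (divisor form).** -/
theorem result_of_divisors (N p : ℕ) [NeZero N] (hcomm : HeckeOperatorsCommuteBar N)
    (hH : ∀ (ℓ : ℕ) (hℓ : ℓ.Prime), ¬ ℓ ∣ N * p →
      ∀ A : ValuationSubring (AlgebraicClosure ℚ), A.LiesOverPrime ℓ →
        haveI : NeZero ℓ := ⟨hℓ.ne_zero⟩
        ∃ H : AddSubgroup (Divisor (AlgebraicClosure ℚ) (modularFunctionFieldBar N)),
          IsRedKernel N p ℓ A H) :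
    letI := heckeModuleBar N
    ∀ (_ : SMulCommClass (AlgebraicClosure ℚ ≃ₐ[ℚ] AlgebraicClosure ℚ) HeckeAlg (JZero N)),
      SpecializationExists (K := ℚ) (L := AlgebraicClosure ℚ) N p (JZero N) := by
  refine Bar.result_of_subgroup N p hcomm ?_
  intro ℓ hℓ hℓNp A hA
  haveI : NeZero ℓ := ⟨hℓ.ne_zero⟩
  obtain ⟨H, hH'⟩ := hH ℓ hℓ hℓNp A hA
  exact ⟨classSubgroup H, hH'.classSubgroup_spec hℓ⟩

/-- The generators of the universal reduction kernel: `τ P - P` (`τ` inertia) and
`σ² P - T_ℓ (σ P) + ℓ P` (`σ` Frobenius). -/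
def divGenSet (N ℓ : ℕ) [NeZero N] [NeZero ℓ] (A : ValuationSubring (AlgebraicClosure ℚ)) :
    Set (Divisor (AlgebraicClosure ℚ) (modularFunctionFieldBar N)) :=
  {E | ∃ τ ∈ A.inertiaSubgroupIn ℚ, ∃ P : Place (AlgebraicClosure ℚ) (modularFunctionFieldBar N),
      E = Finsupp.single (gal N τ • P) (1 : ℤ) - Finsupp.single P 1} ∪
  {E | ∃ σ : AlgebraicClosure ℚ ≃ₐ[ℚ] AlgebraicClosure ℚ, A.IsFrobeniusAt σ ℓ ∧
      ∃ P : Place (AlgebraicClosure ℚ) (modularFunctionFieldBar N),
        E = Finsupp.single (gal N σ • gal N σ • P) (1 : ℤ)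
          - heckeDiv N ℓ (Finsupp.single (gal N σ • P) 1) + ℓ • Finsupp.single P (1 : ℤ)}

/-- **S37 from the universal reduction kernel**: it suffices that a degree-zero divisor in the
subgroup generated by `divGenSet`, with a principal `p`-power multiple, is principal. -/
theorem result_of_divisor_closure (N p : ℕ) [NeZero N] (hcomm : HeckeOperatorsCommuteBar N)
    (hmain : ∀ (ℓ : ℕ) (hℓ : ℓ.Prime), ¬ ℓ ∣ N * p →
      ∀ A : ValuationSubring (AlgebraicClosure ℚ), A.LiesOverPrime ℓ →
        haveI : NeZero ℓ := ⟨hℓ.ne_zero⟩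
        ∀ D ∈ AddSubgroup.closure (divGenSet N ℓ A),
          D ∈ Divisor.degZero (K := AlgebraicClosure ℚ) (F := modularFunctionFieldBar N) →
          ∀ n : ℕ, p ^ n • D ∈
              Divisor.principal (K := AlgebraicClosure ℚ) (F := modularFunctionFieldBar N) →
            D ∈ Divisor.principal (K := AlgebraicClosure ℚ) (F := modularFunctionFieldBar N)) :
    letI := heckeModuleBar N
    ∀ (_ : SMulCommClass (AlgebraicClosure ℚ ≃ₐ[ℚ] AlgebraicClosure ℚ) HeckeAlg (JZero N)),
      SpecializationExists (K := ℚ) (L := AlgebraicClosure ℚ) N p (JZero N) := by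
  refine result_of_divisors N p hcomm ?_
  intro ℓ hℓ hℓNp A hA
  haveI : NeZero ℓ := ⟨hℓ.ne_zero⟩
  refine ⟨AddSubgroup.closure (divGenSet N ℓ A), ?_, ?_, hmain ℓ hℓ hℓNp A hA⟩
  · intro τ hτ P
    exact AddSubgroup.subset_closure (Or.inl ⟨τ, hτ, P, rfl⟩)
  · intro σ hσ P
    exact AddSubgroup.subset_closure (Or.inr ⟨σ, hσ, P, rfl⟩)

universe u

/-- `r : places → X` is a *reduction map* at `(A, ℓ)` for the exponent `p`:
(S1) `r (τ P) = r P` for `τ` in the inertia group of `A`;
(S3) `r_* (T_ℓ (σ P)) = r (σ² P) + ℓ r (P)` for every Frobenius element `σ` at `A`;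
(S4) a degree-zero divisor `D` with `r_* D = 0` and a principal `p`-power multiple is
principal. -/
def IsRedMap (N p ℓ : ℕ) [NeZero N] [NeZero ℓ] (A : ValuationSubring (AlgebraicClosure ℚ))
    {X : Type u} (r : Place (AlgebraicClosure ℚ) (modularFunctionFieldBar N) → X) : Prop :=
  (∀ τ ∈ A.inertiaSubgroupIn ℚ, ∀ P : Place (AlgebraicClosure ℚ) (modularFunctionFieldBar N),
      r (gal N τ • P) = r P) ∧
  (∀ σ : AlgebraicClosure ℚ ≃ₐ[ℚ] AlgebraicClosure ℚ, A.IsFrobeniusAt σ ℓ →
      ∀ P : Place (AlgebraicClosure ℚ) (modularFunctionFieldBar N),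
        Finsupp.mapDomain r (heckeDiv N ℓ (Finsupp.single (gal N σ • P) 1)) =
          Finsupp.single (r (gal N σ • gal N σ • P)) (1 : ℤ) + ℓ • Finsupp.single (r P) (1 : ℤ)) ∧
  (∀ D : Divisor (AlgebraicClosure ℚ) (modularFunctionFieldBar N),
      D ∈ Divisor.degZero (K := AlgebraicClosure ℚ) (F := modularFunctionFieldBar N) →
      Finsupp.mapDomain r D = 0 →
      ∀ n : ℕ, p ^ n • D ∈
          Divisor.principal (K := AlgebraicClosure ℚ) (F := modularFunctionFieldBar N) →
        D ∈ Divisor.principal (K := AlgebraicClosure ℚ) (F := modularFunctionFieldBar N))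

/-- The kernel of `r_*` is a reduction kernel. -/
theorem IsRedMap.isRedKernel {N p ℓ : ℕ} [NeZero N] [NeZero ℓ]
    {A : ValuationSubring (AlgebraicClosure ℚ)} {X : Type u}
    {r : Place (AlgebraicClosure ℚ) (modularFunctionFieldBar N) → X} (h : IsRedMap N p ℓ A r) :
    IsRedKernel N p ℓ A (Finsupp.mapDomain.addMonoidHom (M := ℤ) r).ker := by
  refine ⟨?_, ?_, ?_⟩
  · intro τ hτ P
    rw [AddMonoidHom.mem_ker, map_sub, Finsupp.mapDomain.addMonoidHom_apply,
      Finsupp.mapDomain.addMonoidHom_apply, Finsupp.mapDomain_single, Finsupp.mapDomain_single,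
      h.1 τ hτ P, sub_self]
  · intro σ hσ P
    rw [AddMonoidHom.mem_ker, map_add, map_sub, map_nsmul, Finsupp.mapDomain.addMonoidHom_apply,
      Finsupp.mapDomain.addMonoidHom_apply, Finsupp.mapDomain.addMonoidHom_apply,
      Finsupp.mapDomain_single, Finsupp.mapDomain_single, h.2.1 σ hσ P]
    abel
  · intro D hD hD0 n hn
    exact h.2.2 D hD0 hD n hn

/-- **S37 from reduction maps (place form).** -/
theorem result_of_reduction (N p : ℕ) [NeZero N] (hcomm : HeckeOperatorsCommuteBar N)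
    (hr : ∀ (ℓ : ℕ) (hℓ : ℓ.Prime), ¬ ℓ ∣ N * p →
      ∀ A : ValuationSubring (AlgebraicClosure ℚ), A.LiesOverPrime ℓ →
        haveI : NeZero ℓ := ⟨hℓ.ne_zero⟩
        ∃ (X : Type u) (r : Place (AlgebraicClosure ℚ) (modularFunctionFieldBar N) → X),
          IsRedMap N p ℓ A r) :
    letI := heckeModuleBar N
    ∀ (_ : SMulCommClass (AlgebraicClosure ℚ ≃ₐ[ℚ] AlgebraicClosure ℚ) HeckeAlg (JZero N)),
      SpecializationExists (K := ℚ) (L := AlgebraicClosure ℚ) N p (JZero N) := by
  refine result_of_divisors N p hcomm ?_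
  intro ℓ hℓ hℓNp A hA
  haveI : NeZero ℓ := ⟨hℓ.ne_zero⟩
  obtain ⟨X, r, h⟩ := hr ℓ hℓ hℓNp A hA
  exact ⟨_, h.isRedKernel⟩

end Results

end

end Fermat.Agent.S37.Places
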