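/-
S37 (E7) -- LEVEL 3: the PLACE-REDUCTION form (helper153).

`Fermat.Agent.S18.Wiring.result_at` (the S18 wiring) is stated for the place reduction
`placeReductionModL h = h.choose`, which cannot be related to a constructed reduction map.  Its
proof is generic in the reduction map; `principal_of_mapDomain_principal` below is that proof for
an ARBITRARY `r` with `IsPlaceReductionAlong` and `PrincipalGeneratedByIntegral`.

Consequences:
* `isRedMap_of_placeReduction` : such an `r` with (S1), (S3) is an `IsRedMap` (level 2), given the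
  Kummer statement `InjPrime N A ℓ` of the S18 wiring;
* `result_of_placeReduction`   : the frozen S37 from
  `∀ ℓ ∤ N p, ∀ A over ℓ, InjPrime N A ℓ ∧ ∃ r, (RED) ∧ (GEN) ∧ (S1) ∧ (S3)`.
-/
import Fermat.Agent.S37.Places
import Fermat.Agent.S18.Wiring
import Fermat.Agent.S18.ConstRed

set_option autoImplicit false
set_option linter.unusedSectionVars false
set_option synthInstance.maxHeartbeats 400000
set_option maxHeartbeats 1000000

noncomputable section

namespace Fermat.Agent.S37.PlaceRed

open ModularCurve AlgebraicCurve HahnSeries IntermediateField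
open Fermat.Agent.S18.Wiring

variable (N : ℕ) [NeZero N] (A : ValuationSubring (AlgebraicClosure ℚ))

/-- **The S18 wiring for an arbitrary place reduction `r`.**  If `m • D` is principal and the
reduction `r_* D` is principal, then `D` is principal (`(Inj')` at `m` and `Const` given). -/
theorem principal_of_mapDomain_principal (m : ℕ) (hm0 : m ≠ 0) (hInj : InjAt N A m)
    (hConst : Const N A)
    {r : Place (AlgebraicClosure ℚ) (modularFunctionFieldBar N) →
      Place (IsLocalRing.ResidueField A)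
        (modularFunctionFieldFullC (IsLocalRing.ResidueField A) N)}
    (hr : IsPlaceReductionAlong A (IsLocalRing.residue A) N r)
    (hgen : PrincipalGeneratedByIntegral A (IsLocalRing.residue A) N)
    (D : Divisor (AlgebraicClosure ℚ) (modularFunctionFieldBar N))
    (h1 : m • D ∈ Divisor.principal (K := AlgebraicClosure ℚ) (F := modularFunctionFieldBar N))
    (h2 : Finsupp.mapDomain r D ∈
      Divisor.principal (K := IsLocalRing.ResidueField A)
        (F := modularFunctionFieldFullC (IsLocalRing.ResidueField A) N)) :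
    D ∈ Divisor.principal (K := AlgebraicClosure ℚ) (F := modularFunctionFieldBar N) := by
  classical
  have hmZ : (m : ℤ) ≠ 0 := Int.natCast_ne_zero.mpr hm0
  obtain ⟨U, W, hU, hW, hUW, hUWr⟩ := isIntQuot_of_mem_closure N A hr (hgen h1)
  obtain ⟨φ, hφ0, hφ⟩ := h2
  have hord : ∀ Q : Place (IsLocalRing.ResidueField A)
      (modularFunctionFieldFullC (IsLocalRing.ResidueField A) N),
      Q.ord (toRed N A U) - Q.ord (toRed N A W) = m * Q.ord φ := by
    intro Q
    rw [← hUWr Q, Finsupp.mapDomain_smul, Finsupp.smul_apply, hφ Q, nsmul_eq_mul]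
  -- the quotient is a constant
  have hφm : φ ^ m ≠ 0 := pow_ne_zero m hφ0
  obtain ⟨a, ha⟩ := hConst (toRed N A U * (toRed N A W)⁻¹ * (φ ^ m)⁻¹)
    (mul_ne_zero (mul_ne_zero hU (inv_ne_zero hW)) (inv_ne_zero hφm)) (by
      intro Q
      rw [Q.ord_mul (mul_ne_zero hU (inv_ne_zero hW)) (inv_ne_zero hφm),
        Q.ord_mul hU (inv_ne_zero hW), Q.ord_inv, Q.ord_inv, ord_pow]
      linarith [hord Q])
  -- as series: `Ū = C a * W̄ * φ^m`
  have hUa : coeffMap (IsLocalRing.residue A) U.1 =
      HahnSeries.C a * coeffMap (IsLocalRing.residue A) W.1 *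
        (φ : LaurentSeries (IsLocalRing.ResidueField A)) ^ m := by
    have hW' : coeffMap (IsLocalRing.residue A) W.1 ≠ 0 := fun h0 => hW (Subtype.ext h0)
    have hφ' : (φ : LaurentSeries (IsLocalRing.ResidueField A)) ^ m ≠ 0 :=
      pow_ne_zero m (fun h0 => hφ0 (Subtype.ext h0))
    have ha' : coeffMap (IsLocalRing.residue A) U.1 *
        (coeffMap (IsLocalRing.residue A) W.1)⁻¹ *
        ((φ : LaurentSeries (IsLocalRing.ResidueField A)) ^ m)⁻¹ = HahnSeries.C a := by
      rw [Fermat.Agent.S18.Wiring.C_eq_algebraMap]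
      exact congrArg Subtype.val ha
    rw [← ha']
    field_simp
  have ha0 : a ≠ 0 := by
    rintro rfl
    rw [map_zero, zero_mul, zero_mul] at hUa
    exact hU (Subtype.ext hUa)
  -- an `m`-th root of `a`, lifted to `A`
  obtain ⟨b, hb⟩ := exists_pow_eq_residue A m hm0 a
  have hb0 : (b : AlgebraicClosure ℚ) ≠ 0 := by
    intro h0
    have hb' : b = 0 := Subtype.ext h0
    rw [hb', map_zero, zero_pow hm0] at hb
    exact ha0 hb.symm
  -- lift `φ`
  obtain ⟨Y₁, hY₁, Y₂, hY₂, hY₂0, hY⟩ :=
    exists_lift N A (φ : LaurentSeries (IsLocalRing.ResidueField A)) φ.2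
  set y₁ : intSeries N A := ⟨Y₁, hY₁⟩ with hy₁
  set y₂ : intSeries N A := ⟨Y₂, hY₂⟩ with hy₂
  set cb : intSeries N A := ⟨HahnSeries.C b, C_mem_intSeries N A b⟩ with hcb
  have hy₂0 : toRed N A y₂ ≠ 0 := fun h0 => hY₂0 (congrArg Subtype.val h0)
  have hy₁0 : toRed N A y₁ ≠ 0 := by
    intro h0
    have h0' : coeffMap (IsLocalRing.residue A) Y₁ = 0 := congrArg Subtype.val h0
    rw [h0'] at hY
    rcases mul_eq_zero.mp hY with h3 | h3
    · exact hφ0 (Subtype.ext h3)
    · exact hY₂0 h3
  have hcb0 : toBar N A cb ≠ 0 := by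
    rw [hcb, toBar_C]
    exact (map_ne_zero _).mpr hb0
  -- the two integral series of `(Inj')`
  set U' : intSeries N A := U * y₂ ^ m with hU'
  set W' : intSeries N A := W * (cb * y₁) ^ m with hW'
  have hred : coeffMap (IsLocalRing.residue A) U'.1 = coeffMap (IsLocalRing.residue A) W'.1 := by
    change coeffMap (IsLocalRing.residue A) (U.1 * Y₂ ^ m) =
      coeffMap (IsLocalRing.residue A) (W.1 * (HahnSeries.C b * Y₁) ^ m)
    have hCb : (HahnSeries.C ((IsLocalRing.residue A) b) :
        LaurentSeries (IsLocalRing.ResidueField A)) ^ m = HahnSeries.C a := by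
      rw [← map_pow, hb]
    rw [map_mul, map_mul, map_pow, map_pow, map_mul, coeffMap_C, hUa, ← hY, mul_pow, mul_pow, hCb]
    ring
  have hne : coeffMap (IsLocalRing.residue A) U'.1 ≠ 0 := by
    change coeffMap (IsLocalRing.residue A) (U.1 * Y₂ ^ m) ≠ 0
    rw [map_mul, map_pow]
    exact mul_ne_zero (fun h0 => hU (Subtype.ext h0)) (pow_ne_zero m hY₂0)
  -- orders of `U'` and `W'`
  have hordU' : ∀ P : Place (AlgebraicClosure ℚ) (modularFunctionFieldBar N),
      P.ord (toBar N A U') = P.ord (toBar N A U) + m * P.ord (toBar N A y₂) := by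
    intro P
    rw [hU', toBar_mul, toBar_pow,
      P.ord_mul (toBar_ne_zero N A hU) (pow_ne_zero m (toBar_ne_zero N A hy₂0)), ord_pow]
  have hordW' : ∀ P : Place (AlgebraicClosure ℚ) (modularFunctionFieldBar N),
      P.ord (toBar N A W') = P.ord (toBar N A W) + m * P.ord (toBar N A y₁) := by
    intro P
    rw [hW', toBar_mul, toBar_pow, toBar_mul,
      P.ord_mul (toBar_ne_zero N A hW)
        (pow_ne_zero m (mul_ne_zero hcb0 (toBar_ne_zero N A hy₁0))), ord_pow,
      P.ord_mul hcb0 (toBar_ne_zero N A hy₁0), hcb, toBar_C, ord_algebraMap P _ hb0, zero_add]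
  have hmD : ∀ P : Place (AlgebraicClosure ℚ) (modularFunctionFieldBar N),
      (m : ℤ) * D P =
        P.ord (toBar N A U) - P.ord (toBar N A W) := by
    intro P
    rw [← hUW P, Finsupp.smul_apply, nsmul_eq_mul]
  obtain ⟨H, hH0, hH⟩ := hInj U'.1 W'.1 U'.2.1 W'.2.1 U'.2.2 hred hne (by
    intro P
    change (m : ℤ) ∣ P.ord (toBar N A U') - P.ord (toBar N A W')
    rw [hordU' P, hordW' P]
    refine ⟨D P +
      P.ord (toBar N A y₂) - P.ord (toBar N A y₁), ?_⟩
    linarith [hmD P])
  -- conclusion: `D = div (H * y₁ / y₂)`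
  refine ⟨H * toBar N A y₁ * (toBar N A y₂)⁻¹,
    mul_ne_zero (mul_ne_zero hH0 (toBar_ne_zero N A hy₁0)) (inv_ne_zero (toBar_ne_zero N A hy₂0)),
    fun P => ?_⟩
  rw [P.ord_mul (mul_ne_zero hH0 (toBar_ne_zero N A hy₁0)) (inv_ne_zero (toBar_ne_zero N A hy₂0)),
    P.ord_mul hH0 (toBar_ne_zero N A hy₁0), P.ord_inv]
  have hHP : P.ord (toBar N A U') - P.ord (toBar N A W') = m * P.ord H := hH P
  rw [hordU' P, hordW' P] at hHP
  have key : (m : ℤ) * D P =
      (m : ℤ) * (P.ord H + P.ord (toBar N A y₁) + -P.ord (toBar N A y₂)) := by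
    linarith [hmD P]
  exact mul_left_cancel₀ hmZ key

/-- The same for all exponents prime to `ℓ`, from `(Inj')` at prime exponents `≠ ℓ` (induction on
the exponent). -/
theorem principal_of_mapDomain_principal_of_prime {ℓ : ℕ} (hInj : InjPrime N A ℓ)
    (hConst : Const N A)
    {r : Place (AlgebraicClosure ℚ) (modularFunctionFieldBar N) →
      Place (IsLocalRing.ResidueField A)
        (modularFunctionFieldFullC (IsLocalRing.ResidueField A) N)}
    (hr : IsPlaceReductionAlong A (IsLocalRing.residue A) N r)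
    (hgen : PrincipalGeneratedByIntegral A (IsLocalRing.residue A) N)
    (m : ℕ) (hm : ¬ ℓ ∣ m)
    (D : Divisor (AlgebraicClosure ℚ) (modularFunctionFieldBar N))
    (h1 : m • D ∈ Divisor.principal (K := AlgebraicClosure ℚ) (F := modularFunctionFieldBar N))
    (h2 : Finsupp.mapDomain r D ∈
      Divisor.principal (K := IsLocalRing.ResidueField A)
        (F := modularFunctionFieldFullC (IsLocalRing.ResidueField A) N)) :
    D ∈ Divisor.principal (K := AlgebraicClosure ℚ) (F := modularFunctionFieldBar N) := by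
  induction m using Nat.strong_induction_on with
  | _ m ih =>
    rcases Nat.eq_zero_or_pos m with h0 | hpos
    · exact absurd (h0 ▸ dvd_zero ℓ) hm
    by_cases hm1 : m = 1
    · rw [hm1, one_smul] at h1
      exact h1
    have hq : (Nat.minFac m).Prime := Nat.minFac_prime hm1
    obtain ⟨m', hm'⟩ := Nat.minFac_dvd m
    have hqℓ : Nat.minFac m ≠ ℓ := fun h3 => hm (h3 ▸ Nat.minFac_dvd m)
    have hm'ℓ : ¬ ℓ ∣ m' := fun h3 => hm (hm' ▸ Dvd.dvd.mul_left h3 _)
    have hm'pos : 0 < m' := by
      rcases Nat.eq_zero_or_pos m' with h3 | h3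
      · rw [h3, mul_zero] at hm'
        omega
      · exact h3
    have hlt : m' < m := by
      have h3 : 2 ≤ Nat.minFac m := hq.two_le
      calc m' < 2 * m' := by omega
        _ ≤ Nat.minFac m * m' := Nat.mul_le_mul_right _ h3
        _ = m := hm'.symm
    have hE : m' • D ∈
        Divisor.principal (K := AlgebraicClosure ℚ) (F := modularFunctionFieldBar N) := by
      refine principal_of_mapDomain_principal N A (Nat.minFac m) hq.ne_zero (hInj _ hq hqℓ) hConst
        hr hgen (m' • D) ?_ ?_
      · rw [← mul_smul, ← hm']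
        exact h1
      · rw [Finsupp.mapDomain_smul]
        exact AddSubgroup.nsmul_mem _ h2 m'
    exact ih m' hlt hm'ℓ hE

variable {N A}

/-- A place reduction `r` (Prelude `IsPlaceReductionAlong` + `PrincipalGeneratedByIntegral`) with
(S1) and (S3) is a reduction map in the sense of level 2, given `(Inj')` at the prime exponents
`≠ ℓ`. -/
theorem isRedMap_of_placeReduction {p ℓ : ℕ} [NeZero ℓ] (hℓ : ℓ.Prime) (hℓp : ¬ ℓ ∣ p)
    (hInj : InjPrime N A ℓ)
    {r : Place (AlgebraicClosure ℚ) (modularFunctionFieldBar N) →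
      Place (IsLocalRing.ResidueField A)
        (modularFunctionFieldFullC (IsLocalRing.ResidueField A) N)}
    (hr : IsPlaceReductionAlong A (IsLocalRing.residue A) N r)
    (hgen : PrincipalGeneratedByIntegral A (IsLocalRing.residue A) N)
    (hS1 : ∀ τ ∈ A.inertiaSubgroupIn ℚ,
      ∀ P : Place (AlgebraicClosure ℚ) (modularFunctionFieldBar N),
        r (Places.gal N τ • P) = r P)
    (hS3 : ∀ σ : AlgebraicClosure ℚ ≃ₐ[ℚ] AlgebraicClosure ℚ, A.IsFrobeniusAt σ ℓ →
      ∀ P : Place (AlgebraicClosure ℚ) (modularFunctionFieldBar N),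
        Finsupp.mapDomain r (Places.heckeDiv N ℓ (Finsupp.single (Places.gal N σ • P) 1)) =
          Finsupp.single (r (Places.gal N σ • Places.gal N σ • P)) (1 : ℤ)
            + ℓ • Finsupp.single (r P) (1 : ℤ)) :
    Places.IsRedMap N p ℓ A r := by
  refine ⟨hS1, hS3, ?_⟩
  intro D _ hD0 n hn
  have hConst : Const N A := fun c hc0 hc =>
    Fermat.Agent.S18.ConstRed.const_of_red ⟨r, hr, hgen⟩ c hc0 hc
  refine principal_of_mapDomain_principal_of_prime N A hInj hConst hr hgen (p ^ n)
    (fun hdvd => hℓp (hℓ.dvd_of_dvd_pow hdvd)) D hn ?_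
  rw [hD0]
  exact AddSubgroup.zero_mem _

/-- **S37 from place reductions.**  For every prime `ℓ ∤ N p` and every `A` over `ℓ`: the Kummer
statement `InjPrime N A ℓ` of the S18 wiring, and a place reduction `r` to the function field of
the special fibre satisfying the Prelude conditions (RED) `IsPlaceReductionModL`, (GEN)
`PrincipalGeneratedByIntegral`, and
(S1) `r (τ P) = r P` for `τ` in the inertia group,
(S3) `r_* (T_ℓ (σ P)) = r (σ² P) + ℓ r (P)` for the Frobenius elements `σ`. -/
theorem result_of_placeReduction (N p : ℕ) [NeZero N] (hcomm : HeckeOperatorsCommuteBar N)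
    (h : ∀ (ℓ : ℕ) (hℓ : ℓ.Prime), ¬ ℓ ∣ N * p →
      ∀ A : ValuationSubring (AlgebraicClosure ℚ), A.LiesOverPrime ℓ →
        haveI : NeZero ℓ := ⟨hℓ.ne_zero⟩
        InjPrime N A ℓ ∧
        ∃ r : Place (AlgebraicClosure ℚ) (modularFunctionFieldBar N) →
            Place (IsLocalRing.ResidueField A)
              (modularFunctionFieldFullC (IsLocalRing.ResidueField A) N),
          IsPlaceReductionModL A N r ∧
          PrincipalGeneratedByIntegral A (IsLocalRing.residue A) N ∧
          (∀ τ ∈ A.inertiaSubgroupIn ℚ,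
            ∀ P : Place (AlgebraicClosure ℚ) (modularFunctionFieldBar N),
              r (Places.gal N τ • P) = r P) ∧
          (∀ σ : AlgebraicClosure ℚ ≃ₐ[ℚ] AlgebraicClosure ℚ, A.IsFrobeniusAt σ ℓ →
            ∀ P : Place (AlgebraicClosure ℚ) (modularFunctionFieldBar N),
              Finsupp.mapDomain r
                  (Places.heckeDiv N ℓ (Finsupp.single (Places.gal N σ • P) 1)) =
                Finsupp.single (r (Places.gal N σ • Places.gal N σ • P)) (1 : ℤ)
                  + ℓ • Finsupp.single (r P) (1 : ℤ))) :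
    letI := heckeModuleBar N
    ∀ (_ : SMulCommClass (AlgebraicClosure ℚ ≃ₐ[ℚ] AlgebraicClosure ℚ) HeckeAlg (JZero N)),
      SpecializationExists (K := ℚ) (L := AlgebraicClosure ℚ) N p (JZero N) := by
  refine Places.result_of_reduction N p hcomm ?_
  intro ℓ hℓ hℓNp A hA
  haveI : NeZero ℓ := ⟨hℓ.ne_zero⟩
  obtain ⟨hInj, r, hr, hgen, hS1, hS3⟩ := h ℓ hℓ hℓNp A hA
  exact ⟨_, r, isRedMap_of_placeReduction hℓ (fun hdvd => hℓNp (Dvd.dvd.mul_left hdvd N))
    hInj hr hgen hS1 hS3⟩

end Fermat.Agent.S37.PlaceRed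

end
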