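import Fermat.Statements.S37
import Fermat.Agent.Lib.Frobenius

/-!
# S37 (Eichler–Shimura, packaged form): the formal skeleton

`SpecializationExists` is produced from a single brick `KRed N p`:

for every prime `ℓ ∤ N p` and every place `A` of `Q̄` above `ℓ` there is a subgroup
`Kred ≤ J₀(N)` ("kernel of reduction") such that

* (R1) `Kred` has no `p`-power torsion,
* (R2) `τ x - x ∈ Kred` for `τ` in the inertia group of `A`,
* (R3) `σ² x - T_ℓ σ x + ℓ x ∈ Kred` for ONE Frobenius `σ` at `A`.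

No Hecke-stability and no Frobenius-stability of `Kred` is needed: the specialisation is the
quotient of `J₀(N)` by the subgroup `K₀ ≤ Kred` GENERATED by the elements in (R2), (R3); that
subgroup is automatically stable under the Hecke algebra and under Frobenius (the Galois action
commutes with the Hecke action by the hypothesis of S37).
-/

set_option autoImplicit false

noncomputable section

namespace Fermat.Agent.S37.Skeleton

open ModularCurve

section Abstract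

variable {K L : Type*} [Field K] [Field L] [Algebra K L]

/-- Membership in `inertiaSubgroupIn`, unfolded. -/
theorem mem_inertiaSubgroupIn_iff (A : ValuationSubring L) (τ : L ≃ₐ[K] L) :
    τ ∈ A.inertiaSubgroupIn K ↔ ∃ h : τ ∈ A.decompositionSubgroup K,
      ∀ x : IsLocalRing.ResidueField A, (⟨τ, h⟩ : A.decompositionSubgroup K) • x = x := by
  unfold ValuationSubring.inertiaSubgroupIn ValuationSubring.inertiaSubgroup
  constructor
  · rintro ⟨⟨τ', h⟩, hτ', rfl⟩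
    refine ⟨h, fun x => ?_⟩
    have h1 := MonoidHom.mem_ker.mp hτ'
    have h2 := congrArg (fun e : RingAut (IsLocalRing.ResidueField A) => e x) h1
    exact h2
  · rintro ⟨h, hx⟩
    refine ⟨⟨τ, h⟩, ?_, rfl⟩
    apply MonoidHom.mem_ker.mpr
    ext x
    exact hx x

/-- Conjugating an inertia element by an element of the decomposition group gives an inertia
element. -/
theorem conj_mem_inertiaSubgroupIn (A : ValuationSubring L) {σ τ : L ≃ₐ[K] L}
    (hσ : σ ∈ A.decompositionSubgroup K) (hτ : τ ∈ A.inertiaSubgroupIn K) :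
    σ * τ * σ⁻¹ ∈ A.inertiaSubgroupIn K := by
  rw [mem_inertiaSubgroupIn_iff] at hτ ⊢
  obtain ⟨h, hx⟩ := hτ
  refine ⟨mul_mem (mul_mem hσ h) (inv_mem hσ), fun x => ?_⟩
  have e : (⟨σ * τ * σ⁻¹, mul_mem (mul_mem hσ h) (inv_mem hσ)⟩ : A.decompositionSubgroup K) =
      ⟨σ, hσ⟩ * ⟨τ, h⟩ * (⟨σ, hσ⟩ : A.decompositionSubgroup K)⁻¹ := rfl
  rw [e, mul_smul, mul_smul, hx, smul_inv_smul]

/-- Two Frobenius elements at the same place differ by an inertia element. -/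
theorem inv_mul_mem_inertiaSubgroupIn (A : ValuationSubring L) {σ σ' : L ≃ₐ[K] L} {q : ℕ}
    (hσ : A.IsFrobeniusAt σ q) (hσ' : A.IsFrobeniusAt σ' q) :
    σ⁻¹ * σ' ∈ A.inertiaSubgroupIn K := by
  rw [mem_inertiaSubgroupIn_iff]
  have h1 := hσ.mem_decompositionSubgroup
  have h2 := hσ'.mem_decompositionSubgroup
  refine ⟨mul_mem (inv_mem h1) h2, fun x => ?_⟩
  have e : (⟨σ⁻¹ * σ', mul_mem (inv_mem h1) h2⟩ : A.decompositionSubgroup K) =
      (⟨σ, h1⟩ : A.decompositionSubgroup K)⁻¹ * ⟨σ', h2⟩ := rfl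
  rw [e, mul_smul, hσ'.smul_residue_eq, ← hσ.smul_residue_eq, inv_smul_smul]

variable (N p : ℕ) (J : Type) [AddCommGroup J] [Module HeckeAlg J]
  [DistribMulAction (L ≃ₐ[K] L) J] [SMulCommClass (L ≃ₐ[K] L) HeckeAlg J]

/-- The generators of the minimal kernel. -/
def gens (A : ValuationSubring L) (ℓ : ℕ) (hℓ : ℓ.Prime) (σ : L ≃ₐ[K] L) : Set J :=
  {g | (∃ τ ∈ A.inertiaSubgroupIn K, ∃ x : J, g = τ • x - x) ∨
    ∃ x : J, g = σ • σ • x - heckeGen ⟨ℓ, hℓ⟩ • (σ • x) + ℓ • x}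

variable {J}

theorem hecke_smul_mem_gens (A : ValuationSubring L) (ℓ : ℕ) (hℓ : ℓ.Prime) (σ : L ≃ₐ[K] L)
    (t : HeckeAlg) {g : J} (hg : g ∈ gens J A ℓ hℓ σ) : t • g ∈ gens J A ℓ hℓ σ := by
  rcases hg with ⟨τ, hτ, x, rfl⟩ | ⟨x, rfl⟩
  · exact Or.inl ⟨τ, hτ, t • x, by rw [smul_sub, smul_comm τ t x]⟩
  · refine Or.inr ⟨t • x, ?_⟩
    rw [smul_add, smul_sub, smul_comm σ t x, smul_comm σ t (σ • x), smul_comm t (heckeGen ⟨ℓ, hℓ⟩),
      smul_comm t ℓ x]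

theorem frob_smul_mem_gens (A : ValuationSubring L) (ℓ : ℕ) (hℓ : ℓ.Prime) (σ : L ≃ₐ[K] L)
    (hσ : σ ∈ A.decompositionSubgroup K)
    {g : J} (hg : g ∈ gens J A ℓ hℓ σ) : σ • g ∈ gens J A ℓ hℓ σ := by
  rcases hg with ⟨τ, hτ, x, rfl⟩ | ⟨x, rfl⟩
  · refine Or.inl ⟨σ * τ * σ⁻¹, conj_mem_inertiaSubgroupIn A hσ hτ, σ • x, ?_⟩
    rw [smul_sub, mul_smul, mul_smul, inv_smul_smul]
  · refine Or.inr ⟨σ • x, ?_⟩
    rw [smul_add, smul_sub, smul_comm σ (heckeGen ⟨ℓ, hℓ⟩), smul_comm σ ℓ x]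

variable (J)

/-- The minimal kernel: the subgroup generated by `gens`, as a Hecke submodule. -/
def K0 (A : ValuationSubring L) (ℓ : ℕ) (hℓ : ℓ.Prime) (σ : L ≃ₐ[K] L) :
    Submodule HeckeAlg J where
  carrier := AddSubgroup.closure (gens J A ℓ hℓ σ)
  zero_mem' := AddSubgroup.zero_mem _
  add_mem' := AddSubgroup.add_mem _
  smul_mem' := by
    intro t x hx
    induction hx using AddSubgroup.closure_induction with
    | mem g hg => exact AddSubgroup.subset_closure (hecke_smul_mem_gens A ℓ hℓ σ t hg)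
    | zero => rw [smul_zero]; exact AddSubgroup.zero_mem _
    | add a b _ _ ha hb => rw [smul_add]; exact AddSubgroup.add_mem _ ha hb
    | neg a _ ha => rw [smul_neg]; exact AddSubgroup.neg_mem _ ha

variable {J}

theorem mem_K0 (A : ValuationSubring L) (ℓ : ℕ) (hℓ : ℓ.Prime) (σ : L ≃ₐ[K] L) (x : J) :
    x ∈ K0 J A ℓ hℓ σ ↔ x ∈ AddSubgroup.closure (gens J A ℓ hℓ σ) := Iff.rfl

theorem frob_smul_mem_K0 (A : ValuationSubring L) (ℓ : ℕ) (hℓ : ℓ.Prime) (σ : L ≃ₐ[K] L)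
    (hσ : σ ∈ A.decompositionSubgroup K) {x : J} (hx : x ∈ K0 J A ℓ hℓ σ) :
    σ • x ∈ K0 J A ℓ hℓ σ := by
  rw [mem_K0] at hx ⊢
  induction hx using AddSubgroup.closure_induction with
  | mem g hg => exact AddSubgroup.subset_closure (frob_smul_mem_gens A ℓ hℓ σ hσ hg)
  | zero => rw [smul_zero]; exact AddSubgroup.zero_mem _
  | add a b _ _ ha hb => rw [smul_add]; exact AddSubgroup.add_mem _ ha hb
  | neg a _ ha => rw [smul_neg]; exact AddSubgroup.neg_mem _ ha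

theorem K0_le (A : ValuationSubring L) (ℓ : ℕ) (hℓ : ℓ.Prime) (σ : L ≃ₐ[K] L)
    (Kred : AddSubgroup J)
    (h2 : ∀ τ ∈ A.inertiaSubgroupIn K, ∀ x : J, τ • x - x ∈ Kred)
    (h3 : ∀ x : J, σ • σ • x - heckeGen ⟨ℓ, hℓ⟩ • (σ • x) + ℓ • x ∈ Kred)
    {x : J} (hx : x ∈ K0 J A ℓ hℓ σ) : x ∈ Kred := by
  rw [mem_K0] at hx
  refine (AddSubgroup.closure_le Kred).mpr ?_ hx
  rintro g (⟨τ, hτ, x, rfl⟩ | ⟨x, rfl⟩)
  · exact h2 τ hτ x
  · exact h3 x

/-- The Frobenius as a Hecke-linear endomorphism. -/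
def frobLin (σ : L ≃ₐ[K] L) : J →ₗ[HeckeAlg] J :=
  DistribSMul.toLinearMap HeckeAlg J σ

@[simp] theorem frobLin_apply (σ : L ≃ₐ[K] L) (x : J) : frobLin σ x = σ • x := rfl

/-- **Abstract skeleton.**  The specialisation datum at one place from a subgroup `Kred`
with (R1), (R2), (R3). -/
theorem exists_specialization (A : ValuationSubring L) (ℓ : ℕ) (hℓ : ℓ.Prime)
    (σ : L ≃ₐ[K] L) (hσ : A.IsFrobeniusAt σ ℓ) (Kred : AddSubgroup J)
    (h1 : ∀ x ∈ Kred, (∃ n : ℕ, p ^ n • x = 0) → x = 0)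
    (h2 : ∀ τ ∈ A.inertiaSubgroupIn K, ∀ x : J, τ • x - x ∈ Kred)
    (h3 : ∀ x : J, σ • σ • x - heckeGen ⟨ℓ, hℓ⟩ • (σ • x) + ℓ • x ∈ Kred) :
    ∃ (J' : Type) (_ : AddCommGroup J') (_ : Module HeckeAlg J') (sp : J →+ J')
      (F : J' →+ J'),
      IsSpecialization (K := K) p J J' A ℓ sp F ∧ SpecialFibreRelation J' ℓ hℓ F := by
  have hdec := hσ.mem_decompositionSubgroup
  set M : Submodule HeckeAlg J := K0 J A ℓ hℓ σ with hM
  have hmap : M ≤ M.comap (frobLin σ) := fun x hx => frob_smul_mem_K0 A ℓ hℓ σ hdec hx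
  refine ⟨J ⧸ M, inferInstance, inferInstance, (M.mkQ : J →ₗ[HeckeAlg] J ⧸ M).toAddMonoidHom,
    (M.mapQ M (frobLin σ) hmap).toAddMonoidHom, ⟨?_, ?_, ?_, ?_⟩, ?_⟩
  · intro T x
    exact map_smul M.mkQ T x
  · intro τ hτ x
    show M.mkQ (τ • x) = M.mkQ x
    rw [← sub_eq_zero, ← map_sub, Submodule.mkQ_apply, Submodule.Quotient.mk_eq_zero]
    exact AddSubgroup.subset_closure (Or.inl ⟨τ, hτ, x, rfl⟩)
  · intro σ' hσ' x
    show M.mkQ (σ' • x) = M.mapQ M (frobLin σ) hmap (M.mkQ x)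
    rw [Submodule.mkQ_apply, Submodule.mkQ_apply, Submodule.mapQ_apply, frobLin_apply,
      ← sub_eq_zero, ← Submodule.Quotient.mk_sub, Submodule.Quotient.mk_eq_zero]
    have hτ := inv_mul_mem_inertiaSubgroupIn A hσ hσ'
    have hg : (σ⁻¹ * σ') • x - x ∈ M := AddSubgroup.subset_closure (Or.inl ⟨_, hτ, x, rfl⟩)
    have h := frob_smul_mem_K0 A ℓ hℓ σ hdec hg
    rwa [smul_sub, mul_smul, smul_inv_smul] at h
  · intro x hx hsp
    have hxM : x ∈ M := by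
      have : M.mkQ x = 0 := hsp
      rwa [Submodule.mkQ_apply, Submodule.Quotient.mk_eq_zero] at this
    exact h1 x (K0_le A ℓ hℓ σ Kred h2 h3 hxM) hx
  · intro y
    obtain ⟨x, rfl⟩ := Submodule.Quotient.mk_surjective M y
    show M.mapQ M (frobLin σ) hmap (M.mapQ M (frobLin σ) hmap (Submodule.Quotient.mk x)) -
      heckeGen ⟨ℓ, hℓ⟩ • M.mapQ M (frobLin σ) hmap (Submodule.Quotient.mk x) +
        ℓ • (Submodule.Quotient.mk x : J ⧸ M) = 0
    rw [Submodule.mapQ_apply, Submodule.mapQ_apply, frobLin_apply, frobLin_apply,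
      ← Submodule.Quotient.mk_smul, ← Submodule.Quotient.mk_sub, ← Submodule.Quotient.mk_smul,
      ← Submodule.Quotient.mk_add, Submodule.Quotient.mk_eq_zero]
    exact AddSubgroup.subset_closure (Or.inr ⟨x, rfl⟩)

end Abstract

/-! ### The brick and the reduction of S37 to it -/

/-- **The E7 brick.**  At every prime `ℓ ∤ N p` and every place `A` above `ℓ` there is a
"kernel of reduction" `Kred ≤ J₀(N)` and a Frobenius `σ` with
(R1) no `p`-power torsion in `Kred`; (R2) `(τ - 1) J ⊆ Kred` for inertia `τ`;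
(R3) `(σ² - T_ℓ σ + ℓ) J ⊆ Kred`.  Stated with the Prelude operator `heckeOperatorBar`
(no module instance involved). -/
def KRed (N p : ℕ) [NeZero N] : Prop :=
  ∀ (ℓ : ℕ) (hℓ : ℓ.Prime), ¬ ℓ ∣ N * p →
    ∀ A : ValuationSubring (AlgebraicClosure ℚ), A.LiesOverPrime ℓ →
      ∃ (Kred : AddSubgroup (JZero N))
        (σ : AlgebraicClosure ℚ ≃ₐ[ℚ] AlgebraicClosure ℚ), A.IsFrobeniusAt σ ℓ ∧
        (∀ x ∈ Kred, (∃ n : ℕ, p ^ n • x = 0) → x = 0) ∧
        (∀ τ ∈ A.inertiaSubgroupIn ℚ, ∀ x : JZero N, τ • x - x ∈ Kred) ∧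
        (∀ x : JZero N, σ • σ • x - heckeOperatorBar N ⟨ℓ, hℓ⟩ (σ • x) + ℓ • x ∈ Kred)

/-- **S37 from the brick `KRed`.** -/
theorem result_of_kRed (N p : ℕ) [NeZero N] (hK : KRed N p)
    (hcomm : ModularCurve.HeckeOperatorsCommuteBar N) :
    letI := ModularCurve.heckeModuleBar N
    ∀ (_ : SMulCommClass (AlgebraicClosure ℚ ≃ₐ[ℚ] AlgebraicClosure ℚ) ModularCurve.HeckeAlg
      (ModularCurve.JZero N)),
      ModularCurve.SpecializationExists (K := ℚ) (L := AlgebraicClosure ℚ) N p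
        (ModularCurve.JZero N) := by
  letI := ModularCurve.heckeModuleBar N
  intro _ ℓ hℓ hℓNp A hA
  obtain ⟨Kred, σ, hσ, h1, h2, h3⟩ := hK ℓ hℓ hℓNp A hA
  refine exists_specialization p A ℓ hℓ σ hσ Kred h1 h2 fun x => ?_
  have e : heckeGen ⟨ℓ, hℓ⟩ • (σ • x) = heckeOperatorBar N ⟨ℓ, hℓ⟩ (σ • x) :=
    heckeModuleBar_heckeGen_smul hcomm ⟨ℓ, hℓ⟩ (σ • x)
  rw [e]
  exact h3 x

end Fermat.Agent.S37.Skeleton
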